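/-
helper14 (P-CFT, S14 fast track).  Ideal-theoretic class field theory for everywhere
unramified Galois extensions of prime degree.  This file contains ONLY definitions and the
statements (as `Prop`-valued definitions) of the work packages; see board key `S14_FAST`.

Target of the whole sub-track: `Fermat.Agent.Lib.CFT.S14.ArtinUnramifiedCyclic p`
(file `Fermat/Agent/Lib/CFT/S14/Interface.lean`).
-/
import Mathlib

set_option autoImplicit false

namespace Fermat.Agent.Lib.CFT.Unram

open NumberField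
open scoped nonZeroDivisors

section Basic

variable (K L : Type*) [Field K] [NumberField K] [Field L] [NumberField L] [Algebra K L]

/-- `L/K` is unramified at every nonzero prime of `𝓞 L` (all inertia groups are trivial). -/
def IsUnramifiedEverywhere : Prop :=
  ∀ P : Ideal (𝓞 L), P.IsPrime → P ≠ ⊥ → Ideal.inertia Gal(L/K) P = ⊥

/-- The relative norm as a monoid homomorphism on nonzero ideals. -/
noncomputable def relNorm0 : (Ideal (𝓞 L))⁰ →* (Ideal (𝓞 K))⁰ where
  toFun 𝔄 := ⟨Ideal.relNorm (𝓞 K) (𝔄 : Ideal (𝓞 L)), by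
    rw [mem_nonZeroDivisors_iff_ne_zero, Ne, Ideal.zero_eq_bot, Ideal.relNorm_eq_bot_iff]
    exact nonZeroDivisors.coe_ne_zero 𝔄⟩
  map_one' := by
    ext1
    simp
  map_mul' 𝔄 𝔅 := by
    ext1
    simp

@[simp] lemma coe_relNorm0 (𝔄 : (Ideal (𝓞 L))⁰) :
    ((relNorm0 K L 𝔄 : (Ideal (𝓞 K))⁰) : Ideal (𝓞 K)) =
      Ideal.relNorm (𝓞 K) (𝔄 : Ideal (𝓞 L)) := rfl

/-- The subgroup of the class group of `K` generated by (hence, by finiteness, equal to the set
of) classes of norms of nonzero ideals of `L`.  Its index is `[I_K : P_K · N(I_L)]`. -/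
noncomputable def normClasses : Subgroup (ClassGroup (𝓞 K)) :=
  Subgroup.closure (Set.range fun 𝔄 : (Ideal (𝓞 L))⁰ => ClassGroup.mk0 (relNorm0 K L 𝔄))

/-- `φ` is an Artin map for `L/K`: a multiplicative map on nonzero ideals sending every nonzero
prime to an arithmetic Frobenius element at each prime above it. -/
def IsArtinMap [IsGalois K L] (φ : (Ideal (𝓞 K))⁰ →* Gal(L/K)) : Prop :=
  ∀ (𝔮 : (Ideal (𝓞 K))⁰) (P : Ideal (𝓞 L)), (𝔮 : Ideal (𝓞 K)).IsPrime → P.IsPrime →
    P.LiesOver (𝔮 : Ideal (𝓞 K)) → IsArithFrobAt (𝓞 K) (φ 𝔮) P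

end Basic

/-! ### Statements of the work packages (universe `Type`, as in the S14 interface) -/

/-- WP-A1: existence of the Artin map for abelian everywhere unramified extensions. -/
def ArtinMapExists : Prop :=
  ∀ (K L : Type) [Field K] [NumberField K] [Field L] [NumberField L] [Algebra K L]
    [IsGalois K L], (∀ σ τ : Gal(L/K), σ * τ = τ * σ) → IsUnramifiedEverywhere K L →
    ∃ φ : (Ideal (𝓞 K))⁰ →* Gal(L/K), IsArtinMap K L φ

/-- WP-A1: an Artin map kills norms. -/
def ArtinMapKillsNorms : Prop :=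
  ∀ (K L : Type) [Field K] [NumberField K] [Field L] [NumberField L] [Algebra K L]
    [IsGalois K L] (φ : (Ideal (𝓞 K))⁰ →* Gal(L/K)), IsArtinMap K L φ →
    IsUnramifiedEverywhere K L → ∀ 𝔄 : (Ideal (𝓞 L))⁰, φ (relNorm0 K L 𝔄) = 1

/-- WP-L: the lower bound `[I_K : P_K N(I_L)] ≥ p` (algebraic: Herbrand quotient of units). -/
def LowerBound (p : ℕ) : Prop :=
  ∀ (K L : Type) [Field K] [NumberField K] [Field L] [NumberField L] [Algebra K L]
    [IsGalois K L], IsTotallyComplex K → Module.finrank K L = p →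
    IsUnramifiedEverywhere K L → p ≤ (normClasses K L).index

/-- WP-U: the upper bound `[I_K : P_K N(I_L)] ≤ p` (analytic: class group `L`-series). -/
def UpperBound (p : ℕ) : Prop :=
  ∀ (K L : Type) [Field K] [NumberField K] [Field L] [NumberField L] [Algebra K L]
    [IsGalois K L], Module.finrank K L = p →
    IsUnramifiedEverywhere K L → (normClasses K L).index ≤ p

/-- WP-A6 (Artin's crossing): the kernel of the Artin map is contained in `P_K · N(I_L)`. -/
def KernelInNorms (p : ℕ) : Prop :=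
  ∀ (K L : Type) [Field K] [NumberField K] [Field L] [NumberField L] [Algebra K L]
    [IsGalois K L], IsTotallyComplex K → Module.finrank K L = p →
    IsUnramifiedEverywhere K L →
    ∀ φ : (Ideal (𝓞 K))⁰ →* Gal(L/K), IsArtinMap K L φ →
    ∀ 𝔞 : (Ideal (𝓞 K))⁰, φ 𝔞 = 1 → ClassGroup.mk0 𝔞 ∈ normClasses K L

/-- Final statement of the sub-track: Artin reciprocity for everywhere unramified extensions of
prime degree `p` of a totally complex number field: the Artin map exists, is trivial on principal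
ideals and is nontrivial on some prime. -/
def Reciprocity (p : ℕ) : Prop :=
  ∀ (K L : Type) [Field K] [NumberField K] [Field L] [NumberField L] [Algebra K L]
    [IsGalois K L], IsTotallyComplex K → Module.finrank K L = p →
    IsUnramifiedEverywhere K L →
    ∃ φ : (Ideal (𝓞 K))⁰ →* Gal(L/K), IsArtinMap K L φ ∧
      (∀ I : (Ideal (𝓞 K))⁰, Submodule.IsPrincipal (I : Ideal (𝓞 K)) → φ I = 1) ∧
      (∃ 𝔮 : (Ideal (𝓞 K))⁰, (𝔮 : Ideal (𝓞 K)).IsPrime ∧ φ 𝔮 ≠ 1)

end Fermat.Agent.Lib.CFT.Unram
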