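/-
helper14 (P-CFT, S14 fast track).  Interfaces for Artin's cyclotomic crossing
(consumed by `Unram/Crossing.lean`, produced by WP-A1, WP-A2/A3 (CYC) and WP-A5).
Only definitions.
-/
import Mathlib
import Fermat.Agent.Lib.CFT.Unram.Defs

set_option autoImplicit false

namespace Fermat.Agent.Lib.CFT.Unram

open NumberField
open scoped nonZeroDivisors

/-- The principal ideal generated by a nonzero integer, as a nonzero ideal. -/
noncomputable def span0 {K : Type*} [Field K] [NumberField K] (x : 𝓞 K) (hx : x ≠ 0) :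
    (Ideal (𝓞 K))⁰ :=
  ⟨Ideal.span {x}, mem_nonZeroDivisors_iff_ne_zero.mpr (by
    rwa [Ne, Ideal.zero_eq_bot, Ideal.span_singleton_eq_bot])⟩

@[simp] lemma coe_span0 {K : Type*} [Field K] [NumberField K] (x : 𝓞 K) (hx : x ≠ 0) :
    ((span0 x hx : (Ideal (𝓞 K))⁰) : Ideal (𝓞 K)) = Ideal.span {x} := rfl

/-! ### Statements produced by WP-A1 (Artin map) -/

/-- WP-A1: if the Artin map is trivial on a prime `𝔮` then `𝔮` is the norm of a prime of `L`. -/
def ArtinMapSplit : Prop :=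
  ∀ (K L : Type) [Field K] [NumberField K] [Field L] [NumberField L] [Algebra K L]
    [IsGalois K L] (φ : (Ideal (𝓞 K))⁰ →* Gal(L/K)), IsArtinMap K L φ →
    IsUnramifiedEverywhere K L →
    ∀ 𝔮 : (Ideal (𝓞 K))⁰, (𝔮 : Ideal (𝓞 K)).IsPrime → φ 𝔮 = 1 →
      ∃ 𝔔 : (Ideal (𝓞 L))⁰, relNorm0 K L 𝔔 = 𝔮

/-- WP-A1 (base change of the Artin map): `K ⊆ L`, `K ⊆ F`, `E ⊇ L, F`, both `L/K` and `E/F`
Galois and everywhere unramified.  Then `φ_{E/F}(𝔡)` acts on `L` as `φ_{L/K}(N_{F/K} 𝔡)`. -/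
def ArtinMapBaseChange : Prop :=
  ∀ (K L F E : Type) [Field K] [NumberField K] [Field L] [NumberField L] [Field F]
    [NumberField F] [Field E] [NumberField E] [Algebra K L] [Algebra K F] [Algebra L E]
    [Algebra F E] [Algebra K E] [IsScalarTower K L E] [IsScalarTower K F E]
    [IsGalois K L] [IsGalois F E]
    (φ : (Ideal (𝓞 K))⁰ →* Gal(L/K)) (φ' : (Ideal (𝓞 F))⁰ →* Gal(E/F)),
    IsArtinMap K L φ → IsArtinMap F E φ' →
    IsUnramifiedEverywhere K L → IsUnramifiedEverywhere F E →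
    ∀ (𝔡 : (Ideal (𝓞 F))⁰) (x : L),
      φ' 𝔡 (algebraMap L E x) = algebraMap L E (φ (relNorm0 K F 𝔡) x)

/-- WP-A1 (base change of unramifiedness): if every `τ ∈ Gal(E/F)` fixing `L` pointwise is
trivial and `L/K` is everywhere unramified, then so is `E/F`. -/
def UnramifiedBaseChange : Prop :=
  ∀ (K L F E : Type) [Field K] [NumberField K] [Field L] [NumberField L] [Field F]
    [NumberField F] [Field E] [NumberField E] [Algebra K L] [Algebra K F] [Algebra L E]
    [Algebra F E] [Algebra K E] [IsScalarTower K L E] [IsScalarTower K F E]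
    [IsGalois K L] [IsGalois F E],
    (∀ τ : Gal(E/F), (∀ x : L, τ (algebraMap L E x) = algebraMap L E x) → τ = 1) →
    IsUnramifiedEverywhere K L → IsUnramifiedEverywhere F E

/-- WP-A3 (norm surjectivity modulo `m` for unramified extensions of prime degree): every
`x ∈ 𝓞 F` prime to `m` is, modulo `m`, the inverse of a norm from `𝓞 E`. -/
def NormSurjMod (p : ℕ) : Prop :=
  ∀ (F E : Type) [Field F] [NumberField F] [Field E] [NumberField E] [Algebra F E]
    [IsGalois F E], p.Prime → Module.finrank F E = p → IsUnramifiedEverywhere F E →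
    ∀ (m : ℕ) (_ : m ≠ 0) (x : 𝓞 F),
      IsCoprime (Ideal.span {x}) (Ideal.span {(m : 𝓞 F)}) →
      ∃ y : 𝓞 E, y ≠ 0 ∧
        Algebra.intNorm (𝓞 F) (𝓞 E) y * x - 1 ∈ Ideal.span {(m : 𝓞 F)}

/-- (CYC) Explicit reciprocity for an everywhere unramified extension `E/F` of prime degree
contained in the cyclotomic extension `M = F(ζ_m)`: principal ideals prime to `m` are in the
kernel of the Artin map.  (WP-A2 + WP-A3 + `ArtinMapKillsNorms`.) -/
def CycloReciprocity (p : ℕ) : Prop :=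
  ∀ (F E M : Type) [Field F] [NumberField F] [Field E] [NumberField E] [Field M]
    [NumberField M] [Algebra F E] [Algebra F M] [Algebra E M] [IsScalarTower F E M]
    [IsGalois F E] (m : ℕ) [NeZero m] [IsCyclotomicExtension {m} F M],
    IsTotallyComplex F → Module.finrank F E = p → IsUnramifiedEverywhere F E →
    ∀ φ : (Ideal (𝓞 F))⁰ →* Gal(E/F), IsArtinMap F E φ →
    ∀ (x : 𝓞 F) (hx : x ≠ 0), IsCoprime (Ideal.span {x}) (Ideal.span {(m : 𝓞 F)}) →
      φ (span0 x hx) = 1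

/-! ### The crossing data (WP-A5) -/

/-- An auxiliary extension for `L/K`: number fields `F ⊇ K` and `E ⊇ F, L` with `E/F` Galois of
degree `p` and such that the restriction `Gal(E/F) → Gal(L/K)` is injective (`E = L·F`). -/
structure AuxExt (K L : Type) [Field K] [NumberField K] [Field L] [NumberField L]
    [Algebra K L] (p : ℕ) where
  /-- the base field of the auxiliary extension -/
  F : Type
  /-- the top field `L·F` -/
  E : Type
  [instFieldF : Field F]
  [instNFF : NumberField F]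
  [instFieldE : Field E]
  [instNFE : NumberField E]
  [instAlgKF : Algebra K F]
  [instAlgFE : Algebra F E]
  [instAlgLE : Algebra L E]
  [instAlgKE : Algebra K E]
  [instTowerKFE : IsScalarTower K F E]
  [instTowerKLE : IsScalarTower K L E]
  [instGal : IsGalois F E]
  deg : Module.finrank F E = p
  res_inj : ∀ τ : Gal(E/F), (∀ x : L, τ (algebraMap L E x) = algebraMap L E x) → τ = 1

attribute [instance] AuxExt.instFieldF AuxExt.instNFF AuxExt.instFieldE AuxExt.instNFE
  AuxExt.instAlgKF AuxExt.instAlgFE AuxExt.instAlgLE AuxExt.instAlgKE AuxExt.instTowerKFE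
  AuxExt.instTowerKLE AuxExt.instGal

/-- The (CYC) property of an auxiliary extension with respect to an integer `m`: every Artin map
of `E/F` is trivial on principal ideals prime to `m`. -/
def AuxExt.IsCyc {K L : Type} [Field K] [NumberField K] [Field L] [NumberField L]
    [Algebra K L] {p : ℕ} (A : AuxExt K L p) (m : ℕ) : Prop :=
  ∀ φ : (Ideal (𝓞 A.F))⁰ →* Gal(A.E/A.F), IsArtinMap A.F A.E φ →
    ∀ (x : 𝓞 A.F) (hx : x ≠ 0), IsCoprime (Ideal.span {x}) (Ideal.span {(m : 𝓞 A.F)}) →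
      φ (span0 x hx) = 1

/-- Crossing data for two primes `𝔭₁, 𝔭₂` of `K`: auxiliary extensions `A₁, A₂` (in which `𝔭₁`,
resp. `𝔭₂`, has a prime `𝔮ᵢ` of relative norm `𝔭ᵢ`, and which satisfy (CYC) for `m`), and a
common auxiliary extension `A` whose base field contains those of `A₁` and `A₂`. -/
structure CrossingData (K L : Type) [Field K] [NumberField K] [Field L] [NumberField L]
    [Algebra K L] (p : ℕ) (𝔭₁ 𝔭₂ : (Ideal (𝓞 K))⁰) where
  /-- the auxiliary extension attached to `𝔭₁` -/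
  A₁ : AuxExt K L p
  /-- the auxiliary extension attached to `𝔭₂` -/
  A₂ : AuxExt K L p
  /-- the common auxiliary extension -/
  A : AuxExt K L p
  /-- the conductor of the auxiliary cyclotomic field -/
  m : ℕ
  hm : m ≠ 0
  [alg₁ : Algebra A₁.F A.F]
  [tower₁ : IsScalarTower K A₁.F A.F]
  [alg₂ : Algebra A₂.F A.F]
  [tower₂ : IsScalarTower K A₂.F A.F]
  cyc₁ : A₁.IsCyc m
  cyc₂ : A₂.IsCyc m
  /-- a prime of `A₁.F` of relative norm `𝔭₁` -/
  𝔮₁ : (Ideal (𝓞 A₁.F))⁰
  norm₁ : relNorm0 K A₁.F 𝔮₁ = 𝔭₁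
  cop₁ : IsCoprime (𝔮₁ : Ideal (𝓞 A₁.F)) (Ideal.span {(m : 𝓞 A₁.F)})
  /-- a prime of `A₂.F` of relative norm `𝔭₂` -/
  𝔮₂ : (Ideal (𝓞 A₂.F))⁰
  norm₂ : relNorm0 K A₂.F 𝔮₂ = 𝔭₂
  cop₂ : IsCoprime (𝔮₂ : Ideal (𝓞 A₂.F)) (Ideal.span {(m : 𝓞 A₂.F)})

attribute [instance] CrossingData.alg₁ CrossingData.tower₁ CrossingData.alg₂
  CrossingData.tower₂

/-- WP-A5: crossing data exist for every pair of nonzero primes. -/
def CrossingDataExists (p : ℕ) : Prop :=
  ∀ (K L : Type) [Field K] [NumberField K] [Field L] [NumberField L] [Algebra K L]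
    [IsGalois K L], IsTotallyComplex K → Module.finrank K L = p →
    IsUnramifiedEverywhere K L →
    ∀ 𝔭₁ 𝔭₂ : (Ideal (𝓞 K))⁰, (𝔭₁ : Ideal (𝓞 K)).IsPrime → (𝔭₂ : Ideal (𝓞 K)).IsPrime →
      Nonempty (CrossingData K L p 𝔭₁ 𝔭₂)

end Fermat.Agent.Lib.CFT.Unram
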