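/-
helper45 (P-CFT, S14 fast track, WP-A1).  The Artin map of an abelian extension of number fields
which is unramified everywhere: existence, triviality on norms, characterisation of the primes
with trivial Frobenius, functoriality (restriction / base change), base change of
`IsUnramifiedEverywhere`.
-/
import Mathlib
import Fermat.Agent.Lib.CFT.Unram.Defs
import Fermat.Agent.Lib.CFT.Unram.CrossingDefs

set_option autoImplicit false
set_option linter.unusedSectionVars false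

namespace Fermat.Agent.Lib.CFT.Unram

open NumberField
open scoped nonZeroDivisors Pointwise

/-! ### Monoid homomorphisms on the nonzero ideals of a Dedekind domain -/

section IdealMonoid

variable {R : Type*} [CommRing R] [IsDedekindDomain R]

/-- Two monoid homomorphisms on the nonzero ideals of a Dedekind domain which agree on the
nonzero primes are equal. -/
theorem ArtinMap.monoidHom_ext_of_prime {M : Type*} [Monoid M] (φ ψ : (Ideal R)⁰ →* M)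
    (h : ∀ 𝔮 : (Ideal R)⁰, (𝔮 : Ideal R).IsPrime → φ 𝔮 = ψ 𝔮) : φ = ψ := by
  ext ⟨I, hI⟩
  revert hI
  induction I using UniqueFactorizationMonoid.induction_on_prime with
  | h₁ =>
    intro hI
    exact absurd rfl (nonZeroDivisors.ne_zero hI)
  | h₂ x hx =>
    intro hI
    have hx1 : x = 1 := by
      rw [Ideal.one_eq_top]
      exact Ideal.isUnit_iff.mp hx
    subst hx1
    have : (⟨1, hI⟩ : (Ideal R)⁰) = 1 := rfl
    rw [this, map_one, map_one]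
  | h₃ a p ha hp ih =>
    intro hI
    have hp0 : p ∈ (Ideal R)⁰ := mem_nonZeroDivisors_of_ne_zero hp.ne_zero
    have ha0 : a ∈ (Ideal R)⁰ := mem_nonZeroDivisors_of_ne_zero ha
    have : (⟨p * a, hI⟩ : (Ideal R)⁰) = ⟨p, hp0⟩ * ⟨a, ha0⟩ := rfl
    rw [this, map_mul, map_mul, ih ha0, h ⟨p, hp0⟩ (Ideal.isPrime_of_prime hp)]

/-- A monoid homomorphism on the nonzero ideals which is trivial on primes is trivial. -/
theorem ArtinMap.monoidHom_eq_one_of_prime {M : Type*} [Monoid M] (φ : (Ideal R)⁰ →* M)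
    (h : ∀ 𝔮 : (Ideal R)⁰, (𝔮 : Ideal R).IsPrime → φ 𝔮 = 1) (I : (Ideal R)⁰) : φ I = 1 := by
  rw [ArtinMap.monoidHom_ext_of_prime φ 1 (fun 𝔮 h𝔮 => by rw [h 𝔮 h𝔮]; rfl)]
  rfl

/-- There is a monoid homomorphism on the nonzero ideals with prescribed values on primes
(commutative target). -/
theorem ArtinMap.exists_monoidHom_of_prime {M : Type*} [CommMonoid M] (f : Ideal R → M) :
    ∃ φ : (Ideal R)⁰ →* M, ∀ 𝔮 : (Ideal R)⁰, (𝔮 : Ideal R).IsPrime → φ 𝔮 = f 𝔮 := by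
  classical
  refine ⟨{ toFun := fun I =>
              ((UniqueFactorizationMonoid.normalizedFactors (I : Ideal R)).map f).prod
            map_one' := ?_
            map_mul' := ?_ }, ?_⟩
  · show ((UniqueFactorizationMonoid.normalizedFactors (1 : Ideal R)).map f).prod = 1
    rw [UniqueFactorizationMonoid.normalizedFactors_one, Multiset.map_zero, Multiset.prod_zero]
  · intro I J
    simp only [Submonoid.coe_mul]
    rw [UniqueFactorizationMonoid.normalizedFactors_mul (nonZeroDivisors.coe_ne_zero I)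
      (nonZeroDivisors.coe_ne_zero J), Multiset.map_add, Multiset.prod_add]
  · intro 𝔮 h𝔮
    have hp : Prime (𝔮 : Ideal R) :=
      (Ideal.prime_iff_isPrime (nonZeroDivisors.coe_ne_zero 𝔮)).mpr h𝔮
    simp only [MonoidHom.coe_mk, OneHom.coe_mk]
    rw [UniqueFactorizationMonoid.normalizedFactors_irreducible hp.irreducible, normalize_eq]
    simp

end IdealMonoid

/-! ### Basic facts on primes of rings of integers -/

section Basic

variable (K L : Type*) [Field K] [NumberField K] [Field L] [NumberField L] [Algebra K L]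

/-- Nonzero primes of a ring of integers have finite residue fields. -/
theorem ArtinMap.finite_quotient (P : Ideal (𝓞 L)) (hP : P ≠ ⊥) : Finite (𝓞 L ⧸ P) :=
  Ideal.finiteQuotientOfFreeOfNeBot P hP

/-- A nonzero ideal lies over a nonzero ideal. -/
theorem ArtinMap.ne_bot_of_liesOver (P : Ideal (𝓞 L)) (𝔮 : Ideal (𝓞 K)) [P.LiesOver 𝔮]
    (h𝔮 : 𝔮 ≠ ⊥) : P ≠ ⊥ := by
  rintro rfl
  apply h𝔮
  rw [Ideal.LiesOver.over (P := (⊥ : Ideal (𝓞 L))) (p := 𝔮)]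
  exact Ideal.under_bot _ _

variable {K L}

/-- The prime of `L` below a nonzero prime of `E` is nonzero. -/
theorem ArtinMap.under_ne_bot {P : Ideal (𝓞 L)} (hP : P ≠ ⊥) : P.under (𝓞 K) ≠ ⊥ := by
  intro h0
  apply hP
  have : P.LiesOver (⊥ : Ideal (𝓞 K)) := ⟨h0.symm⟩
  exact Ideal.eq_bot_of_liesOver_bot (𝓞 K) P

/-- The cardinality of the residue field upstairs. -/
theorem ArtinMap.natCard_quotient (P : Ideal (𝓞 L)) (𝔮 : Ideal (𝓞 K)) [P.IsPrime] [𝔮.IsPrime]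
    [P.LiesOver 𝔮] (h𝔮 : 𝔮 ≠ ⊥) :
    Nat.card (𝓞 L ⧸ P) = Nat.card (𝓞 K ⧸ 𝔮) ^ P.inertiaDeg (𝓞 K) := by
  have hP0 : P ≠ ⊥ := ArtinMap.ne_bot_of_liesOver K L P 𝔮 h𝔮
  have h𝔮m : 𝔮.IsMaximal := Ideal.IsPrime.isMaximal inferInstance h𝔮
  have hPm : P.IsMaximal := Ideal.IsPrime.isMaximal inferInstance hP0
  let _ : Field (𝓞 K ⧸ 𝔮) := Ideal.Quotient.field 𝔮
  rw [Ideal.inertiaDeg_eq_of_isMaximal 𝔮 P]
  exact Module.natCard_eq_pow_finrank (K := 𝓞 K ⧸ 𝔮)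

end Basic

/-! ### Frobenius elements in `Gal(L/K)` -/

section Frob

variable (K L : Type*) [Field K] [NumberField K] [Field L] [NumberField L] [Algebra K L]
  [IsGalois K L]

/-- Existence of a Frobenius element at a nonzero prime. -/
theorem ArtinMap.exists_frob (P : Ideal (𝓞 L)) [P.IsPrime] (hP : P ≠ ⊥) :
    ∃ σ : Gal(L/K), IsArithFrobAt (𝓞 K) σ P := by
  have := ArtinMap.finite_quotient L P hP
  exact IsArithFrobAt.exists_of_isInvariant (𝓞 K) Gal(L/K) P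

variable {K L}

/-- Uniqueness of the Frobenius element at a prime with trivial inertia group. -/
theorem ArtinMap.frob_unique {P : Ideal (𝓞 L)} (hI : Ideal.inertia Gal(L/K) P = ⊥)
    {σ σ' : Gal(L/K)} (h : IsArithFrobAt (𝓞 K) σ P) (h' : IsArithFrobAt (𝓞 K) σ' P) :
    σ = σ' := by
  have := h.mul_inv_mem_inertia h'
  rw [hI, Subgroup.mem_bot] at this
  exact mul_inv_eq_one.mp this

/-- In an abelian extension, a Frobenius at one prime above `𝔮` is a Frobenius at every prime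
above `𝔮`. -/
theorem ArtinMap.frob_of_comm (hcomm : ∀ σ τ : Gal(L/K), σ * τ = τ * σ)
    {P P' : Ideal (𝓞 L)} [P.IsPrime] [P'.IsPrime] (hPP' : P.under (𝓞 K) = P'.under (𝓞 K))
    {σ : Gal(L/K)} (h : IsArithFrobAt (𝓞 K) σ P) : IsArithFrobAt (𝓞 K) σ P' := by
  obtain ⟨τ, rfl⟩ := Algebra.IsInvariant.exists_smul_of_under_eq (𝓞 K) (𝓞 L) Gal(L/K) P P' hPP'
  have := h.conj τ
  rwa [hcomm τ σ, mul_assoc, mul_inv_cancel, mul_one] at this

/-- In an abelian extension, every nonzero prime `𝔮` of `K` has a Frobenius element valid at all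
primes above it. -/
theorem ArtinMap.exists_frob_of_comm (hcomm : ∀ σ τ : Gal(L/K), σ * τ = τ * σ)
    (𝔮 : Ideal (𝓞 K)) [𝔮.IsPrime] (h𝔮 : 𝔮 ≠ ⊥) :
    ∃ σ : Gal(L/K), ∀ P : Ideal (𝓞 L), P.IsPrime → P.LiesOver 𝔮 → IsArithFrobAt (𝓞 K) σ P := by
  obtain ⟨⟨P₀, hP₀, hP₀𝔮⟩⟩ := Ideal.nonempty_primesOver (S := 𝓞 L) 𝔮
  have hP₀0 : P₀ ≠ ⊥ := ArtinMap.ne_bot_of_liesOver K L P₀ 𝔮 h𝔮
  obtain ⟨σ, hσ⟩ := ArtinMap.exists_frob K L P₀ hP₀0
  refine ⟨σ, fun P hP hP𝔮 => ?_⟩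
  refine ArtinMap.frob_of_comm hcomm ?_ hσ
  rw [← hP₀𝔮.over, ← hP𝔮.over]

end Frob

/-! ### Existence of the Artin map (WP-A1) -/

theorem artinMapExists : ArtinMapExists := by
  intro K L _ _ _ _ _ _ hcomm _
  classical
  let _ : CommGroup Gal(L/K) := { (inferInstance : Group Gal(L/K)) with mul_comm := hcomm }
  have hex : ∀ 𝔮 : Ideal (𝓞 K), ∃ σ : Gal(L/K), 𝔮.IsPrime → 𝔮 ≠ ⊥ →
      ∀ P : Ideal (𝓞 L), P.IsPrime → P.LiesOver 𝔮 → IsArithFrobAt (𝓞 K) σ P := by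
    intro 𝔮
    by_cases h : 𝔮.IsPrime ∧ 𝔮 ≠ ⊥
    · obtain ⟨h1, h2⟩ := h
      obtain ⟨σ, hσ⟩ := ArtinMap.exists_frob_of_comm hcomm 𝔮 h2
      exact ⟨σ, fun _ _ => hσ⟩
    · exact ⟨1, fun h1 h2 => absurd ⟨h1, h2⟩ h⟩
  choose f hf using hex
  obtain ⟨φ, hφ⟩ := ArtinMap.exists_monoidHom_of_prime f
  refine ⟨φ, ?_⟩
  intro 𝔮 P h𝔮 hP hP𝔮
  rw [hφ 𝔮 h𝔮]
  exact hf 𝔮 h𝔮 (nonZeroDivisors.coe_ne_zero 𝔮) P hP hP𝔮


/-! ### Powers of Frobenius elements and the norm -/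

section FrobPow

variable {K L : Type*} [Field K] [NumberField K] [Field L] [NumberField L] [Algebra K L]
  [IsGalois K L]

/-- Iterating a Frobenius element. -/
theorem ArtinMap.frob_pow {P : Ideal (𝓞 L)} {σ : Gal(L/K)} (h : IsArithFrobAt (𝓞 K) σ P)
    (n : ℕ) (x : 𝓞 L) :
    Ideal.Quotient.mk P ((σ ^ n) • x) =
      (Ideal.Quotient.mk P x) ^ (Nat.card (𝓞 K ⧸ P.under (𝓞 K)) ^ n) := by
  induction n generalizing x with
  | zero => simp
  | succ n ih =>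
    rw [pow_succ, mul_smul, ih (σ • x)]
    have h1 : Ideal.Quotient.mk P (σ • x) =
        (Ideal.Quotient.mk P x) ^ Nat.card (𝓞 K ⧸ P.under (𝓞 K)) := by
      exact h.mk_apply x
    rw [h1, ← pow_mul, pow_succ, mul_comm]

/-- The `f`-th power of a Frobenius at `P` lies in the inertia group of `P`, where `f` is the
inertia degree. -/
theorem ArtinMap.frob_pow_inertiaDeg_mem {P : Ideal (𝓞 L)} [P.IsPrime] (hP : P ≠ ⊥)
    {σ : Gal(L/K)} (h : IsArithFrobAt (𝓞 K) σ P) :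
    σ ^ P.inertiaDeg (𝓞 K) ∈ Ideal.inertia Gal(L/K) P := by
  have h𝔮0 : P.under (𝓞 K) ≠ ⊥ := by
    intro h0
    apply hP
    have : P.LiesOver (⊥ : Ideal (𝓞 K)) := ⟨h0.symm⟩
    exact Ideal.eq_bot_of_liesOver_bot (𝓞 K) P
  have hPm : P.IsMaximal := Ideal.IsPrime.isMaximal inferInstance hP
  have hfin : Finite (𝓞 L ⧸ P) := ArtinMap.finite_quotient L P hP
  let _ : Field (𝓞 L ⧸ P) := Ideal.Quotient.field P
  let _ : Fintype (𝓞 L ⧸ P) := Fintype.ofFinite _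
  intro x
  show σ ^ P.inertiaDeg (𝓞 K) • x - x ∈ P
  rw [← Ideal.Quotient.eq, ArtinMap.frob_pow h,
    ← ArtinMap.natCard_quotient P (P.under (𝓞 K)) h𝔮0, Nat.card_eq_fintype_card,
    FiniteField.pow_card]

/-- If `P` has trivial inertia group then the `f`-th power of a Frobenius at `P` is trivial. -/
theorem ArtinMap.frob_pow_inertiaDeg {P : Ideal (𝓞 L)} [P.IsPrime] (hP : P ≠ ⊥)
    (hI : Ideal.inertia Gal(L/K) P = ⊥) {σ : Gal(L/K)} (h : IsArithFrobAt (𝓞 K) σ P) :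
    σ ^ P.inertiaDeg (𝓞 K) = 1 := by
  have := ArtinMap.frob_pow_inertiaDeg_mem hP h
  rwa [hI, Subgroup.mem_bot] at this

end FrobPow

/-! ### An Artin map kills norms (WP-A1) -/

theorem artinMapKillsNorms : ArtinMapKillsNorms := by
  intro K L _ _ _ _ _ _ φ hφ hunr
  refine ArtinMap.monoidHom_eq_one_of_prime (φ.comp (relNorm0 K L)) ?_
  intro P hP
  have hP0 : (P : Ideal (𝓞 L)) ≠ ⊥ := nonZeroDivisors.coe_ne_zero P
  set 𝔮 : Ideal (𝓞 K) := (P : Ideal (𝓞 L)).under (𝓞 K) with h𝔮def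
  have hlies : (P : Ideal (𝓞 L)).LiesOver 𝔮 := ⟨rfl⟩
  have h𝔮0 : 𝔮 ≠ ⊥ := by
    intro h0
    apply hP0
    have : (P : Ideal (𝓞 L)).LiesOver (⊥ : Ideal (𝓞 K)) := ⟨h0.symm⟩
    exact Ideal.eq_bot_of_liesOver_bot (𝓞 K) (P : Ideal (𝓞 L))
  have h𝔮p : 𝔮.IsPrime := Ideal.IsPrime.under (𝓞 K) (P : Ideal (𝓞 L))
  have h𝔮m : 𝔮.IsMaximal := Ideal.IsPrime.isMaximal h𝔮p h𝔮0
  have hPm : (P : Ideal (𝓞 L)).IsMaximal := Ideal.IsPrime.isMaximal hP hP0
  have h𝔮mem : 𝔮 ∈ (Ideal (𝓞 K))⁰ := mem_nonZeroDivisors_of_ne_zero h𝔮0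
  have hnorm : relNorm0 K L P = (⟨𝔮, h𝔮mem⟩ : (Ideal (𝓞 K))⁰) ^
      (P : Ideal (𝓞 L)).inertiaDeg (𝓞 K) := by
    ext1
    rw [coe_relNorm0, SubmonoidClass.coe_pow]
    exact Ideal.relNorm_eq_pow_of_isMaximal (P : Ideal (𝓞 L)) 𝔮
  rw [MonoidHom.comp_apply, hnorm, map_pow]
  exact ArtinMap.frob_pow_inertiaDeg hP0 (hunr P hP hP0) (hφ ⟨𝔮, h𝔮mem⟩ P h𝔮p hP hlies)

/-! ### Primes with trivial Frobenius -/

section Split

variable {K L : Type*} [Field K] [NumberField K] [Field L] [NumberField L] [Algebra K L]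
  [IsGalois K L]

/-- If `x ^ q = x` for all elements of a finite field, then the field has at most `q` elements. -/
theorem ArtinMap.natCard_le_of_pow_eq {k : Type*} [Field k] [Finite k] {q : ℕ} (hq : 1 < q)
    (h : ∀ x : k, x ^ q = x) : Nat.card k ≤ q := by
  classical
  let _ : Fintype k := Fintype.ofFinite k
  have hne : (Polynomial.X ^ q - Polynomial.X : Polynomial k) ≠ 0 :=
    FiniteField.X_pow_card_sub_X_ne_zero k hq
  have hsub : (Finset.univ : Finset k).val ⊆ (Polynomial.X ^ q - Polynomial.X : Polynomial k).roots := by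
    intro x _
    rw [Polynomial.mem_roots hne]
    simp [h x]
  have := Polynomial.card_le_degree_of_subset_roots hsub
  rw [FiniteField.X_pow_card_sub_X_natDegree_eq k hq] at this
  rwa [Nat.card_eq_fintype_card, ← Finset.card_univ]

/-- If the trivial automorphism is a Frobenius at `P` then `P` has inertia degree one. -/
theorem ArtinMap.inertiaDeg_eq_one_of_frob_one {P : Ideal (𝓞 L)} [P.IsPrime] (hP : P ≠ ⊥)
    (h : IsArithFrobAt (𝓞 K) (1 : Gal(L/K)) P) : P.inertiaDeg (𝓞 K) = 1 := by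
  set 𝔮 : Ideal (𝓞 K) := P.under (𝓞 K) with h𝔮def
  have hlies : P.LiesOver 𝔮 := ⟨rfl⟩
  have h𝔮0 : 𝔮 ≠ ⊥ := by
    intro h0
    apply hP
    have : P.LiesOver (⊥ : Ideal (𝓞 K)) := ⟨h0.symm⟩
    exact Ideal.eq_bot_of_liesOver_bot (𝓞 K) P
  have h𝔮p : 𝔮.IsPrime := Ideal.IsPrime.under (𝓞 K) P
  have hPm : P.IsMaximal := Ideal.IsPrime.isMaximal inferInstance hP
  have hfinL : Finite (𝓞 L ⧸ P) := ArtinMap.finite_quotient L P hP
  have hfinK : Finite (𝓞 K ⧸ 𝔮) := ArtinMap.finite_quotient K 𝔮 h𝔮0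
  have hntK : Nontrivial (𝓞 K ⧸ 𝔮) := Ideal.Quotient.nontrivial_iff.mpr h𝔮p.ne_top
  let _ : Field (𝓞 L ⧸ P) := Ideal.Quotient.field P
  have hq : 1 < Nat.card (𝓞 K ⧸ 𝔮) := Finite.one_lt_card
  have hpow : ∀ x : 𝓞 L ⧸ P, x ^ Nat.card (𝓞 K ⧸ 𝔮) = x := by
    intro x
    obtain ⟨x, rfl⟩ := Ideal.Quotient.mk_surjective x
    have := h.mk_apply x
    simpa using this.symm
  have hle := ArtinMap.natCard_le_of_pow_eq hq hpow
  rw [ArtinMap.natCard_quotient P 𝔮 h𝔮0] at hle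
  have hpos : 0 < P.inertiaDeg (𝓞 K) := Ideal.inertiaDeg_pos P (𝓞 K)
  by_contra hne
  have h2 : 2 ≤ P.inertiaDeg (𝓞 K) := by omega
  have : Nat.card (𝓞 K ⧸ 𝔮) ^ 2 ≤ Nat.card (𝓞 K ⧸ 𝔮) ^ P.inertiaDeg (𝓞 K) :=
    Nat.pow_le_pow_right (by omega) h2
  nlinarith

/-- If `P` has inertia degree one then the trivial automorphism is a Frobenius at `P`. -/
theorem ArtinMap.frob_one_of_inertiaDeg_eq_one {P : Ideal (𝓞 L)} [P.IsPrime] (hP : P ≠ ⊥)
    (h : P.inertiaDeg (𝓞 K) = 1) : IsArithFrobAt (𝓞 K) (1 : Gal(L/K)) P := by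
  set 𝔮 : Ideal (𝓞 K) := P.under (𝓞 K) with h𝔮def
  have hlies : P.LiesOver 𝔮 := ⟨rfl⟩
  have h𝔮0 : 𝔮 ≠ ⊥ := by
    intro h0
    apply hP
    have : P.LiesOver (⊥ : Ideal (𝓞 K)) := ⟨h0.symm⟩
    exact Ideal.eq_bot_of_liesOver_bot (𝓞 K) P
  have h𝔮p : 𝔮.IsPrime := Ideal.IsPrime.under (𝓞 K) P
  have hPm : P.IsMaximal := Ideal.IsPrime.isMaximal inferInstance hP
  have hfinL : Finite (𝓞 L ⧸ P) := ArtinMap.finite_quotient L P hP
  let _ : Field (𝓞 L ⧸ P) := Ideal.Quotient.field P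
  let _ : Fintype (𝓞 L ⧸ P) := Fintype.ofFinite _
  have hcard := ArtinMap.natCard_quotient P 𝔮 h𝔮0
  rw [h, pow_one] at hcard
  intro x
  rw [← Ideal.Quotient.eq, map_pow, ← hcard, Nat.card_eq_fintype_card, FiniteField.pow_card]
  simp

end Split

/-- WP-A1: a prime in the kernel of the Artin map is the norm of a prime. -/
theorem artinMapSplit : ArtinMapSplit := by
  intro K L _ _ _ _ _ _ φ hφ _ 𝔮 h𝔮 hφ𝔮
  have h𝔮0 : (𝔮 : Ideal (𝓞 K)) ≠ ⊥ := nonZeroDivisors.coe_ne_zero 𝔮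
  obtain ⟨⟨P, hP, hP𝔮⟩⟩ := Ideal.nonempty_primesOver (S := 𝓞 L) (𝔮 : Ideal (𝓞 K))
  have hP0 : P ≠ ⊥ := ArtinMap.ne_bot_of_liesOver K L P 𝔮 h𝔮0
  have hfrob : IsArithFrobAt (𝓞 K) (1 : Gal(L/K)) P := hφ𝔮 ▸ hφ 𝔮 P h𝔮 hP hP𝔮
  have hf := ArtinMap.inertiaDeg_eq_one_of_frob_one hP0 hfrob
  have h𝔮m : (𝔮 : Ideal (𝓞 K)).IsMaximal := Ideal.IsPrime.isMaximal h𝔮 h𝔮0
  have hPm : P.IsMaximal := Ideal.IsPrime.isMaximal hP hP0
  refine ⟨⟨P, mem_nonZeroDivisors_of_ne_zero hP0⟩, ?_⟩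
  ext1
  rw [coe_relNorm0]
  show Ideal.relNorm (𝓞 K) P = 𝔮
  rw [Ideal.relNorm_eq_pow_of_isMaximal P (𝔮 : Ideal (𝓞 K)), hf, pow_one]

/-! ### Functoriality: restriction and base change -/

section BaseChange

variable {K L F E : Type*} [Field K] [NumberField K] [Field L] [NumberField L] [Field F]
  [NumberField F] [Field E] [NumberField E] [Algebra K L] [Algebra K F] [Algebra L E]
  [Algebra F E] [Algebra K E] [IsScalarTower K L E] [IsScalarTower K F E]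
  [IsGalois K L] [IsGalois F E]

variable (K L F E) in
/-- The restriction homomorphism `Gal(E/F) → Gal(L/K)` for `K ⊆ L ⊆ E`, `K ⊆ F ⊆ E`. -/
noncomputable def ArtinMap.resHom : Gal(E/F) →* Gal(L/K) :=
  (AlgEquiv.restrictNormalHom L).comp (AlgEquiv.restrictScalarsHom K)

theorem ArtinMap.resHom_commutes (τ : Gal(E/F)) (x : L) :
    algebraMap L E (ArtinMap.resHom K L F E τ x) = τ (algebraMap L E x) :=
  AlgEquiv.restrictNormal_commutes (AlgEquiv.restrictScalars K τ) L x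

/-- Compatibility of the restriction with the actions on the rings of integers. -/
theorem ArtinMap.resHom_smul (τ : Gal(E/F)) (x : 𝓞 L) :
    algebraMap (𝓞 L) (𝓞 E) (ArtinMap.resHom K L F E τ • x) = τ • algebraMap (𝓞 L) (𝓞 E) x := by
  apply RingOfIntegers.ext
  exact ArtinMap.resHom_commutes τ (x : L)

theorem ArtinMap.resHom_eq_one_iff (τ : Gal(E/F)) :
    ArtinMap.resHom K L F E τ = 1 ↔ ∀ x : L, τ (algebraMap L E x) = algebraMap L E x := by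
  constructor
  · intro h x
    rw [← ArtinMap.resHom_commutes (K := K) τ x, h]
    rfl
  · intro h
    ext x
    apply (algebraMap L E).injective
    rw [ArtinMap.resHom_commutes, h]
    rfl

/-- Restriction maps the inertia group of `P` into the inertia group of the prime below. -/
theorem ArtinMap.resHom_mem_inertia {P : Ideal (𝓞 E)} {τ : Gal(E/F)}
    (h : τ ∈ Ideal.inertia Gal(E/F) P) :
    ArtinMap.resHom K L F E τ ∈ Ideal.inertia Gal(L/K) (P.under (𝓞 L)) := by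
  intro x
  show ArtinMap.resHom K L F E τ • x - x ∈ P.under (𝓞 L)
  rw [Ideal.mem_comap, map_sub, ArtinMap.resHom_smul]
  exact h _

end BaseChange

/-- An Artin map of an everywhere unramified extension is trivial on a prime `𝔮` iff some
(equivalently every) prime above `𝔮` has inertia degree one. -/
theorem ArtinMap.eq_one_iff {K L : Type*} [Field K] [NumberField K] [Field L] [NumberField L]
    [Algebra K L] [IsGalois K L] {φ : (Ideal (𝓞 K))⁰ →* Gal(L/K)} (hφ : IsArtinMap K L φ)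
    (hunr : IsUnramifiedEverywhere K L) (𝔮 : (Ideal (𝓞 K))⁰) (h𝔮 : (𝔮 : Ideal (𝓞 K)).IsPrime)
    (P : Ideal (𝓞 L)) [hP : P.IsPrime] [hP𝔮 : P.LiesOver (𝔮 : Ideal (𝓞 K))] :
    φ 𝔮 = 1 ↔ P.inertiaDeg (𝓞 K) = 1 := by
  have hP0 : P ≠ ⊥ := ArtinMap.ne_bot_of_liesOver K L P 𝔮 (nonZeroDivisors.coe_ne_zero 𝔮)
  constructor
  · intro h
    exact ArtinMap.inertiaDeg_eq_one_of_frob_one hP0 (h ▸ hφ 𝔮 P h𝔮 hP hP𝔮)
  · intro h
    exact ArtinMap.frob_unique (hunr P hP hP0) (hφ 𝔮 P h𝔮 hP hP𝔮)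
      (ArtinMap.frob_one_of_inertiaDeg_eq_one hP0 h)

/-- Two Artin maps of an everywhere unramified extension coincide. -/
theorem ArtinMap.unique {K L : Type*} [Field K] [NumberField K] [Field L] [NumberField L]
    [Algebra K L] [IsGalois K L] {φ ψ : (Ideal (𝓞 K))⁰ →* Gal(L/K)} (hφ : IsArtinMap K L φ)
    (hψ : IsArtinMap K L ψ) (hunr : IsUnramifiedEverywhere K L) : φ = ψ := by
  apply ArtinMap.monoidHom_ext_of_prime
  intro 𝔮 h𝔮
  obtain ⟨⟨P, hP, hP𝔮⟩⟩ := Ideal.nonempty_primesOver (S := 𝓞 L) (𝔮 : Ideal (𝓞 K))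
  have hP0 : P ≠ ⊥ := ArtinMap.ne_bot_of_liesOver K L P 𝔮 (nonZeroDivisors.coe_ne_zero 𝔮)
  exact ArtinMap.frob_unique (hunr P hP hP0) (hφ 𝔮 P h𝔮 hP hP𝔮) (hψ 𝔮 P h𝔮 hP hP𝔮)

/-- WP-A1: base change of unramifiedness. -/
theorem unramifiedBaseChange : UnramifiedBaseChange := by
  intro K L F E _ _ _ _ _ _ _ _ _ _ _ _ _ _ _ _ _ hinj hunr P hP hP0
  rw [eq_bot_iff]
  intro τ hτ
  rw [Subgroup.mem_bot]
  apply hinj τ
  rw [← ArtinMap.resHom_eq_one_iff (K := K)]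
  have h1 := ArtinMap.resHom_mem_inertia (K := K) (L := L) hτ
  have hprime : (P.under (𝓞 L)).IsPrime := Ideal.IsPrime.under (𝓞 L) P
  rw [hunr _ hprime (ArtinMap.under_ne_bot hP0), Subgroup.mem_bot] at h1
  exact h1

/-- WP-A1: base change of the Artin map. -/
theorem artinMapBaseChange : ArtinMapBaseChange := by
  intro K L F E _ _ _ _ _ _ _ _ _ _ _ _ _ _ _ _ _ φ φ' hφ hφ' hunr _ 𝔡 x
  suffices hmain : (ArtinMap.resHom K L F E).comp φ' = φ.comp (relNorm0 K F) by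
    have := DFunLike.congr_fun hmain 𝔡
    simp only [MonoidHom.comp_apply] at this
    rw [← this, ArtinMap.resHom_commutes]
  apply ArtinMap.monoidHom_ext_of_prime
  intro 𝔯 h𝔯
  simp only [MonoidHom.comp_apply]
  have h𝔯0 : (𝔯 : Ideal (𝓞 F)) ≠ ⊥ := nonZeroDivisors.coe_ne_zero 𝔯
  -- the prime of `K` below `𝔯`
  set 𝔮 : Ideal (𝓞 K) := (𝔯 : Ideal (𝓞 F)).under (𝓞 K) with h𝔮def
  have h𝔯𝔮 : (𝔯 : Ideal (𝓞 F)).LiesOver 𝔮 := ⟨rfl⟩
  have h𝔮p : 𝔮.IsPrime := Ideal.IsPrime.under (𝓞 K) (𝔯 : Ideal (𝓞 F))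
  have h𝔮0 : 𝔮 ≠ ⊥ := ArtinMap.under_ne_bot h𝔯0
  have h𝔮m : 𝔮.IsMaximal := Ideal.IsPrime.isMaximal h𝔮p h𝔮0
  have h𝔯m : (𝔯 : Ideal (𝓞 F)).IsMaximal := Ideal.IsPrime.isMaximal h𝔯 h𝔯0
  have h𝔮mem : 𝔮 ∈ (Ideal (𝓞 K))⁰ := mem_nonZeroDivisors_of_ne_zero h𝔮0
  -- a prime of `E` above `𝔯` and the prime of `L` below it
  obtain ⟨⟨PE, hPE, hPE𝔯⟩⟩ := Ideal.nonempty_primesOver (S := 𝓞 E) (𝔯 : Ideal (𝓞 F))
  have hPE0 : PE ≠ ⊥ := ArtinMap.ne_bot_of_liesOver F E PE 𝔯 h𝔯0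
  set PL : Ideal (𝓞 L) := PE.under (𝓞 L) with hPLdef
  have hPLp : PL.IsPrime := Ideal.IsPrime.under (𝓞 L) PE
  have hPL0 : PL ≠ ⊥ := ArtinMap.under_ne_bot hPE0
  have hPL𝔮 : PL.LiesOver 𝔮 := by
    constructor
    rw [hPLdef, h𝔮def, Ideal.under_under, hPE𝔯.over, Ideal.under_under]
  -- the norm of `𝔯`
  have hnorm : relNorm0 K F 𝔯 = (⟨𝔮, h𝔮mem⟩ : (Ideal (𝓞 K))⁰) ^
      (𝔯 : Ideal (𝓞 F)).inertiaDeg (𝓞 K) := by
    ext1
    rw [coe_relNorm0, SubmonoidClass.coe_pow]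
    exact Ideal.relNorm_eq_pow_of_isMaximal (𝔯 : Ideal (𝓞 F)) 𝔮
  rw [hnorm, map_pow]
  set σ : Gal(L/K) := φ ⟨𝔮, h𝔮mem⟩ with hσdef
  set τ : Gal(E/F) := φ' 𝔯 with hτdef
  have hσ : IsArithFrobAt (𝓞 K) σ PL := hφ ⟨𝔮, h𝔮mem⟩ PL h𝔮p hPLp hPL𝔮
  have hτ : IsArithFrobAt (𝓞 F) τ PE := hφ' 𝔯 PE h𝔯 hPE hPE𝔯
  -- cardinalities
  have hcard : Nat.card (𝓞 F ⧸ PE.under (𝓞 F)) =
      Nat.card (𝓞 K ⧸ PL.under (𝓞 K)) ^ (𝔯 : Ideal (𝓞 F)).inertiaDeg (𝓞 K) := by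
    rw [← hPE𝔯.over, ← hPL𝔮.over]
    exact ArtinMap.natCard_quotient (𝔯 : Ideal (𝓞 F)) 𝔮 h𝔮0
  -- compare the two on `𝓞 L` modulo `PL`
  have hcmp : ∀ y : 𝓞 L, ArtinMap.resHom K L F E τ • y -
      (σ ^ (𝔯 : Ideal (𝓞 F)).inertiaDeg (𝓞 K)) • y ∈ PL := by
    intro y
    rw [← Ideal.Quotient.eq, ArtinMap.frob_pow hσ, ← hcard, ← map_pow, Ideal.Quotient.eq,
      hPLdef, Ideal.mem_comap, map_sub, ArtinMap.resHom_smul, map_pow]
    exact hτ _
  have hmem : ArtinMap.resHom K L F E τ * (σ ^ (𝔯 : Ideal (𝓞 F)).inertiaDeg (𝓞 K))⁻¹ ∈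
      Ideal.inertia Gal(L/K) PL := by
    intro y
    show (ArtinMap.resHom K L F E τ * (σ ^ (𝔯 : Ideal (𝓞 F)).inertiaDeg (𝓞 K))⁻¹) • y - y ∈ PL
    have := hcmp ((σ ^ (𝔯 : Ideal (𝓞 F)).inertiaDeg (𝓞 K))⁻¹ • y)
    rwa [smul_inv_smul, ← mul_smul] at this
  rw [hunr PL hPLp hPL0, Subgroup.mem_bot] at hmem
  exact mul_inv_eq_one.mp hmem

end Fermat.Agent.Lib.CFT.Unram
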