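/-
helper38 (P-CFT, S14 fast track, WP-U3).  Euler products over the nonzero prime ideals of a
Dedekind domain, and the specialisation to rings of integers of number fields.
-/
import Mathlib

set_option autoImplicit false
set_option linter.unusedSectionVars false

namespace Fermat.Agent.Lib.CFT.Unram.EulerProduct

open IsDedekindDomain Filter Topology

section General

variable {R : Type*} [CommRing R] [IsDedekindDomain R]
variable {F : Type*} [NormedField F] [CompleteSpace F]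

/-- The ideals not divisible by any prime of the finite set `S`. -/
def sieve (S : Finset (HeightOneSpectrum R)) : Set (Ideal R) :=
  {a | ∀ p ∈ S, ¬ p.asIdeal ∣ a}

theorem mem_sieve {S : Finset (HeightOneSpectrum R)} {a : Ideal R} :
    a ∈ sieve S ↔ ∀ p ∈ S, ¬ p.asIdeal ∣ a := Iff.rfl

theorem sieve_empty : sieve (∅ : Finset (HeightOneSpectrum R)) = Set.univ := by
  ext a
  simp [sieve]

theorem one_mem_sieve (S : Finset (HeightOneSpectrum R)) : (1 : Ideal R) ∈ sieve S := by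
  intro p _ h
  have h1 : (1 : Ideal R) ≤ p.asIdeal := Ideal.le_of_dvd h
  exact p.isPrime.ne_top (by rwa [Ideal.one_eq_top, top_le_iff] at h1)

theorem sieve_insert [DecidableEq (HeightOneSpectrum R)] (p : HeightOneSpectrum R)
    (S : Finset (HeightOneSpectrum R)) :
    sieve (insert p S) = sieve S ∩ {a | p.asIdeal ∣ a}ᶜ := by
  ext a
  simp only [sieve, Finset.mem_insert, forall_eq_or_imp, Set.mem_ofPred_eq, Set.mem_inter_iff,
    Set.mem_compl_iff]
  tauto

theorem mul_mem_sieve_iff {S : Finset (HeightOneSpectrum R)} {p : HeightOneSpectrum R}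
    (hp : p ∉ S) (b : Ideal R) : p.asIdeal * b ∈ sieve S ↔ b ∈ sieve S := by
  constructor
  · intro h q hq hqb
    exact h q hq (Dvd.dvd.mul_left hqb _)
  · intro h q hq hqb
    rcases (q.prime.dvd_or_dvd hqb) with h1 | h1
    · have hle : p.asIdeal ≤ q.asIdeal := Ideal.le_of_dvd h1
      have hmax : p.asIdeal.IsMaximal := p.isMaximal
      have heq : p.asIdeal = q.asIdeal := hmax.eq_of_le q.isPrime.ne_top hle
      have : p = q := HeightOneSpectrum.ext heq
      exact hp (this ▸ hq)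
    · exact h q hq h1

variable (f : Ideal R →*₀ F)

theorem summable_indicator (hsum : Summable (‖f ·‖)) (U : Set (Ideal R)) :
    Summable (U.indicator f) := by
  apply Summable.of_norm
  apply Summable.of_nonneg_of_le (fun _ => norm_nonneg _) _ hsum
  intro a
  by_cases ha : a ∈ U
  · rw [Set.indicator_of_mem ha]
  · rw [Set.indicator_of_notMem ha, norm_zero]
    exact norm_nonneg _

theorem tsum_indicator_sieve_insert [DecidableEq (HeightOneSpectrum R)]
    (hsum : Summable (‖f ·‖)) {S : Finset (HeightOneSpectrum R)}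
    {p : HeightOneSpectrum R} (hp : p ∉ S) :
    ∑' a, (sieve (insert p S)).indicator f a =
      (1 - f p.asIdeal) * ∑' a, (sieve S).indicator f a := by
  set g := (sieve S).indicator f with hg
  set D : Set (Ideal R) := {a | p.asIdeal ∣ a} with hD
  have hgs : Summable g := summable_indicator f hsum _
  have hgn : Summable (‖g ·‖) := by
    apply Summable.of_nonneg_of_le (fun _ => norm_nonneg _) _ hsum
    intro a
    by_cases ha : a ∈ sieve S
    · rw [hg, Set.indicator_of_mem ha]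
    · rw [hg, Set.indicator_of_notMem ha, norm_zero]
      exact norm_nonneg _
  have hDs : Summable (D.indicator g) := hgs.indicator D
  have hDcs : Summable (Dᶜ.indicator g) := hgs.indicator Dᶜ
  have h1 : ∑' a, g a = ∑' a, D.indicator g a + ∑' a, Dᶜ.indicator g a := by
    rw [← hDs.tsum_add hDcs]
    congr 1
    funext a
    exact (congrFun (Set.indicator_self_add_compl D g) a).symm
  have h2 : Dᶜ.indicator g = (sieve (insert p S)).indicator f := by
    rw [hg, Set.indicator_indicator, sieve_insert, Set.inter_comm]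
  have hinj : Function.Injective (fun b : Ideal R => p.asIdeal * b) :=
    mul_right_injective₀ p.ne_bot
  have h3 : ∑' b, D.indicator g (p.asIdeal * b) = ∑' a, D.indicator g a := by
    apply hinj.tsum_eq
    intro a ha
    have : a ∈ D := by
      by_contra h
      exact ha (Set.indicator_of_notMem h g)
    obtain ⟨b, rfl⟩ := this
    exact ⟨b, rfl⟩
  have h4 : ∀ b, D.indicator g (p.asIdeal * b) = f p.asIdeal * g b := by
    intro b
    rw [Set.indicator_of_mem (show p.asIdeal * b ∈ D from Dvd.intro b rfl)]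
    by_cases hb : b ∈ sieve S
    · rw [hg, Set.indicator_of_mem hb, Set.indicator_of_mem ((mul_mem_sieve_iff hp b).2 hb),
        map_mul]
    · rw [hg, Set.indicator_of_notMem hb,
        Set.indicator_of_notMem (fun h => hb ((mul_mem_sieve_iff hp b).1 h)), mul_zero]
  have h5 : ∑' a, D.indicator g a = f p.asIdeal * ∑' a, g a := by
    rw [← h3, ← tsum_mul_left]
    exact tsum_congr h4
  rw [← h2]
  have : ∑' a, Dᶜ.indicator g a = ∑' a, g a - ∑' a, D.indicator g a := by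
    rw [h1]; ring
  rw [this, h5]
  ring

theorem tsum_indicator_sieve (hsum : Summable (‖f ·‖)) (S : Finset (HeightOneSpectrum R)) :
    ∑' a, (sieve S).indicator f a = (∏ p ∈ S, (1 - f p.asIdeal)) * ∑' a, f a := by
  classical
  induction S using Finset.induction_on with
  | empty => simp [sieve_empty]
  | insert p S hp ih =>
    rw [tsum_indicator_sieve_insert f hsum hp, ih, Finset.prod_insert hp, mul_assoc]

/-- every ideal different from `0` and `1` is divisible by a prime -/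
theorem exists_prime_dvd {a : Ideal R} (h0 : a ≠ ⊥) (h1 : a ≠ ⊤) :
    ∃ p : HeightOneSpectrum R, p.asIdeal ∣ a := by
  obtain ⟨M, hM, haM⟩ := Ideal.exists_le_maximal a h1
  have hM0 : M ≠ ⊥ := fun h => h0 (le_bot_iff.mp (h ▸ haM))
  exact ⟨⟨M, hM.isPrime, hM0⟩, Ideal.dvd_iff_le.mpr haM⟩

theorem tendsto_tsum_indicator_sieve (hsum : Summable (‖f ·‖)) :
    Tendsto (fun S : Finset (HeightOneSpectrum R) => ∑' a, (sieve S).indicator f a) atTop
      (𝓝 1) := by
  classical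
  have hlim : ∑' a : Ideal R, (if a = 1 then (1 : F) else 0) = 1 := tsum_ite_eq 1 (fun _ => 1)
  rw [← hlim]
  apply tendsto_tsum_of_dominated_convergence (bound := fun a => ‖f a‖) hsum
  · intro a
    by_cases h1 : a = 1
    · subst h1
      rw [if_pos rfl]
      apply tendsto_const_nhds.congr'
      exact Eventually.of_forall fun S => by
        dsimp only
        rw [Set.indicator_of_mem (one_mem_sieve S), map_one]
    · rw [if_neg h1]
      by_cases h0 : a = ⊥
      · subst h0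
        apply tendsto_const_nhds.congr'
        exact Eventually.of_forall fun S => by
          dsimp only
          by_cases h : (⊥ : Ideal R) ∈ sieve S
          · rw [Set.indicator_of_mem h, ← Ideal.zero_eq_bot, map_zero]
          · rw [Set.indicator_of_notMem h]
      · obtain ⟨p, hp⟩ := exists_prime_dvd h0 (by rwa [← Ideal.one_eq_top])
        apply tendsto_const_nhds.congr'
        rw [EventuallyEq, eventually_atTop]
        refine ⟨{p}, fun S hS => ?_⟩
        have : a ∉ sieve S := fun h => h p (hS (Finset.mem_singleton_self p)) hp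
        rw [Set.indicator_of_notMem this]
  · apply Eventually.of_forall
    intro S a
    by_cases h : a ∈ sieve S
    · rw [Set.indicator_of_mem h]
    · rw [Set.indicator_of_notMem h, norm_zero]
      exact norm_nonneg _

theorem tsum_ne_zero (hsum : Summable (‖f ·‖)) : ∑' a, f a ≠ 0 := by
  intro h
  have h1 := tendsto_tsum_indicator_sieve f hsum
  simp_rw [tsum_indicator_sieve f hsum, h, mul_zero] at h1
  exact zero_ne_one (tendsto_nhds_unique tendsto_const_nhds h1)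

theorem one_sub_ne_zero (hsum : Summable (‖f ·‖)) (p : HeightOneSpectrum R) :
    1 - f p.asIdeal ≠ 0 := by
  classical
  intro h
  have h1 := tendsto_tsum_indicator_sieve f hsum
  simp_rw [tsum_indicator_sieve f hsum] at h1
  have h2 : Tendsto (fun S : Finset (HeightOneSpectrum R) =>
      (∏ p ∈ S, (1 - f p.asIdeal)) * ∑' a, f a) atTop (𝓝 0) := by
    apply tendsto_const_nhds.congr'
    rw [EventuallyEq, eventually_atTop]
    refine ⟨{p}, fun S hS => ?_⟩
    rw [Finset.prod_eq_zero (hS (Finset.mem_singleton_self p)) h, zero_mul]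
  exact zero_ne_one (tendsto_nhds_unique h2 h1)

/-- **Euler product** for a completely multiplicative function on the ideals of a Dedekind
domain. -/
theorem eulerProduct_hasProd (hsum : Summable (‖f ·‖)) :
    HasProd (fun p : HeightOneSpectrum R => (1 - f p.asIdeal)⁻¹) (∑' a, f a) := by
  have hA := tsum_ne_zero f hsum
  have h1 := tendsto_tsum_indicator_sieve f hsum
  simp_rw [tsum_indicator_sieve f hsum] at h1
  have h2 : Tendsto (fun S : Finset (HeightOneSpectrum R) => ∏ p ∈ S, (1 - f p.asIdeal)) atTop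
      (𝓝 (∑' a, f a)⁻¹) := by
    have := h1.mul_const (∑' a, f a)⁻¹
    simp_rw [mul_assoc, mul_inv_cancel₀ hA, mul_one, one_mul] at this
    exact this
  have h3 := h2.inv₀ (inv_ne_zero hA)
  rw [inv_inv] at h3
  rw [HasProd]
  refine h3.congr fun S => ?_
  rw [Finset.prod_inv_distrib]

theorem eulerProduct_multipliable (hsum : Summable (‖f ·‖)) :
    Multipliable (fun p : HeightOneSpectrum R => (1 - f p.asIdeal)⁻¹) :=
  (eulerProduct_hasProd f hsum).multipliable

theorem eulerProduct_tprod (hsum : Summable (‖f ·‖)) :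
    ∏' p : HeightOneSpectrum R, (1 - f p.asIdeal)⁻¹ = ∑' a, f a :=
  (eulerProduct_hasProd f hsum).tprod_eq

end General

section NumberField

open NumberField Ideal Asymptotics
open scoped nonZeroDivisors

variable (K : Type*) [Field K] [NumberField K]

/-! ### Summability of `N(a)^(-s)` -/

theorem lseriesSummable_card {s : ℂ} (hs : 1 < s.re) :
    LSeriesSummable (fun n ↦ ((Nat.card {I : Ideal (𝓞 K) // absNorm I = n} : ℝ) : ℂ)) s := by
  refine LSeriesSummable_of_sum_norm_bigO_and_nonneg (r := 1)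
    (f := fun n ↦ (Nat.card {I : Ideal (𝓞 K) // absNorm I = n} : ℝ)) ?_
    (fun _ ↦ Nat.cast_nonneg _) zero_le_one hs
  have hlim : Tendsto (fun n : ℕ ↦ (∑ k ∈ Finset.Icc 1 n,
      (Nat.card {I : Ideal (𝓞 K) // absNorm I = k} : ℝ)) / n) atTop
      (𝓝 ((2 ^ InfinitePlace.nrRealPlaces K * (2 * Real.pi) ^ InfinitePlace.nrComplexPlaces K *
        Units.regulator K * classNumber K) /
        (Units.torsionOrder K * Real.sqrt |discr K|))) := by
    refine ((Ideal.tendsto_norm_le_div_atTop₀ K).comp tendsto_natCast_atTop_atTop).congr fun n ↦ ?_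
    simp only [Function.comp_apply, Nat.cast_le, ← Nat.cast_sum]
    congr
    rw [← add_left_inj 1, ← card_norm_le_eq_card_norm_le_add_one,
      show Finset.Icc 1 n = Finset.Ioc 0 n from Finset.Icc_succ_left_eq_Ioc _ _,
      show 1 = Nat.card {I : Ideal (𝓞 K) // absNorm I = 0} by simp [Ideal.absNorm_eq_zero_iff],
      Finset.sum_Ioc_add_eq_sum_Icc (n.zero_le),
      ← Finset.card_preimage_eq_sum_card_image_eq (fun k _ ↦ finite_setOfPred_absNorm_eq k)]
    simp [Set.coe_eq_subtype]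
  have h1 := hlim.isBigO_one ℝ
  have h2 : (fun n : ℕ ↦ (n : ℝ)) =O[atTop] fun n : ℕ ↦ (n : ℝ) := isBigO_refl _ _
  have h3 := h1.mul h2
  simp only [one_mul, Real.rpow_one] at h3 ⊢
  refine h3.congr' ?_ EventuallyEq.rfl
  filter_upwards [eventually_ne_atTop 0] with n hn
  field_simp

/-- `∑ N(a)^(-s)` over all ideals converges for real `s > 1` (the zero ideal contributes `0`). -/
theorem summable_absNorm_rpow {s : ℝ} (hs : 1 < s) :
    Summable fun a : Ideal (𝓞 K) => (absNorm a : ℝ) ^ (-s) := by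
  have h0 := lseriesSummable_card K (s := (s : ℂ)) (by simpa using hs)
  have h1 : Summable fun n : ℕ =>
      (Nat.card {I : Ideal (𝓞 K) // absNorm I = n} : ℝ) * (n : ℝ) ^ (-s) := by
    have := h0.norm
    refine this.congr fun n => ?_
    by_cases hn : n = 0
    · subst hn
      simp [Real.zero_rpow (by linarith : -s ≠ 0)]
    · rw [LSeries.term_of_ne_zero hn, norm_div,
        Complex.norm_natCast_cpow_of_pos (Nat.pos_of_ne_zero hn),
        Complex.ofReal_re, Complex.norm_real, Real.norm_natCast,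
        Real.rpow_neg (Nat.cast_nonneg n), div_eq_mul_inv]
  let e := Equiv.sigmaFiberEquiv (absNorm : Ideal (𝓞 K) → ℕ)
  rw [← e.summable_iff]
  rw [summable_sigma_of_nonneg (f := (fun a : Ideal (𝓞 K) => (absNorm a : ℝ) ^ (-s)) ∘ e)
    (fun x => Real.rpow_nonneg (Nat.cast_nonneg _) _)]
  constructor
  · intro n
    have : Finite {I : Ideal (𝓞 K) // absNorm I = n} := finite_setOfPred_absNorm_eq n
    exact Summable.of_finite
  · refine h1.congr fun n => ?_
    have : ∀ y : {I : Ideal (𝓞 K) // absNorm I = n},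
        ((fun a : Ideal (𝓞 K) => (absNorm a : ℝ) ^ (-s)) ∘ e) ⟨n, y⟩ = (n : ℝ) ^ (-s) := by
      intro y
      simp only [Function.comp_apply, e, Equiv.sigmaFiberEquiv_apply, y.2]
    rw [tsum_congr this, tsum_const, nsmul_eq_mul]

/-! ### The norm characters -/

/-- `a ↦ N(a)^(-s)` as a monoid-with-zero homomorphism to `ℝ` (`s ≠ 0`). -/
noncomputable def normRPow (s : ℝ) (hs : s ≠ 0) : Ideal (𝓞 K) →*₀ ℝ where
  toFun a := (absNorm a : ℝ) ^ (-s)
  map_zero' := by
    simp only [Ideal.zero_eq_bot, absNorm_bot, Nat.cast_zero]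
    exact Real.zero_rpow (neg_ne_zero.mpr hs)
  map_one' := by simp
  map_mul' a b := by
    rw [map_mul, Nat.cast_mul, Real.mul_rpow (Nat.cast_nonneg _) (Nat.cast_nonneg _)]

@[simp] theorem normRPow_apply (s : ℝ) (hs : s ≠ 0) (a : Ideal (𝓞 K)) :
    normRPow K s hs a = (absNorm a : ℝ) ^ (-s) := rfl

/-- `a ↦ N(a)^(-s)` as a monoid-with-zero homomorphism to `ℂ` (`s ≠ 0`). -/
noncomputable def normCPow (s : ℂ) (hs : s ≠ 0) : Ideal (𝓞 K) →*₀ ℂ where
  toFun a := (absNorm a : ℂ) ^ (-s)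
  map_zero' := by
    simp only [Ideal.zero_eq_bot, absNorm_bot, Nat.cast_zero]
    exact Complex.zero_cpow (neg_ne_zero.mpr hs)
  map_one' := by simp
  map_mul' a b := by
    rw [map_mul, Nat.cast_mul, Complex.natCast_mul_natCast_cpow]

@[simp] theorem normCPow_apply (s : ℂ) (hs : s ≠ 0) (a : Ideal (𝓞 K)) :
    normCPow K s hs a = (absNorm a : ℂ) ^ (-s) := rfl

theorem norm_natCast_cpow_neg (n : ℕ) {s : ℂ} (hs : 0 < s.re) :
    ‖(n : ℂ) ^ (-s)‖ = (n : ℝ) ^ (-s.re) := by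
  have hs0 : s ≠ 0 := fun h => by simp [h] at hs
  rcases Nat.eq_zero_or_pos n with rfl | hn
  · rw [Nat.cast_zero, Nat.cast_zero, Complex.zero_cpow (neg_ne_zero.mpr hs0), norm_zero,
      Real.zero_rpow (neg_ne_zero.mpr hs.ne')]
  · rw [Complex.norm_natCast_cpow_of_pos hn, Complex.neg_re]

/-! ### Characters of the monoid of nonzero ideals -/

open Classical in
/-- Extension by zero of a multiplicative function on nonzero ideals. -/
noncomputable def extendZero (ψ : (Ideal (𝓞 K))⁰ →* ℂ) : Ideal (𝓞 K) →*₀ ℂ where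
  toFun a := if h : a ∈ (Ideal (𝓞 K))⁰ then ψ ⟨a, h⟩ else 0
  map_zero' := by
    rw [dif_neg]
    exact fun h => (nonZeroDivisors.ne_zero h) rfl
  map_one' := by
    rw [dif_pos (one_mem _)]
    exact map_one ψ
  map_mul' a b := by
    by_cases ha : a ∈ (Ideal (𝓞 K))⁰
    · by_cases hb : b ∈ (Ideal (𝓞 K))⁰
      · rw [dif_pos ha, dif_pos hb, dif_pos (mul_mem ha hb), ← map_mul]
        rfl
      · have hab : a * b ∉ (Ideal (𝓞 K))⁰ := fun h => hb (mul_mem_nonZeroDivisors.mp h).2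
        rw [dif_neg hb, dif_neg hab, mul_zero]
    · have hab : a * b ∉ (Ideal (𝓞 K))⁰ := fun h => ha (mul_mem_nonZeroDivisors.mp h).1
      rw [dif_neg ha, dif_neg hab, zero_mul]

open Classical in
theorem extendZero_coe (ψ : (Ideal (𝓞 K))⁰ →* ℂ) (a : (Ideal (𝓞 K))⁰) :
    extendZero K ψ (a : Ideal (𝓞 K)) = ψ a := by
  change (if h : (a : Ideal (𝓞 K)) ∈ (Ideal (𝓞 K))⁰ then ψ ⟨a, h⟩ else 0) = ψ a
  rw [dif_pos a.2]

open Classical in
theorem norm_extendZero_le (ψ : (Ideal (𝓞 K))⁰ →* ℂ) (hψ : ∀ a, ‖ψ a‖ ≤ 1) (a : Ideal (𝓞 K)) :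
    ‖extendZero K ψ a‖ ≤ 1 := by
  change ‖(if h : a ∈ (Ideal (𝓞 K))⁰ then ψ ⟨a, h⟩ else 0)‖ ≤ 1
  split_ifs with h
  · exact hψ _
  · rw [norm_zero]; exact zero_le_one

/-- A sum over nonzero ideals is a sum over all ideals when the zero ideal contributes `0`. -/
theorem tsum_nonZeroDivisors_eq {E : Type*} [AddCommMonoid E] [TopologicalSpace E]
    (g : Ideal (𝓞 K) → E) (h0 : g 0 = 0) :
    ∑' a : (Ideal (𝓞 K))⁰, g (a : Ideal (𝓞 K)) = ∑' a : Ideal (𝓞 K), g a := by
  apply Function.Injective.tsum_eq (g := fun a : (Ideal (𝓞 K))⁰ => (a : Ideal (𝓞 K)))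
    Subtype.val_injective
  intro a ha
  have : a ≠ 0 := fun h => ha (h ▸ h0)
  exact ⟨⟨a, mem_nonZeroDivisors_of_ne_zero this⟩, rfl⟩

theorem summable_nonZeroDivisors_iff {E : Type*} [AddCommMonoid E] [TopologicalSpace E]
    (g : Ideal (𝓞 K) → E) (h0 : g 0 = 0) :
    (Summable fun a : (Ideal (𝓞 K))⁰ => g (a : Ideal (𝓞 K))) ↔ Summable g := by
  apply Function.Injective.summable_iff (g := fun a : (Ideal (𝓞 K))⁰ => (a : Ideal (𝓞 K)))
    Subtype.val_injective
  intro a ha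
  by_contra h
  have : a ≠ 0 := fun h' => h (h' ▸ h0)
  exact ha ⟨⟨a, mem_nonZeroDivisors_of_ne_zero this⟩, rfl⟩

/-- The prime ideal of `p` as an element of the monoid of nonzero ideals. -/
def primeIdeal (p : HeightOneSpectrum (𝓞 K)) : (Ideal (𝓞 K))⁰ :=
  ⟨p.asIdeal, mem_nonZeroDivisors_of_ne_zero p.ne_bot⟩

@[simp] theorem coe_primeIdeal (p : HeightOneSpectrum (𝓞 K)) :
    (primeIdeal K p : Ideal (𝓞 K)) = p.asIdeal := rfl

/-- The function `a ↦ ψ(a) N(a)^(-s)` on all ideals, as a monoid-with-zero homomorphism. -/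
noncomputable def twist (ψ : (Ideal (𝓞 K))⁰ →* ℂ) (s : ℂ) (hs : s ≠ 0) : Ideal (𝓞 K) →*₀ ℂ :=
  extendZero K ψ * normCPow K s hs

theorem twist_apply (ψ : (Ideal (𝓞 K))⁰ →* ℂ) (s : ℂ) (hs : s ≠ 0) (a : Ideal (𝓞 K)) :
    twist K ψ s hs a = extendZero K ψ a * (absNorm a : ℂ) ^ (-s) := rfl

theorem twist_coe (ψ : (Ideal (𝓞 K))⁰ →* ℂ) (s : ℂ) (hs : s ≠ 0) (a : (Ideal (𝓞 K))⁰) :
    twist K ψ s hs (a : Ideal (𝓞 K)) = ψ a * (absNorm (a : Ideal (𝓞 K)) : ℂ) ^ (-s) := by
  rw [twist_apply, extendZero_coe]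

theorem norm_twist_le (ψ : (Ideal (𝓞 K))⁰ →* ℂ) (hψ : ∀ a, ‖ψ a‖ ≤ 1) {s : ℂ} (hs : 0 < s.re)
    (hs0 : s ≠ 0) (a : Ideal (𝓞 K)) :
    ‖twist K ψ s hs0 a‖ ≤ (absNorm a : ℝ) ^ (-s.re) := by
  rw [twist_apply, norm_mul, norm_natCast_cpow_neg _ hs]
  calc ‖extendZero K ψ a‖ * (absNorm a : ℝ) ^ (-s.re)
      ≤ 1 * (absNorm a : ℝ) ^ (-s.re) :=
        mul_le_mul_of_nonneg_right (norm_extendZero_le K ψ hψ a)
          (Real.rpow_nonneg (Nat.cast_nonneg _) _)
    _ = _ := one_mul _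

theorem summable_norm_twist (ψ : (Ideal (𝓞 K))⁰ →* ℂ) (hψ : ∀ a, ‖ψ a‖ ≤ 1) {s : ℂ}
    (hs : 1 < s.re) (hs0 : s ≠ 0) :
    Summable fun a : Ideal (𝓞 K) => ‖twist K ψ s hs0 a‖ :=
  Summable.of_nonneg_of_le (fun _ => norm_nonneg _)
    (norm_twist_le K ψ hψ (by linarith) hs0) (summable_absNorm_rpow K hs)

/-! ### `L`-series of characters of the ideal monoid -/

/-- The `L`-series `∑_{a ≠ 0} ψ(a) N(a)^(-s)` of a multiplicative function on nonzero ideals. -/
noncomputable def LSeriesIdeal (ψ : (Ideal (𝓞 K))⁰ →* ℂ) (s : ℂ) : ℂ :=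
  ∑' a : (Ideal (𝓞 K))⁰, ψ a * (absNorm (a : Ideal (𝓞 K)) : ℂ) ^ (-s)

theorem ne_zero_of_one_lt_re {s : ℂ} (hs : 1 < s.re) : s ≠ 0 := fun h => by
  rw [h, Complex.zero_re] at hs
  linarith

theorem LSeriesIdeal_eq_tsum_twist (ψ : (Ideal (𝓞 K))⁰ →* ℂ) {s : ℂ} (hs0 : s ≠ 0) :
    LSeriesIdeal K ψ s = ∑' a : Ideal (𝓞 K), twist K ψ s hs0 a := by
  rw [← tsum_nonZeroDivisors_eq K (fun a => twist K ψ s hs0 a) (map_zero _)]
  exact tsum_congr fun a => (twist_coe K ψ s hs0 a).symm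

theorem summable_LSeriesIdeal_norm (ψ : (Ideal (𝓞 K))⁰ →* ℂ) (hψ : ∀ a, ‖ψ a‖ ≤ 1) {s : ℂ}
    (hs : 1 < s.re) :
    Summable fun a : (Ideal (𝓞 K))⁰ => ‖ψ a * (absNorm (a : Ideal (𝓞 K)) : ℂ) ^ (-s)‖ := by
  have hs0 := ne_zero_of_one_lt_re hs
  have h := (summable_nonZeroDivisors_iff K (fun a => ‖twist K ψ s hs0 a‖)
    (by rw [map_zero, norm_zero])).2 (summable_norm_twist K ψ hψ hs hs0)
  refine h.congr fun a => ?_
  rw [twist_coe]

theorem summable_LSeriesIdeal (ψ : (Ideal (𝓞 K))⁰ →* ℂ) (hψ : ∀ a, ‖ψ a‖ ≤ 1) {s : ℂ}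
    (hs : 1 < s.re) :
    Summable fun a : (Ideal (𝓞 K))⁰ => ψ a * (absNorm (a : Ideal (𝓞 K)) : ℂ) ^ (-s) :=
  (summable_LSeriesIdeal_norm K ψ hψ hs).of_norm

/-- **Euler product** of the `L`-series of a bounded multiplicative function on nonzero
ideals. -/
theorem LSeriesIdeal_hasProd (ψ : (Ideal (𝓞 K))⁰ →* ℂ) (hψ : ∀ a, ‖ψ a‖ ≤ 1) {s : ℂ}
    (hs : 1 < s.re) :
    HasProd (fun p : HeightOneSpectrum (𝓞 K) =>
      (1 - ψ (primeIdeal K p) * (absNorm p.asIdeal : ℂ) ^ (-s))⁻¹) (LSeriesIdeal K ψ s) := by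
  have hs0 := ne_zero_of_one_lt_re hs
  rw [LSeriesIdeal_eq_tsum_twist K ψ hs0]
  have h := eulerProduct_hasProd (twist K ψ s hs0) (summable_norm_twist K ψ hψ hs hs0)
  refine h.congr_fun fun p => ?_
  rw [← coe_primeIdeal K p, twist_coe]

theorem LSeriesIdeal_ne_zero (ψ : (Ideal (𝓞 K))⁰ →* ℂ) (hψ : ∀ a, ‖ψ a‖ ≤ 1) {s : ℂ}
    (hs : 1 < s.re) : LSeriesIdeal K ψ s ≠ 0 := by
  have hs0 := ne_zero_of_one_lt_re hs
  rw [LSeriesIdeal_eq_tsum_twist K ψ hs0]
  exact tsum_ne_zero (twist K ψ s hs0) (summable_norm_twist K ψ hψ hs hs0)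

theorem LSeriesIdeal_factor_ne_zero (ψ : (Ideal (𝓞 K))⁰ →* ℂ) (hψ : ∀ a, ‖ψ a‖ ≤ 1) {s : ℂ}
    (hs : 1 < s.re) (p : HeightOneSpectrum (𝓞 K)) :
    1 - ψ (primeIdeal K p) * (absNorm p.asIdeal : ℂ) ^ (-s) ≠ 0 := by
  have hs0 := ne_zero_of_one_lt_re hs
  have h := one_sub_ne_zero (twist K ψ s hs0) (summable_norm_twist K ψ hψ hs hs0) p
  rwa [← coe_primeIdeal K p, twist_coe] at h

/-! ### The Dedekind zeta function for real `s > 1` -/

/-- `ζ_K(s) = ∑_{a ≠ 0} N(a)^(-s)` for real `s`. -/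
noncomputable def zetaReal (s : ℝ) : ℝ :=
  ∑' a : (Ideal (𝓞 K))⁰, (absNorm (a : Ideal (𝓞 K)) : ℝ) ^ (-s)

theorem summable_zetaReal {s : ℝ} (hs : 1 < s) :
    Summable fun a : (Ideal (𝓞 K))⁰ => (absNorm (a : Ideal (𝓞 K)) : ℝ) ^ (-s) :=
  (summable_nonZeroDivisors_iff K (fun a => (absNorm a : ℝ) ^ (-s))
    (by
      simp only [Ideal.zero_eq_bot, absNorm_bot, Nat.cast_zero]
      exact Real.zero_rpow (by linarith))).2 (summable_absNorm_rpow K hs)

theorem zetaReal_eq_tsum {s : ℝ} (hs : s ≠ 0) :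
    zetaReal K s = ∑' a : Ideal (𝓞 K), (absNorm a : ℝ) ^ (-s) :=
  tsum_nonZeroDivisors_eq K (fun a => (absNorm a : ℝ) ^ (-s))
    (by
      simp only [Ideal.zero_eq_bot, absNorm_bot, Nat.cast_zero]
      exact Real.zero_rpow (neg_ne_zero.mpr hs))

/-- **Euler product** of the Dedekind zeta function for real `s > 1`. -/
theorem zetaReal_hasProd {s : ℝ} (hs : 1 < s) :
    HasProd (fun p : HeightOneSpectrum (𝓞 K) => (1 - (absNorm p.asIdeal : ℝ) ^ (-s))⁻¹)
      (zetaReal K s) := by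
  have hs0 : s ≠ 0 := by linarith
  rw [zetaReal_eq_tsum K hs0]
  have hsum : Summable fun a : Ideal (𝓞 K) => ‖normRPow K s hs0 a‖ := by
    refine (summable_absNorm_rpow K hs).congr fun a => ?_
    rw [normRPow_apply, Real.norm_of_nonneg (Real.rpow_nonneg (Nat.cast_nonneg _) _)]
  exact eulerProduct_hasProd (normRPow K s hs0) hsum

theorem one_lt_absNorm_prime (p : HeightOneSpectrum (𝓞 K)) : 1 < absNorm p.asIdeal := by
  have h0 : absNorm p.asIdeal ≠ 0 := by
    rw [Ne, absNorm_eq_zero_iff]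
    exact p.ne_bot
  have h1 : absNorm p.asIdeal ≠ 1 := by
    rw [Ne, absNorm_eq_one_iff]
    exact p.isPrime.ne_top
  omega

theorem absNorm_prime_rpow_pos (p : HeightOneSpectrum (𝓞 K)) (s : ℝ) :
    0 < (absNorm p.asIdeal : ℝ) ^ (-s) :=
  Real.rpow_pos_of_pos (by exact_mod_cast (zero_lt_one.trans (one_lt_absNorm_prime K p))) _

theorem absNorm_prime_rpow_lt_one (p : HeightOneSpectrum (𝓞 K)) {s : ℝ} (hs : 0 < s) :
    (absNorm p.asIdeal : ℝ) ^ (-s) < 1 :=
  Real.rpow_lt_one_of_one_lt_of_neg (by exact_mod_cast one_lt_absNorm_prime K p) (by linarith)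

theorem one_le_factor (p : HeightOneSpectrum (𝓞 K)) {s : ℝ} (hs : 0 < s) :
    1 ≤ (1 - (absNorm p.asIdeal : ℝ) ^ (-s))⁻¹ := by
  have h1 := absNorm_prime_rpow_pos K p s
  have h2 := absNorm_prime_rpow_lt_one K p hs
  rw [one_le_inv₀ (by linarith)]
  linarith

theorem factor_pos (p : HeightOneSpectrum (𝓞 K)) {s : ℝ} (hs : 0 < s) :
    0 < (1 - (absNorm p.asIdeal : ℝ) ^ (-s))⁻¹ :=
  zero_lt_one.trans_le (one_le_factor K p hs)

theorem prod_factor_mono {s : ℝ} (hs : 0 < s) {S T : Finset (HeightOneSpectrum (𝓞 K))}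
    (hST : S ⊆ T) :
    ∏ p ∈ S, (1 - (absNorm p.asIdeal : ℝ) ^ (-s))⁻¹ ≤
      ∏ p ∈ T, (1 - (absNorm p.asIdeal : ℝ) ^ (-s))⁻¹ := by
  classical
  rw [← Finset.prod_sdiff hST]
  have h1 : 1 ≤ ∏ p ∈ T \ S, (1 - (absNorm p.asIdeal : ℝ) ^ (-s))⁻¹ := by
    apply Finset.prod_induction _ (fun x : ℝ => 1 ≤ x)
    · intro a b ha hb
      exact one_le_mul_of_one_le_of_one_le ha hb
    · exact le_refl _
    · intro p _
      exact one_le_factor K p hs
  have h2 : 0 ≤ ∏ p ∈ S, (1 - (absNorm p.asIdeal : ℝ) ^ (-s))⁻¹ :=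
    Finset.prod_nonneg fun p _ => (factor_pos K p hs).le
  nlinarith

/-- Every finite partial Euler product is bounded by `ζ_K(s)`. -/
theorem prod_le_zetaReal {s : ℝ} (hs : 1 < s) (S : Finset (HeightOneSpectrum (𝓞 K))) :
    ∏ p ∈ S, (1 - (absNorm p.asIdeal : ℝ) ^ (-s))⁻¹ ≤ zetaReal K s := by
  refine ge_of_tendsto (zetaReal_hasProd K hs) (eventually_atTop.2 ⟨S, fun T hST => ?_⟩)
  exact prod_factor_mono K (by linarith) hST

theorem one_le_zetaReal {s : ℝ} (hs : 1 < s) : 1 ≤ zetaReal K s := by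
  have := prod_le_zetaReal K hs ∅
  simpa using this

theorem zetaReal_pos {s : ℝ} (hs : 1 < s) : 0 < zetaReal K s :=
  zero_lt_one.trans_le (one_le_zetaReal K hs)

/-- The norm of an `L`-series is bounded by `ζ_K(re s)`. -/
theorem norm_LSeriesIdeal_le (ψ : (Ideal (𝓞 K))⁰ →* ℂ) (hψ : ∀ a, ‖ψ a‖ ≤ 1) {s : ℂ}
    (hs : 1 < s.re) : ‖LSeriesIdeal K ψ s‖ ≤ zetaReal K s.re := by
  have h1 := summable_LSeriesIdeal_norm K ψ hψ hs
  refine (norm_tsum_le_tsum_norm h1).trans ?_
  refine h1.tsum_le_tsum (fun a => ?_) (summable_zetaReal K hs)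
  rw [norm_mul, norm_natCast_cpow_neg _ (by linarith : 0 < s.re)]
  calc ‖ψ a‖ * (absNorm (a : Ideal (𝓞 K)) : ℝ) ^ (-s.re)
      ≤ 1 * (absNorm (a : Ideal (𝓞 K)) : ℝ) ^ (-s.re) :=
        mul_le_mul_of_nonneg_right (hψ a) (Real.rpow_nonneg (Nat.cast_nonneg _) _)
    _ = _ := one_mul _

/-! ### Comparison with Mathlib's `dedekindZeta` -/

theorem dedekindZeta_eq_tsum {s : ℂ} (hs : 1 < s.re) :
    dedekindZeta K s = ∑' a : Ideal (𝓞 K), (absNorm a : ℂ) ^ (-s) := by
  have hs0 := ne_zero_of_one_lt_re hs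
  have hsum : Summable fun a : Ideal (𝓞 K) => (absNorm a : ℂ) ^ (-s) := by
    apply Summable.of_norm
    refine (summable_absNorm_rpow K hs).congr fun a => ?_
    rw [norm_natCast_cpow_neg _ (by linarith : 0 < s.re)]
  let e := Equiv.sigmaFiberEquiv (absNorm : Ideal (𝓞 K) → ℕ)
  have hsum' : Summable fun c : (Σ n : ℕ, {I : Ideal (𝓞 K) // absNorm I = n}) =>
      (absNorm (e c) : ℂ) ^ (-s) := e.summable_iff.2 hsum
  rw [← e.tsum_eq, hsum'.tsum_sigma, dedekindZeta, LSeries]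
  refine tsum_congr fun n => ?_
  have : Finite {I : Ideal (𝓞 K) // absNorm I = n} := finite_setOfPred_absNorm_eq n
  have h : ∀ y : {I : Ideal (𝓞 K) // absNorm I = n},
      (absNorm (e ⟨n, y⟩) : ℂ) ^ (-s) = (n : ℂ) ^ (-s) := by
    intro y
    simp only [e, Equiv.sigmaFiberEquiv_apply, y.2]
  rw [tsum_congr h, tsum_const, nsmul_eq_mul]
  by_cases hn : n = 0
  · subst hn
    rw [LSeries.term_zero, Nat.cast_zero, Complex.zero_cpow (neg_ne_zero.mpr hs0), mul_zero]
  · rw [LSeries.term_of_ne_zero hn, Complex.cpow_neg, div_eq_mul_inv]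

theorem LSeriesIdeal_one_eq {s : ℂ} (hs : 1 < s.re) :
    LSeriesIdeal K 1 s = dedekindZeta K s := by
  have hs0 := ne_zero_of_one_lt_re hs
  rw [dedekindZeta_eq_tsum K hs, LSeriesIdeal]
  rw [← tsum_nonZeroDivisors_eq K (fun a => (absNorm a : ℂ) ^ (-s))
    (by
      simp only [Ideal.zero_eq_bot, absNorm_bot, Nat.cast_zero]
      exact Complex.zero_cpow (neg_ne_zero.mpr hs0))]
  exact tsum_congr fun a => by rw [MonoidHom.one_apply, one_mul]

theorem dedekindZeta_eq_zetaReal {s : ℝ} (hs : 1 < s) :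
    dedekindZeta K (s : ℂ) = ((zetaReal K s : ℝ) : ℂ) := by
  have hs' : 1 < (s : ℂ).re := by simpa using hs
  rw [dedekindZeta_eq_tsum K hs', zetaReal_eq_tsum K (by linarith), Complex.ofReal_tsum]
  refine tsum_congr fun a => ?_
  rw [Complex.ofReal_cpow (Nat.cast_nonneg _), Complex.ofReal_natCast, Complex.ofReal_neg]

/-! ### General multiplicative functions on nonzero ideals with a norm bound -/

theorem norm_extendZero_le_of_le (f : (Ideal (𝓞 K))⁰ →* ℂ) {s : ℝ}
    (hf : ∀ a : (Ideal (𝓞 K))⁰, ‖f a‖ ≤ (absNorm (a : Ideal (𝓞 K)) : ℝ) ^ (-s))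
    (a : Ideal (𝓞 K)) : ‖extendZero K f a‖ ≤ (absNorm a : ℝ) ^ (-s) := by
  by_cases ha : a ∈ (Ideal (𝓞 K))⁰
  · have := extendZero_coe K f ⟨a, ha⟩
    rw [Subtype.coe_mk] at this
    rw [this]
    exact hf ⟨a, ha⟩
  · have h0 : a = 0 := by
      by_contra h
      exact ha (mem_nonZeroDivisors_of_ne_zero h)
    rw [h0, map_zero, norm_zero]
    exact Real.rpow_nonneg (Nat.cast_nonneg _) _

/-- Euler product in the shape requested for WP-U4: `f` a monoid homomorphism on the nonzero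
ideals with `‖f a‖ ≤ N(a)^(-s)`, `s > 1`. -/
theorem hasProd_of_norm_le (f : (Ideal (𝓞 K))⁰ →* ℂ) {s : ℝ} (hs : 1 < s)
    (hf : ∀ a : (Ideal (𝓞 K))⁰, ‖f a‖ ≤ (absNorm (a : Ideal (𝓞 K)) : ℝ) ^ (-s)) :
    Summable (fun a : (Ideal (𝓞 K))⁰ => ‖f a‖) ∧ Summable (fun a : (Ideal (𝓞 K))⁰ => f a) ∧
      HasProd (fun p : HeightOneSpectrum (𝓞 K) => (1 - f (primeIdeal K p))⁻¹)
        (∑' a : (Ideal (𝓞 K))⁰, f a) := by
  have hsum : Summable fun a : Ideal (𝓞 K) => ‖extendZero K f a‖ :=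
    Summable.of_nonneg_of_le (fun _ => norm_nonneg _)
      (norm_extendZero_le_of_le K f hf) (summable_absNorm_rpow K hs)
  have h1 : Summable (fun a : (Ideal (𝓞 K))⁰ => ‖f a‖) := by
    have := (summable_nonZeroDivisors_iff K (fun a => ‖extendZero K f a‖)
      (by rw [map_zero, norm_zero])).2 hsum
    refine this.congr fun a => ?_
    rw [extendZero_coe]
  refine ⟨h1, h1.of_norm, ?_⟩
  have h2 := eulerProduct_hasProd (extendZero K f) hsum
  have h3 : ∑' a : Ideal (𝓞 K), extendZero K f a = ∑' a : (Ideal (𝓞 K))⁰, f a := by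
    rw [← tsum_nonZeroDivisors_eq K (fun a => extendZero K f a) (map_zero _)]
    exact tsum_congr fun a => extendZero_coe K f a
  rw [h3] at h2
  refine h2.congr_fun fun p => ?_
  rw [← coe_primeIdeal K p, extendZero_coe]

/-- The nonzero prime ideals, as a subtype of the monoid of nonzero ideals, are the height one
spectrum. -/
noncomputable def primeEquiv :
    {q : (Ideal (𝓞 K))⁰ // (q : Ideal (𝓞 K)).IsPrime} ≃ HeightOneSpectrum (𝓞 K) where
  toFun q := ⟨(q.1 : Ideal (𝓞 K)), q.2, nonZeroDivisors.coe_ne_zero q.1⟩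
  invFun p := ⟨primeIdeal K p, p.isPrime⟩
  left_inv q := by
    apply Subtype.ext
    apply Subtype.ext
    rfl
  right_inv p := by
    apply HeightOneSpectrum.ext
    rfl

@[simp] theorem primeEquiv_asIdeal (q : {q : (Ideal (𝓞 K))⁰ // (q : Ideal (𝓞 K)).IsPrime}) :
    (primeEquiv K q).asIdeal = (q.1 : Ideal (𝓞 K)) := rfl

@[simp] theorem primeEquiv_symm_coe (p : HeightOneSpectrum (𝓞 K)) :
    ((primeEquiv K).symm p : (Ideal (𝓞 K))⁰) = primeIdeal K p := rfl

theorem primeIdeal_primeEquiv (q : {q : (Ideal (𝓞 K))⁰ // (q : Ideal (𝓞 K)).IsPrime}) :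
    primeIdeal K (primeEquiv K q) = q.1 := by
  apply Subtype.ext
  rfl

/-- The same Euler product indexed by the nonzero prime ideals inside `(Ideal (𝓞 K))⁰`. -/
theorem hasProd_of_norm_le' (f : (Ideal (𝓞 K))⁰ →* ℂ) {s : ℝ} (hs : 1 < s)
    (hf : ∀ a : (Ideal (𝓞 K))⁰, ‖f a‖ ≤ (absNorm (a : Ideal (𝓞 K)) : ℝ) ^ (-s)) :
    HasProd (fun q : {q : (Ideal (𝓞 K))⁰ // (q : Ideal (𝓞 K)).IsPrime} => (1 - f q.1)⁻¹)
      (∑' a : (Ideal (𝓞 K))⁰, f a) := by
  have h := (hasProd_of_norm_le K f hs hf).2.2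
  rw [← (primeEquiv K).hasProd_iff] at h
  refine h.congr_fun fun q => ?_
  rw [Function.comp_apply, primeIdeal_primeEquiv]

/-- `∑_p N(p)^(-s)` converges for `s > 1`. -/
theorem summable_absNorm_prime_rpow {s : ℝ} (hs : 1 < s) :
    Summable fun p : HeightOneSpectrum (𝓞 K) => (absNorm p.asIdeal : ℝ) ^ (-s) := by
  have hinj : Function.Injective (fun p : HeightOneSpectrum (𝓞 K) => p.asIdeal) :=
    fun p q h => HeightOneSpectrum.ext h
  exact (summable_absNorm_rpow K hs).comp_injective hinj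

end NumberField

end Fermat.Agent.Lib.CFT.Unram.EulerProduct
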