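import Mathlib

set_option autoImplicit false

/-!
Comparison of a lattice sum with an integral (cell by cell), for the S14 fast track
(work package U2, partial zeta functions of ideal classes).
-/

namespace Fermat.Agent.Lib.CFT.Unram

open MeasureTheory Module ZSpan
open scoped Pointwise

section Cell

variable {E : Type*} [NormedAddCommGroup E] [NormedSpace ℝ E] [FiniteDimensional ℝ E]
variable [MeasurableSpace E] [BorelSpace E]
variable (L : Submodule ℤ E) [DiscreteTopology L] [IsZLattice ℝ L]
variable (μ : Measure E) [Measure.IsAddHaarMeasure μ]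

/-- A bound for the norm of the elements of the fundamental domain attached to the chosen
basis of the lattice `L`. -/
noncomputable def cellDiam : ℝ :=
  (fundamentalDomain_isBounded ((Free.chooseBasis ℤ L).ofZLatticeBasis ℝ L)).exists_norm_le.choose

omit [MeasurableSpace E] [BorelSpace E] in
theorem norm_le_cellDiam {y : E}
    (hy : y ∈ fundamentalDomain ((Free.chooseBasis ℤ L).ofZLatticeBasis ℝ L)) :
    ‖y‖ ≤ cellDiam L :=
  (fundamentalDomain_isBounded
    ((Free.chooseBasis ℤ L).ofZLatticeBasis ℝ L)).exists_norm_le.choose_spec y hy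

/-- **Cell lemma.** Comparison of the sum of `H` over a lattice with the integral of `H`, under
an oscillation bound at the scale of the fundamental cell. -/
theorem cell_lemma (H : E → ℝ) (hH : Integrable H μ) (M : ℝ) (ω : E → ℝ)
    (hω : Summable fun x : L => ω x)
    (hosc : ∀ y z : E, ‖y - z‖ ≤ cellDiam L → |H y - H z| ≤ M * ω y) :
    Summable (fun x : L => H x) ∧
      |∑' x : L, H x - (ZLattice.covolume L μ)⁻¹ * ∫ x, H x ∂μ| ≤ M * ∑' x : L, ω x := by
  classical
  have : MeasurableVAdd L E := (inferInstance : MeasurableVAdd L.toAddSubgroup E)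
  have : VAddInvariantMeasure L E μ := (inferInstance : VAddInvariantMeasure L.toAddSubgroup E μ)
  set b := Free.chooseBasis ℤ L with hb
  set D := fundamentalDomain (b.ofZLatticeBasis ℝ L) with hDdef
  have hD : IsAddFundamentalDomain L D μ := ZLattice.isAddFundamentalDomain b μ
  have hvol : ZLattice.covolume L μ = μ.real D :=
    ZLattice.covolume_eq_measure_fundamentalDomain L μ hD
  have hvpos : 0 < μ.real D := hvol ▸ ZLattice.covolume_pos L μ
  have hDfin : μ D < ⊤ := (fundamentalDomain_isBounded _).measure_lt_top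
  have hDmeas : MeasurableSet D := fundamentalDomain_measurableSet _
  -- the integrals over the cells
  let a : L → ℝ := fun g => ∫ x in D, H (g +ᵥ x) ∂μ
  have ha_eq : ∀ g : L, a g = ∫ x in g +ᵥ D, H x ∂μ := by
    intro g
    have := (measurePreserving_vadd g μ).setIntegral_image_emb
      (measurableEmbedding_const_vadd g) H D
    rw [Set.image_vadd] at this
    exact this.symm
  have ha_sum : HasSum a (∫ x, H x ∂μ) := by
    have h1 : HasSum (fun g : L => ∫ x, H x ∂(μ.restrict (g +ᵥ D)))
        (∫ x, H x ∂(Measure.sum fun g : L => μ.restrict (g +ᵥ D))) := by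
      apply hasSum_integral_measure
      rw [hD.sum_restrict]
      exact hH
    rw [hD.sum_restrict] at h1
    convert h1 using 1
    funext g
    exact ha_eq g
  -- the cellwise comparison
  have hcell : ∀ g : L, |H g - (μ.real D)⁻¹ * a g| ≤ M * ω g := by
    intro g
    have hint : IntegrableOn (fun x => H (g +ᵥ x)) D μ :=
      (hH.comp_add_left (g : E)).integrableOn
    have hconst : ∫ _x in D, H g ∂μ = μ.real D * H g := by
      rw [setIntegral_const, smul_eq_mul]
    have hdiff : a g - μ.real D * H g = ∫ x in D, (H (g +ᵥ x) - H g) ∂μ := by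
      rw [integral_sub hint (integrableOn_const hDfin.ne), hconst]
    have hbound : ‖∫ x in D, (H (g +ᵥ x) - H g) ∂μ‖ ≤ (M * ω g) * μ.real D := by
      apply norm_setIntegral_le_of_norm_le_const hDfin
      intro x hx
      rw [Real.norm_eq_abs, abs_sub_comm]
      apply hosc
      have : (g : E) - (g +ᵥ x) = -x := by
        rw [Submodule.vadd_def, vadd_eq_add]
        abel
      rw [this, norm_neg]
      exact norm_le_cellDiam L hx
    rw [← hdiff, Real.norm_eq_abs] at hbound
    have h2 : H g - (μ.real D)⁻¹ * a g = -((μ.real D)⁻¹ * (a g - μ.real D * H g)) := by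
      field_simp
      ring
    rw [h2, abs_neg, abs_mul, abs_of_pos (inv_pos.mpr hvpos)]
    calc (μ.real D)⁻¹ * |a g - μ.real D * H g| ≤ (μ.real D)⁻¹ * ((M * ω g) * μ.real D) :=
          mul_le_mul_of_nonneg_left hbound (inv_pos.mpr hvpos).le
      _ = M * ω g := by field_simp
  have hMω : Summable fun g : L => M * ω g := hω.mul_left M
  have hdiff_sum : Summable fun g : L => H g - (μ.real D)⁻¹ * a g :=
    Summable.of_norm_bounded hMω (fun g => by rw [Real.norm_eq_abs]; exact hcell g)
  have ha_sum' : HasSum (fun g : L => (μ.real D)⁻¹ * a g) ((μ.real D)⁻¹ * ∫ x, H x ∂μ) :=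
    ha_sum.mul_left _
  have hH_sum : Summable fun g : L => H g := by
    have := hdiff_sum.add ha_sum'.summable
    simpa using this
  refine ⟨hH_sum, ?_⟩
  rw [hvol, ← ha_sum'.tsum_eq, ← hH_sum.tsum_sub ha_sum'.summable, ← tsum_mul_left]
  calc |∑' g : L, (H g - (μ.real D)⁻¹ * a g)| ≤ ∑' g : L, |H g - (μ.real D)⁻¹ * a g| := by
        have := norm_tsum_le_tsum_norm (f := fun g : L => H g - (μ.real D)⁻¹ * a g)
          (by simpa [Real.norm_eq_abs] using hdiff_sum.abs)
        simpa [Real.norm_eq_abs] using this
    _ ≤ ∑' g : L, M * ω g := hdiff_sum.abs.tsum_le_tsum hcell hMω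

end Cell

end Fermat.Agent.Lib.CFT.Unram
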