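/-
helper57 (P-CFT, S14 fast track, WP-A2).  Frobenius elements in cyclotomic extensions
`M = F(ζ_m)` of a number field `F`: primes not containing `m` have trivial inertia, a Frobenius
element acts on `ζ_m` by raising to the power `absNorm 𝔮`, and the elementary facts on norms of
elements congruent to `1` modulo `m` that are needed for the explicit reciprocity law inside
cyclotomic extensions.
-/
import Mathlib
import Fermat.Agent.Lib.CFT.Unram.Defs

set_option autoImplicit false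

namespace Fermat.Agent.Lib.CFT.Unram.CycloFrob

open NumberField
open scoped nonZeroDivisors

/-! ### Roots of unity modulo an ideal -/

section RootsMod

variable {S : Type*} [CommRing S] [IsDomain S]

/-- A root of unity of order dividing `m` which is congruent to `1` modulo an ideal not
containing `m` is equal to `1`. -/
theorem eq_one_of_sub_one_mem {Q : Ideal S} {ξ : S} {m : ℕ} (hξ : ξ ^ m = 1)
    (hQ : ξ - 1 ∈ Q) (hm : (m : S) ∉ Q) : ξ = 1 := by
  by_contra hne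
  have hsum : ∑ j ∈ Finset.range m, ξ ^ j = 0 := by
    have h := geom_sum_mul ξ m
    rw [hξ, sub_self, mul_eq_zero] at h
    exact h.resolve_right (sub_ne_zero.mpr hne)
  apply hm
  have hmk : Ideal.Quotient.mk Q ξ = 1 := by
    rw [← map_one (Ideal.Quotient.mk Q), Ideal.Quotient.eq]
    exact hQ
  have : Ideal.Quotient.mk Q ((m : S)) = Ideal.Quotient.mk Q (∑ j ∈ Finset.range m, ξ ^ j) := by
    simp [map_sum, map_pow, hmk]
  rw [hsum, map_zero, Ideal.Quotient.eq_zero_iff_mem] at this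
  exact this

end RootsMod

/-! ### Automorphisms of cyclotomic extensions -/

section CycloField

variable {F M : Type*} [Field F] [Field M] [Algebra F M]
  {m : ℕ} [NeZero m] {ζ : M} (hζ : IsPrimitiveRoot ζ m)

include hζ

/-- An automorphism of `M = F(ζ)` is determined by its value on `ζ`. -/
theorem eq_of_apply_zeta_eq [IsCyclotomicExtension {m} F M] {σ τ : Gal(M/F)}
    (h : σ ζ = τ ζ) : σ = τ := by
  have : σ.toAlgHom = τ.toAlgHom := by
    apply (hζ.powerBasis F).algHom_ext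
    simpa using h
  exact AlgEquiv.coe_toAlgHom_injective this

/-- `autToPow` detects the action on `ζ`. -/
theorem apply_zeta_eq_pow_iff (σ : Gal(M/F)) (k : ℕ) :
    σ ζ = ζ ^ k ↔ ((hζ.autToPow F σ : (ZMod m)ˣ) : ZMod m) = (k : ZMod m) := by
  rw [← hζ.autToPow_spec F σ, (hζ.isOfFinOrder (NeZero.ne m)).pow_eq_pow_iff_modEq,
    ← hζ.eq_orderOf, ← ZMod.natCast_eq_natCast_iff, ZMod.natCast_zmod_val]

/-- Two automorphisms acting on `ζ` by congruent exponents are equal. -/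
theorem eq_of_apply_zeta_eq_pow [IsCyclotomicExtension {m} F M] {σ τ : Gal(M/F)} {k l : ℕ}
    (hσ : σ ζ = ζ ^ k) (hτ : τ ζ = ζ ^ l) (hkl : (k : ZMod m) = (l : ZMod m)) : σ = τ := by
  apply eq_of_apply_zeta_eq hζ
  rw [hσ, hτ, (hζ.isOfFinOrder (NeZero.ne m)).pow_eq_pow_iff_modEq, ← hζ.eq_orderOf,
    ← ZMod.natCast_eq_natCast_iff]
  exact hkl

/-- An automorphism of `F(ζ_m)` acting on `ζ_m` by an exponent congruent to `1` is trivial. -/
theorem eq_one_of_apply_zeta [IsCyclotomicExtension {m} F M] {σ : Gal(M/F)} {k : ℕ}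
    (hσ : σ ζ = ζ ^ k) (hk : (k : ZMod m) = 1) : σ = 1 := by
  apply eq_of_apply_zeta_eq_pow hζ hσ (l := 1) (by simp)
  simpa using hk

end CycloField

/-! ### Frobenius elements in cyclotomic extensions of number fields -/

section Cyclo

variable {F M : Type*} [Field F] [NumberField F] [Field M] [NumberField M] [Algebra F M]
  [IsGalois F M] {m : ℕ} [NeZero m] {ζ : M} (hζ : IsPrimitiveRoot ζ m)

include hζ

/-- A Frobenius element at a prime `Q` of `M` not containing `m` acts on `ζ` by raising to the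
power `absNorm (Q ∩ 𝓞 F)`. -/
theorem apply_zeta_of_isArithFrobAt {σ : Gal(M/F)} {Q : Ideal (𝓞 M)}
    (hm : (m : 𝓞 M) ∉ Q) (H : IsArithFrobAt (𝓞 F) σ Q) :
    σ ζ = ζ ^ Ideal.absNorm (Q.under (𝓞 F)) := by
  have hzm : hζ.toInteger ^ m = 1 := hζ.toInteger_isPrimitiveRoot.pow_eq_one
  have h1 := H.apply_of_pow_eq_one (ζ := hζ.toInteger) (m := m) hzm hm
  have h2 : σ ζ = ((hζ.toInteger ^ Nat.card (𝓞 F ⧸ Q.under (𝓞 F)) : 𝓞 M) : M) :=
    congrArg (fun x : 𝓞 M => (x : M)) h1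
  rw [h2, Ideal.absNorm_apply, Submodule.cardQuot_apply]
  exact map_pow (algebraMap (𝓞 M) M) _ _

omit [NumberField F] [NumberField M] [IsGalois F M] in
/-- The inertia group of a prime of `M = F(ζ_m)` not containing `m` is trivial. -/
theorem inertia_eq_bot [IsCyclotomicExtension {m} F M] {Q : Ideal (𝓞 M)}
    (hm : (m : 𝓞 M) ∉ Q) : Ideal.inertia Gal(M/F) Q = ⊥ := by
  rw [eq_bot_iff]
  intro σ hσ
  rw [Subgroup.mem_bot]
  apply eq_of_apply_zeta_eq hζ
  rw [AlgEquiv.one_apply]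
  -- `σ ζ = ζ ^ i`
  set i := ((hζ.autToPow F σ : (ZMod m)ˣ) : ZMod m).val with hi
  have hσζ : σ ζ = ζ ^ i := (hζ.autToPow_spec F σ).symm
  set z : 𝓞 M := hζ.toInteger with hz
  have hzm : z ^ m = 1 := hζ.toInteger_isPrimitiveRoot.pow_eq_one
  have hmem : σ • z - z ∈ Q := hσ z
  have hσz : σ • z = z ^ i := by
    apply RingOfIntegers.ext
    have h1 : ((σ • z : 𝓞 M) : M) = σ ζ := rfl
    have h2 : ((z ^ i : 𝓞 M) : M) = ζ ^ i := map_pow (algebraMap (𝓞 M) M) z i
    rw [h1, h2, hσζ]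
  have hm1 : 1 ≤ m := Nat.one_le_iff_ne_zero.mpr (NeZero.ne m)
  have hzinv : z ^ (m - 1) * z = 1 := by rw [← pow_succ, Nat.sub_add_cancel hm1, hzm]
  -- `ξ = z ^ (i + (m - 1))` is congruent to `1`
  have hξ : z ^ (i + (m - 1)) - 1 ∈ Q := by
    have : z ^ (i + (m - 1)) - 1 = z ^ (m - 1) * (σ • z - z) := by
      rw [hσz, mul_sub, hzinv, pow_add, mul_comm]
    rw [this]
    exact Q.mul_mem_left _ hmem
  have hξ1 : z ^ (i + (m - 1)) = 1 :=
    eq_one_of_sub_one_mem (by rw [← pow_mul, mul_comm, pow_mul, hzm, one_pow]) hξ hm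
  have hzi : z ^ i = z := by
    have := congrArg (· * z) hξ1
    simp only [one_mul] at this
    rwa [pow_add, mul_assoc, hzinv, mul_one] at this
  rw [hσζ]
  have h2 : ((z ^ i : 𝓞 M) : M) = ζ ^ i := map_pow (algebraMap (𝓞 M) M) z i
  rw [← h2, hzi]
  rfl

/-- `autToPow` of a Frobenius element at a prime not containing `m` is the class of
`absNorm (Q ∩ 𝓞 F)`. -/
theorem autToPow_of_isArithFrobAt {σ : Gal(M/F)} {Q : Ideal (𝓞 M)}
    (hm : (m : 𝓞 M) ∉ Q) (H : IsArithFrobAt (𝓞 F) σ Q) :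
    ((hζ.autToPow F σ : (ZMod m)ˣ) : ZMod m) = (Ideal.absNorm (Q.under (𝓞 F)) : ZMod m) :=
  (apply_zeta_eq_pow_iff hζ σ _).mp (apply_zeta_of_isArithFrobAt hζ hm H)

/-- Two Frobenius elements (at primes not containing `m`) whose underlying primes of `F` have
congruent norms modulo `m` are equal. -/
theorem eq_of_isArithFrobAt [IsCyclotomicExtension {m} F M] {σ τ : Gal(M/F)}
    {Q Q' : Ideal (𝓞 M)} (hm : (m : 𝓞 M) ∉ Q) (hm' : (m : 𝓞 M) ∉ Q')
    (H : IsArithFrobAt (𝓞 F) σ Q) (H' : IsArithFrobAt (𝓞 F) τ Q')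
    (h : (Ideal.absNorm (Q.under (𝓞 F)) : ZMod m) = (Ideal.absNorm (Q'.under (𝓞 F)) : ZMod m)) :
    σ = τ :=
  eq_of_apply_zeta_eq_pow hζ (apply_zeta_of_isArithFrobAt hζ hm H)
    (apply_zeta_of_isArithFrobAt hζ hm' H') h

end Cyclo

/-! ### Norms of elements congruent to `1` modulo `m` -/

section Norms

variable {F : Type*} [Field F] [NumberField F]

/-- The norm of an integer congruent to `1` modulo `m` is congruent to `1` modulo `m`. -/
theorem norm_one_add_mul_modEq (m : ℕ) (w : 𝓞 F) :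
    Algebra.norm ℤ (1 + (m : 𝓞 F) * w) ≡ 1 [ZMOD m] := by
  classical
  let b := RingOfIntegers.basis F
  rw [Algebra.norm_eq_matrix_det b, ← ZMod.intCast_eq_intCast_iff, Int.cast_one]
  have h1 : (((Algebra.leftMulMatrix b) (1 + (m : 𝓞 F) * w)).det : ZMod m) =
      (Int.castRingHom (ZMod m)) ((Algebra.leftMulMatrix b) (1 + (m : 𝓞 F) * w)).det := rfl
  rw [h1, RingHom.map_det]
  have : (Int.castRingHom (ZMod m)).mapMatrix
      (Algebra.leftMulMatrix b (1 + (m : 𝓞 F) * w)) = 1 := by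
    rw [map_add, map_one, map_mul, map_natCast, map_add, map_one, map_mul, map_natCast]
    simp
  rw [this, Matrix.det_one]

/-- The norm of an integer congruent to `1` modulo `m` is congruent to `1` modulo `m`. -/
theorem norm_modEq_one_of_sub_one_mem {m : ℕ} {x : 𝓞 F}
    (hx : x - 1 ∈ Ideal.span {(m : 𝓞 F)}) : Algebra.norm ℤ x ≡ 1 [ZMOD m] := by
  obtain ⟨w, hw⟩ := Ideal.mem_span_singleton'.mp hx
  have : x = 1 + (m : 𝓞 F) * w := by rw [mul_comm, hw]; ring
  rw [this]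
  exact norm_one_add_mul_modEq m w

/-- In a totally complex number field, norms of nonzero elements are positive. -/
theorem norm_pos_of_isTotallyComplex [IsTotallyComplex F] {x : F} (hx : x ≠ 0) :
    0 < Algebra.norm ℚ x := by
  classical
  have h1 : (algebraMap ℚ ℂ) (Algebra.norm ℚ x) = ∏ φ : F →+* ℂ, φ x := by
    rw [Algebra.norm_eq_prod_embeddings ℚ ℂ x]
    exact (Fintype.prod_equiv (RingHom.equivRatAlgHom F ℂ) (fun φ => φ x) (fun σ => σ x)
      (fun _ => by simp [RingHom.equivRatAlgHom_apply])).symm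
  have hne : ∀ φ : F →+* ℂ, φ x ≠ 0 := fun φ => (map_ne_zero φ).mpr hx
  have h2 : ∏ φ : F →+* ℂ, (φ x / (‖φ x‖ : ℂ)) = 1 := by
    refine Finset.prod_involution (fun φ _ => ComplexEmbedding.conjugate φ) ?_ ?_ ?_ ?_
    · intro φ _
      have hn : (‖φ x‖ : ℂ) ≠ 0 := by
        rw [Ne, Complex.ofReal_eq_zero, norm_eq_zero]; exact hne φ
      rw [ComplexEmbedding.conjugate_coe_eq, Complex.norm_conj]
      field_simp
      rw [Complex.mul_conj, Complex.normSq_eq_norm_sq]
      push_cast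
      ring
    · intro φ _ _ h
      exact IsTotallyComplex.complexEmbedding_not_isReal φ (ComplexEmbedding.isReal_iff.mpr h)
    · intro φ _
      exact Finset.mem_univ _
    · intro φ _
      exact star_star φ
  have h3 : ∏ φ : F →+* ℂ, φ x = ((∏ φ : F →+* ℂ, ‖φ x‖ : ℝ) : ℂ) := by
    have : ∏ φ : F →+* ℂ, φ x =
        (∏ φ : F →+* ℂ, (‖φ x‖ : ℂ)) * ∏ φ : F →+* ℂ, (φ x / (‖φ x‖ : ℂ)) := by
      rw [← Finset.prod_mul_distrib]
      refine Finset.prod_congr rfl fun φ _ => ?_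
      have hn : (‖φ x‖ : ℂ) ≠ 0 := by
        rw [Ne, Complex.ofReal_eq_zero, norm_eq_zero]; exact hne φ
      field_simp
    rw [this, h2, mul_one]
    push_cast
    rfl
  have h4 : ((Algebra.norm ℚ x : ℚ) : ℝ) = ∏ φ : F →+* ℂ, ‖φ x‖ := by
    apply Complex.ofReal_injective
    rw [← h3, ← h1]
    simp
  have h5 : 0 < ∏ φ : F →+* ℂ, ‖φ x‖ := Finset.prod_pos fun φ _ => norm_pos_iff.mpr (hne φ)
  rw [← h4] at h5
  exact_mod_cast h5

/-- In a totally complex number field, norms of nonzero integers are positive. -/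
theorem int_norm_pos_of_isTotallyComplex [IsTotallyComplex F] {x : 𝓞 F} (hx : x ≠ 0) :
    0 < Algebra.norm ℤ x := by
  have h := norm_pos_of_isTotallyComplex (F := F) (x := (x : F))
    (by rwa [Ne, RingOfIntegers.coe_eq_zero_iff])
  rw [← Algebra.coe_norm_int] at h
  exact_mod_cast h

/-- In a totally complex number field the absolute norm of the principal ideal generated by an
integer congruent to `1` modulo `m` is congruent to `1` modulo `m`. -/
theorem absNorm_span_singleton_of_sub_one_mem [IsTotallyComplex F] {m : ℕ} {x : 𝓞 F}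
    (hx : x - 1 ∈ Ideal.span {(m : 𝓞 F)}) :
    (Ideal.absNorm (Ideal.span {x}) : ZMod m) = 1 := by
  rcases eq_or_ne x 0 with rfl | hx0
  · -- then `m` is a unit, so `m = 1`
    have h1 : (1 : 𝓞 F) ∈ Ideal.span {(m : 𝓞 F)} := by
      have := (Ideal.span {(m : 𝓞 F)}).neg_mem hx
      simpa using this
    have hunit : IsUnit (m : 𝓞 F) := Ideal.span_singleton_eq_top.mp
      ((Ideal.eq_top_iff_one _).mpr h1)
    have hm1 : m = 1 := by
      classical
      have h2 : IsUnit (Algebra.norm ℤ (algebraMap ℤ (𝓞 F) (m : ℤ))) := by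
        have : algebraMap ℤ (𝓞 F) (m : ℤ) = (m : 𝓞 F) := by simp
        rw [this]
        exact hunit.map (Algebra.norm ℤ)
      rw [Algebra.norm_algebraMap_of_basis (RingOfIntegers.basis F), isUnit_pow_iff
        Fintype.card_ne_zero, Int.ofNat_isUnit, Nat.isUnit_iff] at h2
      exact h2
    subst hm1
    exact Subsingleton.elim _ _
  · rw [Ideal.absNorm_span_singleton]
    have hpos := int_norm_pos_of_isTotallyComplex hx0
    have hcong := norm_modEq_one_of_sub_one_mem hx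
    have h1 : ((Algebra.norm ℤ x).natAbs : ℤ) = Algebra.norm ℤ x := Int.natAbs_of_nonneg hpos.le
    have h2 : (((Algebra.norm ℤ x).natAbs : ℤ) : ZMod m) = ((Algebra.norm ℤ x : ℤ) : ZMod m) := by
      rw [h1]
    rw [Int.cast_natCast] at h2
    rw [h2, ← Int.cast_one, ZMod.intCast_eq_intCast_iff]
    exact hcong

end Norms

/-! ### Subextensions of cyclotomic extensions: explicit reciprocity -/

section SubExtension

variable {F E M : Type*} [Field F] [NumberField F] [Field E] [NumberField E]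
  [Field M] [NumberField M] [Algebra F E] [Algebra F M] [Algebra E M] [IsScalarTower F E M]
  [IsGalois F E] [IsGalois F M]

/-- The restriction to a Galois subextension `E` of a Frobenius element at `Q` is a Frobenius
element at `Q ∩ 𝓞 E`. -/
theorem isArithFrobAt_restrictNormalHom {σ : Gal(M/F)} {Q : Ideal (𝓞 M)}
    (H : IsArithFrobAt (𝓞 F) σ Q) :
    IsArithFrobAt (𝓞 F) (AlgEquiv.restrictNormalHom E σ) (Q.under (𝓞 E)) := by
  intro x
  have hcomm : algebraMap (𝓞 E) (𝓞 M) ((AlgEquiv.restrictNormalHom E σ) • x) =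
      σ • (algebraMap (𝓞 E) (𝓞 M) x) := by
    apply RingOfIntegers.ext
    exact AlgEquiv.restrictNormal_commutes σ E (x : E)
  have h := H (algebraMap (𝓞 E) (𝓞 M) x)
  rw [Ideal.under_def (𝓞 E), Ideal.mem_comap, map_sub, map_pow, Ideal.under_under]
  change algebraMap (𝓞 E) (𝓞 M) ((AlgEquiv.restrictNormalHom E σ) • x) - _ ∈ Q
  rw [hcomm]
  exact h

variable {m : ℕ} [NeZero m] [IsCyclotomicExtension {m} F M] {ζ : M} (hζ : IsPrimitiveRoot ζ m)
  {φ : (Ideal (𝓞 F))⁰ →* Gal(E/F)} (hφ : IsArtinMap F E φ) (hur : IsUnramifiedEverywhere F E)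

include hζ hφ hur

omit [IsCyclotomicExtension {m} F M] in
/-- For a prime `𝔮` of `F` not containing `m`, the Artin symbol of `𝔮` in a subextension `E/F` of
`F(ζ_m)/F` is the restriction of the automorphism `ζ ↦ ζ ^ absNorm 𝔮`. -/
theorem exists_lift_of_prime (𝔮 : (Ideal (𝓞 F))⁰) (hq : (𝔮 : Ideal (𝓞 F)).IsPrime)
    (hm : (m : 𝓞 F) ∉ (𝔮 : Ideal (𝓞 F))) :
    ∃ σ : Gal(M/F), σ ζ = ζ ^ Ideal.absNorm (𝔮 : Ideal (𝓞 F)) ∧
      AlgEquiv.restrictNormalHom E σ = φ 𝔮 := by
  have hq0 : (𝔮 : Ideal (𝓞 F)) ≠ ⊥ := nonZeroDivisors.coe_ne_zero 𝔮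
  obtain ⟨Q, -, hQp, hQ⟩ := Ideal.exists_ideal_over_prime_of_isIntegral (S := 𝓞 M)
    (𝔮 : Ideal (𝓞 F)) ⊥ (by simp [Ideal.comap_bot_of_injective _
      (FaithfulSMul.algebraMap_injective (𝓞 F) (𝓞 M))])
  have hQu : Q.under (𝓞 F) = (𝔮 : Ideal (𝓞 F)) := hQ
  have hQ0 : Q ≠ ⊥ := by
    rintro rfl
    apply hq0
    rw [← hQu, Ideal.under_def, Ideal.comap_bot_of_injective _
      (FaithfulSMul.algebraMap_injective (𝓞 F) (𝓞 M))]
  have hmQ : (m : 𝓞 M) ∉ Q := by
    intro h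
    apply hm
    rw [← hQu, Ideal.under_def, Ideal.mem_comap, map_natCast]
    exact h
  have : Finite (𝓞 M ⧸ Q) := Ideal.finiteQuotientOfFreeOfNeBot Q hQ0
  obtain ⟨σ, hσ⟩ := IsArithFrobAt.exists_of_isInvariant (𝓞 F) Gal(M/F) Q
  refine ⟨σ, ?_, ?_⟩
  · rw [apply_zeta_of_isArithFrobAt hζ hmQ hσ, hQu]
  · -- both sides are Frobenius elements at `P = Q ∩ 𝓞 E`, and `E/F` is unramified
    set P : Ideal (𝓞 E) := Q.under (𝓞 E) with hP
    have hPp : P.IsPrime := Ideal.IsPrime.under (𝓞 E) Q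
    have hPq : P.LiesOver (𝔮 : Ideal (𝓞 F)) := ⟨by rw [hP, Ideal.under_under, hQu]⟩
    have hP0 : P ≠ ⊥ := by
      rintro h0
      apply hq0
      have := hPq.over
      rw [this, h0, Ideal.under_def, Ideal.comap_bot_of_injective _
        (FaithfulSMul.algebraMap_injective (𝓞 F) (𝓞 E))]
    have h1 : IsArithFrobAt (𝓞 F) (AlgEquiv.restrictNormalHom E σ) P :=
      isArithFrobAt_restrictNormalHom hσ
    have h2 : IsArithFrobAt (𝓞 F) (φ 𝔮) P := hφ 𝔮 P hq hPp hPq
    have h3 := h1.mul_inv_mem_inertia h2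
    rw [hur P hPp hP0, Subgroup.mem_bot] at h3
    exact mul_inv_eq_one.mp h3

omit [IsCyclotomicExtension {m} F M] in
/-- For every nonzero ideal `I` of `F` coprime to `m`, the Artin symbol of `I` in a subextension
`E/F` of `F(ζ_m)/F` is the restriction of the automorphism `ζ ↦ ζ ^ absNorm I`. -/
theorem exists_lift_of_isCoprime (I : (Ideal (𝓞 F))⁰)
    (hI : IsCoprime (I : Ideal (𝓞 F)) (Ideal.span {(m : 𝓞 F)})) :
    ∃ σ : Gal(M/F), σ ζ = ζ ^ Ideal.absNorm (I : Ideal (𝓞 F)) ∧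
      AlgEquiv.restrictNormalHom E σ = φ I := by
  obtain ⟨J, hJ⟩ := I
  revert hJ
  induction J using UniqueFactorizationMonoid.induction_on_prime with
  | h₁ =>
    intro hJ
    exact absurd rfl (mem_nonZeroDivisors_iff_ne_zero.mp hJ)
  | h₂ J hJu =>
    intro hJ _
    have hJ1 : J = 1 := by simpa using hJu
    subst hJ1
    refine ⟨1, ?_, ?_⟩
    · simp [Ideal.one_eq_top]
    · rw [map_one]
      have : (⟨1, hJ⟩ : (Ideal (𝓞 F))⁰) = 1 := rfl
      rw [this, map_one]
  | h₃ J 𝔭 hJ0 hp ih =>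
    intro hJ hcop
    have hp0 : 𝔭 ≠ ⊥ := hp.ne_zero
    have hpp : 𝔭.IsPrime := (Ideal.prime_iff_isPrime hp0).mp hp
    have hpmem : 𝔭 ∈ (Ideal (𝓞 F))⁰ := mem_nonZeroDivisors_iff_ne_zero.mpr hp0
    have hJmem : J ∈ (Ideal (𝓞 F))⁰ := mem_nonZeroDivisors_iff_ne_zero.mpr hJ0
    have hcop1 : IsCoprime 𝔭 (Ideal.span {(m : 𝓞 F)}) := IsCoprime.of_mul_left_left hcop
    have hcop2 : IsCoprime J (Ideal.span {(m : 𝓞 F)}) := IsCoprime.of_mul_left_right hcop
    have hm : (m : 𝓞 F) ∉ 𝔭 := by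
      intro h
      have hle : Ideal.span {(m : 𝓞 F)} ≤ 𝔭 := (Ideal.span_singleton_le_iff_mem _).mpr h
      have := Ideal.isCoprime_iff_sup_eq.mp hcop1
      rw [sup_eq_left.mpr hle] at this
      exact hpp.ne_top this
    obtain ⟨σ₁, hσ₁, hσ₁'⟩ := exists_lift_of_prime hζ hφ hur ⟨𝔭, hpmem⟩ hpp hm
    obtain ⟨σ₂, hσ₂, hσ₂'⟩ := ih hJmem hcop2
    refine ⟨σ₁ * σ₂, ?_, ?_⟩
    · rw [AlgEquiv.mul_apply, hσ₂, map_pow, hσ₁, ← pow_mul, map_mul]
    · rw [map_mul, hσ₁', hσ₂', ← map_mul]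
      rfl

/-- **Explicit reciprocity inside a cyclotomic extension.** Let `E/F` be an everywhere unramified
Galois subextension of `F(ζ_m)/F` with an Artin map `φ`. If `I` is a nonzero ideal coprime to `m`
whose absolute norm is congruent to `1` modulo `m`, then `φ I = 1`. -/
theorem artinMap_eq_one_of_absNorm (I : (Ideal (𝓞 F))⁰)
    (hI : IsCoprime (I : Ideal (𝓞 F)) (Ideal.span {(m : 𝓞 F)}))
    (hN : (Ideal.absNorm (I : Ideal (𝓞 F)) : ZMod m) = 1) : φ I = 1 := by
  obtain ⟨σ, hσ, hσ'⟩ := exists_lift_of_isCoprime hζ hφ hur I hI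
  rw [← hσ', eq_one_of_apply_zeta hζ hσ hN, map_one]

/-- **Explicit reciprocity inside a cyclotomic extension, principal ideals.** Let `F` be totally
complex and let `E/F` be an everywhere unramified Galois subextension of `F(ζ_m)/F` with an Artin
map `φ`. If `x ≡ 1 mod m` then `φ (x) = 1`. -/
theorem artinMap_span_singleton_eq_one [IsTotallyComplex F] (I : (Ideal (𝓞 F))⁰) {x : 𝓞 F}
    (hIx : (I : Ideal (𝓞 F)) = Ideal.span {x}) (hx : x - 1 ∈ Ideal.span {(m : 𝓞 F)}) :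
    φ I = 1 := by
  apply artinMap_eq_one_of_absNorm hζ hφ hur I
  · rw [hIx, Ideal.isCoprime_iff_sup_eq, Ideal.eq_top_iff_one]
    have h1 : x ∈ Ideal.span {x} ⊔ Ideal.span {(m : 𝓞 F)} :=
      Ideal.mem_sup_left (Ideal.mem_span_singleton_self x)
    have h2 : x - 1 ∈ Ideal.span {x} ⊔ Ideal.span {(m : 𝓞 F)} := Ideal.mem_sup_right hx
    have := Ideal.sub_mem _ h1 h2
    simpa using this
  · rw [hIx]
    exact absNorm_span_singleton_of_sub_one_mem hx

end SubExtension

end Fermat.Agent.Lib.CFT.Unram.CycloFrob
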