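/-
helper14 (P-CFT, S14 fast track).  Assembly: from the work packages
`ArtinMapExists`, `LowerBound p`, `KernelInNorms p` to `Reciprocity p`, and from `Reciprocity p`
to the S14 interface statement `S14.ArtinUnramifiedCyclic p`.
-/
import Mathlib
import Fermat.Agent.Lib.CFT.Unram.Defs
import Fermat.Agent.Lib.CFT.S14.Interface

set_option autoImplicit false

namespace Fermat.Agent.Lib.CFT.Unram

open NumberField
open scoped nonZeroDivisors

/-- Abstract counting lemma.  `φ : I →* G` and `ψ : I →* Y` homomorphisms from a commutative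
monoid to finite groups, `ψ` onto, `ker φ ⊆ ker ψ`, and `|G| ≤ |Y|`.  Then `φ` is onto and
`ker ψ ⊆ ker φ`. -/
theorem surjective_and_ker_le_of_card_le {I G Y : Type*} [CommMonoid I] [Group G] [Finite G]
    [Group Y] [Finite Y] (φ : I →* G) (ψ : I →* Y) (hψ : Function.Surjective ψ)
    (hker : ∀ a, φ a = 1 → ψ a = 1) (hcard : Nat.card G ≤ Nat.card Y) :
    Function.Surjective φ ∧ ∀ a, ψ a = 1 → φ a = 1 := by
  classical
  have hn : 0 < Nat.card G := Nat.card_pos
  -- `φ a = φ b → ψ a = ψ b`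
  have hfac : ∀ a b, φ a = φ b → ψ a = ψ b := by
    intro a b hab
    set n := Nat.card G with hn_def
    have h1 : φ (a * b ^ (n - 1)) = 1 := by
      rw [map_mul, map_pow, hab, ← pow_succ', Nat.sub_add_cancel hn, hn_def, pow_card_eq_one']
    have h2 : φ (b ^ n) = 1 := by
      rw [map_pow, hn_def, pow_card_eq_one']
    have h3 := hker _ h1
    have h4 := hker _ h2
    rw [map_mul, map_pow] at h3
    rw [map_pow] at h4
    have h5 : ψ b ^ (n - 1) * ψ b = 1 := by
      rw [← pow_succ, Nat.sub_add_cancel hn, h4]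
    have h6 : ψ b ^ (n - 1) = (ψ b)⁻¹ := eq_inv_of_mul_eq_one_left h5
    rw [h6] at h3
    exact eq_of_mul_inv_eq_one h3
  -- the induced surjection `range φ → Y`
  let S : Set G := Set.range φ
  let θ : S → Y := fun g => ψ g.2.choose
  have hθ : Function.Surjective θ := by
    intro y
    obtain ⟨a, rfl⟩ := hψ y
    refine ⟨⟨φ a, a, rfl⟩, ?_⟩
    have : φ (⟨φ a, a, rfl⟩ : S).2.choose = φ a := (⟨φ a, a, rfl⟩ : S).2.choose_spec
    exact hfac _ _ this
  have hYS : Nat.card Y ≤ Nat.card S := Nat.card_le_card_of_surjective θ hθ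
  have hSG : Nat.card S ≤ Nat.card G := Nat.card_le_card_of_injective _ Subtype.val_injective
  have hSG' : Nat.card S = Nat.card G := le_antisymm hSG (hcard.trans hYS)
  have hSY : Nat.card S = Nat.card Y := le_antisymm (hSG.trans hcard) hYS
  have hSuniv : S = Set.univ := by
    have hfin : S.Finite := Set.toFinite S
    by_contra hne
    have hlt : S ⊂ Set.univ := Set.ssubset_univ_iff.mpr hne
    have := Set.ncard_lt_ncard hlt (Set.toFinite _)
    rw [Set.ncard_univ, ← Nat.card_coe_set_eq] at this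
    omega
  have hsurj : Function.Surjective φ := by
    intro g
    have : g ∈ S := hSuniv ▸ Set.mem_univ g
    exact this
  refine ⟨hsurj, ?_⟩
  -- `θ` is a bijection
  have hθinj : Function.Injective θ := by
    have hfinS : Finite S := inferInstance
    have := (Nat.bijective_iff_surjective_and_card θ).mpr ⟨hθ, hSY⟩
    exact this.1
  intro a ha
  have h1 : θ ⟨φ a, a, rfl⟩ = ψ a :=
    hfac _ _ (⟨φ a, a, rfl⟩ : S).2.choose_spec
  have h2 : θ ⟨φ 1, 1, rfl⟩ = ψ 1 :=
    hfac _ _ (⟨φ 1, 1, rfl⟩ : S).2.choose_spec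
  have h3 : θ ⟨φ a, a, rfl⟩ = θ ⟨φ 1, 1, rfl⟩ := by rw [h1, h2, ha, map_one]
  have h4 := hθinj h3
  have h5 : φ a = φ 1 := congrArg Subtype.val h4
  rw [h5, map_one]

section

variable {K : Type*} [Field K] [NumberField K]

/-- If a monoid homomorphism on nonzero ideals is trivial on all nonzero primes then it is
trivial. -/
theorem eq_one_of_forall_prime {G : Type*} [Monoid G] (φ : (Ideal (𝓞 K))⁰ →* G)
    (h : ∀ 𝔮 : (Ideal (𝓞 K))⁰, (𝔮 : Ideal (𝓞 K)).IsPrime → φ 𝔮 = 1)
    (I : (Ideal (𝓞 K))⁰) : φ I = 1 := by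
  obtain ⟨I, hI⟩ := I
  induction I using UniqueFactorizationMonoid.induction_on_prime with
  | h₁ =>
    exact absurd rfl (mem_nonZeroDivisors_iff_ne_zero.mp hI)
  | h₂ x hx =>
    have hx1 : x = 1 := by
      rwa [Ideal.isUnit_iff, ← Ideal.one_eq_top] at hx
    subst hx1
    exact map_one φ
  | h₃ a 𝔮 ha h𝔮 ih =>
    have ha0 : a ∈ (Ideal (𝓞 K))⁰ := mem_nonZeroDivisors_iff_ne_zero.mpr ha
    have h𝔮0 : 𝔮 ∈ (Ideal (𝓞 K))⁰ := mem_nonZeroDivisors_iff_ne_zero.mpr h𝔮.ne_zero
    have hmul : (⟨𝔮 * a, hI⟩ : (Ideal (𝓞 K))⁰) = ⟨𝔮, h𝔮0⟩ * ⟨a, ha0⟩ := rfl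
    rw [hmul, map_mul, ih ha0, mul_one]
    exact h ⟨𝔮, h𝔮0⟩ (Ideal.isPrime_of_prime h𝔮)

end

/-- `Reciprocity p` follows from existence of the Artin map, the lower bound and Artin's crossing
theorem. -/
theorem reciprocity_of (p : ℕ) [Fact p.Prime] (hA : ArtinMapExists) (hL : LowerBound p)
    (hK : KernelInNorms p) : Reciprocity p := by
  intro K L _ _ _ _ _ _ hc hdeg hunr
  have hcard : Nat.card Gal(L/K) = p := by
    rw [IsGalois.card_aut_eq_finrank, hdeg]
  have hcyc : IsCyclic Gal(L/K) := isCyclic_of_prime_card hcard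
  have hcomm : ∀ σ τ : Gal(L/K), σ * τ = τ * σ := fun σ τ => by
    let _ := IsCyclic.commGroup (α := Gal(L/K))
    exact mul_comm σ τ
  obtain ⟨φ, hφ⟩ := hA K L hcomm hunr
  refine ⟨φ, hφ, ?_⟩
  -- the quotient map to `Y`
  let ψ : (Ideal (𝓞 K))⁰ →* ClassGroup (𝓞 K) ⧸ normClasses K L :=
    (QuotientGroup.mk' (normClasses K L)).comp ClassGroup.mk0
  have hψ : Function.Surjective ψ :=
    (QuotientGroup.mk'_surjective _).comp ClassGroup.mk0_surjective
  have hker : ∀ a, φ a = 1 → ψ a = 1 := by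
    intro a ha
    have := hK K L hc hdeg hunr φ hφ a ha
    exact (QuotientGroup.eq_one_iff _).mpr this
  have hcardle : Nat.card Gal(L/K) ≤ Nat.card (ClassGroup (𝓞 K) ⧸ normClasses K L) := by
    rw [hcard]
    exact hL K L hc hdeg hunr
  obtain ⟨hsurj, hle⟩ := surjective_and_ker_le_of_card_le φ ψ hψ hker hcardle
  constructor
  · intro I hI
    apply hle
    have : ClassGroup.mk0 I = 1 := (ClassGroup.mk0_eq_one_iff I.2).mpr hI
    change (QuotientGroup.mk' (normClasses K L)) (ClassGroup.mk0 I) = 1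
    rw [this, map_one]
  · by_contra hno
    push Not at hno
    have hall : ∀ I, φ I = 1 := eq_one_of_forall_prime φ (fun 𝔮 h𝔮 => hno 𝔮 h𝔮)
    have hp : 1 < Nat.card Gal(L/K) := by
      rw [hcard]
      exact (Fact.out : p.Prime).one_lt
    have : Nontrivial Gal(L/K) := Finite.one_lt_card_iff_nontrivial.mp hp
    obtain ⟨g, hg⟩ := exists_ne (1 : Gal(L/K))
    obtain ⟨I, rfl⟩ := hsurj g
    exact hg (hall I)

/-- A number field containing a primitive `p`-th root of unity, `p ≥ 3`, is totally complex. -/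
theorem isTotallyComplex_of_primitiveRoot {K : Type*} [Field K] [NumberField K] {p : ℕ}
    (hp : 3 ≤ p) {ζ : K} (hζ : IsPrimitiveRoot ζ p) : IsTotallyComplex K := by
  refine ⟨fun w => ?_⟩
  rw [← InfinitePlace.not_isReal_iff_isComplex]
  intro hw
  let f : K →+* ℝ := InfinitePlace.embedding_of_isReal hw
  have hfζ : IsPrimitiveRoot (f ζ) p := hζ.map_of_injective f.injective
  have h1 : (f ζ) ^ p = 1 := hfζ.pow_eq_one
  -- a real root of unity is `±1`
  have h2 : f ζ = 1 ∨ f ζ = -1 := by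
    have habs : |f ζ| = 1 := by
      have : |f ζ| ^ p = 1 := by rw [← abs_pow, h1, abs_one]
      exact (pow_eq_one_iff_of_nonneg (abs_nonneg _) (by omega)).mp this
    rcases abs_eq (zero_le_one' ℝ) |>.mp habs with h | h
    · exact Or.inl h
    · exact Or.inr h
  have h3 : (f ζ) ^ 2 = 1 := by
    rcases h2 with h | h <;> rw [h] <;> norm_num
  have := hfζ.dvd_of_pow_eq_one 2 h3
  have := Nat.le_of_dvd (by norm_num) this
  omega

/-- The S14 interface statement follows from `Reciprocity p`. -/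
theorem artinUnramifiedCyclic_of_reciprocity (p : ℕ) [Fact p.Prime] (h : Reciprocity p) :
    S14.ArtinUnramifiedCyclic p := by
  intro K M _ _ _ _ _ _ hp2 hζ hdeg hunr
  obtain ⟨ζ, hζ⟩ := hζ
  have hp3 : 3 ≤ p := by
    have := (Fact.out : p.Prime).two_le
    omega
  have hc : IsTotallyComplex K := isTotallyComplex_of_primitiveRoot hp3 hζ
  obtain ⟨φ, hφ, h1, h2⟩ := h K M hc hdeg hunr
  exact ⟨φ, hφ, h1, h2⟩

end Fermat.Agent.Lib.CFT.Unram
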