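/-
helper14 (P-CFT, S14 fast track).  Artin's cyclotomic crossing, abstract part:
`KernelInNorms p` from the crossing data (WP-A5), the Artin map package (WP-A1), both
inequalities (WP-L, WP-U) and the moving lemmas.
-/
import Mathlib
import Fermat.Agent.Lib.CFT.Unram.CrossingDefs
import Fermat.Agent.Lib.CFT.Unram.Assembly

set_option autoImplicit false

namespace Fermat.Agent.Lib.CFT.Unram

open NumberField
open scoped nonZeroDivisors

/-! ### Preliminaries on norms and classes -/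

section Prelim

variable {K L : Type*} [Field K] [NumberField K] [Field L] [NumberField L] [Algebra K L]

/-- `relNorm0` is compatible with equality of ideal classes. -/
lemma mk0_relNorm0_eq_of_mk0_eq {I J : (Ideal (𝓞 L))⁰}
    (h : ClassGroup.mk0 I = ClassGroup.mk0 J) :
    ClassGroup.mk0 (relNorm0 K L I) = ClassGroup.mk0 (relNorm0 K L J) := by
  obtain ⟨x, y, hx, hy, hxy⟩ := ClassGroup.mk0_eq_mk0_iff.mp h
  refine ClassGroup.mk0_eq_mk0_iff.mpr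
    ⟨Algebra.intNorm (𝓞 K) (𝓞 L) x, Algebra.intNorm (𝓞 K) (𝓞 L) y, ?_, ?_, ?_⟩
  · rwa [Ne, Algebra.intNorm_eq_zero]
  · rwa [Ne, Algebra.intNorm_eq_zero]
  · have := congrArg (Ideal.relNorm (𝓞 K)) hxy
    rw [map_mul, map_mul, Ideal.relNorm_singleton, Ideal.relNorm_singleton] at this
    exact this

lemma mk0_relNorm0_mem_normClasses (𝔄 : (Ideal (𝓞 L))⁰) :
    ClassGroup.mk0 (relNorm0 K L 𝔄) ∈ normClasses K L :=
  Subgroup.subset_closure ⟨𝔄, rfl⟩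

/-- Every element of `normClasses` is the class of a norm. -/
lemma exists_of_mem_normClasses {C : ClassGroup (𝓞 K)} (hC : C ∈ normClasses K L) :
    ∃ 𝔄 : (Ideal (𝓞 L))⁰, ClassGroup.mk0 (relNorm0 K L 𝔄) = C := by
  classical
  induction hC using Subgroup.closure_induction with
  | mem x hx => exact hx
  | one => exact ⟨1, by simp⟩
  | mul x y _ _ hx hy =>
    obtain ⟨a, rfl⟩ := hx
    obtain ⟨b, rfl⟩ := hy
    exact ⟨a * b, by simp⟩
  | inv x _ hx =>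
    obtain ⟨a, rfl⟩ := hx
    have hn : 0 < Nat.card (ClassGroup (𝓞 K)) := Nat.card_pos
    refine ⟨a ^ (Nat.card (ClassGroup (𝓞 K)) - 1), ?_⟩
    rw [map_pow, map_pow]
    apply eq_inv_of_mul_eq_one_left
    rw [← pow_succ, Nat.sub_add_cancel hn, pow_card_eq_one']

/-- Transitivity of `relNorm0`. -/
lemma relNorm0_relNorm0 {E : Type*} [Field E] [NumberField E] [Algebra L E] [Algebra K E]
    [IsScalarTower K L E] (𝔄 : (Ideal (𝓞 E))⁰) :
    relNorm0 K L (relNorm0 L E 𝔄) = relNorm0 K E 𝔄 := by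
  ext1
  simp only [coe_relNorm0]
  exact Ideal.relNorm_relNorm (𝓞 K) (𝓞 L) _

/-- The `p`-th power of an ideal of `K` is a norm from `L` when `[L : K] = p`. -/
lemma mk0_pow_finrank_mem_normClasses {p : ℕ} (hdeg : Module.finrank K L = p)
    (𝔟 : (Ideal (𝓞 K))⁰) : ClassGroup.mk0 (𝔟 ^ p) ∈ normClasses K L := by
  have hb : (𝔟 : Ideal (𝓞 K)).map (algebraMap (𝓞 K) (𝓞 L)) ∈ (Ideal (𝓞 L))⁰ := by
    rw [mem_nonZeroDivisors_iff_ne_zero, Ne, Ideal.zero_eq_bot,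
      Ideal.map_eq_bot_iff_of_injective (FaithfulSMul.algebraMap_injective _ _)]
    exact nonZeroDivisors.coe_ne_zero 𝔟
  have : relNorm0 K L ⟨_, hb⟩ = 𝔟 ^ p := by
    ext1
    rw [coe_relNorm0]
    simp only [SubmonoidClass.coe_pow]
    rw [Ideal.relNorm_algebraMap, ← IsFractionRing.finrank_eq (𝓞 K) K (𝓞 L) L, hdeg]
  rw [← this]
  exact mk0_relNorm0_mem_normClasses _

end Prelim

/-- Pushing norm classes down along a tower: if the class of `𝔡` (an ideal of `F`) is a norm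
class from `E ⊇ L, F`, then the class of `N_{F/K} 𝔡` is a norm class from `L`. -/
lemma mk0_relNorm0_mem_normClasses_of_mem {K L F E : Type*} [Field K] [NumberField K]
    [Field L] [NumberField L] [Field F] [NumberField F] [Field E] [NumberField E]
    [Algebra K L] [Algebra K F] [Algebra L E] [Algebra F E] [Algebra K E]
    [IsScalarTower K L E] [IsScalarTower K F E] {𝔡 : (Ideal (𝓞 F))⁰}
    (h : ClassGroup.mk0 𝔡 ∈ normClasses F E) :
    ClassGroup.mk0 (relNorm0 K F 𝔡) ∈ normClasses K L := by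
  obtain ⟨𝔄, h𝔄⟩ := exists_of_mem_normClasses h
  rw [← mk0_relNorm0_eq_of_mk0_eq h𝔄, relNorm0_relNorm0, ← relNorm0_relNorm0 (L := L)]
  exact mk0_relNorm0_mem_normClasses _

/-! ### Induction on nonzero ideals, homomorphisms to groups of prime order -/

section Induction

variable {K : Type*} [Field K] [NumberField K]

/-- Induction principle: a predicate on nonzero ideals which holds for `1`, for nonzero primes
and is closed under multiplication holds for all nonzero ideals. -/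
theorem ideal0_induction {P : (Ideal (𝓞 K))⁰ → Prop} (h1 : P 1)
    (hp : ∀ 𝔮 : (Ideal (𝓞 K))⁰, (𝔮 : Ideal (𝓞 K)).IsPrime → P 𝔮)
    (hmul : ∀ a b, P a → P b → P (a * b)) (I : (Ideal (𝓞 K))⁰) : P I := by
  obtain ⟨I, hI⟩ := I
  induction I using UniqueFactorizationMonoid.induction_on_prime with
  | h₁ =>
    exact absurd rfl (mem_nonZeroDivisors_iff_ne_zero.mp hI)
  | h₂ x hx =>
    have hx1 : x = 1 := by
      rwa [Ideal.isUnit_iff, ← Ideal.one_eq_top] at hx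
    subst hx1
    exact h1
  | h₃ a 𝔮 ha h𝔮 ih =>
    have ha0 : a ∈ (Ideal (𝓞 K))⁰ := mem_nonZeroDivisors_iff_ne_zero.mpr ha
    have h𝔮0 : 𝔮 ∈ (Ideal (𝓞 K))⁰ := mem_nonZeroDivisors_iff_ne_zero.mpr h𝔮.ne_zero
    have hmul' : (⟨𝔮 * a, hI⟩ : (Ideal (𝓞 K))⁰) = ⟨𝔮, h𝔮0⟩ * ⟨a, ha0⟩ := rfl
    rw [hmul']
    exact hmul _ _ (hp ⟨𝔮, h𝔮0⟩ (Ideal.isPrime_of_prime h𝔮)) (ih ha0)

end Induction

/-! ### The moving lemmas (WP-Moving), as hypotheses -/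

/-- Every ideal class contains an integral ideal prime to a given nonzero integer. -/
def MovingRep : Prop :=
  ∀ (K : Type) [Field K] [NumberField K] (n : ℕ), n ≠ 0 → ∀ C : ClassGroup (𝓞 K),
    ∃ I : (Ideal (𝓞 K))⁰, ClassGroup.mk0 I = C ∧
      IsCoprime (I : Ideal (𝓞 K)) (Ideal.span {(n : 𝓞 K)})

/-- If `𝔡` is prime to `n` and its class is a norm class, the relation can be realised with
principal ideals prime to `n`. -/
def MovingNorm : Prop :=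
  ∀ (K L : Type) [Field K] [NumberField K] [Field L] [NumberField L] [Algebra K L]
    (n : ℕ), n ≠ 0 → ∀ 𝔡 : (Ideal (𝓞 K))⁰,
    IsCoprime (𝔡 : Ideal (𝓞 K)) (Ideal.span {(n : 𝓞 K)}) →
    ClassGroup.mk0 𝔡 ∈ normClasses K L →
    ∃ (x y : 𝓞 K) (hx : x ≠ 0) (hy : y ≠ 0) (𝔄 : (Ideal (𝓞 L))⁰),
      IsCoprime (Ideal.span {x}) (Ideal.span {(n : 𝓞 K)}) ∧
      IsCoprime (Ideal.span {y}) (Ideal.span {(n : 𝓞 K)}) ∧
      span0 x hx * 𝔡 = span0 y hy * relNorm0 K L 𝔄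

/-- The relative norm of an ideal prime to `n` is prime to `n`. -/
def MovingCoprimeNorm : Prop :=
  ∀ (K F : Type) [Field K] [NumberField K] [Field F] [NumberField F] [Algebra K F]
    (n : ℕ) (𝔠 : (Ideal (𝓞 F))⁰),
    IsCoprime (𝔠 : Ideal (𝓞 F)) (Ideal.span {(n : 𝓞 F)}) →
    IsCoprime ((relNorm0 K F 𝔠 : (Ideal (𝓞 K))⁰) : Ideal (𝓞 K)) (Ideal.span {(n : 𝓞 K)})

/-! ### Nontriviality of the Artin map away from `n` -/

section Nontrivial

variable {F E : Type} [Field F] [NumberField F] [Field E] [NumberField E] [Algebra F E]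
  [IsGalois F E]

/-- From the lower bound: some prime of `F` prime to `n` has nontrivial Artin symbol. -/
theorem exists_prime_coprime_artin_ne_one {p : ℕ} (hp : p.Prime) (hL : LowerBound p)
    (hS : ArtinMapSplit) (hM1 : MovingRep) (htc : IsTotallyComplex F)
    (hdeg : Module.finrank F E = p) (hunr : IsUnramifiedEverywhere F E)
    (φ : (Ideal (𝓞 F))⁰ →* Gal(E/F)) (hφ : IsArtinMap F E φ) (n : ℕ) (hn : n ≠ 0) :
    ∃ 𝔮 : (Ideal (𝓞 F))⁰, (𝔮 : Ideal (𝓞 F)).IsPrime ∧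
      IsCoprime (𝔮 : Ideal (𝓞 F)) (Ideal.span {(n : 𝓞 F)}) ∧ φ 𝔮 ≠ 1 := by
  by_contra hno
  push Not at hno
  -- every ideal prime to `n` has a norm class
  have hall : ∀ 𝔡 : (Ideal (𝓞 F))⁰, IsCoprime (𝔡 : Ideal (𝓞 F)) (Ideal.span {(n : 𝓞 F)}) →
      ClassGroup.mk0 𝔡 ∈ normClasses F E := by
    intro 𝔡
    induction 𝔡 using ideal0_induction with
    | h1 => intro _; rw [map_one]; exact one_mem _
    | hp 𝔮 h𝔮 =>
      intro hcop
      obtain ⟨𝔔, h𝔔⟩ := hS F E φ hφ hunr 𝔮 h𝔮 (hno 𝔮 h𝔮 hcop)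
      rw [← h𝔔]
      exact mk0_relNorm0_mem_normClasses _
    | hmul a b ha hb =>
      intro hcop
      have hcop' : IsCoprime ((a : Ideal (𝓞 F)) * (b : Ideal (𝓞 F))) (Ideal.span {(n : 𝓞 F)}) :=
        hcop
      rw [map_mul]
      exact mul_mem (ha hcop'.of_mul_left_left) (hb hcop'.of_mul_left_right)
  have htop : normClasses F E = ⊤ := by
    rw [eq_top_iff]
    intro C _
    obtain ⟨I, rfl, hI⟩ := hM1 F n hn C
    exact hall I hI
  have := hL F E htc hdeg hunr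
  rw [htop, Subgroup.index_top] at this
  have := hp.two_le
  omega

end Nontrivial

/-! ### The equality `ker φ = P·N` away from `n` for auxiliary extensions -/

section EqualityAux

variable {F E : Type} [Field F] [NumberField F] [Field E] [NumberField E] [Algebra F E]
  [IsGalois F E]

/-- The submonoid of nonzero ideals prime to `n`. -/
def coprimeSubmonoid (F : Type) [Field F] [NumberField F] (n : ℕ) :
    Submonoid (Ideal (𝓞 F))⁰ where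
  carrier := {𝔡 | IsCoprime (𝔡 : Ideal (𝓞 F)) (Ideal.span {(n : 𝓞 F)})}
  one_mem' := by
    change IsCoprime ((1 : (Ideal (𝓞 F))⁰) : Ideal (𝓞 F)) _
    exact isCoprime_one_left
  mul_mem' := by
    intro a b ha hb
    exact IsCoprime.mul_left ha hb

/-- Key step of the crossing argument.  Let `E/F` be Galois of prime degree `p`, everywhere
unramified, `F` totally complex, and suppose that the Artin map `φ` kills the principal ideals
prime to `n` (this is (CYC) when `E ⊆ F(ζ_n)`).  Then an ideal `𝔡` prime to `n` with `φ 𝔡 = 1`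
has its class in `normClasses F E`. -/
theorem mem_normClasses_of_artin_eq_one {p : ℕ} (hp : p.Prime) (hL : LowerBound p)
    (hU : UpperBound p) (hS : ArtinMapSplit) (hKN : ArtinMapKillsNorms) (hM1 : MovingRep)
    (hM4 : MovingNorm) (htc : IsTotallyComplex F)
    (hdeg : Module.finrank F E = p) (hunr : IsUnramifiedEverywhere F E)
    (φ : (Ideal (𝓞 F))⁰ →* Gal(E/F)) (hφ : IsArtinMap F E φ) (n : ℕ) (hn : n ≠ 0)
    (hcyc : ∀ (x : 𝓞 F) (hx : x ≠ 0),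
      IsCoprime (Ideal.span {x}) (Ideal.span {(n : 𝓞 F)}) → φ (span0 x hx) = 1)
    (𝔡 : (Ideal (𝓞 F))⁰) (hd : IsCoprime (𝔡 : Ideal (𝓞 F)) (Ideal.span {(n : 𝓞 F)}))
    (h1 : φ 𝔡 = 1) : ClassGroup.mk0 𝔡 ∈ normClasses F E := by
  have : Fact p.Prime := ⟨hp⟩
  have hcard : Nat.card Gal(E/F) = p := by
    rw [IsGalois.card_aut_eq_finrank, hdeg]
  let Im := coprimeSubmonoid F n
  let ψ : (Ideal (𝓞 F))⁰ →* ClassGroup (𝓞 F) ⧸ normClasses F E :=
    (QuotientGroup.mk' (normClasses F E)).comp ClassGroup.mk0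
  let φm : Im →* Gal(E/F) := φ.comp Im.subtype
  let ψm : Im →* ClassGroup (𝓞 F) ⧸ normClasses F E := ψ.comp Im.subtype
  -- `φm` is onto
  have hφm : Function.Surjective φm := by
    obtain ⟨𝔮, _, h𝔮c, h𝔮⟩ :=
      exists_prime_coprime_artin_ne_one hp hL hS hM1 htc hdeg hunr φ hφ n hn
    intro g
    obtain ⟨k, hk⟩ := mem_powers_of_prime_card (p := p) hcard (g := φ 𝔮) (g' := g) h𝔮
    refine ⟨(⟨𝔮, h𝔮c⟩ : Im) ^ k, ?_⟩
    rw [map_pow]
    exact hk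
  -- `ker ψm ⊆ ker φm`
  have hker : ∀ a : Im, ψm a = 1 → φm a = 1 := by
    rintro ⟨a, ha⟩ h
    have hmem : ClassGroup.mk0 a ∈ normClasses F E := (QuotientGroup.eq_one_iff _).mp h
    obtain ⟨x, y, hx, hy, 𝔄, hxc, hyc, hrel⟩ := hM4 F E n hn a ha hmem
    have := congrArg φ hrel
    rw [map_mul, map_mul, hcyc x hx hxc, hcyc y hy hyc, hKN F E φ hφ hunr 𝔄, one_mul,
      one_mul] at this
    exact this
  have hcardle : Nat.card (ClassGroup (𝓞 F) ⧸ normClasses F E) ≤ Nat.card Gal(E/F) := by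
    rw [hcard]
    exact hU F E hdeg hunr
  obtain ⟨-, hle⟩ := surjective_and_ker_le_of_card_le ψm φm hφm hker hcardle
  have := hle ⟨𝔡, hd⟩ h1
  exact (QuotientGroup.eq_one_iff _).mp this

end EqualityAux

/-! ### The two-prime statement -/

/-- Extensions of totally complex number fields are totally complex. -/
theorem isTotallyComplex_of_algebra (K F : Type*) [Field K] [NumberField K] [Field F]
    [NumberField F] [Algebra K F] (h : IsTotallyComplex K) : IsTotallyComplex F := by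
  refine ⟨fun w => ?_⟩
  rw [← InfinitePlace.not_isReal_iff_isComplex]
  intro hw
  have h1 : (w.comap (algebraMap K F)).IsReal := hw.comap _
  have h2 : (w.comap (algebraMap K F)).IsComplex := h.isComplex _
  exact (InfinitePlace.not_isReal_iff_isComplex.mpr h2) h1

section TwoPrime

variable {K L : Type} [Field K] [NumberField K] [Field L] [NumberField L] [Algebra K L]
  [IsGalois K L]

/-- Facts about an auxiliary extension: totally complex, unramified, has an Artin map. -/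
theorem AuxExt.facts {p : ℕ} (hp : p.Prime) (hA : ArtinMapExists)
    (hUB : UnramifiedBaseChange) (htc : IsTotallyComplex K)
    (hunr : IsUnramifiedEverywhere K L) (A : AuxExt K L p) :
    IsTotallyComplex A.F ∧ IsUnramifiedEverywhere A.F A.E ∧
      ∃ φA : (Ideal (𝓞 A.F))⁰ →* Gal(A.E/A.F), IsArtinMap A.F A.E φA := by
  have hunrA : IsUnramifiedEverywhere A.F A.E := hUB K L A.F A.E A.res_inj hunr
  refine ⟨isTotallyComplex_of_algebra K A.F htc, hunrA, ?_⟩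
  have hcard : Nat.card Gal(A.E/A.F) = p := by
    rw [IsGalois.card_aut_eq_finrank, A.deg]
  have : Fact p.Prime := ⟨hp⟩
  have hcyc : IsCyclic Gal(A.E/A.F) := isCyclic_of_prime_card hcard
  have hcomm : ∀ σ τ : Gal(A.E/A.F), σ * τ = τ * σ := fun σ τ => by
    let _ := IsCyclic.commGroup (α := Gal(A.E/A.F))
    exact mul_comm σ τ
  exact hA A.F A.E hcomm hunrA

/-- Base change: if the Artin symbol of the norm is trivial then so is the Artin symbol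
upstairs. -/
theorem AuxExt.artin_eq_one_of_norm {p : ℕ} (hBC : ArtinMapBaseChange)
    (hunr : IsUnramifiedEverywhere K L) (φ : (Ideal (𝓞 K))⁰ →* Gal(L/K))
    (hφ : IsArtinMap K L φ) (A : AuxExt K L p) (hunrA : IsUnramifiedEverywhere A.F A.E)
    (φA : (Ideal (𝓞 A.F))⁰ →* Gal(A.E/A.F)) (hφA : IsArtinMap A.F A.E φA)
    (𝔡 : (Ideal (𝓞 A.F))⁰) (h : φ (relNorm0 K A.F 𝔡) = 1) : φA 𝔡 = 1 := by
  apply A.res_inj
  intro x
  rw [hBC K L A.F A.E φ φA hφ hφA hunr hunrA 𝔡 x, h]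
  rfl

theorem two_prime {p : ℕ} (hp : p.Prime) (hA : ArtinMapExists) (hL : LowerBound p)
    (hU : UpperBound p) (hS : ArtinMapSplit) (hKN : ArtinMapKillsNorms)
    (hBC : ArtinMapBaseChange) (hUB : UnramifiedBaseChange) (hM1 : MovingRep)
    (hM4 : MovingNorm) (hM6 : MovingCoprimeNorm) (htc : IsTotallyComplex K)
    (hdeg : Module.finrank K L = p) (hunr : IsUnramifiedEverywhere K L)
    (φ : (Ideal (𝓞 K))⁰ →* Gal(L/K)) (hφ : IsArtinMap K L φ) (𝔭₁ 𝔭₂ : (Ideal (𝓞 K))⁰)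
    (D : CrossingData K L p 𝔭₁ 𝔭₂) (a₁ a₂ : ℕ) (h : φ 𝔭₁ ^ a₁ * φ 𝔭₂ ^ a₂ = 1) :
    ClassGroup.mk0 (𝔭₁ ^ a₁ * 𝔭₂ ^ a₂) ∈ normClasses K L := by
  have : Fact p.Prime := ⟨hp⟩
  have hcard : Nat.card Gal(L/K) = p := by
    rw [IsGalois.card_aut_eq_finrank, hdeg]
  obtain ⟨htcA, hunrA, φA, hφA⟩ := AuxExt.facts hp hA hUB htc hunr D.A
  obtain ⟨htc1, hunr1, φ1, hφ1⟩ := AuxExt.facts hp hA hUB htc hunr D.A₁
  obtain ⟨htc2, hunr2, φ2, hφ2⟩ := AuxExt.facts hp hA hUB htc hunr D.A₂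
  -- a prime `𝔯` of the top field with nontrivial symbol
  obtain ⟨𝔯, _, h𝔯c, h𝔯⟩ :=
    exists_prime_coprime_artin_ne_one hp hL hS hM1 htcA D.A.deg hunrA φA hφA D.m D.hm
  obtain ⟨𝔟, h𝔟⟩ : ∃ 𝔟 : (Ideal (𝓞 K))⁰, 𝔟 = relNorm0 K D.A.F 𝔯 := ⟨_, rfl⟩
  obtain ⟨σ, hσ⟩ : ∃ σ : Gal(L/K), σ = φ 𝔟 := ⟨_, rfl⟩
  have hσ1 : σ ≠ 1 := fun h0 =>
    h𝔯 (AuxExt.artin_eq_one_of_norm hBC hunr φ hφ D.A hunrA φA hφA 𝔯 (by rw [← h𝔟, ← hσ, h0]))
  have hσp : σ ^ p = 1 := by rw [← hcard]; exact pow_card_eq_one'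
  have hord : orderOf σ = p := orderOf_eq_prime hσp hσ1
  -- the two intermediate ideals
  obtain ⟨𝔠₁, h𝔠₁⟩ : ∃ 𝔠₁ : (Ideal (𝓞 D.A₁.F))⁰, 𝔠₁ = relNorm0 D.A₁.F D.A.F 𝔯 := ⟨_, rfl⟩
  obtain ⟨𝔠₂, h𝔠₂⟩ : ∃ 𝔠₂ : (Ideal (𝓞 D.A₂.F))⁰, 𝔠₂ = relNorm0 D.A₂.F D.A.F 𝔯 := ⟨_, rfl⟩
  have hn1 : relNorm0 K D.A₁.F 𝔠₁ = 𝔟 := by rw [h𝔠₁, h𝔟]; exact relNorm0_relNorm0 𝔯
  have hn2 : relNorm0 K D.A₂.F 𝔠₂ = 𝔟 := by rw [h𝔠₂, h𝔟]; exact relNorm0_relNorm0 𝔯
  have hc1 : IsCoprime (𝔠₁ : Ideal (𝓞 D.A₁.F)) (Ideal.span {(D.m : 𝓞 D.A₁.F)}) := by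
    rw [h𝔠₁]; exact hM6 D.A₁.F D.A.F D.m 𝔯 h𝔯c
  have hc2 : IsCoprime (𝔠₂ : Ideal (𝓞 D.A₂.F)) (Ideal.span {(D.m : 𝓞 D.A₂.F)}) := by
    rw [h𝔠₂]; exact hM6 D.A₂.F D.A.F D.m 𝔯 h𝔯c
  obtain ⟨d₁, hd₁⟩ := mem_powers_of_prime_card (p := p) hcard (g := σ) (g' := φ 𝔭₁) hσ1
  obtain ⟨d₂, hd₂⟩ := mem_powers_of_prime_card (p := p) hcard (g := σ) (g' := φ 𝔭₂) hσ1
  -- the key memberships
  have key1 : ClassGroup.mk0 (𝔭₁ * 𝔟 ^ (d₁ * (p - 1))) ∈ normClasses K L := by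
    have hrel : relNorm0 K D.A₁.F (D.𝔮₁ * 𝔠₁ ^ (d₁ * (p - 1))) = 𝔭₁ * 𝔟 ^ (d₁ * (p - 1)) := by
      rw [map_mul, map_pow, D.norm₁, hn1]
    have hφ0 : φ (relNorm0 K D.A₁.F (D.𝔮₁ * 𝔠₁ ^ (d₁ * (p - 1)))) = 1 := by
      rw [hrel, map_mul, map_pow, ← hσ, ← hd₁]
      change σ ^ d₁ * σ ^ (d₁ * (p - 1)) = 1
      have hexp : d₁ + d₁ * (p - 1) = p * d₁ := by
        calc d₁ + d₁ * (p - 1) = d₁ * ((p - 1) + 1) := by ring
          _ = p * d₁ := by rw [Nat.sub_add_cancel hp.one_le, mul_comm]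
      rw [← pow_add, hexp, pow_mul, hσp, one_pow]
    have hφ1' := AuxExt.artin_eq_one_of_norm hBC hunr φ hφ D.A₁ hunr1 φ1 hφ1 _ hφ0
    have hcop : IsCoprime ((D.𝔮₁ * 𝔠₁ ^ (d₁ * (p - 1)) : (Ideal (𝓞 D.A₁.F))⁰) : Ideal (𝓞 D.A₁.F))
        (Ideal.span {(D.m : 𝓞 D.A₁.F)}) := by
      have : ((D.𝔮₁ * 𝔠₁ ^ (d₁ * (p - 1)) : (Ideal (𝓞 D.A₁.F))⁰) : Ideal (𝓞 D.A₁.F)) =
          (D.𝔮₁ : Ideal (𝓞 D.A₁.F)) * (𝔠₁ : Ideal (𝓞 D.A₁.F)) ^ (d₁ * (p - 1)) := rfl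
      rw [this]
      exact IsCoprime.mul_left D.cop₁ (IsCoprime.pow_left hc1)
    have hmem := mem_normClasses_of_artin_eq_one hp hL hU hS hKN hM1 hM4 htc1 D.A₁.deg hunr1
      φ1 hφ1 D.m D.hm (D.cyc₁ φ1 hφ1) _ hcop hφ1'
    have := mk0_relNorm0_mem_normClasses_of_mem (K := K) (L := L) hmem
    rwa [hrel] at this
  have key2 : ClassGroup.mk0 (𝔭₂ * 𝔟 ^ (d₂ * (p - 1))) ∈ normClasses K L := by
    have hrel : relNorm0 K D.A₂.F (D.𝔮₂ * 𝔠₂ ^ (d₂ * (p - 1))) = 𝔭₂ * 𝔟 ^ (d₂ * (p - 1)) := by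
      rw [map_mul, map_pow, D.norm₂, hn2]
    have hφ0 : φ (relNorm0 K D.A₂.F (D.𝔮₂ * 𝔠₂ ^ (d₂ * (p - 1)))) = 1 := by
      rw [hrel, map_mul, map_pow, ← hσ, ← hd₂]
      change σ ^ d₂ * σ ^ (d₂ * (p - 1)) = 1
      have hexp : d₂ + d₂ * (p - 1) = p * d₂ := by
        calc d₂ + d₂ * (p - 1) = d₂ * ((p - 1) + 1) := by ring
          _ = p * d₂ := by rw [Nat.sub_add_cancel hp.one_le, mul_comm]
      rw [← pow_add, hexp, pow_mul, hσp, one_pow]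
    have hφ2' := AuxExt.artin_eq_one_of_norm hBC hunr φ hφ D.A₂ hunr2 φ2 hφ2 _ hφ0
    have hcop : IsCoprime ((D.𝔮₂ * 𝔠₂ ^ (d₂ * (p - 1)) : (Ideal (𝓞 D.A₂.F))⁰) : Ideal (𝓞 D.A₂.F))
        (Ideal.span {(D.m : 𝓞 D.A₂.F)}) := by
      have : ((D.𝔮₂ * 𝔠₂ ^ (d₂ * (p - 1)) : (Ideal (𝓞 D.A₂.F))⁰) : Ideal (𝓞 D.A₂.F)) =
          (D.𝔮₂ : Ideal (𝓞 D.A₂.F)) * (𝔠₂ : Ideal (𝓞 D.A₂.F)) ^ (d₂ * (p - 1)) := rfl
      rw [this]
      exact IsCoprime.mul_left D.cop₂ (IsCoprime.pow_left hc2)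
    have hmem := mem_normClasses_of_artin_eq_one hp hL hU hS hKN hM1 hM4 htc2 D.A₂.deg hunr2
      φ2 hφ2 D.m D.hm (D.cyc₂ φ2 hφ2) _ hcop hφ2'
    have := mk0_relNorm0_mem_normClasses_of_mem (K := K) (L := L) hmem
    rwa [hrel] at this
  -- combine
  have hdvd : p ∣ d₁ * a₁ + d₂ * a₂ := by
    rw [← hord]
    apply orderOf_dvd_of_pow_eq_one
    rw [pow_add, pow_mul, pow_mul]
    change (σ ^ d₁) ^ a₁ * (σ ^ d₂) ^ a₂ = 1
    have e1 : σ ^ d₁ = φ 𝔭₁ := hd₁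
    have e2 : σ ^ d₂ = φ 𝔭₂ := hd₂
    rw [e1, e2, h]
  obtain ⟨k, hk⟩ := hdvd
  have hprod := mul_mem (pow_mem key1 a₁) (pow_mem key2 a₂)
  have hb : ClassGroup.mk0 ((𝔟 ^ ((p - 1) * k)) ^ p) ∈ normClasses K L :=
    mk0_pow_finrank_mem_normClasses hdeg _
  have gen : ∀ (x y b : (Ideal (𝓞 K))⁰) (u v : ℕ),
      (x * b ^ u) ^ a₁ * (y * b ^ v) ^ a₂ = x ^ a₁ * y ^ a₂ * b ^ (u * a₁ + v * a₂) := by
    intro x y b u v
    rw [mul_pow, mul_pow, ← pow_mul, ← pow_mul, pow_add]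
    exact mul_mul_mul_comm _ _ _ _
  have hmon : (𝔭₁ * 𝔟 ^ (d₁ * (p - 1))) ^ a₁ * (𝔭₂ * 𝔟 ^ (d₂ * (p - 1))) ^ a₂ =
      𝔭₁ ^ a₁ * 𝔭₂ ^ a₂ * (𝔟 ^ ((p - 1) * k)) ^ p := by
    have hexp : d₁ * (p - 1) * a₁ + d₂ * (p - 1) * a₂ = (p - 1) * k * p := by
      have : d₁ * (p - 1) * a₁ + d₂ * (p - 1) * a₂ = (p - 1) * (d₁ * a₁ + d₂ * a₂) := by ring
      rw [this, hk]
      ring
    rw [gen, hexp, pow_mul]
  have heq : ClassGroup.mk0 (𝔭₁ * 𝔟 ^ (d₁ * (p - 1))) ^ a₁ *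
      ClassGroup.mk0 (𝔭₂ * 𝔟 ^ (d₂ * (p - 1))) ^ a₂ =
      ClassGroup.mk0 (𝔭₁ ^ a₁ * 𝔭₂ ^ a₂) * ClassGroup.mk0 ((𝔟 ^ ((p - 1) * k)) ^ p) := by
    have := congrArg ClassGroup.mk0 hmon
    simpa only [map_mul, map_pow] using this
  rw [heq] at hprod
  exact (Subgroup.mul_mem_cancel_right _ hb).mp hprod

end TwoPrime

/-! ### Artin's crossing theorem -/

/-- `KernelInNorms p` from the crossing data and the other work packages. -/
theorem kernelInNorms_of {p : ℕ} (hp : p.Prime) (hA : ArtinMapExists) (hL : LowerBound p)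
    (hU : UpperBound p) (hS : ArtinMapSplit) (hKN : ArtinMapKillsNorms)
    (hBC : ArtinMapBaseChange) (hUB : UnramifiedBaseChange) (hM1 : MovingRep)
    (hM4 : MovingNorm) (hM6 : MovingCoprimeNorm) (hCD : CrossingDataExists p) :
    KernelInNorms p := by
  intro K L _ _ _ _ _ _ htc hdeg hunr φ hφ 𝔞 h𝔞
  have : Fact p.Prime := ⟨hp⟩
  have hcard : Nat.card Gal(L/K) = p := by
    rw [IsGalois.card_aut_eq_finrank, hdeg]
  -- a prime with nontrivial symbol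
  obtain ⟨𝔭₀, h𝔭₀, -, hne⟩ :=
    exists_prime_coprime_artin_ne_one hp hL hS hM1 htc hdeg hunr φ hφ 1 one_ne_zero
  have hσp : φ 𝔭₀ ^ p = 1 := by rw [← hcard]; exact pow_card_eq_one'
  have hord : orderOf (φ 𝔭₀) = p := orderOf_eq_prime hσp hne
  let ψ : (Ideal (𝓞 K))⁰ →* ClassGroup (𝓞 K) ⧸ normClasses K L :=
    (QuotientGroup.mk' (normClasses K L)).comp ClassGroup.mk0
  have hψ : ∀ I, ψ I = 1 ↔ ClassGroup.mk0 I ∈ normClasses K L := fun I =>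
    QuotientGroup.eq_one_iff _
  have hgp : ψ 𝔭₀ ^ p = 1 := by
    rw [← map_pow, hψ]
    exact mk0_pow_finrank_mem_normClasses hdeg _
  -- the main claim
  have claim : ∀ I : (Ideal (𝓞 K))⁰, ∃ e : ℕ, φ I = φ 𝔭₀ ^ e ∧ ψ I = ψ 𝔭₀ ^ e := by
    intro I
    induction I using ideal0_induction with
    | h1 => exact ⟨0, by simp, by simp⟩
    | hp 𝔮 h𝔮 =>
      obtain ⟨d, hd⟩ := mem_powers_of_prime_card (p := p) hcard (g := φ 𝔭₀) (g' := φ 𝔮) hne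
      have hd' : φ 𝔭₀ ^ d = φ 𝔮 := hd
      refine ⟨d, hd'.symm, ?_⟩
      obtain ⟨D⟩ := hCD K L htc hdeg hunr 𝔮 𝔭₀ h𝔮 h𝔭₀
      have hexp : d + d * (p - 1) = p * d := by
        calc d + d * (p - 1) = d * ((p - 1) + 1) := by ring
          _ = p * d := by rw [Nat.sub_add_cancel hp.one_le, mul_comm]
      have h1 : φ 𝔮 ^ 1 * φ 𝔭₀ ^ (d * (p - 1)) = 1 := by
        rw [pow_one, ← hd', ← pow_add, hexp, pow_mul, hσp, one_pow]
      have h2 := two_prime hp hA hL hU hS hKN hBC hUB hM1 hM4 hM6 htc hdeg hunr φ hφ 𝔮 𝔭₀ D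
        1 (d * (p - 1)) h1
      rw [← hψ, map_mul, map_pow, map_pow, pow_one] at h2
      -- `ψ 𝔮 * g ^ (d (p-1)) = 1` and `g ^ p = 1` give `ψ 𝔮 = g ^ d`
      have h3 : ψ 𝔮 * ψ 𝔭₀ ^ (d * (p - 1)) * ψ 𝔭₀ ^ d = ψ 𝔭₀ ^ d := by rw [h2, one_mul]
      rw [mul_assoc, ← pow_add, add_comm, hexp, pow_mul, hgp, one_pow, mul_one] at h3
      exact h3
    | hmul a b ha hb =>
      obtain ⟨ea, ha1, ha2⟩ := ha
      obtain ⟨eb, hb1, hb2⟩ := hb
      exact ⟨ea + eb, by rw [map_mul, ha1, hb1, pow_add], by rw [map_mul, ha2, hb2, pow_add]⟩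
  obtain ⟨e, he1, he2⟩ := claim 𝔞
  rw [h𝔞] at he1
  have hdvd : p ∣ e := by
    rw [← hord]
    exact orderOf_dvd_of_pow_eq_one he1.symm
  obtain ⟨k, rfl⟩ := hdvd
  rw [pow_mul, hgp, one_pow] at he2
  exact (hψ 𝔞).mp he2

/-- Master statement: Artin reciprocity for everywhere unramified extensions of prime degree
from all the work packages. -/
theorem reciprocity_of_packages {p : ℕ} [Fact p.Prime] (hA : ArtinMapExists)
    (hL : LowerBound p) (hU : UpperBound p) (hS : ArtinMapSplit) (hKN : ArtinMapKillsNorms)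
    (hBC : ArtinMapBaseChange) (hUB : UnramifiedBaseChange) (hM1 : MovingRep)
    (hM4 : MovingNorm) (hM6 : MovingCoprimeNorm) (hCD : CrossingDataExists p) :
    Reciprocity p :=
  reciprocity_of p hA hL
    (kernelInNorms_of Fact.out hA hL hU hS hKN hBC hUB hM1 hM4 hM6 hCD)

/-- Master statement in the form of the S14 interface. -/
theorem artinUnramifiedCyclic_of_packages {p : ℕ} [Fact p.Prime] (hA : ArtinMapExists)
    (hL : LowerBound p) (hU : UpperBound p) (hS : ArtinMapSplit) (hKN : ArtinMapKillsNorms)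
    (hBC : ArtinMapBaseChange) (hUB : UnramifiedBaseChange) (hM1 : MovingRep)
    (hM4 : MovingNorm) (hM6 : MovingCoprimeNorm) (hCD : CrossingDataExists p) :
    S14.ArtinUnramifiedCyclic p :=
  artinUnramifiedCyclic_of_reciprocity p
    (reciprocity_of_packages hA hL hU hS hKN hBC hUB hM1 hM4 hM6 hCD)

end Fermat.Agent.Lib.CFT.Unram
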