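/-
helper79 (P-CFT, S14 fast track, WP-Moving).  Moving lemmas for ideal classes:
every ideal class contains an integral ideal coprime to a given nonzero ideal, norms of ideals
coprime to `m` are coprime to `m`, and the "moving lemma" for classes of norms.
-/
import Fermat.Agent.Lib.CFT.Unram.Crossing

set_option autoImplicit false

namespace Fermat.Agent.Lib.CFT.Unram

open NumberField
open scoped nonZeroDivisors

section Dedekind

variable {R : Type*} [CommRing R] [IsDedekindDomain R]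

/-- In a Dedekind domain, every ideal class contains an integral ideal coprime to a given nonzero
ideal `m`. -/
theorem exists_mk0_eq_and_isCoprime (m : Ideal R) (hm : m ≠ ⊥) (C : ClassGroup R) :
    ∃ I : (Ideal R)⁰, ClassGroup.mk0 I = C ∧ IsCoprime (I : Ideal R) m := by
  obtain ⟨J, hJ⟩ := ClassGroup.mk0_surjective C⁻¹
  have hJ0 : (J : Ideal R) ≠ 0 := nonZeroDivisors.coe_ne_zero J
  have hJm : (J : Ideal R) * m ≠ 0 := mul_ne_zero hJ0 hm
  obtain ⟨a, ha⟩ := IsDedekindDomain.exists_sup_span_eq (Ideal.mul_le_left (I := (J : Ideal R))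
    (J := m)) hJm
  have haJ : Ideal.span {a} ≤ (J : Ideal R) := by rw [← ha]; exact le_sup_right
  obtain ⟨I', hI'⟩ := Ideal.dvd_iff_le.mpr haJ
  have hcop : m ⊔ I' = ⊤ := by
    have h1 : (J : Ideal R) * (m ⊔ I') = (J : Ideal R) * ⊤ := by
      rw [Ideal.mul_sup, ← hI', ha, Ideal.mul_top]
    exact mul_left_cancel₀ hJ0 h1
  by_cases ha0 : a = 0
  · -- then `m = ⊤` and any representative works
    obtain ⟨I, hI⟩ := ClassGroup.mk0_surjective C
    refine ⟨I, hI, ?_⟩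
    have hI'0 : I' = ⊥ := by
      have h2 : (J : Ideal R) * I' = 0 := by rw [← hI', ha0]; simp
      rcases mul_eq_zero.mp h2 with h | h
      · exact absurd h hJ0
      · exact h
    rw [hI'0, sup_bot_eq] at hcop
    rw [hcop, ← Ideal.one_eq_top]
    exact isCoprime_one_right
  · have hI'0 : I' ≠ 0 := by
      rintro rfl
      rw [mul_zero] at hI'
      exact ha0 (by simpa using hI')
    refine ⟨⟨I', mem_nonZeroDivisors_iff_ne_zero.mpr hI'0⟩, ?_, ?_⟩
    · have h3 : ClassGroup.mk0 J * ClassGroup.mk0 ⟨I', mem_nonZeroDivisors_iff_ne_zero.mpr hI'0⟩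
          = 1 := by
        rw [← map_mul, ClassGroup.mk0_eq_one_iff]
        exact ⟨⟨a, by simp [← hI']⟩⟩
      rw [hJ] at h3
      exact (inv_mul_eq_one.mp h3).symm
    · rw [Ideal.isCoprime_iff_sup_eq, sup_comm]
      exact hcop

end Dedekind

section RelNorm

variable {R S : Type*} [CommRing R] [IsDedekindDomain R] [CommRing S] [IsDedekindDomain S]
  [Algebra R S] [Module.Finite R S] [Module.IsTorsionFree R S]

/-- The relative norm of a prime ideal coprime to the extension of `m` is coprime to `m`. -/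
theorem isCoprime_relNorm_of_isPrime (m : Ideal R) (P : Ideal S) [P.IsPrime] (hP : P ≠ ⊥)
    (h : IsCoprime P (m.map (algebraMap R S))) : IsCoprime (Ideal.relNorm R P) m := by
  set p : Ideal R := P.under R with hp
  have hPp : P.LiesOver p := ⟨rfl⟩
  have hpprime : p.IsPrime := Ideal.IsPrime.under R P
  obtain ⟨s, hs⟩ := Ideal.exists_relNorm_eq_pow_of_isPrime P p
  rw [hs]
  apply IsCoprime.pow_left
  have hPmax : P.IsMaximal := Ring.DimensionLEOne.maximalOfPrime hP inferInstance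
  have hpmax : p.IsMaximal := Ideal.isMaximal_comap_of_isIntegral_of_isMaximal P
  rw [Ideal.isCoprime_iff_sup_eq]
  by_contra hne
  have hle : m ≤ p := by
    by_contra hmp
    apply hne
    apply hpmax.1.2
    exact lt_of_le_of_ne le_sup_left (fun heq => hmp (by rw [heq]; exact le_sup_right))
  have h1 : m.map (algebraMap R S) ≤ P :=
    Ideal.map_le_iff_le_comap.mpr hle
  rw [Ideal.isCoprime_iff_sup_eq, sup_eq_left.mpr h1] at h
  exact hPmax.ne_top h

/-- The relative norm of a nonzero ideal coprime to the extension of `m` is coprime to `m`. -/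
theorem isCoprime_relNorm (m : Ideal R) (A : Ideal S) (hA : A ≠ ⊥)
    (h : IsCoprime A (m.map (algebraMap R S))) : IsCoprime (Ideal.relNorm R A) m := by
  revert hA h
  refine UniqueFactorizationMonoid.induction_on_prime
    (P := fun A : Ideal S => A ≠ ⊥ → IsCoprime A (m.map (algebraMap R S)) →
      IsCoprime (Ideal.relNorm R A) m) A ?_ ?_ ?_
  · intro h0
    exact absurd rfl h0
  · intro x hx _ _
    rw [Ideal.isUnit_iff] at hx
    rw [hx, Ideal.relNorm_top, ← Ideal.one_eq_top]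
    exact isCoprime_one_left
  · intro a P ha0 hP ih _ hcop
    rw [IsCoprime.mul_left_iff] at hcop
    rw [map_mul]
    have hPprime : P.IsPrime := Ideal.isPrime_of_prime hP
    exact IsCoprime.mul_left (isCoprime_relNorm_of_isPrime m P hP.ne_zero hcop.1)
      (ih ha0 hcop.2)

end RelNorm

section NumberField

variable (K L : Type*) [Field K] [NumberField K] [Field L] [NumberField L] [Algebra K L]

/-- The subgroup `normClasses K L` is exactly the set of classes of norms (the class group is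
finite, so the image of a monoid homomorphism is already a subgroup). -/
theorem mem_normClasses_iff (C : ClassGroup (𝓞 K)) :
    C ∈ normClasses K L ↔ ∃ 𝔄 : (Ideal (𝓞 L))⁰, ClassGroup.mk0 (relNorm0 K L 𝔄) = C := by
  unfold normClasses
  have hrange : Set.range (fun 𝔄 : (Ideal (𝓞 L))⁰ => ClassGroup.mk0 (relNorm0 K L 𝔄)) =
      (MonoidHom.mrange (ClassGroup.mk0.comp (relNorm0 K L)) : Set (ClassGroup (𝓞 K))) := by
    ext x
    simp only [Set.mem_range, MonoidHom.coe_mrange, MonoidHom.coe_comp, Function.comp_apply]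
  rw [← Subgroup.mem_toSubmonoid, Subgroup.closure_toSubmonoid_of_finite, hrange,
    Submonoid.closure_eq]
  simp [MonoidHom.mem_mrange]

/-- **Moving lemma.**  If `𝔡` is coprime to `m` and its class is a class of norms, then
`(x) 𝔡 = (y) N(𝔄)` with `x`, `y` and `𝔄` all coprime to `m`. -/
theorem exists_mul_eq_mul_relNorm (m : Ideal (𝓞 K)) (hm : m ≠ ⊥) (𝔡 : (Ideal (𝓞 K))⁰)
    (hd : IsCoprime (𝔡 : Ideal (𝓞 K)) m) (hcl : ClassGroup.mk0 𝔡 ∈ normClasses K L) :
    ∃ (x y : 𝓞 K) (𝔄 : (Ideal (𝓞 L))⁰), x ≠ 0 ∧ y ≠ 0 ∧ IsCoprime (Ideal.span {x}) m ∧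
      IsCoprime (Ideal.span {y}) m ∧
      IsCoprime (𝔄 : Ideal (𝓞 L)) (m.map (algebraMap (𝓞 K) (𝓞 L))) ∧
      Ideal.span {x} * (𝔡 : Ideal (𝓞 K)) =
        Ideal.span {y} * Ideal.relNorm (𝓞 K) (𝔄 : Ideal (𝓞 L)) := by
  obtain ⟨𝔄₀, h𝔄₀⟩ := (mem_normClasses_iff K L _).mp hcl
  have hM : m.map (algebraMap (𝓞 K) (𝓞 L)) ≠ ⊥ := by
    rw [Ne, Ideal.map_eq_bot_iff_of_injective (FaithfulSMul.algebraMap_injective (𝓞 K) (𝓞 L))]
    exact hm
  obtain ⟨𝔄, h𝔄cl, h𝔄cop⟩ := exists_mk0_eq_and_isCoprime _ hM (ClassGroup.mk0 𝔄₀)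
  have hcl' : ClassGroup.mk0 (relNorm0 K L 𝔄) = ClassGroup.mk0 𝔡 :=
    (mk0_relNorm0_eq_of_mk0_eq h𝔄cl).trans h𝔄₀
  have hRcop : IsCoprime ((relNorm0 K L 𝔄 : (Ideal (𝓞 K))⁰) : Ideal (𝓞 K)) m :=
    isCoprime_relNorm m (𝔄 : Ideal (𝓞 L)) (nonZeroDivisors.coe_ne_zero 𝔄) h𝔄cop
  obtain ⟨𝔠, h𝔠, h𝔠cop⟩ := exists_mk0_eq_and_isCoprime m hm (ClassGroup.mk0 𝔡)⁻¹
  -- `𝔠 * 𝔡` and `𝔠 * N(𝔄)` are principal
  have h1 : ClassGroup.mk0 (𝔠 * 𝔡) = 1 := by rw [map_mul, h𝔠, inv_mul_cancel]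
  have h2 : ClassGroup.mk0 (𝔠 * relNorm0 K L 𝔄) = 1 := by
    rw [map_mul, h𝔠, hcl', inv_mul_cancel]
  rw [ClassGroup.mk0_eq_one_iff] at h1 h2
  obtain ⟨⟨x', hx'⟩⟩ := h1
  obtain ⟨⟨y', hy'⟩⟩ := h2
  have hx'' : ((𝔠 : Ideal (𝓞 K)) * (𝔡 : Ideal (𝓞 K))) = Ideal.span {x'} := by
    simpa using hx'
  have hy'' : ((𝔠 : Ideal (𝓞 K)) * Ideal.relNorm (𝓞 K) (𝔄 : Ideal (𝓞 L))) = Ideal.span {y'} := by
    simpa using hy'
  have hx'0 : x' ≠ 0 := by
    rintro rfl
    have : ((𝔠 * 𝔡 : (Ideal (𝓞 K))⁰) : Ideal (𝓞 K)) = 0 := by simpa using hx'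
    exact nonZeroDivisors.coe_ne_zero _ this
  have hy'0 : y' ≠ 0 := by
    rintro rfl
    have : ((𝔠 * relNorm0 K L 𝔄 : (Ideal (𝓞 K))⁰) : Ideal (𝓞 K)) = 0 := by simpa using hy'
    exact nonZeroDivisors.coe_ne_zero _ this
  refine ⟨y', x', 𝔄, hy'0, hx'0, ?_, ?_, h𝔄cop, ?_⟩
  · rw [← hy'']
    exact IsCoprime.mul_left h𝔠cop hRcop
  · rw [← hx'']
    exact IsCoprime.mul_left h𝔠cop hd
  · rw [← hy'', ← hx'']
    ring

end NumberField

/-! ### The three moving statements consumed by `Unram/Crossing.lean` -/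

theorem span_natCast_ne_bot {K : Type*} [Field K] [NumberField K] {n : ℕ} (hn : n ≠ 0) :
    Ideal.span {(n : 𝓞 K)} ≠ ⊥ := by
  rw [Ne, Ideal.span_singleton_eq_bot]
  exact_mod_cast hn

theorem movingRep : MovingRep := by
  intro K _ _ n hn C
  exact exists_mk0_eq_and_isCoprime _ (span_natCast_ne_bot hn) C

theorem movingNorm : MovingNorm := by
  intro K L _ _ _ _ _ n hn 𝔡 hd hcl
  obtain ⟨x, y, 𝔄, hx, hy, hxc, hyc, -, h⟩ :=
    exists_mul_eq_mul_relNorm K L _ (span_natCast_ne_bot hn) 𝔡 hd hcl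
  refine ⟨x, y, hx, hy, 𝔄, hxc, hyc, ?_⟩
  ext1
  simpa using h

theorem movingCoprimeNorm : MovingCoprimeNorm := by
  intro K F _ _ _ _ _ n 𝔠 h
  refine isCoprime_relNorm _ (𝔠 : Ideal (𝓞 F)) (nonZeroDivisors.coe_ne_zero 𝔠) ?_
  rw [Ideal.map_span, Set.image_singleton, map_natCast]
  exact h

end Fermat.Agent.Lib.CFT.Unram
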