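/-
helper95 (P-CFT, S14 fast track, WP-U2 geometric half).  The partial zeta function of an ideal
class as a weighted lattice sum: for an integral ideal `b` in the class `C⁻¹` and a weight `eta`
on the mixed space whose translates under the unit group sum to the order of the torsion,
`w * ∑_{a ∈ C} N(a)^(-s) = ∑_{x ∈ b} eta x * (N x / N b)^(-s)`.
-/
import Mathlib.NumberTheory.NumberField.Ideal.Asymptotics

set_option autoImplicit false

namespace Fermat.Agent.Lib.CFT.Unram

open NumberField NumberField.mixedEmbedding NumberField.Units Ideal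
open scoped nonZeroDivisors

variable {K : Type*} [Field K] [NumberField K]

namespace PartialZetaOrbit

variable (b : (Ideal (𝓞 K))⁰)

/-- The nonzero elements of the integral ideal `b`. -/
abbrev NZ : Type _ := {a : 𝓞 K // a ∈ (b : Ideal (𝓞 K)) ∧ a ≠ 0}

/-- The embedding of the nonzero elements of `b` in the ideal lattice. -/
noncomputable def toLattice (a : NZ b) : idealLattice K (FractionalIdeal.mk0 K b) :=
  ⟨mixedEmbedding K (a.1 : K), by
    rw [mem_idealLattice]
    refine ⟨(a.1 : K), ?_, rfl⟩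
    rw [SetLike.mem_coe, FractionalIdeal.coe_mk0, FractionalIdeal.mem_coeIdeal]
    exact ⟨a.1, a.2.1, rfl⟩⟩

theorem coe_toLattice (a : NZ b) :
    ((toLattice b a : idealLattice K (FractionalIdeal.mk0 K b)) : mixedSpace K)
      = mixedEmbedding K (a.1 : K) := rfl

theorem toLattice_injective : Function.Injective (toLattice b) := by
  intro a a' h
  have h1 : mixedEmbedding K (a.1 : K) = mixedEmbedding K (a'.1 : K) := congrArg Subtype.val h
  have h2 : (a.1 : K) = (a'.1 : K) := mixedEmbedding_injective K h1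
  exact Subtype.ext (RingOfIntegers.ext h2)

theorem mem_range_toLattice {x : idealLattice K (FractionalIdeal.mk0 K b)}
    (hx : (x : mixedSpace K) ≠ 0) : x ∈ Set.range (toLattice b) := by
  obtain ⟨y, hy, hxy⟩ := (mem_idealLattice K _).mp x.2
  rw [SetLike.mem_coe, FractionalIdeal.coe_mk0, FractionalIdeal.mem_coeIdeal] at hy
  obtain ⟨a, ha, rfl⟩ := hy
  refine ⟨⟨a, ha, ?_⟩, Subtype.ext hxy⟩
  rintro rfl
  apply hx
  rw [← hxy]
  simp

theorem norm_toLattice (a : NZ b) :
    mixedEmbedding.norm ((toLattice b a : idealLattice K (FractionalIdeal.mk0 K b)) : mixedSpace K)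
      = (absNorm (span {a.1} : Ideal (𝓞 K)) : ℝ) := by
  rw [coe_toLattice, norm_eq_norm, absNorm_span_singleton, ← Algebra.coe_norm_int,
    Nat.cast_natAbs]
  push_cast
  rfl

theorem norm_toLattice_ne_zero (a : NZ b) :
    mixedEmbedding.norm ((toLattice b a : idealLattice K (FractionalIdeal.mk0 K b)) : mixedSpace K)
      ≠ 0 := by
  rw [norm_toLattice, Nat.cast_ne_zero, Ne, absNorm_eq_zero_iff, span_singleton_eq_bot]
  exact a.2.2

variable {C : ClassGroup (𝓞 K)} (hb : ClassGroup.mk0 b = C⁻¹)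

/-- The ideals in the class `C`. -/
abbrev Cls (C : ClassGroup (𝓞 K)) : Type _ := {I : (Ideal (𝓞 K))⁰ // ClassGroup.mk0 I = C}

include hb in
theorem isPrincipal_mul (I : Cls C) :
    ((b : Ideal (𝓞 K)) * (I.1 : Ideal (𝓞 K))).IsPrincipal := by
  have h : ClassGroup.mk0 (b * I.1) = 1 := by
    rw [map_mul, hb, I.2, inv_mul_cancel]
  have h2 := (ClassGroup.mk0_eq_one_iff (b * I.1).2).mp h
  rwa [Submonoid.coe_mul] at h2

/-- A generator of `b * I`. -/
noncomputable def gen (I : Cls C) : 𝓞 K := (isPrincipal_mul b hb I).generator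

theorem span_gen (I : Cls C) :
    span {gen b hb I} = (b : Ideal (𝓞 K)) * (I.1 : Ideal (𝓞 K)) :=
  (isPrincipal_mul b hb I).span_singleton_generator

theorem gen_ne_zero (I : Cls C) : gen b hb I ≠ 0 := by
  intro h
  have h1 := span_gen b hb I
  rw [h, span_singleton_eq_bot.mpr rfl] at h1
  have hb0 : (b : Ideal (𝓞 K)) ≠ 0 := nonZeroDivisors.coe_ne_zero b
  have hI0 : (I.1 : Ideal (𝓞 K)) ≠ 0 := nonZeroDivisors.coe_ne_zero I.1
  exact mul_ne_zero hb0 hI0 h1.symm

theorem gen_mem (I : Cls C) : gen b hb I ∈ (b : Ideal (𝓞 K)) := by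
  have h1 : gen b hb I ∈ span {gen b hb I} := mem_span_singleton_self _
  have h2 : span {gen b hb I} ≤ (b : Ideal (𝓞 K)) := by
    rw [span_gen]
    exact Ideal.mul_le_left (I := (b : Ideal (𝓞 K))) (J := (I.1 : Ideal (𝓞 K)))
  exact h2 h1

/-- The parametrisation of the nonzero elements of `b` by pairs (ideal in the class `C`, unit). -/
noncomputable def param (p : Cls C × (𝓞 K)ˣ) : NZ b :=
  ⟨(p.2 : 𝓞 K) * gen b hb p.1, Ideal.mul_mem_left _ _ (gen_mem b hb p.1),
    mul_ne_zero p.2.ne_zero (gen_ne_zero b hb p.1)⟩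

theorem span_param (p : Cls C × (𝓞 K)ˣ) :
    span {(param b hb p).1} = (b : Ideal (𝓞 K)) * (p.1.1 : Ideal (𝓞 K)) := by
  rw [← span_gen b hb p.1]
  exact span_singleton_eq_span_singleton.mpr
    ⟨p.2⁻¹, by simp [param, mul_comm]⟩

theorem param_injective : Function.Injective (param b hb) := by
  rintro ⟨I, u⟩ ⟨I', u'⟩ h
  have h1 : span {(param b hb (I, u)).1} = span {(param b hb (I', u')).1} := by rw [h]
  rw [span_param, span_param] at h1
  have hb0 : (b : Ideal (𝓞 K)) ≠ 0 := nonZeroDivisors.coe_ne_zero b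
  have h2 : (I.1 : Ideal (𝓞 K)) = I'.1 := mul_left_cancel₀ hb0 h1
  have hI : I = I' := Subtype.ext (Subtype.ext h2)
  subst hI
  have h3 : (u : 𝓞 K) * gen b hb I = (u' : 𝓞 K) * gen b hb I := congrArg Subtype.val h
  have h4 : (u : 𝓞 K) = u' := mul_right_cancel₀ (gen_ne_zero b hb I) h3
  rw [Units.ext h4]

theorem param_surjective : Function.Surjective (param b hb) := by
  rintro ⟨a, ha, ha0⟩
  have hle : span {a} ≤ (b : Ideal (𝓞 K)) := (span_singleton_le_iff_mem _).mpr ha
  obtain ⟨J, hJ⟩ := Ideal.dvd_iff_le.mpr hle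
  have hJ0 : J ≠ 0 := by
    rintro rfl
    rw [mul_zero] at hJ
    exact ha0 (span_singleton_eq_bot.mp hJ)
  let J' : (Ideal (𝓞 K))⁰ := ⟨J, mem_nonZeroDivisors_of_ne_zero hJ0⟩
  have hcls : ClassGroup.mk0 J' = C := by
    have h1 : ClassGroup.mk0 (b * J') = 1 := by
      rw [ClassGroup.mk0_eq_one_iff (SetLike.coe_mem _)]
      have : ((b * J' : (Ideal (𝓞 K))⁰) : Ideal (𝓞 K)) = span {a} := hJ.symm
      rw [this]
      exact ⟨⟨a, rfl⟩⟩
    rw [map_mul, hb] at h1
    exact (inv_mul_eq_one.mp h1).symm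
  let I : Cls C := ⟨J', hcls⟩
  have hspan : span {a} = span {gen b hb I} := by rw [span_gen, hJ]
  obtain ⟨u, hu⟩ := span_singleton_eq_span_singleton.mp hspan
  refine ⟨(I, u⁻¹), Subtype.ext ?_⟩
  show ((u⁻¹ : (𝓞 K)ˣ) : 𝓞 K) * gen b hb I = a
  rw [← hu]
  simp [mul_comm, mul_assoc]

/-- The parametrisation as an equivalence. -/
noncomputable def paramEquiv : Cls C × (𝓞 K)ˣ ≃ NZ b :=
  Equiv.ofBijective (param b hb) ⟨param_injective b hb, param_surjective b hb⟩

theorem coe_toLattice_param (p : Cls C × (𝓞 K)ˣ) :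
    ((toLattice b (param b hb p) : idealLattice K (FractionalIdeal.mk0 K b)) : mixedSpace K)
      = p.2 • (mixedEmbedding K ((gen b hb p.1 : 𝓞 K) : K)) := by
  rw [coe_toLattice, unitSMul_smul, ← map_mul]
  rfl

theorem norm_toLattice_param (p : Cls C × (𝓞 K)ˣ) :
    mixedEmbedding.norm
      ((toLattice b (param b hb p) : idealLattice K (FractionalIdeal.mk0 K b)) : mixedSpace K)
      / (absNorm (b : Ideal (𝓞 K)) : ℝ) = (absNorm (p.1.1 : Ideal (𝓞 K)) : ℝ) := by
  rw [norm_toLattice, span_param, map_mul, Nat.cast_mul]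
  have : (absNorm (b : Ideal (𝓞 K)) : ℝ) ≠ 0 :=
    Nat.cast_ne_zero.mpr (absNorm_ne_zero_of_nonZeroDivisors b)
  field_simp

end PartialZetaOrbit

open PartialZetaOrbit in
/-- **The partial zeta function of the class `C` as a weighted lattice sum.**  Here `b` is an
integral ideal in the class `C⁻¹` and `eta` is any weight on the mixed space whose translates
under the full unit group sum to the order of the torsion subgroup. -/
theorem torsionOrder_mul_zetaC_eq (eta : mixedSpace K → ℝ)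
    (hsum : ∀ x, mixedEmbedding.norm x ≠ 0 →
      HasSum (fun u : (𝓞 K)ˣ => eta (u • x)) (torsionOrder K : ℝ))
    (C : ClassGroup (𝓞 K)) (b : (Ideal (𝓞 K))⁰) (hb : ClassGroup.mk0 b = C⁻¹) {s : ℝ}
    (hs : s ≠ 0)
    (hS : Summable (fun x : idealLattice K (FractionalIdeal.mk0 K b) =>
      eta (x : mixedSpace K) *
        (mixedEmbedding.norm (x : mixedSpace K) / absNorm (b : Ideal (𝓞 K))) ^ (-s))) :
    Summable (fun a : {I : (Ideal (𝓞 K))⁰ // ClassGroup.mk0 I = C} =>
      ((absNorm (a.1 : Ideal (𝓞 K)) : ℝ)) ^ (-s)) ∧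
    (torsionOrder K : ℝ) * ∑' a : {I : (Ideal (𝓞 K))⁰ // ClassGroup.mk0 I = C},
        ((absNorm (a.1 : Ideal (𝓞 K)) : ℝ)) ^ (-s)
      = ∑' x : idealLattice K (FractionalIdeal.mk0 K b), eta (x : mixedSpace K) *
        (mixedEmbedding.norm (x : mixedSpace K) / absNorm (b : Ideal (𝓞 K))) ^ (-s) := by
  set f : idealLattice K (FractionalIdeal.mk0 K b) → ℝ := fun x =>
    eta (x : mixedSpace K) *
      (mixedEmbedding.norm (x : mixedSpace K) / absNorm (b : Ideal (𝓞 K))) ^ (-s) with hf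
  -- the term at `0` vanishes
  have hsupp : Function.support f ⊆ Set.range (toLattice b) := by
    intro x hx
    apply mem_range_toLattice
    intro h0
    apply hx
    simp only [hf, h0, map_zero, zero_div, Real.zero_rpow (neg_ne_zero.mpr hs), mul_zero]
  have e1 : ∑' a : NZ b, f (toLattice b a) = ∑' x, f x :=
    (toLattice_injective b).tsum_eq hsupp
  have hS1 : Summable (fun a : NZ b => f (toLattice b a)) :=
    hS.comp_injective (toLattice_injective b)
  have hS2 : Summable (fun p : Cls C × (𝓞 K)ˣ => f (toLattice b (param b hb p))) :=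
    (paramEquiv b hb).summable_iff.mpr hS1
  have e2 : ∑' p : Cls C × (𝓞 K)ˣ, f (toLattice b (param b hb p))
      = ∑' a : NZ b, f (toLattice b a) :=
    (paramEquiv b hb).tsum_eq (fun a => f (toLattice b a))
  have hpt : ∀ p : Cls C × (𝓞 K)ˣ, f (toLattice b (param b hb p))
      = eta (p.2 • mixedEmbedding K ((gen b hb p.1 : 𝓞 K) : K))
        * ((absNorm (p.1.1 : Ideal (𝓞 K)) : ℝ)) ^ (-s) := by
    intro p
    simp only [hf]
    rw [norm_toLattice_param, coe_toLattice_param]
  have hne : ∀ I : Cls C, mixedEmbedding.norm (mixedEmbedding K ((gen b hb I : 𝓞 K) : K)) ≠ 0 :=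
    fun I => norm_toLattice_ne_zero b ⟨gen b hb I, gen_mem b hb I, gen_ne_zero b hb I⟩
  have hrow : ∀ I : Cls C, HasSum (fun u : (𝓞 K)ˣ => f (toLattice b (param b hb (I, u))))
      ((torsionOrder K : ℝ) * ((absNorm (I.1 : Ideal (𝓞 K)) : ℝ)) ^ (-s)) := by
    intro I
    simp only [hpt]
    exact (hsum _ (hne I)).mul_right _
  have e3 : ∑' p : Cls C × (𝓞 K)ˣ, f (toLattice b (param b hb p))
      = ∑' I : Cls C, (torsionOrder K : ℝ) * ((absNorm (I.1 : Ideal (𝓞 K)) : ℝ)) ^ (-s) := by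
    rw [hS2.tsum_prod' fun I => (hrow I).summable]
    exact tsum_congr fun I => (hrow I).tsum_eq
  have hS3 : Summable (fun I : Cls C =>
      (torsionOrder K : ℝ) * ((absNorm (I.1 : Ideal (𝓞 K)) : ℝ)) ^ (-s)) := by
    have := hS2.prod
    refine this.congr fun I => ?_
    exact (hrow I).tsum_eq
  have hw : (torsionOrder K : ℝ) ≠ 0 := Nat.cast_ne_zero.mpr (torsionOrder_ne_zero K)
  refine ⟨(summable_mul_left_iff hw).mp hS3, ?_⟩
  rw [← tsum_mul_left, ← e3, e2, e1]

end Fermat.Agent.Lib.CFT.Unram
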