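import Mathlib

set_option autoImplicit false

/-!
The tent function and the associated partition of unity on `ℝ^ι` (translates by `ℤ^ι`), for the
S14 fast track (work package U2).
-/

namespace Fermat.Agent.Lib.CFT.Unram

/-- The tent function `t ↦ max 0 (1 - |t|)`. -/
noncomputable def tent (t : ℝ) : ℝ := max 0 (1 - |t|)

theorem tent_nonneg (t : ℝ) : 0 ≤ tent t := le_max_left _ _

theorem tent_le_one (t : ℝ) : tent t ≤ 1 := by
  unfold tent
  exact max_le zero_le_one (by linarith [abs_nonneg t])

theorem tent_eq_zero {t : ℝ} (ht : 1 ≤ |t|) : tent t = 0 := by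
  unfold tent
  exact max_eq_left (by linarith)

theorem tent_of_abs_le {t : ℝ} (ht : |t| ≤ 1) : tent t = 1 - |t| := by
  unfold tent
  exact max_eq_right (by linarith)

theorem abs_lt_one_of_tent_ne_zero {t : ℝ} (ht : tent t ≠ 0) : |t| < 1 := by
  by_contra h
  exact ht (tent_eq_zero (not_lt.mp h))

/-- the tent function is `1`-Lipschitz -/
theorem abs_tent_sub_le (a b : ℝ) : |tent a - tent b| ≤ |a - b| := by
  unfold tent
  have h1 : |max 0 (1 - |a|) - max 0 (1 - |b|)| ≤ |(1 - |a|) - (1 - |b|)| := by
    have := abs_max_sub_max_le_abs (1 - |a|) (1 - |b|) (0 : ℝ)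
    rwa [max_comm (1 - |a|), max_comm (1 - |b|)] at this
  have h2 : (1 - |a|) - (1 - |b|) = |b| - |a| := by ring
  rw [h2] at h1
  calc |max 0 (1 - |a|) - max 0 (1 - |b|)| ≤ |(|b| - |a|)| := h1
    _ ≤ |b - a| := abs_abs_sub_abs_le_abs_sub b a
    _ = |a - b| := abs_sub_comm b a

/-- partition of unity in one variable -/
theorem hasSum_tent (t : ℝ) : HasSum (fun k : ℤ => tent (t + k)) 1 := by
  classical
  set m : ℤ := ⌊t⌋ with hm
  have hf0 : 0 ≤ t - m := by
    have := Int.floor_le t
    linarith
  have hf1 : t - m < 1 := by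
    have := Int.lt_floor_add_one t
    linarith
  have hne : (-m : ℤ) ≠ -m - 1 := by omega
  have hzero : ∀ k ∉ ({-m, -m - 1} : Finset ℤ), tent (t + k) = 0 := by
    intro k hk
    simp only [Finset.mem_insert, Finset.mem_singleton, not_or] at hk
    apply tent_eq_zero
    rcases lt_or_gt_of_ne hk.1 with h | h
    · have h2 : k < -m - 1 := lt_of_le_of_ne (by omega) hk.2
      have h3 : (k : ℝ) ≤ -m - 2 := by
        have : k ≤ -m - 2 := by omega
        exact_mod_cast this
      rw [abs_of_nonpos (by linarith), neg_add]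
      linarith
    · have h3 : (-m : ℝ) + 1 ≤ k := by
        have : -m + 1 ≤ k := by omega
        exact_mod_cast this
      rw [abs_of_nonneg (by linarith)]
      linarith
  have hsum : HasSum (fun k : ℤ => tent (t + k))
      (∑ k ∈ ({-m, -m - 1} : Finset ℤ), tent (t + k)) := hasSum_sum_of_ne_finset_zero hzero
  have hval : ∑ k ∈ ({-m, -m - 1} : Finset ℤ), tent (t + k) = 1 := by
    rw [Finset.sum_pair hne]
    have h1 : tent (t + ((-m : ℤ) : ℝ)) = 1 - (t - m) := by
      rw [tent_of_abs_le]
      · push_cast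
        rw [abs_of_nonneg (by linarith)]
        ring
      · push_cast
        rw [abs_of_nonneg (by linarith)]
        linarith
    have h2 : tent (t + ((-m - 1 : ℤ) : ℝ)) = t - m := by
      rw [tent_of_abs_le]
      · push_cast
        rw [abs_of_nonpos (by linarith)]
        ring
      · push_cast
        rw [abs_of_nonpos (by linarith)]
        linarith
    rw [h1, h2]
    ring
  rwa [hval] at hsum

/-- partition of unity in several variables -/
theorem hasSum_prod_tent {ι : Type*} [Fintype ι] (c : ι → ℝ) :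
    HasSum (fun k : ι → ℤ => ∏ i, tent (c i + k i)) 1 := by
  classical
  let t : ι → Finset ℤ := fun i => {-⌊c i⌋, -⌊c i⌋ - 1}
  have hzero1 : ∀ (i : ι) (j : ℤ), j ∉ t i → tent (c i + j) = 0 := by
    intro i j hj
    by_contra h
    simp only [t, Finset.mem_insert, Finset.mem_singleton, not_or] at hj
    have hlt := abs_lt_one_of_tent_ne_zero h
    rw [abs_lt] at hlt
    have h1 := Int.floor_le (c i)
    have h2 := Int.lt_floor_add_one (c i)
    have h3 : (-⌊c i⌋ - 1 : ℝ) < j + 1 := by linarith
    have h4 : (j : ℝ) < -⌊c i⌋ + 1 := by linarith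
    have h5 : -⌊c i⌋ - 1 < j + 1 := by exact_mod_cast h3
    have h6 : j < -⌊c i⌋ + 1 := by exact_mod_cast h4
    omega
  have hzero : ∀ k ∉ Fintype.piFinset t, ∏ i, tent (c i + k i) = 0 := by
    intro k hk
    rw [Fintype.mem_piFinset] at hk
    push Not at hk
    obtain ⟨i, hi⟩ := hk
    exact Finset.prod_eq_zero (Finset.mem_univ i) (hzero1 i (k i) hi)
  have hsum : HasSum (fun k : ι → ℤ => ∏ i, tent (c i + k i))
      (∑ k ∈ Fintype.piFinset t, ∏ i, tent (c i + k i)) := hasSum_sum_of_ne_finset_zero hzero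
  have hval : ∑ k ∈ Fintype.piFinset t, ∏ i, tent (c i + k i) = 1 := by
    rw [← Finset.prod_univ_sum (fun i => t i) (fun i (j : ℤ) => tent (c i + j))]
    apply Finset.prod_eq_one
    intro i _
    have h1 := hasSum_tent (c i)
    have h2 : HasSum (fun j : ℤ => tent (c i + j)) (∑ j ∈ t i, tent (c i + j)) :=
      hasSum_sum_of_ne_finset_zero (hzero1 i)
    exact h2.unique h1
  rwa [hval] at hsum

end Fermat.Agent.Lib.CFT.Unram
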