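import Mathlib
import Fermat.Agent.Lib.CFT.Unram.Tent

set_option autoImplicit false

/-!
The smooth (tent) partition of unity for the action of the units on the mixed space of a number
field, for the S14 fast track (work package U2, partial zeta functions of ideal classes).
-/

namespace Fermat.Agent.Lib.CFT.Unram

open NumberField NumberField.mixedEmbedding NumberField.InfinitePlace NumberField.Units
  NumberField.Units.dirichletUnitTheorem Module
open scoped Classical

variable (K : Type*) [Field K] [NumberField K]

/-- The real basis of the logarithmic space coming from the chosen basis of the unit lattice. -/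
noncomputable def logBasis : Basis (Fin (rank K)) ℝ (logSpace K) :=
  (basisUnitLattice K).ofZLatticeBasis ℝ

theorem logBasis_apply (i : Fin (rank K)) :
    logBasis K i = (basisUnitLattice K i : logSpace K) := by
  unfold logBasis
  simp

/-- Coordinates of `logMap x` in the basis of the unit lattice. -/
noncomputable def logCoord (x : mixedSpace K) (i : Fin (rank K)) : ℝ :=
  (logBasis K).repr (logMap x) i

/-- The tent partition of unity for the action of the units (modulo torsion). -/
noncomputable def eta (x : mixedSpace K) : ℝ :=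
  if mixedEmbedding.norm x = 0 then 0 else ∏ i, tent (logCoord K x i)

variable {K}

theorem eta_of_norm_eq_zero {x : mixedSpace K} (hx : mixedEmbedding.norm x = 0) :
    eta K x = 0 := if_pos hx

theorem eta_of_norm_ne_zero {x : mixedSpace K} (hx : mixedEmbedding.norm x ≠ 0) :
    eta K x = ∏ i, tent (logCoord K x i) := if_neg hx

theorem eta_zero : eta K (0 : mixedSpace K) = 0 := eta_of_norm_eq_zero (map_zero _)

theorem eta_nonneg (x : mixedSpace K) : 0 ≤ eta K x := by
  unfold eta
  split_ifs
  · exact le_rfl
  · exact Finset.prod_nonneg fun i _ => tent_nonneg _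

theorem eta_le_one (x : mixedSpace K) : eta K x ≤ 1 := by
  unfold eta
  split_ifs
  · exact zero_le_one
  · exact Finset.prod_le_one (fun i _ => tent_nonneg _) (fun i _ => tent_le_one _)

theorem norm_ne_zero_of_eta_ne_zero {x : mixedSpace K} (hx : eta K x ≠ 0) :
    mixedEmbedding.norm x ≠ 0 := fun h => hx (eta_of_norm_eq_zero h)

theorem abs_logCoord_lt_one_of_eta_ne_zero {x : mixedSpace K} (hx : eta K x ≠ 0)
    (i : Fin (rank K)) : |logCoord K x i| < 1 := by
  rw [eta_of_norm_ne_zero (norm_ne_zero_of_eta_ne_zero hx)] at hx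
  exact abs_lt_one_of_tent_ne_zero (Finset.prod_ne_zero_iff.mp hx i (Finset.mem_univ i))

/-- scale invariance -/
theorem eta_smul (x : mixedSpace K) {c : ℝ} (hc : c ≠ 0) : eta K (c • x) = eta K x := by
  by_cases hx : mixedEmbedding.norm x = 0
  · rw [eta_of_norm_eq_zero hx, eta_of_norm_eq_zero]
    rw [mixedEmbedding.norm_smul, hx, mul_zero]
  · have hcx : mixedEmbedding.norm (c • x) ≠ 0 := by
      rw [mixedEmbedding.norm_smul]
      exact mul_ne_zero (pow_ne_zero _ (abs_ne_zero.mpr hc)) hx
    rw [eta_of_norm_ne_zero hx, eta_of_norm_ne_zero hcx]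
    unfold logCoord
    rw [logMap_real_smul hx hc]

section Units

variable (K)

/-- The decomposition of the units as torsion times the free part generated by the fundamental
system of units. -/
noncomputable def unitsEquiv : torsion K × (Fin (rank K) → ℤ) ≃ (𝓞 K)ˣ :=
  Equiv.ofBijective (fun p => (p.1 : (𝓞 K)ˣ) * ∏ i, fundSystem K i ^ p.2 i) (by
    constructor
    · intro p q hpq
      obtain ⟨r, _, hr⟩ := exist_unique_eq_mul_prod K ((p.1 : (𝓞 K)ˣ) * ∏ i, fundSystem K i ^ p.2 i)
      exact (hr p rfl).trans (hr q hpq).symm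
    · intro u
      obtain ⟨r, hr, _⟩ := exist_unique_eq_mul_prod K u
      exact ⟨r, hr.symm⟩)

theorem unitsEquiv_apply (p : torsion K × (Fin (rank K) → ℤ)) :
    unitsEquiv K p = (p.1 : (𝓞 K)ˣ) * ∏ i, fundSystem K i ^ p.2 i := rfl

theorem logEmbedding_unitsEquiv (p : torsion K × (Fin (rank K) → ℤ)) :
    logEmbedding K (Additive.ofMul (unitsEquiv K p)) = ∑ i, (p.2 i : ℝ) • logBasis K i := by
  rw [unitsEquiv_apply, ofMul_mul, map_add, ofMul_prod, map_sum]
  have h1 : logEmbedding K (Additive.ofMul (p.1 : (𝓞 K)ˣ)) = 0 :=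
    logEmbedding_eq_zero_iff.mpr p.1.2
  rw [h1, zero_add]
  refine Finset.sum_congr rfl fun i _ => ?_
  rw [ofMul_zpow, map_zsmul, logEmbedding_fundSystem, logBasis_apply, Int.cast_smul_eq_zsmul]

variable {K}

theorem logCoord_unitsEquiv_smul {x : mixedSpace K} (hx : mixedEmbedding.norm x ≠ 0)
    (p : torsion K × (Fin (rank K) → ℤ)) (i : Fin (rank K)) :
    logCoord K (unitsEquiv K p • x) i = logCoord K x i + p.2 i := by
  unfold logCoord
  rw [logMap_unit_smul _ hx, logEmbedding_unitsEquiv, map_add, Finsupp.add_apply,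
    Basis.repr_sum_self, add_comm]

theorem norm_unit_smul_ne_zero {x : mixedSpace K} (hx : mixedEmbedding.norm x ≠ 0)
    (u : (𝓞 K)ˣ) : mixedEmbedding.norm (u • x) ≠ 0 := by
  rwa [norm_unit_smul]

/-- **Partition of unity**: the sum of `eta` over the orbit of a point of nonzero norm under the
units is the order of the torsion subgroup. -/
theorem hasSum_eta_unit_smul {x : mixedSpace K} (hx : mixedEmbedding.norm x ≠ 0) :
    HasSum (fun u : (𝓞 K)ˣ => eta K (u • x)) (torsionOrder K : ℝ) := by
  classical
  have : Fintype (torsion K) := Fintype.ofFinite _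
  rw [← (unitsEquiv K).hasSum_iff]
  have hF : ∀ p : torsion K × (Fin (rank K) → ℤ),
      ((fun u : (𝓞 K)ˣ => eta K (u • x)) ∘ unitsEquiv K) p =
        ∏ i, tent (logCoord K x i + p.2 i) := by
    intro p
    simp only [Function.comp_apply]
    rw [eta_of_norm_ne_zero (norm_unit_smul_ne_zero hx _)]
    exact Finset.prod_congr rfl fun i _ => by rw [logCoord_unitsEquiv_smul hx]
  have hinner : ∀ ζ : torsion K, HasSum (fun k : Fin (rank K) → ℤ =>
      ((fun u : (𝓞 K)ˣ => eta K (u • x)) ∘ unitsEquiv K) (ζ, k)) 1 := by
    intro ζ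
    simp only [hF]
    exact hasSum_prod_tent (fun i => logCoord K x i)
  have hsummable : Summable ((fun u : (𝓞 K)ˣ => eta K (u • x)) ∘ unitsEquiv K) := by
    refine (summable_prod_of_nonneg
      (f := (fun u : (𝓞 K)ˣ => eta K (u • x)) ∘ unitsEquiv K) (fun p => eta_nonneg _)).mpr
      ⟨fun ζ => (hinner ζ).summable, ?_⟩
    exact (hasSum_fintype _).summable
  have houter : HasSum (fun _ζ : torsion K => (1 : ℝ)) (torsionOrder K : ℝ) := by
    have := hasSum_fintype (fun _ζ : torsion K => (1 : ℝ))
    rw [torsionOrder, Nat.card_eq_fintype_card]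
    simpa using this
  have := hsummable.hasSum.prod_fiberwise hinner
  rw [← this.unique houter]
  exact hsummable.hasSum

end Units

section Estimates

/-- difference of two products of numbers in `[0, 1]` -/
theorem abs_prod_sub_prod_le {ι : Type*} (s : Finset ι) (f g : ι → ℝ)
    (hf : ∀ i ∈ s, 0 ≤ f i ∧ f i ≤ 1) (hg : ∀ i ∈ s, 0 ≤ g i ∧ g i ≤ 1) :
    |∏ i ∈ s, f i - ∏ i ∈ s, g i| ≤ ∑ i ∈ s, |f i - g i| := by
  classical
  induction s using Finset.induction_on with
  | empty => simp
  | insert a s ha ih =>
    rw [Finset.prod_insert ha, Finset.prod_insert ha, Finset.sum_insert ha]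
    have hf' : ∀ i ∈ s, 0 ≤ f i ∧ f i ≤ 1 := fun i hi => hf i (Finset.mem_insert_of_mem hi)
    have hg' : ∀ i ∈ s, 0 ≤ g i ∧ g i ≤ 1 := fun i hi => hg i (Finset.mem_insert_of_mem hi)
    have ih' := ih hf' hg'
    have hPf0 : 0 ≤ ∏ i ∈ s, f i := Finset.prod_nonneg fun i hi => (hf' i hi).1
    have hPf1 : ∏ i ∈ s, f i ≤ 1 :=
      Finset.prod_le_one (fun i hi => (hf' i hi).1) (fun i hi => (hf' i hi).2)
    have hga := hg a (Finset.mem_insert_self a s)
    have h1 : f a * ∏ i ∈ s, f i - g a * ∏ i ∈ s, g i =
        (f a - g a) * ∏ i ∈ s, f i + g a * (∏ i ∈ s, f i - ∏ i ∈ s, g i) := by ring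
    rw [h1]
    calc |(f a - g a) * ∏ i ∈ s, f i + g a * (∏ i ∈ s, f i - ∏ i ∈ s, g i)|
        ≤ |(f a - g a) * ∏ i ∈ s, f i| + |g a * (∏ i ∈ s, f i - ∏ i ∈ s, g i)| := abs_add_le _ _
      _ = |f a - g a| * ∏ i ∈ s, f i + g a * |∏ i ∈ s, f i - ∏ i ∈ s, g i| := by
        rw [abs_mul, abs_mul, abs_of_nonneg hPf0, abs_of_nonneg hga.1]
      _ ≤ |f a - g a| * 1 + 1 * ∑ i ∈ s, |f i - g i| := by
        apply add_le_add
        · exact mul_le_mul_of_nonneg_left hPf1 (abs_nonneg _)
        · exact mul_le_mul hga.2 ih' (abs_nonneg _) zero_le_one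
      _ = |f a - g a| + ∑ i ∈ s, |f i - g i| := by ring

theorem normAtPlace_pos_of_norm_ne_zero {x : mixedSpace K} (hx : mixedEmbedding.norm x ≠ 0)
    (w : InfinitePlace K) : 0 < normAtPlace w x :=
  lt_of_le_of_ne (normAtPlace_nonneg w x) (mixedEmbedding.norm_ne_zero_iff.mp hx w).symm

/-- the logarithm of the norm in terms of the logarithms of the norms at the places -/
theorem log_norm_eq_sum {x : mixedSpace K} (hx : mixedEmbedding.norm x ≠ 0) :
    Real.log (mixedEmbedding.norm x) = ∑ w, (mult w : ℝ) * Real.log (normAtPlace w x) := by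
  rw [mixedEmbedding.norm_apply, Real.log_prod]
  · exact Finset.sum_congr rfl fun w _ => by rw [Real.log_pow]
  · intro w _
    exact pow_ne_zero _ (normAtPlace_pos_of_norm_ne_zero hx w).ne'

theorem sum_mult_eq_finrank :
    ∑ w : InfinitePlace K, (mult w : ℝ) = (finrank ℚ K : ℝ) := by
  have := InfinitePlace.sum_mult_eq (K := K)
  exact_mod_cast this

omit [NumberField K] in
theorem one_le_mult (w : InfinitePlace K) : (1 : ℝ) ≤ (mult w : ℝ) := by
  have : 1 ≤ mult w := by
    unfold mult
    split_ifs <;> norm_num
  exact_mod_cast this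

omit [NumberField K] in
theorem mult_le_two (w : InfinitePlace K) : (mult w : ℝ) ≤ 2 := by
  have : mult w ≤ 2 := by
    unfold mult
    split_ifs <;> norm_num
  exact_mod_cast this

theorem finrank_pos_real : (0 : ℝ) < (finrank ℚ K : ℝ) := by
  exact_mod_cast (finrank_pos : 0 < finrank ℚ K)

end Estimates

section Cone

variable (K)

/-- The logarithmic scale `log (N x) / n` of a point of the mixed space. -/
noncomputable def logScale (x : mixedSpace K) : ℝ :=
  Real.log (mixedEmbedding.norm x) * (finrank ℚ K : ℝ)⁻¹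

/-- A bound for the norm of `logMap x` on the support of `eta`. -/
noncomputable def logBound : ℝ := ∑ i, ‖logBasis K i‖

/-- A bound for `|log (normAtPlace w x) - logScale x|` on the support of `eta`. -/
noncomputable def coneC : ℝ := (Fintype.card (InfinitePlace K) : ℝ) * logBound K

variable {K}

theorem logBound_nonneg : 0 ≤ logBound K := by
  unfold logBound
  exact Finset.sum_nonneg fun i _ => norm_nonneg _

theorem coneC_nonneg : 0 ≤ coneC K := by
  unfold coneC
  exact mul_nonneg (Nat.cast_nonneg _) logBound_nonneg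

theorem logMap_apply_eq (x : mixedSpace K) (w : {w : InfinitePlace K // w ≠ w₀}) :
    logMap x w = (mult w.1 : ℝ) * (Real.log (normAtPlace w.1 x) - logScale K x) := rfl

theorem sum_mult_mul_log_sub {x : mixedSpace K} (hx : mixedEmbedding.norm x ≠ 0) :
    ∑ w : InfinitePlace K, (mult w : ℝ) * (Real.log (normAtPlace w x) - logScale K x) = 0 := by
  simp_rw [mul_sub]
  rw [Finset.sum_sub_distrib, ← log_norm_eq_sum hx, ← Finset.sum_mul, sum_mult_eq_finrank]
  unfold logScale
  have := finrank_pos_real (K := K)
  field_simp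
  ring

theorem norm_logMap_le_of_eta_ne_zero {x : mixedSpace K} (hx : eta K x ≠ 0) :
    ‖logMap x‖ ≤ logBound K := by
  have h := (logBasis K).sum_repr (logMap x)
  rw [← h]
  unfold logBound
  refine (norm_sum_le _ _).trans (Finset.sum_le_sum fun i _ => ?_)
  rw [_root_.norm_smul, Real.norm_eq_abs]
  have := abs_logCoord_lt_one_of_eta_ne_zero hx i
  unfold logCoord at this
  calc |((logBasis K).repr (logMap x)) i| * ‖logBasis K i‖ ≤ 1 * ‖logBasis K i‖ :=
        mul_le_mul_of_nonneg_right this.le (norm_nonneg _)
    _ = ‖logBasis K i‖ := one_mul _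

theorem abs_log_normAtPlace_sub_le {x : mixedSpace K} (hx : eta K x ≠ 0) (w : InfinitePlace K) :
    |Real.log (normAtPlace w x) - logScale K x| ≤ coneC K := by
  have hN := norm_ne_zero_of_eta_ne_zero hx
  have hB := norm_logMap_le_of_eta_ne_zero hx
  have hcard : (1 : ℝ) ≤ (Fintype.card (InfinitePlace K) : ℝ) := by
    exact_mod_cast Fintype.card_pos
  -- the places different from `w₀`
  have hne : ∀ v : InfinitePlace K, v ≠ w₀ →
      |(mult v : ℝ) * (Real.log (normAtPlace v x) - logScale K x)| ≤ logBound K := by
    intro v hv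
    have := norm_le_pi_norm (logMap x) ⟨v, hv⟩
    rw [Real.norm_eq_abs, logMap_apply_eq] at this
    exact this.trans hB
  by_cases hw : w = w₀
  · subst hw
    have hsum := sum_mult_mul_log_sub (K := K) hN
    rw [← Finset.add_sum_erase Finset.univ _ (Finset.mem_univ (w₀ : InfinitePlace K))] at hsum
    have h1 : |(mult (w₀ : InfinitePlace K) : ℝ) *
        (Real.log (normAtPlace w₀ x) - logScale K x)| ≤
        ((Fintype.card (InfinitePlace K) : ℝ) - 1) * logBound K := by
      rw [eq_neg_of_add_eq_zero_left hsum, abs_neg]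
      refine (Finset.abs_sum_le_sum_abs _ _).trans ?_
      have hc : ((Finset.univ.erase (w₀ : InfinitePlace K)).card : ℝ) =
          (Fintype.card (InfinitePlace K) : ℝ) - 1 := by
        rw [Finset.card_erase_of_mem (Finset.mem_univ _), Finset.card_univ,
          Nat.cast_sub Fintype.card_pos, Nat.cast_one]
      rw [← hc, ← nsmul_eq_mul]
      refine Finset.sum_le_card_nsmul _ _ _ fun v hv => ?_
      exact hne v (Finset.ne_of_mem_erase hv)
    rw [abs_mul, abs_of_pos (lt_of_lt_of_le zero_lt_one (one_le_mult _))] at h1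
    unfold coneC
    have h2 : |Real.log (normAtPlace w₀ x) - logScale K x| ≤
        (mult (w₀ : InfinitePlace K) : ℝ) * |Real.log (normAtPlace w₀ x) - logScale K x| :=
      le_mul_of_one_le_left (abs_nonneg _) (one_le_mult _)
    have h3 : ((Fintype.card (InfinitePlace K) : ℝ) - 1) * logBound K ≤
        (Fintype.card (InfinitePlace K) : ℝ) * logBound K :=
      mul_le_mul_of_nonneg_right (by linarith) logBound_nonneg
    linarith
  · have h1 := hne w hw
    rw [abs_mul, abs_of_pos (lt_of_lt_of_le zero_lt_one (one_le_mult _))] at h1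
    have h2 : |Real.log (normAtPlace w x) - logScale K x| ≤
        (mult w : ℝ) * |Real.log (normAtPlace w x) - logScale K x| :=
      le_mul_of_one_le_left (abs_nonneg _) (one_le_mult _)
    unfold coneC
    have h3 : logBound K ≤ (Fintype.card (InfinitePlace K) : ℝ) * logBound K :=
      le_mul_of_one_le_left logBound_nonneg hcard
    linarith

end Cone

section ConeConst

variable (K)

/-- The constant of the cone containing the support of `eta`. -/
noncomputable def coneConst : ℝ := Real.exp (-2 * coneC K)

variable {K}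

theorem coneConst_pos : 0 < coneConst K := Real.exp_pos _

theorem coneConst_le_one : coneConst K ≤ 1 := by
  unfold coneConst
  rw [Real.exp_le_one_iff]
  have := coneC_nonneg (K := K)
  linarith

/-- On the support of `eta` every coordinate is comparable with the norm. -/
theorem coneConst_mul_norm_le_normAtPlace {x : mixedSpace K} (hx : eta K x ≠ 0)
    (w : InfinitePlace K) : coneConst K * ‖x‖ ≤ normAtPlace w x := by
  have hN := norm_ne_zero_of_eta_ne_zero hx
  have hupper : ‖x‖ ≤ Real.exp (logScale K x + coneC K) := by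
    rw [norm_eq_sup'_normAtPlace]
    refine Finset.sup'_le _ _ fun v _ => ?_
    have h1 := abs_log_normAtPlace_sub_le hx v
    rw [abs_le] at h1
    have h2 : Real.log (normAtPlace v x) ≤ logScale K x + coneC K := by linarith [h1.2]
    exact (Real.log_le_iff_le_exp (normAtPlace_pos_of_norm_ne_zero hN v)).mp h2
  have h1 := abs_log_normAtPlace_sub_le hx w
  rw [abs_le] at h1
  have h2 : logScale K x - coneC K ≤ Real.log (normAtPlace w x) := by linarith [h1.1]
  have h3 : Real.exp (logScale K x - coneC K) ≤ normAtPlace w x :=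
    (Real.le_log_iff_exp_le (normAtPlace_pos_of_norm_ne_zero hN w)).mp h2
  have h4 : Real.exp (logScale K x - coneC K) =
      coneConst K * Real.exp (logScale K x + coneC K) := by
    unfold coneConst
    rw [← Real.exp_add]
    congr 1
    ring
  calc coneConst K * ‖x‖ ≤ coneConst K * Real.exp (logScale K x + coneC K) :=
        mul_le_mul_of_nonneg_left hupper coneConst_pos.le
    _ = Real.exp (logScale K x - coneC K) := h4.symm
    _ ≤ normAtPlace w x := h3

/-- lower bound of the norm in terms of a lower bound of all the coordinates -/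
theorem pow_le_norm {x : mixedSpace K} {m : ℝ} (hm : 0 ≤ m)
    (h : ∀ w : InfinitePlace K, m ≤ normAtPlace w x) :
    m ^ finrank ℚ K ≤ mixedEmbedding.norm x := by
  rw [mixedEmbedding.norm_apply, ← InfinitePlace.sum_mult_eq, ← Finset.prod_pow_eq_pow_sum]
  exact Finset.prod_le_prod (fun w _ => pow_nonneg hm _)
    (fun w _ => pow_le_pow_left₀ hm (h w) _)

end ConeConst

section Lipschitz

variable (K)

/-- The Lipschitz constant of `eta` in logarithmic coordinates. -/
noncomputable def lipConst : ℝ := 4 * (rank K : ℝ) * ‖(logBasis K).equivFunL.toContinuousLinearMap‖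

variable {K}

theorem lipConst_nonneg : 0 ≤ lipConst K := by
  unfold lipConst
  positivity

/-- the logarithm of the norm is Lipschitz in logarithmic coordinates -/
theorem abs_log_norm_sub_le {x y : mixedSpace K} (hx : mixedEmbedding.norm x ≠ 0)
    (hy : mixedEmbedding.norm y ≠ 0) {ε : ℝ}
    (h : ∀ w : InfinitePlace K, |Real.log (normAtPlace w x) - Real.log (normAtPlace w y)| ≤ ε) :
    |Real.log (mixedEmbedding.norm x) - Real.log (mixedEmbedding.norm y)| ≤
      (finrank ℚ K : ℝ) * ε := by
  rw [log_norm_eq_sum hx, log_norm_eq_sum hy, ← Finset.sum_sub_distrib, ← sum_mult_eq_finrank,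
    Finset.sum_mul]
  refine (Finset.abs_sum_le_sum_abs _ _).trans (Finset.sum_le_sum fun w _ => ?_)
  rw [← mul_sub, abs_mul, abs_of_nonneg (Nat.cast_nonneg _)]
  exact mul_le_mul_of_nonneg_left (h w) (Nat.cast_nonneg _)

/-- `eta` is Lipschitz in logarithmic coordinates -/
theorem abs_eta_sub_eta_le {x y : mixedSpace K} (hx : mixedEmbedding.norm x ≠ 0)
    (hy : mixedEmbedding.norm y ≠ 0) {ε : ℝ}
    (h : ∀ w : InfinitePlace K, |Real.log (normAtPlace w x) - Real.log (normAtPlace w y)| ≤ ε) :
    |eta K x - eta K y| ≤ lipConst K * ε := by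
  have hε : 0 ≤ ε := (abs_nonneg _).trans (h w₀)
  have hn := finrank_pos_real (K := K)
  have hlogN := abs_log_norm_sub_le hx hy h
  -- the difference of the `logMap`s
  have hdiff : ‖logMap x - logMap y‖ ≤ 4 * ε := by
    rw [pi_norm_le_iff_of_nonneg (by linarith)]
    intro v
    rw [Pi.sub_apply, logMap_apply_eq, logMap_apply_eq, ← mul_sub, Real.norm_eq_abs, abs_mul,
      abs_of_nonneg (Nat.cast_nonneg _)]
    have h1 : Real.log (normAtPlace v.1 x) - logScale K x -
        (Real.log (normAtPlace v.1 y) - logScale K y) =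
        (Real.log (normAtPlace v.1 x) - Real.log (normAtPlace v.1 y)) -
        (Real.log (mixedEmbedding.norm x) - Real.log (mixedEmbedding.norm y)) *
          (finrank ℚ K : ℝ)⁻¹ := by
      unfold logScale
      ring
    have h2 : |(Real.log (mixedEmbedding.norm x) - Real.log (mixedEmbedding.norm y)) *
        (finrank ℚ K : ℝ)⁻¹| ≤ ε := by
      rw [abs_mul, abs_of_pos (inv_pos.mpr hn)]
      calc |Real.log (mixedEmbedding.norm x) - Real.log (mixedEmbedding.norm y)| *
          (finrank ℚ K : ℝ)⁻¹ ≤ ((finrank ℚ K : ℝ) * ε) * (finrank ℚ K : ℝ)⁻¹ :=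
            mul_le_mul_of_nonneg_right hlogN (inv_pos.mpr hn).le
        _ = ε := by field_simp
    have h3 : |Real.log (normAtPlace v.1 x) - logScale K x -
        (Real.log (normAtPlace v.1 y) - logScale K y)| ≤ 2 * ε := by
      rw [h1]
      calc |_ - _| ≤ |Real.log (normAtPlace v.1 x) - Real.log (normAtPlace v.1 y)| +
            |(Real.log (mixedEmbedding.norm x) - Real.log (mixedEmbedding.norm y)) *
              (finrank ℚ K : ℝ)⁻¹| := abs_sub _ _
        _ ≤ ε + ε := add_le_add (h v.1) h2
        _ = 2 * ε := by ring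
    calc (mult v.1 : ℝ) * |Real.log (normAtPlace v.1 x) - logScale K x -
        (Real.log (normAtPlace v.1 y) - logScale K y)| ≤ 2 * (2 * ε) :=
          mul_le_mul (mult_le_two _) h3 (abs_nonneg _) (by norm_num)
      _ = 4 * ε := by ring
  -- the difference of the coordinates
  have hcoord : ∀ i, |logCoord K x i - logCoord K y i| ≤
      ‖(logBasis K).equivFunL.toContinuousLinearMap‖ * (4 * ε) := by
    intro i
    have h1 : logCoord K x i - logCoord K y i =
        ((logBasis K).equivFunL.toContinuousLinearMap (logMap x - logMap y)) i := by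
      unfold logCoord
      simp
    rw [h1]
    calc |((logBasis K).equivFunL.toContinuousLinearMap (logMap x - logMap y)) i|
        ≤ ‖(logBasis K).equivFunL.toContinuousLinearMap (logMap x - logMap y)‖ := by
          rw [← Real.norm_eq_abs]
          exact norm_le_pi_norm _ i
      _ ≤ ‖(logBasis K).equivFunL.toContinuousLinearMap‖ * ‖logMap x - logMap y‖ :=
          ContinuousLinearMap.le_opNorm _ _
      _ ≤ ‖(logBasis K).equivFunL.toContinuousLinearMap‖ * (4 * ε) :=
          mul_le_mul_of_nonneg_left hdiff (norm_nonneg _)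
  rw [eta_of_norm_ne_zero hx, eta_of_norm_ne_zero hy]
  refine (abs_prod_sub_prod_le _ _ _ (fun i _ => ⟨tent_nonneg _, tent_le_one _⟩)
    (fun i _ => ⟨tent_nonneg _, tent_le_one _⟩)).trans ?_
  calc ∑ i, |tent (logCoord K x i) - tent (logCoord K y i)|
      ≤ ∑ _i : Fin (rank K), ‖(logBasis K).equivFunL.toContinuousLinearMap‖ * (4 * ε) :=
        Finset.sum_le_sum fun i _ => (abs_tent_sub_le _ _).trans (hcoord i)
    _ = lipConst K * ε := by
        rw [Finset.sum_const, Finset.card_univ, Fintype.card_fin, nsmul_eq_mul]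
        unfold lipConst
        ring

end Lipschitz

section Measurable

theorem measurable_logMap : Measurable (logMap : mixedSpace K → logSpace K) := by
  unfold logMap
  refine measurable_pi_iff.mpr fun w => measurable_const.mul ?_
  exact (continuous_normAtPlace _).measurable.log.sub
    ((mixedEmbedding.continuous_norm _).measurable.log.mul measurable_const)

theorem measurable_logCoord (i : Fin (rank K)) : Measurable fun x : mixedSpace K => logCoord K x i := by
  have h1 : (fun x : mixedSpace K => logCoord K x i) =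
      (fun v : logSpace K => (logBasis K).equivFunL v i) ∘ logMap := by
    funext x
    simp [logCoord]
  rw [h1]
  refine Measurable.comp ?_ measurable_logMap
  exact ((continuous_apply i).comp (logBasis K).equivFunL.continuous).measurable

theorem continuous_tent : Continuous tent := by
  unfold tent
  fun_prop

theorem measurable_eta : Measurable (eta K) := by
  unfold eta
  refine Measurable.ite ?_ measurable_const ?_
  · exact measurableSet_eq_fun (mixedEmbedding.continuous_norm K).measurable measurable_const
  · exact Finset.measurable_prod _ fun i _ => continuous_tent.measurable.comp (measurable_logCoord i)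

end Measurable

end Fermat.Agent.Lib.CFT.Unram
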