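import Mathlib
import Fermat.Agent.Lib.CFT.Unram.PartialZetaEta

set_option autoImplicit false

/-!
The kernel `x ↦ eta x * N(x)^(-s)` (cut off at `N(x) ≥ 1`) on the mixed space of a number field:
bounds, integrability and the oscillation estimate, uniformly in `s ∈ [1, 2]`
(S14 fast track, work package U2).
-/

namespace Fermat.Agent.Lib.CFT.Unram

open NumberField NumberField.mixedEmbedding NumberField.InfinitePlace NumberField.Units
  NumberField.Units.dirichletUnitTheorem Module
open scoped Classical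

variable (K : Type*) [Field K] [NumberField K]

/-- The kernel `eta x * N(x)^(-s)`, cut off at `N(x) ≥ 1`. -/
noncomputable def zetaKernel (s : ℝ) (x : mixedSpace K) : ℝ :=
  if 1 ≤ mixedEmbedding.norm x then eta K x * (mixedEmbedding.norm x) ^ (-s) else 0

variable {K}

theorem zetaKernel_of_one_le {s : ℝ} {x : mixedSpace K} (hx : 1 ≤ mixedEmbedding.norm x) :
    zetaKernel K s x = eta K x * (mixedEmbedding.norm x) ^ (-s) := if_pos hx

theorem zetaKernel_of_lt_one {s : ℝ} {x : mixedSpace K} (hx : mixedEmbedding.norm x < 1) :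
    zetaKernel K s x = 0 := if_neg (not_le.mpr hx)

theorem zetaKernel_zero (s : ℝ) : zetaKernel K s (0 : mixedSpace K) = 0 :=
  zetaKernel_of_lt_one (by rw [map_zero]; exact zero_lt_one)

theorem zetaKernel_eq_zero_of_eta_eq_zero {s : ℝ} {x : mixedSpace K} (hx : eta K x = 0) :
    zetaKernel K s x = 0 := by
  unfold zetaKernel
  split_ifs
  · rw [hx, zero_mul]
  · rfl

theorem rpow_neg_le_one {T s : ℝ} (hT : 1 ≤ T) (hs : 0 ≤ s) : T ^ (-s) ≤ 1 := by
  rw [Real.rpow_neg (by linarith)]
  exact inv_le_one_of_one_le₀ (Real.one_le_rpow hT hs)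

theorem zetaKernel_nonneg {s : ℝ} (x : mixedSpace K) : 0 ≤ zetaKernel K s x := by
  unfold zetaKernel
  split_ifs with h
  · exact mul_nonneg (eta_nonneg x) (Real.rpow_nonneg (by linarith) _)
  · exact le_rfl

theorem zetaKernel_le_one {s : ℝ} (hs : 0 ≤ s) (x : mixedSpace K) : zetaKernel K s x ≤ 1 := by
  unfold zetaKernel
  split_ifs with h
  · calc eta K x * mixedEmbedding.norm x ^ (-s) ≤ 1 * 1 :=
          mul_le_mul (eta_le_one x) (rpow_neg_le_one h hs) (Real.rpow_nonneg (by linarith) _)
            zero_le_one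
      _ = 1 := one_mul 1
  · exact zero_le_one

theorem measurable_zetaKernel (s : ℝ) : Measurable (zetaKernel K s) := by
  unfold zetaKernel
  refine Measurable.ite ?_ ?_ measurable_const
  · exact measurableSet_le measurable_const (mixedEmbedding.continuous_norm K).measurable
  · exact measurable_eta.mul ((mixedEmbedding.continuous_norm K).measurable.pow_const _)

section Basic

theorem normAtPlace_le_norm (w : InfinitePlace K) (x : mixedSpace K) : normAtPlace w x ≤ ‖x‖ := by
  rw [norm_eq_sup'_normAtPlace]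
  exact Finset.le_sup' (fun w => normAtPlace w x) (Finset.mem_univ w)

theorem abs_normAtPlace_sub_le (w : InfinitePlace K) (y z : mixedSpace K) :
    |normAtPlace w y - normAtPlace w z| ≤ ‖y - z‖ := by
  have h1 : normAtPlace w y ≤ normAtPlace w (y - z) + normAtPlace w z := by
    have := normAtPlace_add_le w (y - z) z
    rwa [sub_add_cancel] at this
  have h2 : normAtPlace w z ≤ normAtPlace w (z - y) + normAtPlace w y := by
    have := normAtPlace_add_le w (z - y) y
    rwa [sub_add_cancel] at this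
  have h3 : normAtPlace w (z - y) = normAtPlace w (y - z) := by
    rw [← normAtPlace_neg, neg_sub]
  have h4 := normAtPlace_le_norm w (y - z)
  rw [abs_le]
  constructor <;> linarith

theorem abs_log_sub_log_le {a b m : ℝ} (hm : 0 < m) (ha : m ≤ a) (hb : m ≤ b) :
    |Real.log a - Real.log b| ≤ |a - b| / m := by
  have ha0 : 0 < a := lt_of_lt_of_le hm ha
  have hb0 : 0 < b := lt_of_lt_of_le hm hb
  have key : ∀ {u v : ℝ}, 0 < u → m ≤ v → 0 < v → Real.log u - Real.log v ≤ |u - v| / m := by
    intro u v hu hv hv0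
    rw [← Real.log_div hu.ne' hv0.ne']
    have h1 := Real.log_le_sub_one_of_pos (div_pos hu hv0)
    have h2 : u / v - 1 = (u - v) / v := by field_simp
    rw [h2] at h1
    refine h1.trans ?_
    calc (u - v) / v ≤ |u - v| / v := div_le_div_of_nonneg_right (le_abs_self _) hv0.le
      _ ≤ |u - v| / m := div_le_div_of_nonneg_left (abs_nonneg _) hm hv
  rw [abs_le]
  constructor
  · have := key hb0 ha ha0
    rw [abs_sub_comm] at this
    linarith
  · exact key ha0 hb hb0

theorem abs_rpow_neg_sub_le {A B T s : ℝ} (hT : 1 ≤ T) (hA : T ≤ A) (hB : T ≤ B) (hs : 0 ≤ s) :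
    |A ^ (-s) - B ^ (-s)| ≤ s * |Real.log A - Real.log B| * T ^ (-s) := by
  have key : ∀ {A B : ℝ}, T ≤ A → A ≤ B →
      |A ^ (-s) - B ^ (-s)| ≤ s * |Real.log A - Real.log B| * T ^ (-s) := by
    intro A B hA hAB
    have hA0 : 0 < A := by linarith
    have hB0 : 0 < B := by linarith
    have hT0 : 0 < T := by linarith
    have hle : B ^ (-s) ≤ A ^ (-s) :=
      Real.rpow_le_rpow_of_nonpos hA0 hAB (by linarith)
    rw [abs_of_nonneg (by linarith)]
    have hlog : Real.log A ≤ Real.log B := Real.log_le_log hA0 hAB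
    rw [abs_of_nonpos (by linarith)]
    have h1 : B ^ (-s) = A ^ (-s) * Real.exp (-s * (Real.log B - Real.log A)) := by
      rw [Real.rpow_def_of_pos hA0, Real.rpow_def_of_pos hB0, ← Real.exp_add]
      congr 1
      ring
    have h2 : 1 - s * (Real.log B - Real.log A) ≤ Real.exp (-s * (Real.log B - Real.log A)) := by
      have := Real.add_one_le_exp (-s * (Real.log B - Real.log A))
      linarith
    have hAs : 0 ≤ A ^ (-s) := Real.rpow_nonneg hA0.le _
    have hAT : A ^ (-s) ≤ T ^ (-s) := Real.rpow_le_rpow_of_nonpos hT0 hA (by linarith)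
    have h3 : A ^ (-s) - B ^ (-s) ≤ A ^ (-s) * (s * (Real.log B - Real.log A)) := by
      rw [h1]
      have : A ^ (-s) * (1 - s * (Real.log B - Real.log A)) ≤
          A ^ (-s) * Real.exp (-s * (Real.log B - Real.log A)) :=
        mul_le_mul_of_nonneg_left h2 hAs
      linarith
    have h4 : 0 ≤ s * (Real.log B - Real.log A) := mul_nonneg hs (by linarith)
    calc A ^ (-s) - B ^ (-s) ≤ A ^ (-s) * (s * (Real.log B - Real.log A)) := h3
      _ ≤ T ^ (-s) * (s * (Real.log B - Real.log A)) := mul_le_mul_of_nonneg_right hAT h4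
      _ = s * -(Real.log A - Real.log B) * T ^ (-s) := by ring
  rcases le_total A B with h | h
  · exact key hA h
  · have := key hB h
    rwa [abs_sub_comm, abs_sub_comm (Real.log B)] at this

end Basic

section Osc

/-- **Oscillation bound** for the kernel, uniform in `s ∈ [1, 2]`. -/
theorem exists_osc_bound (δ : ℝ) (hδ : 0 < δ) :
    ∃ M : ℝ, 0 ≤ M ∧ ∀ s : ℝ, 1 ≤ s → s ≤ 2 → ∀ y z : mixedSpace K, ‖y - z‖ ≤ δ →
      |zetaKernel K s y - zetaKernel K s z| ≤ M * ((1 + ‖y‖) ^ (finrank ℚ K + 1))⁻¹ := by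
  set c := coneConst K with hc
  have hc0 : 0 < c := coneConst_pos
  have hc1 : c ≤ 1 := coneConst_le_one
  set n := finrank ℚ K with hn
  set R₀ := max (4 * δ / c) (2 / c) with hR₀
  have hR₀0 : 0 ≤ R₀ := le_max_of_le_left (by positivity)
  have hlip := lipConst_nonneg (K := K)
  set M₁ := (lipConst K + 2 * (n : ℝ)) * δ * (2 / c) ^ (n + 1) * 2 ^ (n + 1) with hM₁
  have hM₁0 : 0 ≤ M₁ := by positivity
  refine ⟨max ((1 + R₀) ^ (n + 1)) M₁, le_max_of_le_left (by positivity), ?_⟩
  intro s hs1 hs2 y z hyz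
  have hs0 : 0 ≤ s := by linarith
  have hpos : 0 < (1 + ‖y‖) ^ (n + 1) := by positivity
  by_cases hy : ‖y‖ ≤ R₀
  · -- bounded region
    have h1 : |zetaKernel K s y - zetaKernel K s z| ≤ 1 := by
      rw [abs_le]
      constructor <;>
      linarith [zetaKernel_nonneg (s := s) y, zetaKernel_nonneg (s := s) z,
        zetaKernel_le_one hs0 y, zetaKernel_le_one hs0 z]
    calc |zetaKernel K s y - zetaKernel K s z| ≤ 1 := h1
      _ ≤ (1 + R₀) ^ (n + 1) * ((1 + ‖y‖) ^ (n + 1))⁻¹ := by
          rw [← div_eq_mul_inv, le_div_iff₀ hpos, one_mul]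
          exact pow_le_pow_left₀ (by positivity) (by linarith) _
      _ ≤ max ((1 + R₀) ^ (n + 1)) M₁ * ((1 + ‖y‖) ^ (n + 1))⁻¹ :=
          mul_le_mul_of_nonneg_right (le_max_left _ _) (inv_pos.mpr hpos).le
  · push Not at hy
    by_cases h0 : eta K y = 0 ∧ eta K z = 0
    · rw [zetaKernel_eq_zero_of_eta_eq_zero h0.1, zetaKernel_eq_zero_of_eta_eq_zero h0.2,
        sub_self, abs_zero]
      positivity
    · have hR1 : 4 * δ / c ≤ R₀ := le_max_left _ _
      have hR2 : 2 / c ≤ R₀ := le_max_right _ _
      have hδy : 4 * δ < c * ‖y‖ := by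
        have : 4 * δ / c < ‖y‖ := lt_of_le_of_lt hR1 hy
        rw [div_lt_iff₀ hc0] at this
        linarith
      have hy2 : 2 < c * ‖y‖ := by
        have : 2 / c < ‖y‖ := lt_of_le_of_lt hR2 hy
        rw [div_lt_iff₀ hc0] at this
        linarith
      have hynorm : 2 < ‖y‖ := by nlinarith [norm_nonneg y]
      set m := c * ‖y‖ / 2 with hm
      have hm1 : 1 ≤ m := by linarith
      have hm0 : 0 < m := by linarith
      -- all coordinates of `y` and `z` are at least `m`
      have hcoord : ∀ w : InfinitePlace K, m ≤ normAtPlace w y ∧ m ≤ normAtPlace w z := by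
        intro w
        have hdiff := abs_normAtPlace_sub_le w y z
        rw [abs_le] at hdiff
        by_cases hey : eta K y = 0
        · have hez : eta K z ≠ 0 := fun h => h0 ⟨hey, h⟩
          have h1 := coneConst_mul_norm_le_normAtPlace hez w
          have h2 : ‖y‖ - δ ≤ ‖z‖ := by
            have := norm_sub_norm_le y z
            linarith
          have h3 : c * ‖y‖ - δ ≤ normAtPlace w z := by
            have h4 : c * (‖y‖ - δ) ≤ c * ‖z‖ := mul_le_mul_of_nonneg_left h2 hc0.le
            have h5 : c * δ ≤ δ := by nlinarith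
            linarith
          constructor <;> linarith
        · have h1 := coneConst_mul_norm_le_normAtPlace hey w
          constructor <;> linarith
      set T := m ^ n with hT
      have hT1 : 1 ≤ T := one_le_pow₀ hm1
      have hT0 : 0 < T := by linarith
      have hNy : T ≤ mixedEmbedding.norm y := pow_le_norm hm0.le fun w => (hcoord w).1
      have hNz : T ≤ mixedEmbedding.norm z := pow_le_norm hm0.le fun w => (hcoord w).2
      have hNy1 : 1 ≤ mixedEmbedding.norm y := hT1.trans hNy
      have hNz1 : 1 ≤ mixedEmbedding.norm z := hT1.trans hNz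
      have hNy0 : mixedEmbedding.norm y ≠ 0 := by linarith
      have hNz0 : mixedEmbedding.norm z ≠ 0 := by linarith
      set ε := δ / m with hε
      have hε0 : 0 ≤ ε := by positivity
      have hlogc : ∀ w : InfinitePlace K,
          |Real.log (normAtPlace w y) - Real.log (normAtPlace w z)| ≤ ε := by
        intro w
        refine (abs_log_sub_log_le hm0 (hcoord w).1 (hcoord w).2).trans ?_
        exact div_le_div_of_nonneg_right ((abs_normAtPlace_sub_le w y z).trans hyz) hm0.le
      have heta := abs_eta_sub_eta_le hNy0 hNz0 hlogc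
      have hlogN := abs_log_norm_sub_le hNy0 hNz0 hlogc
      have hTs : T ^ (-s) ≤ T⁻¹ := by
        rw [← Real.rpow_neg_one]
        exact Real.rpow_le_rpow_of_exponent_le hT1 (by linarith)
      have hpowdiff : |mixedEmbedding.norm y ^ (-s) - mixedEmbedding.norm z ^ (-s)| ≤
          2 * ((n : ℝ) * ε) * T⁻¹ := by
        refine (abs_rpow_neg_sub_le hT1 hNy hNz hs0).trans ?_
        have h1 : 0 ≤ |Real.log (mixedEmbedding.norm y) - Real.log (mixedEmbedding.norm z)| :=
          abs_nonneg _
        have h2 : 0 ≤ T ^ (-s) := Real.rpow_nonneg hT0.le _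
        exact mul_le_mul (mul_le_mul hs2 hlogN h1 (by norm_num)) hTs h2 (by positivity)
      have hNys : mixedEmbedding.norm y ^ (-s) ≤ T⁻¹ :=
        (Real.rpow_le_rpow_of_nonpos hT0 hNy (by linarith)).trans hTs
      have hNys0 : 0 ≤ mixedEmbedding.norm y ^ (-s) := Real.rpow_nonneg (by linarith) _
      rw [zetaKernel_of_one_le hNy1, zetaKernel_of_one_le hNz1]
      have hsplit : eta K y * mixedEmbedding.norm y ^ (-s) -
          eta K z * mixedEmbedding.norm z ^ (-s) =
          (eta K y - eta K z) * mixedEmbedding.norm y ^ (-s) +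
          eta K z * (mixedEmbedding.norm y ^ (-s) - mixedEmbedding.norm z ^ (-s)) := by ring
      have hmain : |eta K y * mixedEmbedding.norm y ^ (-s) -
          eta K z * mixedEmbedding.norm z ^ (-s)| ≤
          (lipConst K + 2 * (n : ℝ)) * (ε * T⁻¹) := by
        rw [hsplit]
        calc |(eta K y - eta K z) * mixedEmbedding.norm y ^ (-s) +
            eta K z * (mixedEmbedding.norm y ^ (-s) - mixedEmbedding.norm z ^ (-s))|
            ≤ |(eta K y - eta K z) * mixedEmbedding.norm y ^ (-s)| +
              |eta K z * (mixedEmbedding.norm y ^ (-s) - mixedEmbedding.norm z ^ (-s))| :=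
                abs_add_le _ _
          _ = |eta K y - eta K z| * mixedEmbedding.norm y ^ (-s) +
              eta K z * |mixedEmbedding.norm y ^ (-s) - mixedEmbedding.norm z ^ (-s)| := by
                rw [abs_mul, abs_mul, abs_of_nonneg hNys0, abs_of_nonneg (eta_nonneg z)]
          _ ≤ (lipConst K * ε) * T⁻¹ + 1 * (2 * ((n : ℝ) * ε) * T⁻¹) := by
                apply add_le_add
                · exact mul_le_mul heta hNys hNys0 (by positivity)
                · exact mul_le_mul (eta_le_one z) hpowdiff (abs_nonneg _) zero_le_one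
          _ = (lipConst K + 2 * (n : ℝ)) * (ε * T⁻¹) := by ring
      have hεT : ε * T⁻¹ = δ * (2 / c) ^ (n + 1) * (‖y‖ ^ (n + 1))⁻¹ := by
        have hy0 : ‖y‖ ≠ 0 := by linarith
        have hc0' : c ≠ 0 := hc0.ne'
        have hminv : m⁻¹ = (2 / c) * ‖y‖⁻¹ := by
          rw [hm]
          field_simp
        rw [hε, hT, div_eq_mul_inv, ← inv_pow, mul_assoc, ← pow_succ', hminv, mul_pow, inv_pow,
          mul_assoc]
      have hyinv : (‖y‖ ^ (n + 1))⁻¹ ≤ 2 ^ (n + 1) * ((1 + ‖y‖) ^ (n + 1))⁻¹ := by
        rw [← div_eq_mul_inv, le_div_iff₀ hpos, inv_mul_eq_div, div_le_iff₀ (by positivity),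
          ← mul_pow]
        exact pow_le_pow_left₀ (by positivity) (by linarith) _
      calc |eta K y * mixedEmbedding.norm y ^ (-s) - eta K z * mixedEmbedding.norm z ^ (-s)|
          ≤ (lipConst K + 2 * (n : ℝ)) * (ε * T⁻¹) := hmain
        _ = (lipConst K + 2 * (n : ℝ)) * δ * (2 / c) ^ (n + 1) * (‖y‖ ^ (n + 1))⁻¹ := by
            rw [hεT]
            ring
        _ ≤ (lipConst K + 2 * (n : ℝ)) * δ * (2 / c) ^ (n + 1) *
            (2 ^ (n + 1) * ((1 + ‖y‖) ^ (n + 1))⁻¹) :=
            mul_le_mul_of_nonneg_left hyinv (by positivity)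
        _ = M₁ * ((1 + ‖y‖) ^ (n + 1))⁻¹ := by
            rw [hM₁]
            ring
        _ ≤ max ((1 + R₀) ^ (n + 1)) M₁ * ((1 + ‖y‖) ^ (n + 1))⁻¹ :=
            mul_le_mul_of_nonneg_right (le_max_right _ _) (inv_pos.mpr hpos).le

end Osc

end Fermat.Agent.Lib.CFT.Unram
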