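import Mathlib
import Fermat.Agent.Lib.CFT.Unram.PartialZetaOsc

set_option autoImplicit false

/-!
Decay and integrability of the kernel `zetaKernel K s` for `s > 1`
(S14 fast track, work package U2).
-/

namespace Fermat.Agent.Lib.CFT.Unram

open NumberField NumberField.mixedEmbedding NumberField.InfinitePlace Module MeasureTheory
open scoped Classical

variable {K : Type*} [Field K] [NumberField K]

/-- Polynomial decay of the kernel. -/
theorem zetaKernel_le_decay {s : ℝ} (hs : 0 ≤ s) (x : mixedSpace K) :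
    zetaKernel K s x ≤ (2 / coneConst K) ^ ((finrank ℚ K : ℝ) * s) *
      (1 + ‖x‖) ^ (-((finrank ℚ K : ℝ) * s)) := by
  set c := coneConst K with hc
  set n := finrank ℚ K with hn
  have hc0 : 0 < c := coneConst_pos
  have hc1 : c ≤ 1 := coneConst_le_one
  have hns : 0 ≤ (n : ℝ) * s := by positivity
  have hx0 : 0 ≤ ‖x‖ := norm_nonneg x
  set t := c / 2 * (1 + ‖x‖) with ht
  have ht0 : 0 < t := by positivity
  have h2c : (2 / c) ^ ((n : ℝ) * s) = (c / 2) ^ (-((n : ℝ) * s)) := by
    rw [Real.rpow_neg (by positivity), ← Real.inv_rpow (by positivity), inv_div]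
  have hRHS : (2 / c) ^ ((n : ℝ) * s) * (1 + ‖x‖) ^ (-((n : ℝ) * s)) = t ^ (-((n : ℝ) * s)) := by
    rw [h2c, ← Real.mul_rpow (by positivity) (by positivity)]
  rw [hRHS]
  by_cases hx1 : ‖x‖ < 1
  · -- small `x`
    have ht1 : t ≤ 1 := by
      rw [ht]
      nlinarith
    exact (zetaKernel_le_one hs x).trans
      (Real.one_le_rpow_of_pos_of_le_one_of_nonpos ht0 ht1 (by linarith))
  · rw [not_lt] at hx1
    by_cases he : eta K x = 0
    · rw [zetaKernel_eq_zero_of_eta_eq_zero he]
      exact Real.rpow_nonneg ht0.le _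
    by_cases hN : mixedEmbedding.norm x < 1
    · rw [zetaKernel_of_lt_one hN]
      exact Real.rpow_nonneg ht0.le _
    rw [not_lt] at hN
    rw [zetaKernel_of_one_le hN]
    have htm : t ≤ c * ‖x‖ := by
      rw [ht]
      nlinarith
    have hmN : (c * ‖x‖) ^ n ≤ mixedEmbedding.norm x :=
      pow_le_norm (by positivity) (fun w => coneConst_mul_norm_le_normAtPlace he w)
    have htN : t ^ n ≤ mixedEmbedding.norm x :=
      (pow_le_pow_left₀ ht0.le htm n).trans hmN
    have h1 : mixedEmbedding.norm x ^ (-s) ≤ (t ^ n) ^ (-s) :=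
      Real.rpow_le_rpow_of_nonpos (pow_pos ht0 n) htN (by linarith)
    have h2 : (t ^ n) ^ (-s) = t ^ (-((n : ℝ) * s)) := by
      rw [← Real.rpow_natCast, ← Real.rpow_mul ht0.le, mul_neg]
    have h3 : 0 ≤ mixedEmbedding.norm x ^ (-s) := Real.rpow_nonneg (by linarith) _
    calc eta K x * mixedEmbedding.norm x ^ (-s) ≤ 1 * mixedEmbedding.norm x ^ (-s) :=
          mul_le_mul_of_nonneg_right (eta_le_one x) h3
      _ = mixedEmbedding.norm x ^ (-s) := one_mul _
      _ ≤ (t ^ n) ^ (-s) := h1
      _ = t ^ (-((n : ℝ) * s)) := h2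

/-- The kernel is integrable for `s > 1`. -/
theorem integrable_zetaKernel {s : ℝ} (hs : 1 < s) :
    Integrable (zetaKernel K s) (volume : Measure (mixedSpace K)) := by
  have hr : (finrank ℝ (mixedSpace K) : ℝ) < (finrank ℚ K : ℝ) * s := by
    rw [mixedEmbedding.finrank]
    nlinarith [finrank_pos_real (K := K)]
  have h1 : Integrable (fun x : mixedSpace K => (1 + ‖x‖) ^ (-((finrank ℚ K : ℝ) * s)))
      (volume : Measure (mixedSpace K)) := integrable_one_add_norm hr
  have h2 := h1.const_mul ((2 / coneConst K) ^ ((finrank ℚ K : ℝ) * s))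
  refine h2.mono' (measurable_zetaKernel s).aestronglyMeasurable
    (Filter.Eventually.of_forall fun x => ?_)
  rw [Real.norm_eq_abs, abs_of_nonneg (zetaKernel_nonneg x)]
  exact zetaKernel_le_decay (by linarith) x

end Fermat.Agent.Lib.CFT.Unram
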