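import Mathlib
import Fermat.Agent.Lib.CFT.Unram.PartialZetaOsc

set_option autoImplicit false

/-!
Lipschitz dependence on `s` of the oscillation of the kernel `zetaKernel K s`
(the `osc_sub` half of the oscillation data used for the partial zeta functions of
norm-residue classes).
-/

namespace Fermat.Agent.Lib.CFT.Unram

open NumberField NumberField.mixedEmbedding NumberField.InfinitePlace NumberField.Units Module
open scoped Classical

section ExpLemmas

theorem abs_exp_sub_exp_le (A B : ℝ) :
    |Real.exp A - Real.exp B| ≤ |A - B| * Real.exp (max A B) := by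
  have key : ∀ {A B : ℝ}, B ≤ A → |Real.exp A - Real.exp B| ≤ |A - B| * Real.exp (max A B) := by
    intro A B h
    have h1 : Real.exp B ≤ Real.exp A := Real.exp_le_exp.mpr h
    rw [abs_of_nonneg (by linarith), abs_of_nonneg (by linarith), max_eq_left h]
    have h2 : Real.exp B = Real.exp A * Real.exp (B - A) := by
      rw [← Real.exp_add]
      congr 1
      ring
    have h3 : 1 + (B - A) ≤ Real.exp (B - A) := by
      have := Real.add_one_le_exp (B - A)
      linarith
    have h4 : Real.exp A * (1 + (B - A)) ≤ Real.exp A * Real.exp (B - A) :=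
      mul_le_mul_of_nonneg_left h3 (Real.exp_pos A).le
    rw [← h2] at h4
    nlinarith
  rcases le_total B A with h | h
  · exact key h
  · have := key h
    rwa [abs_sub_comm, abs_sub_comm B A, max_comm] at this

/-- The second difference of `(s, u) ↦ exp (-s u)`. -/
theorem abs_second_diff_exp_le {s t u v κ : ℝ} (hs1 : 1 ≤ s) (hs2 : s ≤ 2) (ht1 : 1 ≤ t)
    (ht2 : t ≤ 2) (hv : 0 ≤ v) (huv : |u - v| ≤ κ) :
    |(Real.exp (-s * u) - Real.exp (-t * u)) - (Real.exp (-s * v) - Real.exp (-t * v))| ≤
      |s - t| * (κ * Real.exp (2 * κ) * (2 * v + 1)) * Real.exp (-v) := by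
  set w := u - v with hw
  have hκ0 : 0 ≤ κ := (abs_nonneg _).trans huv
  have hwκ := abs_le.mp huv
  have hsu : Real.exp (-s * u) = Real.exp (-s * v) * Real.exp (-s * w) := by
    rw [← Real.exp_add]
    congr 1
    rw [hw]
    ring
  have htu : Real.exp (-t * u) = Real.exp (-t * v) * Real.exp (-t * w) := by
    rw [← Real.exp_add]
    congr 1
    rw [hw]
    ring
  have hid : (Real.exp (-s * u) - Real.exp (-t * u)) - (Real.exp (-s * v) - Real.exp (-t * v)) =
      (Real.exp (-s * v) - Real.exp (-t * v)) * (Real.exp (-s * w) - 1) +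
        Real.exp (-t * v) * (Real.exp (-s * w) - Real.exp (-t * w)) := by
    rw [hsu, htu]
    ring
  have hexp2κ : 0 < Real.exp (2 * κ) := Real.exp_pos _
  -- b1
  have b1 : |Real.exp (-s * v) - Real.exp (-t * v)| ≤ |s - t| * v * Real.exp (-v) := by
    refine (abs_exp_sub_exp_le _ _).trans ?_
    have h1 : |-s * v - -t * v| = |s - t| * v := by
      have : -s * v - -t * v = -((s - t) * v) := by ring
      rw [this, abs_neg, abs_mul, abs_of_nonneg hv]
    have h2 : max (-s * v) (-t * v) ≤ -v := by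
      apply max_le <;> nlinarith
    rw [h1]
    exact mul_le_mul_of_nonneg_left (Real.exp_le_exp.mpr h2) (by positivity)
  -- b2
  have b2 : |Real.exp (-s * w) - 1| ≤ 2 * κ * Real.exp (2 * κ) := by
    have := abs_exp_sub_exp_le (-s * w) 0
    rw [Real.exp_zero, sub_zero] at this
    refine this.trans ?_
    have h1 : |-s * w| ≤ 2 * κ := by
      rw [abs_le]
      constructor <;> nlinarith [hwκ.1, hwκ.2]
    have h2 : max (-s * w) 0 ≤ 2 * κ := by
      apply max_le
      · nlinarith [hwκ.1, hwκ.2]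
      · linarith
    exact mul_le_mul h1 (Real.exp_le_exp.mpr h2) (Real.exp_pos _).le (by linarith)
  -- b3
  have b3 : Real.exp (-t * v) ≤ Real.exp (-v) := Real.exp_le_exp.mpr (by nlinarith)
  -- b4
  have b4 : |Real.exp (-s * w) - Real.exp (-t * w)| ≤ |s - t| * κ * Real.exp (2 * κ) := by
    refine (abs_exp_sub_exp_le _ _).trans ?_
    have h1 : |-s * w - -t * w| ≤ |s - t| * κ := by
      have : -s * w - -t * w = -((s - t) * w) := by ring
      rw [this, abs_neg, abs_mul]
      exact mul_le_mul_of_nonneg_left huv (abs_nonneg _)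
    have h2 : max (-s * w) (-t * w) ≤ 2 * κ := by
      apply max_le <;> nlinarith [hwκ.1, hwκ.2]
    exact mul_le_mul h1 (Real.exp_le_exp.mpr h2) (Real.exp_pos _).le (by positivity)
  rw [hid]
  have hev : 0 < Real.exp (-v) := Real.exp_pos _
  calc |(Real.exp (-s * v) - Real.exp (-t * v)) * (Real.exp (-s * w) - 1) +
        Real.exp (-t * v) * (Real.exp (-s * w) - Real.exp (-t * w))|
      ≤ |Real.exp (-s * v) - Real.exp (-t * v)| * |Real.exp (-s * w) - 1| +
        Real.exp (-t * v) * |Real.exp (-s * w) - Real.exp (-t * w)| := by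
          refine (abs_add_le _ _).trans ?_
          rw [abs_mul, abs_mul, abs_of_pos (Real.exp_pos (-t * v))]
    _ ≤ (|s - t| * v * Real.exp (-v)) * (2 * κ * Real.exp (2 * κ)) +
        Real.exp (-v) * (|s - t| * κ * Real.exp (2 * κ)) := by
          apply add_le_add
          · exact mul_le_mul b1 b2 (abs_nonneg _) (by positivity)
          · exact mul_le_mul b3 b4 (abs_nonneg _) hev.le
    _ = |s - t| * (κ * Real.exp (2 * κ) * (2 * v + 1)) * Real.exp (-v) := by ring

theorem two_mul_add_one_mul_exp_neg_le {a v τ : ℝ} (ha : 0 < a) (ha1 : a ≤ 1) (hτ0 : 0 ≤ τ)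
    (hτ : τ ≤ v) :
    (2 * v + 1) * Real.exp (-v) ≤ (1 + 2 / a) * Real.exp (-((1 - a) * τ)) := by
  have hv0 : 0 ≤ v := hτ0.trans hτ
  have h1 : a * v + 1 ≤ Real.exp (a * v) := Real.add_one_le_exp _
  have h2 : 1 ≤ Real.exp (a * v) := Real.one_le_exp (by positivity)
  have h3 : 2 * v + 1 ≤ (1 + 2 / a) * Real.exp (a * v) := by
    have h4 : v ≤ Real.exp (a * v) / a := by
      rw [le_div_iff₀ ha]
      linarith
    have h5 : (1 + 2 / a) * Real.exp (a * v) = Real.exp (a * v) + 2 * (Real.exp (a * v) / a) := by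
      field_simp
    rw [h5]
    linarith
  have h6 : Real.exp (a * v) * Real.exp (-v) = Real.exp (-((1 - a) * v)) := by
    rw [← Real.exp_add]
    congr 1
    ring
  have h7 : Real.exp (-((1 - a) * v)) ≤ Real.exp (-((1 - a) * τ)) := by
    apply Real.exp_le_exp.mpr
    have : (1 - a) * τ ≤ (1 - a) * v := mul_le_mul_of_nonneg_left hτ (by linarith)
    linarith
  calc (2 * v + 1) * Real.exp (-v) ≤ ((1 + 2 / a) * Real.exp (a * v)) * Real.exp (-v) :=
        mul_le_mul_of_nonneg_right h3 (Real.exp_pos _).le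
    _ = (1 + 2 / a) * Real.exp (-((1 - a) * v)) := by rw [mul_assoc, h6]
    _ ≤ (1 + 2 / a) * Real.exp (-((1 - a) * τ)) :=
        mul_le_mul_of_nonneg_left h7 (by positivity)

end ExpLemmas

variable {K : Type*} [Field K] [NumberField K]

section Far

variable (K) in
/-- Beyond this radius, two points at distance `≤ δ`, one of which is in the support of `eta`,
have all their coordinates large. -/
noncomputable def farRadius (δ : ℝ) : ℝ := max (4 * δ / coneConst K) (2 / coneConst K)

theorem farRadius_nonneg {δ : ℝ} (hδ : 0 < δ) : 0 ≤ farRadius K δ := by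
  have := coneConst_pos (K := K)
  exact le_max_of_le_left (by positivity)

/-- The geometry of the far region. -/
theorem far_region {δ : ℝ} (hδ : 0 < δ) {y z : mixedSpace K} (hyz : ‖y - z‖ ≤ δ)
    (hy : farRadius K δ < ‖y‖) (h0 : ¬(eta K y = 0 ∧ eta K z = 0)) :
    1 ≤ coneConst K * ‖y‖ / 2 ∧ 2 * δ < coneConst K * ‖y‖ / 2 ∧ 2 < ‖y‖ ∧
      ∀ w : InfinitePlace K, coneConst K * ‖y‖ / 2 ≤ normAtPlace w y ∧
        coneConst K * ‖y‖ / 2 ≤ normAtPlace w z := by
  set c := coneConst K with hc
  have hc0 : 0 < c := coneConst_pos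
  have hc1 : c ≤ 1 := coneConst_le_one
  have hR1 : 4 * δ / c ≤ farRadius K δ := le_max_left _ _
  have hR2 : 2 / c ≤ farRadius K δ := le_max_right _ _
  have hδy : 4 * δ < c * ‖y‖ := by
    have : 4 * δ / c < ‖y‖ := lt_of_le_of_lt hR1 hy
    rw [div_lt_iff₀ hc0] at this
    linarith
  have hy2 : 2 < c * ‖y‖ := by
    have : 2 / c < ‖y‖ := lt_of_le_of_lt hR2 hy
    rw [div_lt_iff₀ hc0] at this
    linarith
  have hynorm : 2 < ‖y‖ := by nlinarith [norm_nonneg y]
  refine ⟨by linarith, by linarith, hynorm, ?_⟩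
  intro w
  have hdiff := abs_normAtPlace_sub_le w y z
  rw [abs_le] at hdiff
  by_cases hey : eta K y = 0
  · have hez : eta K z ≠ 0 := fun h => h0 ⟨hey, h⟩
    have h1 := coneConst_mul_norm_le_normAtPlace hez w
    have h2 : ‖y‖ - δ ≤ ‖z‖ := by
      have := norm_sub_norm_le y z
      linarith
    have h3 : c * ‖y‖ - δ ≤ normAtPlace w z := by
      have h4 : c * (‖y‖ - δ) ≤ c * ‖z‖ := mul_le_mul_of_nonneg_left h2 hc0.le
      have h5 : c * δ ≤ δ := by nlinarith
      linarith
    constructor <;> linarith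
  · have h1 := coneConst_mul_norm_le_normAtPlace hey w
    constructor <;> linarith

/-- The estimates available in the far region. -/
theorem far_region_estimates {δ : ℝ} (hδ : 0 < δ) {y z : mixedSpace K} (hyz : ‖y - z‖ ≤ δ)
    (hy : farRadius K δ < ‖y‖) (h0 : ¬(eta K y = 0 ∧ eta K z = 0)) :
    (coneConst K * ‖y‖ / 2) ^ finrank ℚ K ≤ mixedEmbedding.norm y ∧
    (coneConst K * ‖y‖ / 2) ^ finrank ℚ K ≤ mixedEmbedding.norm z ∧
    |eta K y - eta K z| ≤ lipConst K * (δ / (coneConst K * ‖y‖ / 2)) ∧
    |Real.log (mixedEmbedding.norm y) - Real.log (mixedEmbedding.norm z)| ≤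
      (finrank ℚ K : ℝ) * (δ / (coneConst K * ‖y‖ / 2)) := by
  obtain ⟨hm1, hmδ, hynorm, hcoord⟩ := far_region hδ hyz hy h0
  set m := coneConst K * ‖y‖ / 2 with hm
  have hm0 : 0 < m := by linarith
  have hT1 : 1 ≤ m ^ finrank ℚ K := one_le_pow₀ hm1
  have hNy : m ^ finrank ℚ K ≤ mixedEmbedding.norm y := pow_le_norm hm0.le fun w => (hcoord w).1
  have hNz : m ^ finrank ℚ K ≤ mixedEmbedding.norm z := pow_le_norm hm0.le fun w => (hcoord w).2
  have hNy0 : mixedEmbedding.norm y ≠ 0 := by linarith
  have hNz0 : mixedEmbedding.norm z ≠ 0 := by linarith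
  have hlogc : ∀ w : InfinitePlace K,
      |Real.log (normAtPlace w y) - Real.log (normAtPlace w z)| ≤ δ / m := by
    intro w
    refine (abs_log_sub_log_le hm0 (hcoord w).1 (hcoord w).2).trans ?_
    exact div_le_div_of_nonneg_right ((abs_normAtPlace_sub_le w y z).trans hyz) hm0.le
  exact ⟨hNy, hNz, abs_eta_sub_eta_le hNy0 hNz0 hlogc, abs_log_norm_sub_le hNy0 hNz0 hlogc⟩

end Far

section Lip

theorem rpow_neg_eq_exp {N : ℝ} (hN : 0 < N) (s : ℝ) :
    N ^ (-s) = Real.exp (-s * Real.log N) := by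
  rw [Real.rpow_def_of_pos hN]
  congr 1
  ring

/-- The kernel is Lipschitz in `s`, uniformly in `x`. -/
theorem abs_zetaKernel_sub_le {s t : ℝ} (hs : 1 ≤ s) (ht : 1 ≤ t) (x : mixedSpace K) :
    |zetaKernel K s x - zetaKernel K t x| ≤ |s - t| := by
  by_cases hN : 1 ≤ mixedEmbedding.norm x
  · rw [zetaKernel_of_one_le hN, zetaKernel_of_one_le hN, ← mul_sub, abs_mul,
      abs_of_nonneg (eta_nonneg x)]
    have hN0 : 0 < mixedEmbedding.norm x := by linarith
    set u := Real.log (mixedEmbedding.norm x) with hu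
    have hu0 : 0 ≤ u := Real.log_nonneg hN
    rw [rpow_neg_eq_exp hN0, rpow_neg_eq_exp hN0]
    have h1 : |Real.exp (-s * u) - Real.exp (-t * u)| ≤ |s - t| * u * Real.exp (-u) := by
      refine (abs_exp_sub_exp_le _ _).trans ?_
      have h1 : |-s * u - -t * u| = |s - t| * u := by
        have : -s * u - -t * u = -((s - t) * u) := by ring
        rw [this, abs_neg, abs_mul, abs_of_nonneg hu0]
      have h2 : max (-s * u) (-t * u) ≤ -u := by
        apply max_le <;> nlinarith
      rw [h1]
      exact mul_le_mul_of_nonneg_left (Real.exp_le_exp.mpr h2) (by positivity)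
    have h2 : u * Real.exp (-u) ≤ 1 := by
      have h3 : u ≤ Real.exp u := by
        have := Real.add_one_le_exp u
        linarith
      have h4 : Real.exp u * Real.exp (-u) = 1 := by rw [← Real.exp_add, add_neg_cancel, Real.exp_zero]
      calc u * Real.exp (-u) ≤ Real.exp u * Real.exp (-u) :=
            mul_le_mul_of_nonneg_right h3 (Real.exp_pos _).le
        _ = 1 := h4
    calc eta K x * |Real.exp (-s * u) - Real.exp (-t * u)|
        ≤ 1 * (|s - t| * u * Real.exp (-u)) :=
          mul_le_mul (eta_le_one x) h1 (abs_nonneg _) zero_le_one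
      _ = |s - t| * (u * Real.exp (-u)) := by ring
      _ ≤ |s - t| * 1 := mul_le_mul_of_nonneg_left h2 (abs_nonneg _)
      _ = |s - t| := mul_one _
  · rw [not_le] at hN
    rw [zetaKernel_of_lt_one hN, zetaKernel_of_lt_one hN, sub_self, abs_zero]
    exact abs_nonneg _

theorem abs_exp_neg_mul_sub_le {s t u : ℝ} (hs : 1 ≤ s) (ht : 1 ≤ t) (hu0 : 0 ≤ u) :
    |Real.exp (-s * u) - Real.exp (-t * u)| ≤ |s - t| * u * Real.exp (-u) := by
  refine (abs_exp_sub_exp_le _ _).trans ?_
  have h1 : |-s * u - -t * u| = |s - t| * u := by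
    have : -s * u - -t * u = -((s - t) * u) := by ring
    rw [this, abs_neg, abs_mul, abs_of_nonneg hu0]
  have h2 : max (-s * u) (-t * u) ≤ -u := by
    apply max_le <;> nlinarith
  rw [h1]
  exact mul_le_mul_of_nonneg_left (Real.exp_le_exp.mpr h2) (by positivity)

/-- **Oscillation bound for the difference of two kernels**, with a factor `|s - t|`. -/
theorem exists_osc_bound_sub (δ : ℝ) (hδ : 0 < δ) :
    ∃ M : ℝ, 0 ≤ M ∧ ∀ s : ℝ, 1 ≤ s → s ≤ 2 → ∀ t : ℝ, 1 ≤ t → t ≤ 2 →
      ∀ y z : mixedSpace K, ‖y - z‖ ≤ δ →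
        |(zetaKernel K s y - zetaKernel K t y) - (zetaKernel K s z - zetaKernel K t z)| ≤
          M * |s - t| * (1 + ‖y‖) ^ (-((finrank ℚ K : ℝ) + 1 / 2)) := by
  set c := coneConst K with hc
  have hc0 : 0 < c := coneConst_pos
  set n := finrank ℚ K with hn
  have hn0 : (0 : ℝ) < n := finrank_pos_real
  set b : ℝ := (n : ℝ) + 1 / 2 with hb
  have hb0 : 0 < b := by positivity
  set R₀ := farRadius K δ with hR₀
  have hR₀0 : 0 ≤ R₀ := farRadius_nonneg hδ
  set a : ℝ := 1 / (2 * n) with ha
  have ha0 : 0 < a := by positivity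
  have hn1 : (1 : ℝ) ≤ n := by exact_mod_cast (finrank_pos : 0 < finrank ℚ K)
  have ha1 : a ≤ 1 := by
    rw [ha, div_le_one (by positivity)]
    linarith
  have han : a * n = 1 / 2 := by
    rw [ha]
    field_simp
  set Ca : ℝ := 1 + 2 / a with hCa
  have hCa0 : 0 < Ca := by positivity
  have hlip := lipConst_nonneg (K := K)
  set M₀ : ℝ := 2 * (1 + R₀) ^ b with hM₀
  set M₁ : ℝ := Ca * (lipConst K + n * Real.exp n) * δ * (c / 4) ^ (-b) with hM₁
  have hM₀0 : 0 ≤ M₀ := by positivity
  have hM₁0 : 0 ≤ M₁ := by positivity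
  refine ⟨max M₀ M₁, le_max_of_le_left hM₀0, ?_⟩
  intro s hs1 hs2 t ht1 ht2 y z hyz
  have hypos : 0 < 1 + ‖y‖ := by positivity
  have hω0 : 0 ≤ (1 + ‖y‖) ^ (-b) := Real.rpow_nonneg hypos.le _
  have hst0 : 0 ≤ |s - t| := abs_nonneg _
  by_cases hy : ‖y‖ ≤ R₀
  · -- near region
    have h1 : |(zetaKernel K s y - zetaKernel K t y) - (zetaKernel K s z - zetaKernel K t z)| ≤
        2 * |s - t| := by
      have hy' := abs_le.mp (abs_zetaKernel_sub_le hs1 ht1 y)
      have hz' := abs_le.mp (abs_zetaKernel_sub_le hs1 ht1 z)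
      rw [abs_le]
      constructor <;> linarith [hy'.1, hy'.2, hz'.1, hz'.2]
    have h2 : (1 + R₀) ^ (-b) ≤ (1 + ‖y‖) ^ (-b) :=
      Real.rpow_le_rpow_of_nonpos hypos (by linarith) (by linarith)
    have h3 : (1 + R₀) ^ b * (1 + R₀) ^ (-b) = 1 := by
      rw [← Real.rpow_add (by positivity), add_neg_cancel, Real.rpow_zero]
    calc |(zetaKernel K s y - zetaKernel K t y) - (zetaKernel K s z - zetaKernel K t z)|
        ≤ 2 * |s - t| := h1
      _ = M₀ * |s - t| * (1 + R₀) ^ (-b) := by
          rw [hM₀]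
          linear_combination (-2 * |s - t|) * h3
      _ ≤ M₀ * |s - t| * (1 + ‖y‖) ^ (-b) := mul_le_mul_of_nonneg_left h2 (by positivity)
      _ ≤ max M₀ M₁ * |s - t| * (1 + ‖y‖) ^ (-b) := by
          apply mul_le_mul_of_nonneg_right _ hω0
          exact mul_le_mul_of_nonneg_right (le_max_left _ _) hst0
  · push Not at hy
    by_cases h0 : eta K y = 0 ∧ eta K z = 0
    · simp only [zetaKernel_eq_zero_of_eta_eq_zero h0.1, zetaKernel_eq_zero_of_eta_eq_zero h0.2,
        sub_self, abs_zero]
      exact mul_nonneg (mul_nonneg (le_max_of_le_left hM₀0) hst0) hω0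
    · obtain ⟨hm1, hmδ, hynorm, hcoord⟩ := far_region hδ hyz hy h0
      obtain ⟨hNy, hNz, heta, hlogN⟩ := far_region_estimates hδ hyz hy h0
      set m := c * ‖y‖ / 2 with hm
      have hm0 : 0 < m := by linarith
      set T := m ^ n with hT
      have hT1 : 1 ≤ T := one_le_pow₀ hm1
      have hT0 : 0 < T := by linarith
      have hNy1 : 1 ≤ mixedEmbedding.norm y := hT1.trans hNy
      have hNz1 : 1 ≤ mixedEmbedding.norm z := hT1.trans hNz
      have hNy0 : 0 < mixedEmbedding.norm y := by linarith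
      have hNz0 : 0 < mixedEmbedding.norm z := by linarith
      set ε := δ / m with hε
      have hε0 : 0 ≤ ε := by positivity
      have hε1 : ε ≤ 1 / 2 := by
        rw [hε, div_le_iff₀ hm0]
        linarith
      have kys : zetaKernel K s y =
          eta K y * Real.exp (-s * Real.log (mixedEmbedding.norm y)) := by
        rw [zetaKernel_of_one_le hNy1, rpow_neg_eq_exp hNy0]
      have kyt : zetaKernel K t y =
          eta K y * Real.exp (-t * Real.log (mixedEmbedding.norm y)) := by
        rw [zetaKernel_of_one_le hNy1, rpow_neg_eq_exp hNy0]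
      have kzs : zetaKernel K s z =
          eta K z * Real.exp (-s * Real.log (mixedEmbedding.norm z)) := by
        rw [zetaKernel_of_one_le hNz1, rpow_neg_eq_exp hNz0]
      have kzt : zetaKernel K t z =
          eta K z * Real.exp (-t * Real.log (mixedEmbedding.norm z)) := by
        rw [zetaKernel_of_one_le hNz1, rpow_neg_eq_exp hNz0]
      rw [kys, kyt, kzs, kzt]
      set u := Real.log (mixedEmbedding.norm y) with hu
      set v := Real.log (mixedEmbedding.norm z) with hv
      set τ := Real.log T with hτ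
      have hτ0 : 0 ≤ τ := Real.log_nonneg hT1
      have hτu : τ ≤ u := Real.log_le_log hT0 hNy
      have hτv : τ ≤ v := Real.log_le_log hT0 hNz
      have hu0 : 0 ≤ u := hτ0.trans hτu
      have hv0 : 0 ≤ v := hτ0.trans hτv
      set κ := (n : ℝ) * ε with hκ
      have hκ0 : 0 ≤ κ := by positivity
      have hκn : 2 * κ ≤ n := by
        have h1 : (n : ℝ) * ε ≤ n * (1 / 2) := mul_le_mul_of_nonneg_left hε1 hn0.le
        rw [hκ]
        linarith
      set E := Real.exp (-((1 - a) * τ)) with hE
      have hE0 : 0 < E := Real.exp_pos _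
      set Fy := Real.exp (-s * u) - Real.exp (-t * u) with hFy
      set Fz := Real.exp (-s * v) - Real.exp (-t * v) with hFz
      have hsplit : (eta K y * Real.exp (-s * u) - eta K y * Real.exp (-t * u)) -
          (eta K z * Real.exp (-s * v) - eta K z * Real.exp (-t * v)) =
          (eta K y - eta K z) * Fy + eta K z * (Fy - Fz) := by
        rw [hFy, hFz]
        ring
      have hFy_le : |Fy| ≤ |s - t| * (Ca * E) := by
        have h1 : |Fy| ≤ |s - t| * u * Real.exp (-u) := abs_exp_neg_mul_sub_le hs1 ht1 hu0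
        have h2 : (2 * u + 1) * Real.exp (-u) ≤ Ca * E :=
          two_mul_add_one_mul_exp_neg_le ha0 ha1 hτ0 hτu
        have h3 : u * Real.exp (-u) ≤ (2 * u + 1) * Real.exp (-u) :=
          mul_le_mul_of_nonneg_right (by linarith) (Real.exp_pos _).le
        calc |Fy| ≤ |s - t| * u * Real.exp (-u) := h1
          _ = |s - t| * (u * Real.exp (-u)) := by ring
          _ ≤ |s - t| * (Ca * E) := mul_le_mul_of_nonneg_left (h3.trans h2) hst0
      have hFF : |Fy - Fz| ≤ |s - t| * (κ * Real.exp n * (Ca * E)) := by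
        have h1 := abs_second_diff_exp_le hs1 hs2 ht1 ht2 hv0 hlogN
        have h2 : (2 * v + 1) * Real.exp (-v) ≤ Ca * E :=
          two_mul_add_one_mul_exp_neg_le ha0 ha1 hτ0 hτv
        have h3 : Real.exp (2 * κ) ≤ Real.exp n := Real.exp_le_exp.mpr hκn
        calc |Fy - Fz| ≤ |s - t| * (κ * Real.exp (2 * κ) * (2 * v + 1)) * Real.exp (-v) := h1
          _ = |s - t| * (κ * Real.exp (2 * κ) * ((2 * v + 1) * Real.exp (-v))) := by ring
          _ ≤ |s - t| * (κ * Real.exp n * (Ca * E)) := by
              apply mul_le_mul_of_nonneg_left _ hst0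
              exact mul_le_mul (mul_le_mul_of_nonneg_left h3 hκ0) h2
                (mul_nonneg (by linarith) (Real.exp_pos _).le) (by positivity)
      have hmain : |(eta K y - eta K z) * Fy + eta K z * (Fy - Fz)| ≤
          |s - t| * (ε * E) * (Ca * (lipConst K + n * Real.exp n)) := by
        calc |(eta K y - eta K z) * Fy + eta K z * (Fy - Fz)|
            ≤ |eta K y - eta K z| * |Fy| + eta K z * |Fy - Fz| := by
              refine (abs_add_le _ _).trans ?_
              rw [abs_mul, abs_mul, abs_of_nonneg (eta_nonneg z)]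
          _ ≤ (lipConst K * ε) * (|s - t| * (Ca * E)) +
              1 * (|s - t| * (κ * Real.exp n * (Ca * E))) := by
              apply add_le_add
              · exact mul_le_mul heta hFy_le (abs_nonneg _) (by positivity)
              · exact mul_le_mul (eta_le_one z) hFF (abs_nonneg _) zero_le_one
          _ = |s - t| * (ε * E) * (Ca * (lipConst K + n * Real.exp n)) := by
              rw [hκ]
              ring
      have hτn : τ = n * Real.log m := by rw [hτ, hT, Real.log_pow]
      have hminv : m⁻¹ = Real.exp (-Real.log m) := by rw [Real.exp_neg, Real.exp_log hm0]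
      have hεE : ε * E = δ * m ^ (-b) := by
        rw [hε, hE, div_eq_mul_inv, hminv, mul_assoc, ← Real.exp_add, Real.rpow_def_of_pos hm0]
        congr 2
        rw [hτn, hb]
        linear_combination (Real.log m) * han
      have hmlow : c / 4 * (1 + ‖y‖) ≤ m := by
        have : c * 1 ≤ c * ‖y‖ := mul_le_mul_of_nonneg_left (by linarith) hc0.le
        rw [hm]
        linarith
      have hmb : m ^ (-b) ≤ (c / 4) ^ (-b) * (1 + ‖y‖) ^ (-b) := by
        rw [← Real.mul_rpow (by positivity) hypos.le]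
        exact Real.rpow_le_rpow_of_nonpos (by positivity) hmlow (by linarith)
      rw [hsplit]
      calc |(eta K y - eta K z) * Fy + eta K z * (Fy - Fz)|
          ≤ |s - t| * (ε * E) * (Ca * (lipConst K + n * Real.exp n)) := hmain
        _ = |s - t| * (δ * m ^ (-b)) * (Ca * (lipConst K + n * Real.exp n)) := by rw [hεE]
        _ ≤ |s - t| * (δ * ((c / 4) ^ (-b) * (1 + ‖y‖) ^ (-b))) *
            (Ca * (lipConst K + n * Real.exp n)) := by
            apply mul_le_mul_of_nonneg_right _ (by positivity)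
            apply mul_le_mul_of_nonneg_left _ hst0
            exact mul_le_mul_of_nonneg_left hmb hδ.le
        _ = M₁ * |s - t| * (1 + ‖y‖) ^ (-b) := by
            rw [hM₁]
            ring
        _ ≤ max M₀ M₁ * |s - t| * (1 + ‖y‖) ^ (-b) := by
            apply mul_le_mul_of_nonneg_right _ hω0
            exact mul_le_mul_of_nonneg_right (le_max_right _ _) hst0

end Lip

end Fermat.Agent.Lib.CFT.Unram
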