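/-
helper63 (P-CFT, S14 fast track, lemma (DZ) for WP-U4).
For real `s > 1` the Dedekind zeta function is the sum over nonzero ideals of `N(a)^(-s)`.
-/
import Mathlib

set_option autoImplicit false

namespace Fermat.Agent.Lib.CFT.Unram

open NumberField Filter Topology Ideal
open scoped nonZeroDivisors

variable (K : Type*) [Field K] [NumberField K]

/-- Coefficients of the Dedekind zeta function: number of ideals of norm `n`. -/
noncomputable def dzCoeff (n : ℕ) : ℝ := Nat.card {I : Ideal (𝓞 K) // absNorm I = n}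

theorem dzCoeff_nonneg (n : ℕ) : 0 ≤ dzCoeff K n := Nat.cast_nonneg _

theorem dedekindZeta_eq_LSeries_dzCoeff (s : ℂ) :
    dedekindZeta K s = LSeries (fun n => (dzCoeff K n : ℂ)) s := by
  unfold dedekindZeta dzCoeff
  congr 1

/-- The averaged partial sums of the coefficients converge (to the residue). -/
theorem tendsto_sum_dzCoeff_div :
    Tendsto (fun n : ℕ => (∑ k ∈ Finset.Icc 1 n, dzCoeff K k) / n) atTop
      (𝓝 (dedekindZeta_residue K)) := by
  refine ((Ideal.tendsto_norm_le_div_atTop₀ K).comp tendsto_natCast_atTop_atTop).congr fun n ↦ ?_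
  unfold dzCoeff
  simp only [Function.comp_apply, Nat.cast_le, ← Nat.cast_sum]
  congr
  rw [← add_left_inj 1, ← card_norm_le_eq_card_norm_le_add_one,
    show Finset.Icc 1 n = Finset.Ioc 0 n from Finset.Icc_succ_left_eq_Ioc _ _,
    show 1 = Nat.card {I : Ideal (𝓞 K) // absNorm I = 0} by simp [Ideal.absNorm_eq_zero_iff],
    Finset.sum_Ioc_add_eq_sum_Icc (n.zero_le),
    ← Finset.card_preimage_eq_sum_card_image_eq (fun k _ ↦ finite_setOfPred_absNorm_eq k)]
  simp [Set.coe_eq_subtype]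

theorem isBigO_sum_dzCoeff :
    (fun n : ℕ => ∑ k ∈ Finset.Icc 1 n, dzCoeff K k) =O[atTop] fun n : ℕ => ((n : ℝ)) ^ (1 : ℝ) := by
  have h1 := (tendsto_sum_dzCoeff_div K).isBigO_one ℝ
  have h2 := h1.mul (Asymptotics.isBigO_refl (fun n : ℕ => (n : ℝ)) atTop)
  refine (h2.congr' ?_ ?_)
  · filter_upwards [eventually_ne_atTop 0] with n hn
    have : (n : ℝ) ≠ 0 := Nat.cast_ne_zero.mpr hn
    field_simp
  · filter_upwards with n
    simp

theorem lSeriesSummable_dzCoeff {s : ℝ} (hs : 1 < s) :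
    LSeriesSummable (fun n => (dzCoeff K n : ℂ)) (s : ℂ) :=
  LSeriesSummable_of_sum_norm_bigO_and_nonneg (isBigO_sum_dzCoeff K) (dzCoeff_nonneg K)
    zero_le_one (by simpa using hs)

/-- The real-valued terms of the Dirichlet series. -/
noncomputable def dzTerm (s : ℝ) (n : ℕ) : ℝ := if n = 0 then 0 else dzCoeff K n * (n : ℝ) ^ (-s)

theorem term_dzCoeff_eq (s : ℝ) (n : ℕ) :
    LSeries.term (fun n => (dzCoeff K n : ℂ)) (s : ℂ) n = ((dzTerm K s n : ℝ) : ℂ) := by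
  unfold dzTerm
  by_cases hn : n = 0
  · simp [hn]
  · rw [LSeries.term_of_ne_zero hn, if_neg hn, Real.rpow_neg (Nat.cast_nonneg n)]
    push_cast
    rw [Complex.ofReal_cpow (Nat.cast_nonneg n)]
    simp [div_eq_mul_inv]

theorem summable_dzTerm {s : ℝ} (hs : 1 < s) : Summable (dzTerm K s) := by
  have h := lSeriesSummable_dzCoeff K hs
  unfold LSeriesSummable at h
  rw [show LSeries.term (fun n => (dzCoeff K n : ℂ)) (s : ℂ) = fun n => ((dzTerm K s n : ℝ) : ℂ)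
    from funext (term_dzCoeff_eq K s)] at h
  exact Complex.summable_ofReal.mp h

theorem dedekindZeta_eq_tsum_dzTerm (s : ℝ) :
    dedekindZeta K (s : ℂ) = ((∑' n, dzTerm K s n : ℝ) : ℂ) := by
  rw [dedekindZeta_eq_LSeries_dzCoeff, LSeries, Complex.ofReal_tsum]
  exact tsum_congr (term_dzCoeff_eq K s)

/-! ### Regrouping the sum over nonzero ideals by the norm -/

/-- The fibre of the norm map on nonzero ideals. -/
abbrev NormFiber (n : ℕ) : Type _ := {a : (Ideal (𝓞 K))⁰ // absNorm (a : Ideal (𝓞 K)) = n}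

instance finite_normFiber (n : ℕ) : Finite (NormFiber K n) := by
  have : Finite {I : Ideal (𝓞 K) // absNorm I = n} := finite_setOfPred_absNorm_eq n
  exact Finite.of_injective
    (fun a : NormFiber K n => (⟨(a.1 : Ideal (𝓞 K)), a.2⟩ : {I : Ideal (𝓞 K) // absNorm I = n}))
    (fun a b h => by
      simp only [Subtype.mk.injEq] at h
      exact Subtype.ext (Subtype.ext h))

theorem isEmpty_normFiber_zero : IsEmpty (NormFiber K 0) := by
  refine ⟨fun a => ?_⟩
  have h := a.2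
  rw [absNorm_eq_zero_iff] at h
  exact nonZeroDivisors.coe_ne_zero a.1 h

/-- For `n ≠ 0` the fibre is the set of all ideals of norm `n`. -/
noncomputable def normFiberEquiv {n : ℕ} (hn : n ≠ 0) :
    NormFiber K n ≃ {I : Ideal (𝓞 K) // absNorm I = n} where
  toFun a := ⟨(a.1 : Ideal (𝓞 K)), a.2⟩
  invFun I := ⟨⟨I.1, by
    rw [mem_nonZeroDivisors_iff_ne_zero, Ne, Ideal.zero_eq_bot, ← absNorm_eq_zero_iff, I.2]
    exact hn⟩, I.2⟩
  left_inv _ := rfl
  right_inv _ := rfl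

theorem card_normFiber (n : ℕ) : (Nat.card (NormFiber K n) : ℝ) = if n = 0 then 0 else dzCoeff K n := by
  by_cases hn : n = 0
  · subst hn
    have := isEmpty_normFiber_zero K
    simp
  · rw [if_neg hn, Nat.card_congr (normFiberEquiv K hn)]
    rfl

/-- The sigma-type decomposition of nonzero ideals along the norm. -/
noncomputable def sigmaNormEquiv :
    (Σ n : ℕ, NormFiber K n) ≃ (Ideal (𝓞 K))⁰ :=
  Equiv.sigmaFiberEquiv (fun a : (Ideal (𝓞 K))⁰ => absNorm (a : Ideal (𝓞 K)))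

theorem tsum_normFiber (s : ℝ) (n : ℕ) :
    ∑' a : NormFiber K n, ((absNorm (a.1 : Ideal (𝓞 K)) : ℕ) : ℝ) ^ (-s) = dzTerm K s n := by
  have h : ∀ a : NormFiber K n, ((absNorm (a.1 : Ideal (𝓞 K)) : ℕ) : ℝ) ^ (-s) = (n : ℝ) ^ (-s) :=
    fun a => by rw [a.2]
  rw [tsum_congr h, tsum_const, nsmul_eq_mul, card_normFiber]
  unfold dzTerm
  split_ifs <;> simp

/-- The summand, transported to the sigma type. -/
noncomputable def sigmaTerm (s : ℝ) (x : Σ n : ℕ, NormFiber K n) : ℝ :=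
  ((absNorm (x.2.1 : Ideal (𝓞 K)) : ℕ) : ℝ) ^ (-s)

theorem sigmaTerm_eq (s : ℝ) :
    sigmaTerm K s = (fun a : (Ideal (𝓞 K))⁰ => ((absNorm (a : Ideal (𝓞 K)) : ℕ) : ℝ) ^ (-s)) ∘
      (sigmaNormEquiv K) := rfl

theorem summable_sigmaTerm {s : ℝ} (hs : 1 < s) : Summable (sigmaTerm K s) := by
  refine (summable_sigma_of_nonneg
    (fun x => Real.rpow_nonneg (Nat.cast_nonneg _) _)).mpr ⟨fun n => Summable.of_finite, ?_⟩
  have : (fun n : ℕ => ∑' y : NormFiber K n, sigmaTerm K s ⟨n, y⟩) = dzTerm K s := by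
    funext n
    exact tsum_normFiber K s n
  show Summable fun n : ℕ => ∑' y : NormFiber K n, sigmaTerm K s ⟨n, y⟩
  rw [this]
  exact summable_dzTerm K hs

/-- **Summability** of `N(a)^(-s)` over nonzero ideals for real `s > 1`. -/
theorem summable_absNorm_rpow {s : ℝ} (hs : 1 < s) :
    Summable fun a : (Ideal (𝓞 K))⁰ => ((absNorm (a : Ideal (𝓞 K)) : ℕ) : ℝ) ^ (-s) := by
  rw [← (sigmaNormEquiv K).summable_iff, ← sigmaTerm_eq]
  exact summable_sigmaTerm K hs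

/-- **(DZ), real form.** -/
theorem tsum_absNorm_rpow_eq {s : ℝ} (hs : 1 < s) :
    ∑' a : (Ideal (𝓞 K))⁰, ((absNorm (a : Ideal (𝓞 K)) : ℕ) : ℝ) ^ (-s) = ∑' n, dzTerm K s n := by
  calc ∑' a : (Ideal (𝓞 K))⁰, ((absNorm (a : Ideal (𝓞 K)) : ℕ) : ℝ) ^ (-s)
      = ∑' x, sigmaTerm K s x :=
        ((sigmaNormEquiv K).tsum_eq
          (fun a : (Ideal (𝓞 K))⁰ => ((absNorm (a : Ideal (𝓞 K)) : ℕ) : ℝ) ^ (-s))).symm
    _ = ∑' n, ∑' y : NormFiber K n, sigmaTerm K s ⟨n, y⟩ := (summable_sigmaTerm K hs).tsum_sigma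
    _ = ∑' n, dzTerm K s n := tsum_congr fun n => tsum_normFiber K s n

/-- **(DZ).** For real `s > 1`, `ζ_K(s) = ∑_{a ≠ 0} N(a)^(-s)`. -/
theorem dedekindZeta_eq_tsum_ideal {s : ℝ} (hs : 1 < s) :
    dedekindZeta K (s : ℂ)
      = ((∑' a : (Ideal (𝓞 K))⁰, ((absNorm (a : Ideal (𝓞 K)) : ℕ) : ℝ) ^ (-s) : ℝ) : ℂ) := by
  rw [dedekindZeta_eq_tsum_dzTerm, tsum_absNorm_rpow_eq K hs]

/-- **(DZ), complex form.** -/
theorem dedekindZeta_eq_tsum_ideal' {s : ℝ} (hs : 1 < s) :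
    dedekindZeta K (s : ℂ)
      = ∑' a : (Ideal (𝓞 K))⁰, (((absNorm (a : Ideal (𝓞 K)) : ℕ) : ℝ) ^ (-s) : ℝ) := by
  rw [dedekindZeta_eq_tsum_ideal K hs, Complex.ofReal_tsum]

/-- The value `ζ_K(s)` is a positive real for real `s > 1` (it is at least the term of `a = 1`). -/
theorem one_le_tsum_absNorm_rpow {s : ℝ} (hs : 1 < s) :
    1 ≤ ∑' a : (Ideal (𝓞 K))⁰, ((absNorm (a : Ideal (𝓞 K)) : ℕ) : ℝ) ^ (-s) := by
  have hsum := summable_absNorm_rpow K hs
  have h := hsum.le_tsum (1 : (Ideal (𝓞 K))⁰) (fun a _ => by positivity)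
  simpa using h

end Fermat.Agent.Lib.CFT.Unram
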