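/-
helper68 (P-CFT, S14 fast track, backup route for the upper bound).
Lattice point counting with an error term: if the frontier of a bounded set `s` is covered by
finitely many Lipschitz images of cubes of dimension at most `d`, then
`card (t • s ∩ L) = t ^ n * vol s / covol L + O (t ^ d)`.
-/
import Mathlib

set_option autoImplicit false
set_option linter.unusedSectionVars false

namespace Fermat.Agent.Lib.CFT.Unram.Count

open MeasureTheory Module Submodule ZSpan Set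
open scoped NNReal Pointwise

section Cells

variable {E ι : Type*} [NormedAddCommGroup E] [NormedSpace ℝ E] [Fintype ι] (b : Basis ι ℝ E)

/-- The cell of the lattice point `ℓ`: all points whose `floor` is `ℓ`. -/
def cell (ℓ : E) : Set E := {x | (floor b x : E) = ℓ}

lemma mem_cell_floor (x : E) : x ∈ cell b (floor b x : E) := rfl

lemma cell_eq_vadd {ℓ : E} (hℓ : ℓ ∈ span ℤ (Set.range b)) :
    cell b ℓ = ℓ +ᵥ fundamentalDomain b := by
  ext x
  rw [Set.mem_vadd_set_iff_neg_vadd_mem, vadd_eq_add, ← fract_eq_self, cell, Set.mem_ofPred_eq]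
  have h : fract b (-ℓ + x) = fract b x := fract_zSpan_add b x (neg_mem hℓ)
  rw [h, fract_apply]
  constructor
  · intro h1; rw [h1]; abel
  · intro h1
    have : (floor b x : E) = x - (-ℓ + x) := by rw [← h1]; abel
    rw [this]; abel

omit [Fintype ι] in
lemma convex_fundamentalDomain : Convex ℝ (fundamentalDomain b) := by
  intro x hx y hy a c ha hc hac i
  have := (convex_Ico (0:ℝ) 1) (hx i) (hy i) ha hc hac
  simpa [map_add, map_smul] using this

lemma convex_cell {ℓ : E} (hℓ : ℓ ∈ span ℤ (Set.range b)) : Convex ℝ (cell b ℓ) := by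
  rw [cell_eq_vadd b hℓ]
  exact (convex_fundamentalDomain b).vadd ℓ

lemma norm_sub_le_of_mem_cell {ℓ x : E} (hx : x ∈ cell b ℓ) : ‖x - ℓ‖ ≤ ∑ i, ‖b i‖ := by
  rw [← hx, ← fract_apply]
  exact norm_fract_le b x

lemma cell_disjoint {ℓ ℓ' : E} (h : ℓ ≠ ℓ') : Disjoint (cell b ℓ) (cell b ℓ') := by
  rw [Set.disjoint_left]
  intro x hx hx'
  exact h (hx.symm.trans hx')

/-- lattice points whose cell meets `A`. -/
def touching (A : Set E) : Set E := (fun x => (floor b x : E)) '' A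

/-- lattice points whose cell is contained in `A`. -/
def innerPts (A : Set E) : Set E := {ℓ | ℓ ∈ span ℤ (Set.range b) ∧ cell b ℓ ⊆ A}

lemma touching_subset_lattice (A : Set E) : touching b A ⊆ (span ℤ (Set.range b) : Set E) := by
  rintro _ ⟨x, _, rfl⟩
  exact (floor b x).2

lemma inter_lattice_subset_touching (A : Set E) :
    A ∩ (span ℤ (Set.range b) : Set E) ⊆ touching b A := by
  rintro x ⟨hxA, hxL⟩
  exact ⟨x, hxA, floor_eq_self_of_mem b x hxL⟩

lemma innerPts_subset_inter (A : Set E) :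
    innerPts b A ⊆ A ∩ (span ℤ (Set.range b) : Set E) := by
  rintro ℓ ⟨hℓ, hsub⟩
  exact ⟨hsub (floor_eq_self_of_mem b ℓ hℓ), hℓ⟩

lemma innerPts_subset_touching (A : Set E) : innerPts b A ⊆ touching b A :=
  (innerPts_subset_inter b A).trans (inter_lattice_subset_touching b A)

lemma subset_iUnion_cell_touching (A : Set E) : A ⊆ ⋃ ℓ ∈ touching b A, cell b ℓ := by
  intro x hx
  simp only [Set.mem_iUnion]
  exact ⟨(floor b x : E), ⟨x, hx, rfl⟩, rfl⟩

lemma iUnion_cell_innerPts_subset (A : Set E) : (⋃ ℓ ∈ innerPts b A, cell b ℓ) ⊆ A := by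
  intro x hx
  simp only [Set.mem_iUnion] at hx
  obtain ⟨ℓ, hℓ, hxℓ⟩ := hx
  exact hℓ.2 hxℓ

lemma touching_finite [FiniteDimensional ℝ E] {A : Set E} (hA : Bornology.IsBounded A) :
    (touching b A).Finite := by
  obtain ⟨R, hR⟩ := hA.exists_norm_le
  have hbd : Bornology.IsBounded (Metric.closedBall (0 : E) (R + ∑ i, ‖b i‖)) :=
    Metric.isBounded_closedBall
  refine (setFinite_inter b hbd).subset ?_
  rintro _ ⟨x, hx, rfl⟩
  refine ⟨?_, (floor b x).2⟩
  rw [mem_closedBall_zero_iff]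
  have h1 : (floor b x : E) = x - fract b x := by rw [fract_apply]; abel
  show ‖(floor b x : E)‖ ≤ _
  rw [h1]
  calc ‖x - fract b x‖ ≤ ‖x‖ + ‖fract b x‖ := norm_sub_le _ _
    _ ≤ R + ∑ i, ‖b i‖ := add_le_add (hR x hx) (norm_fract_le b x)

end Cells

section Measure

variable {E ι : Type*} [NormedAddCommGroup E] [NormedSpace ℝ E] [FiniteDimensional ℝ E]
  [MeasurableSpace E] [BorelSpace E] [Fintype ι] (b : Basis ι ℝ E)
  (μ : Measure E) [μ.IsAddHaarMeasure]

lemma measurableSet_cell {ℓ : E} (hℓ : ℓ ∈ span ℤ (Set.range b)) :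
    MeasurableSet (cell b ℓ) := by
  rw [cell_eq_vadd b hℓ]
  exact (fundamentalDomain_measurableSet b).const_vadd ℓ

lemma measure_cell {ℓ : E} (hℓ : ℓ ∈ span ℤ (Set.range b)) :
    μ (cell b ℓ) = μ (fundamentalDomain b) := by
  rw [cell_eq_vadd b hℓ, measure_vadd]

lemma measure_le_ncard_touching {A : Set E} (hA : Bornology.IsBounded A) :
    μ A ≤ (touching b A).ncard * μ (fundamentalDomain b) := by
  have hfin := touching_finite b hA
  calc μ A ≤ μ (⋃ ℓ ∈ hfin.toFinset, cell b ℓ) :=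
        measure_mono (by simpa using subset_iUnion_cell_touching b A)
   _ ≤ ∑ ℓ ∈ hfin.toFinset, μ (cell b ℓ) := measure_biUnion_finset_le _ _
   _ = ∑ ℓ ∈ hfin.toFinset, μ (fundamentalDomain b) :=
        Finset.sum_congr rfl (fun ℓ hℓ => measure_cell b μ
          (touching_subset_lattice b A ((Set.Finite.mem_toFinset hfin).1 hℓ)))
   _ = _ := by rw [Finset.sum_const, nsmul_eq_mul, Set.ncard_eq_toFinset_card _ hfin]

lemma ncard_innerPts_le_measure {A : Set E} (hA : Bornology.IsBounded A) :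
    (innerPts b A).ncard * μ (fundamentalDomain b) ≤ μ A := by
  have hfin : (innerPts b A).Finite := (touching_finite b hA).subset (innerPts_subset_touching b A)
  have hmem : ∀ ℓ ∈ hfin.toFinset, ℓ ∈ span ℤ (Set.range b) := fun ℓ hℓ =>
    ((Set.Finite.mem_toFinset hfin).1 hℓ).1
  calc (innerPts b A).ncard * μ (fundamentalDomain b)
      = ∑ ℓ ∈ hfin.toFinset, μ (fundamentalDomain b) := by
        rw [Finset.sum_const, nsmul_eq_mul, Set.ncard_eq_toFinset_card _ hfin]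
   _ = ∑ ℓ ∈ hfin.toFinset, μ (cell b ℓ) :=
        Finset.sum_congr rfl (fun ℓ hℓ => (measure_cell b μ (hmem ℓ hℓ)).symm)
   _ = μ (⋃ ℓ ∈ hfin.toFinset, cell b ℓ) := by
        rw [measure_biUnion_finset]
        · intro ℓ _ ℓ' _ hne
          exact cell_disjoint b hne
        · intro ℓ hℓ
          exact measurableSet_cell b (hmem ℓ hℓ)
   _ ≤ μ A := measure_mono (by simpa using iUnion_cell_innerPts_subset b A)

lemma abs_ncard_sub_le {A : Set E} (hA : Bornology.IsBounded A) :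
    |((A ∩ (span ℤ (Set.range b) : Set E)).ncard : ℝ)
        - (μ A).toReal / (μ (fundamentalDomain b)).toReal|
      ≤ ((touching b A \ innerPts b A).ncard : ℝ) := by
  have hTfin := touching_finite b hA
  have hc0 : μ (fundamentalDomain b) ≠ 0 := measure_fundamentalDomain_ne_zero b
  have hctop : μ (fundamentalDomain b) ≠ ⊤ := (fundamentalDomain_isBounded b).measure_lt_top.ne
  have hAtop : μ A ≠ ⊤ := hA.measure_lt_top.ne
  have hc : 0 < (μ (fundamentalDomain b)).toReal := ENNReal.toReal_pos hc0 hctop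
  have h1 : ((innerPts b A).ncard : ℝ) ≤ ((A ∩ (span ℤ (Set.range b) : Set E)).ncard : ℝ) := by
    exact_mod_cast Set.ncard_le_ncard (innerPts_subset_inter b A)
      (hTfin.subset (inter_lattice_subset_touching b A))
  have h2 : ((A ∩ (span ℤ (Set.range b) : Set E)).ncard : ℝ) ≤ ((touching b A).ncard : ℝ) := by
    exact_mod_cast Set.ncard_le_ncard (inter_lattice_subset_touching b A) hTfin
  have h3 : ((innerPts b A).ncard : ℝ) * (μ (fundamentalDomain b)).toReal ≤ (μ A).toReal := by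
    have := ENNReal.toReal_mono hAtop (ncard_innerPts_le_measure b μ hA)
    simpa [ENNReal.toReal_mul] using this
  have h4 : (μ A).toReal ≤ ((touching b A).ncard : ℝ) * (μ (fundamentalDomain b)).toReal := by
    have := ENNReal.toReal_mono (ENNReal.mul_ne_top (ENNReal.natCast_ne_top _) hctop)
      (measure_le_ncard_touching b μ hA)
    simpa [ENNReal.toReal_mul] using this
  have h5 : ((innerPts b A).ncard : ℝ) ≤ (μ A).toReal / (μ (fundamentalDomain b)).toReal := by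
    rw [le_div_iff₀ hc]; exact h3
  have h6 : (μ A).toReal / (μ (fundamentalDomain b)).toReal ≤ ((touching b A).ncard : ℝ) := by
    rw [div_le_iff₀ hc]; exact h4
  have h7 : ((touching b A \ innerPts b A).ncard : ℝ)
      = ((touching b A).ncard : ℝ) - ((innerPts b A).ncard : ℝ) := by
    rw [Set.ncard_sdiff (innerPts_subset_touching b A) (hTfin.subset (innerPts_subset_touching b A))]
    rw [Nat.cast_sub (Set.ncard_le_ncard (innerPts_subset_touching b A) hTfin)]
  rw [h7, abs_le]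
  constructor <;> linarith

end Measure

section Frontier

variable {E ι : Type*} [NormedAddCommGroup E] [NormedSpace ℝ E] [Fintype ι] (b : Basis ι ℝ E)

lemma IsPreconnected.inter_frontier_nonempty' {X : Type*} [TopologicalSpace X] {Q A : Set X}
    (hQ : IsPreconnected Q) {x y : X} (hx : x ∈ Q) (hxA : x ∈ A) (hy : y ∈ Q) (hyA : y ∉ A) :
    (Q ∩ frontier A).Nonempty := by
  by_contra hne
  rw [Set.not_nonempty_iff_eq_empty] at hne
  have hsub : Q ⊆ interior A ∪ (closure A)ᶜ := by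
    intro q hq
    by_contra hq'
    rw [Set.mem_union, not_or, Set.mem_compl_iff, not_not] at hq'
    have : q ∈ Q ∩ frontier A := ⟨hq, hq'.2, hq'.1⟩
    rw [hne] at this
    exact this
  have hx' : x ∈ interior A := by
    rcases hsub hx with h | h
    · exact h
    · exact absurd (subset_closure hxA) h
  have hy' : y ∈ (closure A)ᶜ := by
    rcases hsub hy with h | h
    · exact absurd (interior_subset h) hyA
    · exact h
  obtain ⟨z, _, hz1, hz2⟩ := hQ _ _ isOpen_interior isClosed_closure.isOpen_compl hsub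
    ⟨x, hx, hx'⟩ ⟨y, hy, hy'⟩
  exact hz2 (subset_closure (interior_subset hz1))

lemma touching_diff_innerPts_subset (A : Set E) :
    touching b A \ innerPts b A ⊆
      {ℓ | ℓ ∈ span ℤ (Set.range b) ∧ (cell b ℓ ∩ frontier A).Nonempty} := by
  rintro ℓ ⟨hT, hI⟩
  have hℓ : ℓ ∈ span ℤ (Set.range b) := touching_subset_lattice b A hT
  refine ⟨hℓ, ?_⟩
  obtain ⟨x, hxA, hxℓ⟩ := hT
  have hnot : ¬ cell b ℓ ⊆ A := fun h => hI ⟨hℓ, h⟩
  rw [Set.not_subset] at hnot
  obtain ⟨y, hy, hyA⟩ := hnot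
  exact IsPreconnected.inter_frontier_nonempty' (convex_cell b hℓ).isPreconnected
    (show x ∈ cell b ℓ from hxℓ) hxA hy hyA

lemma frontier_smul_set {t : ℝ} (ht : t ≠ 0) (s : Set E) :
    frontier (t • s) = t • frontier s := by
  have h := (Homeomorph.smulOfNeZero t ht : E ≃ₜ E).image_frontier s
  simpa [Set.image_smul] using h.symm

end Frontier

section Grid

variable {κ : Type*} [Fintype κ]

/-- the lower corner of the subcube of side `1/k` containing `u`. -/
noncomputable def corner (k : ℕ) (u : κ → ℝ) : κ → ℝ := fun i => (⌊(k : ℝ) * u i⌋₊ : ℝ) / k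

lemma corner_mem_Icc {k : ℕ} (hk : 0 < k) {u : κ → ℝ} (hu : u ∈ Set.Icc (0 : κ → ℝ) 1) :
    corner k u ∈ Set.Icc (0 : κ → ℝ) 1 := by
  have hk' : (0 : ℝ) < k := Nat.cast_pos.mpr hk
  rw [Set.mem_Icc, Pi.le_def, Pi.le_def] at hu ⊢
  refine ⟨fun i => by unfold corner; positivity, fun i => ?_⟩
  have h0 : 0 ≤ u i := hu.1 i
  have h1 : u i ≤ 1 := hu.2 i
  unfold corner
  rw [Pi.one_apply, div_le_one hk']
  calc (⌊(k : ℝ) * u i⌋₊ : ℝ) ≤ (k : ℝ) * u i := Nat.floor_le (by positivity)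
    _ ≤ (k : ℝ) * 1 := by gcongr
    _ = k := mul_one _

lemma dist_corner_le {k : ℕ} (hk : 0 < k) {u : κ → ℝ} (hu : u ∈ Set.Icc (0 : κ → ℝ) 1) :
    dist u (corner k u) ≤ 1 / k := by
  have hk' : (0 : ℝ) < k := Nat.cast_pos.mpr hk
  rw [dist_pi_le_iff (by positivity)]
  intro i
  have h0 : 0 ≤ u i := hu.1 i
  have hnn : (0 : ℝ) ≤ (k : ℝ) * u i := by positivity
  have hfl : (⌊(k : ℝ) * u i⌋₊ : ℝ) ≤ (k : ℝ) * u i := Nat.floor_le hnn
  have hlt : (k : ℝ) * u i < ⌊(k : ℝ) * u i⌋₊ + 1 := Nat.lt_floor_add_one _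
  unfold corner
  rw [Real.dist_eq, abs_le]
  constructor
  · have : (⌊(k : ℝ) * u i⌋₊ : ℝ) / k ≤ u i := by
      rw [div_le_iff₀ hk']; linarith
    have : (0 : ℝ) ≤ 1 / k := by positivity
    linarith
  · have : u i - 1 / k < (⌊(k : ℝ) * u i⌋₊ : ℝ) / k := by
      rw [lt_div_iff₀ hk', sub_mul, one_div, inv_mul_cancel₀ hk'.ne']
      linarith
    linarith

/-- the index of the corner as a function to `Fin (k+1)`. -/
noncomputable def cornerIdx (k : ℕ) (u : κ → ℝ) : κ → Fin (k + 1) :=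
  fun i => ⟨min ⌊(k : ℝ) * u i⌋₊ k, Nat.lt_succ_of_le (min_le_right _ _)⟩

lemma corner_eq_cornerIdx {k : ℕ} {u : κ → ℝ} (hu : u ∈ Set.Icc (0 : κ → ℝ) 1) :
    corner k u = fun i => (((cornerIdx k u i : Fin (k + 1)) : ℕ) : ℝ) / k := by
  funext i
  have h0 : 0 ≤ u i := hu.1 i
  have h1 : u i ≤ 1 := hu.2 i
  have hle : ⌊(k : ℝ) * u i⌋₊ ≤ k := by
    apply Nat.floor_le_of_le
    calc (k : ℝ) * u i ≤ (k : ℝ) * 1 := by gcongr
      _ = k := mul_one _
  simp [corner, cornerIdx, min_eq_left hle]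

end Grid

section Count

variable {E ι : Type*} [NormedAddCommGroup E] [NormedSpace ℝ E] [FiniteDimensional ℝ E]
  [Fintype ι] (b : Basis ι ℝ E)

/-- The number of lattice points in a ball of radius `ρ` is bounded independently of the
centre. -/
lemma ncard_lattice_ball_le (p : E) (ρ : ℝ) :
    {ℓ : E | ℓ ∈ span ℤ (Set.range b) ∧ ‖ℓ - p‖ ≤ ρ}.ncard ≤
      (Metric.closedBall (0 : E) (2 * ρ) ∩ (span ℤ (Set.range b) : Set E)).ncard := by
  by_cases hne : {ℓ : E | ℓ ∈ span ℤ (Set.range b) ∧ ‖ℓ - p‖ ≤ ρ}.Nonempty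
  · obtain ⟨ℓ₀, hℓ₀, hd₀⟩ := hne
    refine Set.ncard_le_ncard_of_injOn (fun ℓ => ℓ - ℓ₀) ?_ ?_
      (setFinite_inter b Metric.isBounded_closedBall)
    · rintro ℓ ⟨hℓ, hd⟩
      refine ⟨?_, sub_mem hℓ hℓ₀⟩
      rw [mem_closedBall_zero_iff]
      calc ‖ℓ - ℓ₀‖ = ‖(ℓ - p) - (ℓ₀ - p)‖ := by congr 1; abel
        _ ≤ ‖ℓ - p‖ + ‖ℓ₀ - p‖ := norm_sub_le _ _
        _ ≤ 2 * ρ := by linarith
    · intro x _ y _ h
      simpa using h
  · rw [Set.not_nonempty_iff_eq_empty] at hne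
    rw [hne]
    simp

variable {J : Type*} [Fintype J] {κ : J → Type*} [∀ j, Fintype (κ j)]
  (Ψ : ∀ j, (κ j → ℝ) → E) (K : ℝ≥0)

open scoped Classical in
/-- the images of the grid points of mesh `1/k`, dilated by `t`. -/
noncomputable def gridPts (t : ℝ) (k : ℕ) : Finset E :=
  Finset.univ.biUnion (fun j : J => (Finset.univ : Finset (κ j → Fin (k + 1))).image
    (fun a => t • Ψ j (fun i => (((a i : Fin (k + 1)) : ℕ) : ℝ) / k)))

lemma card_gridPts_le (t : ℝ) (k d : ℕ) (hd : ∀ j, Fintype.card (κ j) ≤ d) :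
    (gridPts Ψ t k).card ≤ Fintype.card J * (k + 1) ^ d := by
  classical
  unfold gridPts
  calc _ ≤ ∑ j : J, ((Finset.univ : Finset (κ j → Fin (k + 1))).image
        (fun a => t • Ψ j (fun i => (((a i : Fin (k + 1)) : ℕ) : ℝ) / k))).card :=
        Finset.card_biUnion_le
    _ ≤ ∑ _j : J, (k + 1) ^ d := by
        refine Finset.sum_le_sum (fun j _ => ?_)
        refine Finset.card_image_le.trans ?_
        rw [Finset.card_univ, Fintype.card_fun, Fintype.card_fin]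
        exact Nat.pow_le_pow_right (Nat.succ_pos k) (hd j)
    _ = Fintype.card J * (k + 1) ^ d := by
        rw [Finset.sum_const, Finset.card_univ, smul_eq_mul]

lemma exists_gridPt_near (hΨ : ∀ j, LipschitzOnWith K (Ψ j) (Set.Icc 0 1)) {t : ℝ} (ht : 0 < t)
    {k : ℕ} (hk : 0 < k) (htk : t ≤ k) {ℓ : E}
    (h : (cell b ℓ ∩ t • ⋃ j, Ψ j '' Set.Icc 0 1).Nonempty) :
    ∃ p ∈ gridPts Ψ t k, ‖ℓ - p‖ ≤ ∑ i, ‖b i‖ + K := by
  classical
  obtain ⟨x, hxℓ, hx⟩ := h
  obtain ⟨y, hy, rfl⟩ := hx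
  simp only [Set.mem_iUnion] at hy
  obtain ⟨j, u, hu, rfl⟩ := hy
  have hk' : (0 : ℝ) < k := Nat.cast_pos.mpr hk
  refine ⟨t • Ψ j (corner k u), ?_, ?_⟩
  · unfold gridPts
    simp only [Finset.mem_biUnion, Finset.mem_univ, Finset.mem_image, true_and]
    exact ⟨j, cornerIdx k u, by rw [corner_eq_cornerIdx hu]⟩
  · have h1 : ‖(t • Ψ j u) - ℓ‖ ≤ ∑ i, ‖b i‖ := norm_sub_le_of_mem_cell b hxℓ
    have h2 : dist (Ψ j u) (Ψ j (corner k u)) ≤ K * dist u (corner k u) :=
      (hΨ j).dist_le_mul u hu _ (corner_mem_Icc hk hu)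
    have h3 : dist u (corner k u) ≤ 1 / k := dist_corner_le hk hu
    have h4 : ‖t • Ψ j u - t • Ψ j (corner k u)‖ ≤ K := by
      rw [← smul_sub, norm_smul, Real.norm_eq_abs, abs_of_pos ht, ← dist_eq_norm]
      calc t * dist (Ψ j u) (Ψ j (corner k u)) ≤ t * (K * (1 / k)) := by
            gcongr
            exact h2.trans (by gcongr)
        _ = (t / k) * K := by ring
        _ ≤ 1 * K := by
            gcongr
            rw [div_le_one hk']; exact htk
        _ = K := one_mul _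
    calc ‖ℓ - t • Ψ j (corner k u)‖
        = ‖(t • Ψ j u - t • Ψ j (corner k u)) - (t • Ψ j u - ℓ)‖ := by congr 1; abel
      _ ≤ ‖t • Ψ j u - t • Ψ j (corner k u)‖ + ‖t • Ψ j u - ℓ‖ := norm_sub_le _ _
      _ ≤ K + ∑ i, ‖b i‖ := add_le_add h4 h1
      _ = ∑ i, ‖b i‖ + K := add_comm _ _

lemma ncard_cells_meeting_le (hΨ : ∀ j, LipschitzOnWith K (Ψ j) (Set.Icc 0 1)) {t : ℝ}
    (ht : 0 < t) {k : ℕ} (hk : 0 < k) (htk : t ≤ k) (d : ℕ)
    (hd : ∀ j, Fintype.card (κ j) ≤ d) :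
    {ℓ : E | ℓ ∈ span ℤ (Set.range b) ∧
        (cell b ℓ ∩ t • ⋃ j, Ψ j '' Set.Icc 0 1).Nonempty}.ncard ≤
      Fintype.card J * (k + 1) ^ d *
        (Metric.closedBall (0 : E) (2 * (∑ i, ‖b i‖ + K)) ∩
          (span ℤ (Set.range b) : Set E)).ncard := by
  classical
  set M := (Metric.closedBall (0 : E) (2 * (∑ i, ‖b i‖ + K)) ∩
          (span ℤ (Set.range b) : Set E)).ncard with hM
  set ρ : ℝ := ∑ i, ‖b i‖ + K with hρ
  have hsub : {ℓ : E | ℓ ∈ span ℤ (Set.range b) ∧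
        (cell b ℓ ∩ t • ⋃ j, Ψ j '' Set.Icc 0 1).Nonempty} ⊆
      ⋃ p ∈ gridPts Ψ t k, {ℓ : E | ℓ ∈ span ℤ (Set.range b) ∧ ‖ℓ - p‖ ≤ ρ} := by
    rintro ℓ ⟨hℓ, hne⟩
    obtain ⟨p, hp, hd⟩ := exists_gridPt_near b Ψ K hΨ ht hk htk hne
    simp only [Set.mem_iUnion]
    exact ⟨p, hp, hℓ, hd⟩
  have hfin : (⋃ p ∈ gridPts Ψ t k, {ℓ : E | ℓ ∈ span ℤ (Set.range b) ∧ ‖ℓ - p‖ ≤ ρ}).Finite := by
    refine Set.Finite.biUnion (Finset.finite_toSet _) (fun p _ => ?_)
    have hb : Bornology.IsBounded (Metric.closedBall p ρ) := Metric.isBounded_closedBall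
    refine (setFinite_inter b hb).subset ?_
    rintro ℓ ⟨hℓ, hd⟩
    exact ⟨by rw [Metric.mem_closedBall, dist_eq_norm]; exact hd, hℓ⟩
  calc _ ≤ (⋃ p ∈ gridPts Ψ t k,
          {ℓ : E | ℓ ∈ span ℤ (Set.range b) ∧ ‖ℓ - p‖ ≤ ρ}).ncard :=
        Set.ncard_le_ncard hsub hfin
    _ ≤ ∑ p ∈ gridPts Ψ t k, {ℓ : E | ℓ ∈ span ℤ (Set.range b) ∧ ‖ℓ - p‖ ≤ ρ}.ncard :=
        Finset.set_ncard_biUnion_le _ _
    _ ≤ ∑ _p ∈ gridPts Ψ t k, M := Finset.sum_le_sum (fun p _ => ncard_lattice_ball_le b p ρ)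
    _ = (gridPts Ψ t k).card * M := by rw [Finset.sum_const, smul_eq_mul]
    _ ≤ Fintype.card J * (k + 1) ^ d * M :=
        Nat.mul_le_mul_right _ (card_gridPts_le Ψ t k d hd)

end Count

section Main

variable {E ι : Type*} [NormedAddCommGroup E] [NormedSpace ℝ E] [FiniteDimensional ℝ E]
  [MeasurableSpace E] [BorelSpace E] [Fintype ι] (b : Basis ι ℝ E)
  (μ : Measure E) [μ.IsAddHaarMeasure]
  {J : Type*} [Fintype J] {κ : J → Type*} [∀ j, Fintype (κ j)]
  (Ψ : ∀ j, (κ j → ℝ) → E) (K : ℝ≥0)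

lemma cells_meeting_subset_touching (S : Set E) :
    {ℓ : E | ℓ ∈ span ℤ (Set.range b) ∧ (cell b ℓ ∩ S).Nonempty} ⊆ touching b S := by
  rintro ℓ ⟨_, x, hxℓ, hxS⟩
  exact ⟨x, hxS, hxℓ⟩

/-- **Lattice point counting with an error term**: if the frontier of the bounded set `s` is
covered by finitely many Lipschitz images of cubes of dimension at most `d`, then the number of
points of the lattice spanned by `b` in `t • s` is `t ^ n * vol s / covol + O(t ^ d)`. -/
theorem exists_abs_ncard_smul_sub_le (hΨ : ∀ j, LipschitzOnWith K (Ψ j) (Set.Icc 0 1)) (d : ℕ)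
    (hd : ∀ j, Fintype.card (κ j) ≤ d) {s : Set E} (hs : Bornology.IsBounded s)
    (hfr : frontier s ⊆ ⋃ j, Ψ j '' Set.Icc 0 1) :
    ∃ B : ℝ, ∀ t : ℝ, 1 ≤ t →
      |(((t • s) ∩ (span ℤ (Set.range b) : Set E)).ncard : ℝ)
        - t ^ Fintype.card ι * ((μ s).toReal / (μ (fundamentalDomain b)).toReal)| ≤ B * t ^ d := by
  set M := (Metric.closedBall (0 : E) (2 * (∑ i, ‖b i‖ + K)) ∩
          (span ℤ (Set.range b) : Set E)).ncard with hM
  refine ⟨Fintype.card J * 3 ^ d * M, fun t ht => ?_⟩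
  have ht0 : 0 < t := lt_of_lt_of_le one_pos ht
  set k := ⌈t⌉₊ with hk
  have hk0 : 0 < k := Nat.ceil_pos.mpr ht0
  have htk : t ≤ k := Nat.le_ceil t
  have hk3 : ((k + 1 : ℕ) : ℝ) ≤ 3 * t := by
    have : (k : ℝ) < t + 1 := Nat.ceil_lt_add_one ht0.le
    push_cast
    linarith
  have hbddU : Bornology.IsBounded (⋃ j, Ψ j '' Set.Icc (0 : κ j → ℝ) 1) := by
    rw [Bornology.isBounded_iUnion]
    intro j
    exact (isCompact_Icc.image_of_continuousOn (hΨ j).continuousOn).isBounded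
  have hbddtU : Bornology.IsBounded (t • ⋃ j, Ψ j '' Set.Icc (0 : κ j → ℝ) 1) := hbddU.smul₀ t
  have hA : Bornology.IsBounded (t • s) := hs.smul₀ t
  have h1 := abs_ncard_sub_le b μ hA
  have hμ : (μ (t • s)).toReal = t ^ Fintype.card ι * (μ s).toReal := by
    rw [Measure.addHaar_smul_of_nonneg μ ht0.le, ENNReal.toReal_mul,
      ENNReal.toReal_ofReal (by positivity), Module.finrank_eq_card_basis b]
  rw [hμ, mul_div_assoc] at h1
  refine h1.trans ?_
  have hsub : touching b (t • s) \ innerPts b (t • s) ⊆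
      {ℓ : E | ℓ ∈ span ℤ (Set.range b) ∧
        (cell b ℓ ∩ t • ⋃ j, Ψ j '' Set.Icc 0 1).Nonempty} := by
    refine (touching_diff_innerPts_subset b (t • s)).trans ?_
    rintro ℓ ⟨hℓ, x, hxℓ, hx⟩
    refine ⟨hℓ, x, hxℓ, ?_⟩
    rw [frontier_smul_set ht0.ne'] at hx
    exact Set.smul_set_mono hfr hx
  have hfin : {ℓ : E | ℓ ∈ span ℤ (Set.range b) ∧
        (cell b ℓ ∩ t • ⋃ j, Ψ j '' Set.Icc 0 1).Nonempty}.Finite :=
    (touching_finite b hbddtU).subset (cells_meeting_subset_touching b _)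
  have h2 := Set.ncard_le_ncard hsub hfin
  have h3 := ncard_cells_meeting_le b Ψ K hΨ ht0 hk0 htk d hd
  have h4 : ((touching b (t • s) \ innerPts b (t • s)).ncard : ℝ) ≤
      ((Fintype.card J * (k + 1) ^ d * M : ℕ) : ℝ) := by
    exact_mod_cast h2.trans h3
  refine h4.trans ?_
  push_cast
  have h5 : ((k : ℝ) + 1) ^ d ≤ (3 * t) ^ d := by
    apply pow_le_pow_left₀ (by positivity)
    exact_mod_cast hk3
  calc (Fintype.card J : ℝ) * ((k : ℝ) + 1) ^ d * M
      ≤ (Fintype.card J : ℝ) * (3 * t) ^ d * M := by gcongr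
    _ = Fintype.card J * 3 ^ d * M * t ^ d := by rw [mul_pow]; ring

end Main

end Fermat.Agent.Lib.CFT.Unram.Count
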