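import Mathlib

set_option autoImplicit false

namespace Fermat.Agent.Lib.CFT.Unram.Count

open NumberField NumberField.InfinitePlace NumberField.mixedEmbedding
  NumberField.mixedEmbedding.fundamentalCone NumberField.Units
  NumberField.Units.dirichletUnitTheorem
open scoped Real

variable (K : Type*) [Field K] [NumberField K]

attribute [local instance] Classical.propDecidable

abbrev PIdx := InfinitePlace K ⊕ {w : InfinitePlace K // IsComplex w}

open scoped Classical in
noncomputable def yMap (u : PIdx K → ℝ) : realSpace K :=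
  u (Sum.inl w₀) • expMapBasis (fun w => if w = w₀ then 0 else u (Sum.inl w))

open scoped Classical in
lemma yMap_apply (u : PIdx K → ℝ) (w : InfinitePlace K) :
    yMap K u w = u (Sum.inl w₀) *
      ∏ i : {w : InfinitePlace K // w ≠ w₀},
        w (fundSystem K (equivFinRank.symm i)) ^ u (Sum.inl i.1) := by
  unfold yMap
  rw [expMapBasis_apply']
  simp only [if_true, Real.exp_zero, one_smul, Pi.smul_apply, smul_eq_mul]
  congr 1
  refine Finset.prod_congr rfl (fun i _ => ?_)
  rw [if_neg i.2]

lemma contDiff_yMap : ContDiff ℝ 1 (yMap K) := by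
  classical
  rw [contDiff_pi]
  intro w
  have : (fun u => yMap K u w) = fun u : PIdx K → ℝ => u (Sum.inl w₀) *
      ∏ i : {w : InfinitePlace K // w ≠ w₀},
        w (fundSystem K (equivFinRank.symm i)) ^ u (Sum.inl i.1) :=
    funext (fun u => yMap_apply K u w)
  rw [this]
  refine (contDiff_apply ℝ ℝ _).mul (contDiff_prod (fun i _ => ?_))
  refine contDiff_const.rpow (contDiff_apply ℝ ℝ _) (fun _ => ?_)
  exact (pos_iff.mpr (coe_ne_zero _)).ne'

/-- the parametrisation of (a superset of) `normAtAllPlaces ⁻¹' compactSet K`. -/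
noncomputable def paramMap (ε : {w : InfinitePlace K // IsReal w} → ℝ) (u : PIdx K → ℝ) :
    mixedSpace K :=
  (fun w => ε w * yMap K u w.1,
   fun w => (yMap K u w.1 : ℂ) * Complex.exp (2 * π * Complex.I * u (Sum.inr w)))

lemma contDiff_paramMap (ε : {w : InfinitePlace K // IsReal w} → ℝ) :
    ContDiff ℝ 1 (paramMap K ε) := by
  have hy := contDiff_yMap K
  rw [contDiff_pi] at hy
  refine ContDiff.prodMk (contDiff_pi.2 fun w => ?_) (contDiff_pi.2 fun w => ?_)
  · exact contDiff_const.mul (hy w.1)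
  · refine (Complex.ofRealCLM.contDiff.comp (hy w.1)).mul (ContDiff.cexp ?_)
    exact contDiff_const.mul (Complex.ofRealCLM.contDiff.comp (contDiff_apply ℝ ℝ _))

lemma exists_lipschitzOnWith_paramMap (ε : {w : InfinitePlace K // IsReal w} → ℝ) :
    ∃ C, LipschitzOnWith C (paramMap K ε) (Set.Icc 0 1) :=
  LocallyLipschitzOn.exists_lipschitzOnWith_of_compact isCompact_Icc
    (contDiff_paramMap K ε).locallyLipschitz.locallyLipschitzOn

lemma exists_polar (z : ℂ) :
    ∃ θ ∈ Set.Icc (0 : ℝ) 1, z = (‖z‖ : ℂ) * Complex.exp (2 * π * Complex.I * θ) := by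
  have hπ : (0 : ℝ) < π := Real.pi_pos
  have h1 : (‖z‖ : ℂ) * Complex.exp (Complex.arg z * Complex.I) = z :=
    Complex.norm_mul_exp_arg_mul_I z
  by_cases h : 0 ≤ Complex.arg z
  · refine ⟨Complex.arg z / (2 * π), ⟨by positivity, ?_⟩, ?_⟩
    · rw [div_le_one (by positivity)]
      linarith [Complex.arg_le_pi z]
    · conv_lhs => rw [← h1]
      congr 2
      push_cast
      field_simp
  · push Not at h
    refine ⟨Complex.arg z / (2 * π) + 1, ⟨?_, ?_⟩, ?_⟩
    · have : -1 ≤ Complex.arg z / (2 * π) := by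
        rw [le_div_iff₀ (by positivity)]
        linarith [Complex.neg_pi_lt_arg z]
      linarith
    · have : Complex.arg z / (2 * π) < 0 := div_neg_of_neg_of_pos h (by positivity)
      linarith
    · conv_lhs => rw [← h1]
      congr 1
      have : (2 * π * Complex.I * ((Complex.arg z / (2 * π) + 1 : ℝ) : ℂ))
          = Complex.arg z * Complex.I + 2 * π * Complex.I := by
        push_cast
        field_simp
      rw [this, Complex.exp_add, Complex.exp_two_pi_mul_I, mul_one]

/-- the sign vector attached to a Boolean vector. -/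
def signOf (σ : {w : InfinitePlace K // IsReal w} → Bool) :
    {w : InfinitePlace K // IsReal w} → ℝ := fun w => if σ w then 1 else -1

lemma exists_sign (r : ℝ) : ∃ e : Bool, r = (if e then 1 else -1) * |r| := by
  by_cases h : 0 ≤ r
  · exact ⟨true, by simp [abs_of_nonneg h]⟩
  · push Not at h
    exact ⟨false, by simp [abs_of_neg h]⟩

lemma frontier_normLeOne_subset :
    frontier (normLeOne K) ⊆
      ⋃ (σ : {w : InfinitePlace K // IsReal w} → Bool), ⋃ (w₁ : InfinitePlace K), ⋃ (v : Bool),
        paramMap K (signOf K σ) ''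
          {u | u ∈ Set.Icc (0 : PIdx K → ℝ) 1 ∧ u (Sum.inl w₁) = (if v then 1 else 0)} := by
  intro x hx
  have hx1 : normAtAllPlaces x ∈ compactSet K :=
    closure_normLeOne_subset K (frontier_subset_closure hx)
  have hx2 : normAtAllPlaces x ∉ expMapBasis '' interior (paramSet K) := by
    intro h
    have : x ∈ interior (normLeOne K) := subset_interior_normLeOne K h
    rw [frontier, Set.mem_sdiff] at hx
    exact hx.2 this
  obtain ⟨c, hc, y, ⟨a, ha, rfl⟩, hcy⟩ := Set.mem_smul.mp hx1
  rw [Set.mem_univ_pi] at ha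
  have ha0 : a w₀ = 0 := by simpa using ha w₀
  have haw : ∀ w, w ≠ w₀ → a w ∈ Set.Icc (0 : ℝ) 1 := fun w hw => by simpa [hw] using ha w
  -- angles and signs
  choose θ hθ hθz using fun w : {w : InfinitePlace K // IsComplex w} => exists_polar (x.2 w)
  choose σ hσ using fun w : {w : InfinitePlace K // IsReal w} => exists_sign (x.1 w)
  -- the parameter
  set u : PIdx K → ℝ := fun i => match i with
    | Sum.inl w => if w = w₀ then c else a w
    | Sum.inr w => θ w with hu
  have hu0 : u (Sum.inl w₀) = c := by simp [hu]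
  have huw : ∀ w, w ≠ w₀ → u (Sum.inl w) = a w := fun w hw => by simp [hu, hw]
  have hua : (fun w => if w = w₀ then 0 else u (Sum.inl w)) = a := by
    funext w
    by_cases hw : w = w₀
    · simp [hw, ha0]
    · simp [hw, huw w hw]
  have hy : yMap K u = normAtAllPlaces x := by
    unfold yMap
    rw [hu0, hua, ← hcy]
  have hmem : u ∈ Set.Icc (0 : PIdx K → ℝ) 1 := by
    rw [Set.mem_Icc, Pi.le_def, Pi.le_def]
    constructor
    · rintro (w | w)
      · by_cases hw : w = w₀
        · simp [hu, hw, hc.1]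
        · simpa [hu, hw] using (haw w hw).1
      · exact (hθ w).1
    · rintro (w | w)
      · by_cases hw : w = w₀
        · simp [hu, hw, hc.2]
        · simpa [hu, hw] using (haw w hw).2
      · exact (hθ w).2
  have hpx : paramMap K (signOf K σ) u = x := by
    unfold paramMap
    rw [hy]
    refine Prod.ext (funext fun w => ?_) (funext fun w => ?_)
    · simp only [normAtAllPlaces_apply, normAtPlace_apply_of_isReal w.2, signOf,
        Real.norm_eq_abs]
      exact (hσ w).symm
    · simp only [normAtAllPlaces_apply, normAtPlace_apply_of_isComplex w.2]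
      exact (hθz w).symm
  -- some radial coordinate lies on the boundary
  have hbd : ∃ w₁, u (Sum.inl w₁) = 0 ∨ u (Sum.inl w₁) = 1 := by
    by_contra hcon
    push Not at hcon
    have hlt : ∀ w, 0 < u (Sum.inl w) ∧ u (Sum.inl w) < 1 := fun w =>
      ⟨lt_of_le_of_ne (hmem.1 (Sum.inl w)) (Ne.symm (hcon w).1),
        lt_of_le_of_ne (hmem.2 (Sum.inl w)) (hcon w).2⟩
    have hc0 : 0 < c := hu0 ▸ (hlt w₀).1
    have hc1 : c < 1 := hu0 ▸ (hlt w₀).2
    apply hx2
    refine ⟨fun w => if w = w₀ then Real.log c else a w, ?_, ?_⟩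
    · rw [interior_paramSet, Set.mem_univ_pi]
      intro w
      by_cases hw : w = w₀
      · simp only [hw, if_true]
        exact Real.log_neg hc0 hc1
      · simp only [hw, if_false]
        have := hlt w
        rw [huw w hw] at this
        exact this
    · rw [expMapBasis_apply'', if_pos rfl, Real.exp_log hc0, ← hcy]
      congr 2
      funext w
      by_cases hw : w = w₀
      · simp [hw, ha0]
      · simp [hw]
  obtain ⟨w₁, hw₁⟩ := hbd
  simp only [Set.mem_iUnion]
  rcases hw₁ with h0 | h1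
  · exact ⟨σ, w₁, false, u, ⟨hmem, by simpa using h0⟩, hpx⟩
  · exact ⟨σ, w₁, true, u, ⟨hmem, by simpa using h1⟩, hpx⟩

section Package

/-- insert the value `v` at the coordinate `i₀`. -/
def insertAt {ι : Type*} [DecidableEq ι] (i₀ : ι) (v : ℝ) (u : {i : ι // i ≠ i₀} → ℝ) : ι → ℝ :=
  fun i => if h : i = i₀ then v else u ⟨i, h⟩

lemma insertAt_mem_Icc {ι : Type*} [DecidableEq ι] (i₀ : ι) {v : ℝ}
    (hv : v ∈ Set.Icc (0 : ℝ) 1)
    {u : {i : ι // i ≠ i₀} → ℝ} (hu : u ∈ Set.Icc (0 : {i : ι // i ≠ i₀} → ℝ) 1) :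
    insertAt i₀ v u ∈ Set.Icc (0 : ι → ℝ) 1 := by
  rw [Set.mem_Icc, Pi.le_def, Pi.le_def] at hu ⊢
  constructor
  · intro i
    unfold insertAt
    split_ifs with h
    · exact hv.1
    · exact hu.1 ⟨i, h⟩
  · intro i
    unfold insertAt
    split_ifs with h
    · exact hv.2
    · exact hu.2 ⟨i, h⟩

lemma lipschitzWith_insertAt {ι : Type*} [DecidableEq ι] [Fintype ι] (i₀ : ι)
    [Fintype {i : ι // i ≠ i₀}] (v : ℝ) :
    LipschitzWith 1 (insertAt i₀ v) := by
  refine LipschitzWith.of_dist_le_mul (fun u u' => ?_)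
  rw [NNReal.coe_one, one_mul, dist_pi_le_iff dist_nonneg]
  intro i
  unfold insertAt
  split_ifs with h
  · simp
  · exact dist_le_pi_dist u u' ⟨i, h⟩

lemma insertAt_restrict {ι : Type*} [DecidableEq ι] (i₀ : ι) (u : ι → ℝ) :
    insertAt i₀ (u i₀) (fun i : {i : ι // i ≠ i₀} => u i.1) = u := by
  funext i
  unfold insertAt
  split_ifs with h
  · rw [h]
  · rfl

/-- the finite index type of the pieces covering the frontier. -/
abbrev FIdx := ({w : InfinitePlace K // IsReal w} → Bool) × InfinitePlace K × Bool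

/-- parameter index of a piece. -/
abbrev FPar (j : FIdx K) := {i : PIdx K // i ≠ Sum.inl j.2.1}

/-- the pieces. -/
noncomputable def pieceMap (j : FIdx K) (u : FPar K j → ℝ) : mixedSpace K :=
  paramMap K (signOf K j.1) (insertAt (Sum.inl j.2.1) (if j.2.2 then 1 else 0) u)

lemma exists_lipschitzOnWith_pieceMap :
    ∃ C : NNReal, ∀ j : FIdx K, LipschitzOnWith C (pieceMap K j) (Set.Icc 0 1) := by
  have h : ∀ j : FIdx K, ∃ C : NNReal, LipschitzOnWith C (pieceMap K j) (Set.Icc 0 1) := by
    intro j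
    obtain ⟨C, hC⟩ := exists_lipschitzOnWith_paramMap K (signOf K j.1)
    refine ⟨C * 1, ?_⟩
    have hv : (if j.2.2 then (1 : ℝ) else 0) ∈ Set.Icc (0 : ℝ) 1 := by
      split_ifs <;> simp
    have hmaps : Set.MapsTo (insertAt (Sum.inl j.2.1 : PIdx K) (if j.2.2 then (1 : ℝ) else 0))
        (Set.Icc (0 : FPar K j → ℝ) 1) (Set.Icc (0 : PIdx K → ℝ) 1) :=
      fun u hu => insertAt_mem_Icc _ hv hu
    have hins : LipschitzOnWith 1
        (insertAt (Sum.inl j.2.1 : PIdx K) (if j.2.2 then (1 : ℝ) else 0))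
        (Set.Icc (0 : FPar K j → ℝ) 1) :=
      (lipschitzWith_insertAt (Sum.inl j.2.1 : PIdx K) _).lipschitzOnWith
    have hcomp := LipschitzOnWith.comp hC hins hmaps
    have heq : pieceMap K j = paramMap K (signOf K j.1) ∘
        insertAt (Sum.inl j.2.1 : PIdx K) (if j.2.2 then (1 : ℝ) else 0) := rfl
    rw [heq]
    exact hcomp
  choose C hC using h
  obtain ⟨M, hM⟩ := Finite.exists_le C
  exact ⟨M, fun j => (hC j).weaken (hM j)⟩

lemma frontier_normLeOne_subset_pieces :
    frontier (normLeOne K) ⊆ ⋃ j : FIdx K, pieceMap K j '' Set.Icc 0 1 := by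
  intro x hx
  have := frontier_normLeOne_subset K hx
  simp only [Set.mem_iUnion] at this ⊢
  obtain ⟨σ, w₁, v, u, ⟨hu, huv⟩, rfl⟩ := this
  refine ⟨(σ, w₁, v), fun i => u i.1, ?_, ?_⟩
  · rw [Set.mem_Icc, Pi.le_def, Pi.le_def] at hu ⊢
    exact ⟨fun i => hu.1 i.1, fun i => hu.2 i.1⟩
  · unfold pieceMap
    simp only
    rw [← huv, insertAt_restrict]

lemma card_FPar_le (j : FIdx K) : Fintype.card (FPar K j) ≤ Module.finrank ℚ K - 1 := by
  have h1 : Fintype.card (FPar K j) = Fintype.card (PIdx K) - 1 := by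
    rw [Fintype.card_subtype_compl, Fintype.card_subtype_eq]
  have h2 : Fintype.card (PIdx K) = Module.finrank ℚ K := by
    rw [Fintype.card_sum, card_eq_nrRealPlaces_add_nrComplexPlaces,
      ← card_add_two_mul_card_eq_rank K]
    simp only [nrComplexPlaces, Fintype.card_eq_nat_card]
    ring
  rw [h1, h2]

end Package

end Fermat.Agent.Lib.CFT.Unram.Count
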