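import Mathlib
import Fermat.Agent.Lib.CFT.Unram.LatticeCount
import Fermat.Agent.Lib.CFT.Unram.NormLeOneFrontier

set_option autoImplicit false

namespace Fermat.Agent.Lib.CFT.Unram.Count

open NumberField NumberField.InfinitePlace NumberField.mixedEmbedding
  NumberField.mixedEmbedding.fundamentalCone NumberField.Units
  NumberField.Units.dirichletUnitTheorem MeasureTheory Module Submodule
open scoped Real Pointwise nonZeroDivisors

variable (K : Type*) [Field K] [NumberField K]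

attribute [local instance] Classical.propDecidable

/-- Quantitative counting of the points of a lattice of the mixed space in the dilates of
`normLeOne K`. -/
theorem exists_abs_ncard_normLeOne_sub_le {ι : Type*} [Fintype ι]
    (b : Basis ι ℝ (mixedSpace K)) :
    ∃ B : ℝ, ∀ t : ℝ, 1 ≤ t →
      |(((t • normLeOne K) ∩ (span ℤ (Set.range b) : Set (mixedSpace K))).ncard : ℝ)
        - t ^ Fintype.card ι * ((volume (normLeOne K)).toReal /
            (volume (ZSpan.fundamentalDomain b)).toReal)| ≤ B * t ^ (Module.finrank ℚ K - 1) := by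
  obtain ⟨C, hC⟩ := exists_lipschitzOnWith_pieceMap K
  exact exists_abs_ncard_smul_sub_le b volume (pieceMap K) C hC (Module.finrank ℚ K - 1)
    (card_FPar_le K) (isBounded_normLeOne K) (frontier_normLeOne_subset_pieces K)

lemma smul_normLeOne_eq {t : ℝ} (ht : 0 < t) :
    t • normLeOne K =
      {x | x ∈ fundamentalCone K ∧ mixedEmbedding.norm x ≤ t ^ Module.finrank ℚ K} := by
  ext x
  rw [Set.mem_smul_set_iff_inv_smul_mem₀ ht.ne', mem_normLeOne,
    smul_mem_iff_mem (inv_ne_zero ht.ne'), mixedEmbedding.norm_smul,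
    abs_of_pos (inv_pos.mpr ht), inv_pow, inv_mul_le_iff₀ (pow_pos ht _), mul_one]
  rfl

lemma card_idealSet_norm_le (J : (Ideal (𝓞 K))⁰) {t : ℝ} (ht : 0 < t) :
    Nat.card {a : idealSet K J //
        mixedEmbedding.norm (a : mixedSpace K) ≤ t ^ Module.finrank ℚ K} =
      ((t • normLeOne K) ∩ (span ℤ (Set.range
        (fractionalIdealLatticeBasis K (FractionalIdeal.mk0 K J))) : Set (mixedSpace K))).ncard := by
  rw [span_idealLatticeBasis, smul_normLeOne_eq K ht, ← _root_.Nat.card_coe_set_eq]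
  refine Nat.card_congr ?_
  refine (Equiv.subtypeSubtypeEquivSubtypeInter (· ∈ idealSet K J)
    (fun x => mixedEmbedding.norm x ≤ t ^ Module.finrank ℚ K)).trans
    (Equiv.subtypeEquivRight fun x => ?_)
  simp only [idealSet, Set.mem_inter_iff, Set.mem_ofPred_eq, SetLike.mem_coe]
  tauto

lemma card_class_eq (C : ClassGroup (𝓞 K)) (J : (Ideal (𝓞 K))⁰) (hJ : ClassGroup.mk0 J = C⁻¹)
    (s : ℝ) :
    Nat.card {I : (Ideal (𝓞 K))⁰ // Ideal.absNorm (I : Ideal (𝓞 K)) ≤ s ∧ ClassGroup.mk0 I = C}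
      = Nat.card {I : (Ideal (𝓞 K))⁰ // (J : Ideal (𝓞 K)) ∣ I ∧
          Submodule.IsPrincipal (I : Ideal (𝓞 K)) ∧
          Ideal.absNorm (I : Ideal (𝓞 K)) ≤ s * Ideal.absNorm (J : Ideal (𝓞 K))} := by
  simp_rw [← nonZeroDivisors_dvd_iff_dvd_coe]
  refine Nat.card_congr ?_
  refine ((Equiv.dvd J).subtypeEquiv fun I ↦ ?_).trans
    (Equiv.subtypeSubtypeEquivSubtypeInter (fun I : (Ideal (𝓞 K))⁰ ↦ J ∣ I) _)
  rw [← ClassGroup.mk0_eq_one_iff (SetLike.coe_mem _)]
  simp_rw [Equiv.dvd_apply, Submonoid.coe_mul, ← Submonoid.mul_def, _root_.map_mul, hJ,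
    inv_mul_eq_one, Nat.cast_mul, mul_comm s, eq_comm, and_comm, and_congr_left_iff]
  exact fun _ ↦
    (mul_le_mul_iff_of_pos_left (Nat.cast_pos.mpr (Ideal.absNorm_pos_of_nonZeroDivisors J))).symm

/-- Number of ideals of norm at most `s` in the class `C`: linear main term with a power
saving error term (the constant `c` is identified later). -/
theorem exists_abs_card_class_sub_le (C : ClassGroup (𝓞 K)) :
    ∃ c B : ℝ, ∀ s : ℝ, 1 ≤ s →
      |(Nat.card {I : (Ideal (𝓞 K))⁰ //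
          Ideal.absNorm (I : Ideal (𝓞 K)) ≤ s ∧ ClassGroup.mk0 I = C} : ℝ) - c * s|
        ≤ B * s ^ (1 - 1 / (Module.finrank ℚ K : ℝ)) := by
  obtain ⟨J, hJ⟩ := ClassGroup.mk0_surjective C⁻¹
  set b := fractionalIdealLatticeBasis K (FractionalIdeal.mk0 K J) with hb
  obtain ⟨B₀, hB₀⟩ := exists_abs_ncard_normLeOne_sub_le K b
  set n := Module.finrank ℚ K with hn
  have hn0 : n ≠ 0 := (Module.finrank_pos).ne'
  have hn1 : (1 : ℝ) ≤ n := by exact_mod_cast Nat.one_le_iff_ne_zero.mpr hn0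
  have hnpos : (0 : ℝ) < n := lt_of_lt_of_le one_pos hn1
  have hcard := (Module.finrank_eq_card_basis b).symm.trans (mixedEmbedding.finrank K)
  set NJ : ℝ := (Ideal.absNorm (J : Ideal (𝓞 K)) : ℝ) with hNJ
  have hNJ1 : (1 : ℝ) ≤ NJ :=
    Nat.one_le_cast.mpr (Nat.succ_le_of_lt (Ideal.absNorm_pos_of_nonZeroDivisors J))
  set w : ℝ := (torsionOrder K : ℝ) with hw
  have hw0 : 0 < w := Nat.cast_pos.mpr (torsionOrder_pos K)
  set c₁ : ℝ := (volume (normLeOne K)).toReal / (volume (ZSpan.fundamentalDomain b)).toReal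
    with hc₁
  refine ⟨c₁ * NJ / w, |B₀| * NJ ^ (1 - 1 / (n : ℝ)) / w, fun s hs => ?_⟩
  have hs0 : 0 < s := lt_of_lt_of_le one_pos hs
  set s' : ℝ := s * NJ with hs'
  have hs'1 : 1 ≤ s' := by nlinarith
  have hs'0 : 0 < s' := lt_of_lt_of_le one_pos hs'1
  set t : ℝ := s' ^ ((n : ℝ)⁻¹) with ht
  have ht1 : 1 ≤ t := Real.one_le_rpow hs'1 (inv_nonneg.mpr hnpos.le)
  have ht0 : 0 < t := lt_of_lt_of_le one_pos ht1
  have htn : t ^ n = s' := Real.rpow_inv_natCast_pow hs'0.le hn0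
  have htn1 : t ^ (n - 1) = s' ^ (1 - 1 / (n : ℝ)) := by
    rw [ht, ← Real.rpow_natCast, ← Real.rpow_mul hs'0.le]
    congr 1
    rw [Nat.cast_sub (Nat.one_le_iff_ne_zero.mpr hn0)]
    field_simp
    push_cast
    ring
  have h1 := hB₀ t ht1
  rw [hcard, htn, ← card_idealSet_norm_le K J ht0, htn, ← card_isPrincipal_dvd_norm_le K J s',
    ← card_class_eq K C J hJ s, htn1] at h1
  set N : ℝ := (Nat.card {I : (Ideal (𝓞 K))⁰ //
          Ideal.absNorm (I : Ideal (𝓞 K)) ≤ s ∧ ClassGroup.mk0 I = C} : ℝ) with hN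
  push_cast at h1
  have h2 : N - c₁ * NJ / w * s = (N * w - s' * c₁) / w := by
    rw [hs']
    field_simp
  have h3 : s' ^ (1 - 1 / (n : ℝ)) = s ^ (1 - 1 / (n : ℝ)) * NJ ^ (1 - 1 / (n : ℝ)) :=
    Real.mul_rpow hs0.le (le_trans zero_le_one hNJ1)
  rw [h2, abs_div, abs_of_pos hw0, div_le_iff₀ hw0]
  calc |N * w - s' * c₁| ≤ B₀ * s' ^ (1 - 1 / (n : ℝ)) := h1
    _ ≤ |B₀| * s' ^ (1 - 1 / (n : ℝ)) := by
        gcongr
        exact le_abs_self _
    _ = |B₀| * NJ ^ (1 - 1 / (n : ℝ)) / w * s ^ (1 - 1 / (n : ℝ)) * w := by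
        rw [h3]
        field_simp


lemma tendsto_div_of_abs_sub_le {f : ℝ → ℝ} {c B n : ℝ} (hn : 0 < n)
    (h : ∀ s : ℝ, 1 ≤ s → |f s - c * s| ≤ B * s ^ (1 - 1 / n)) :
    Filter.Tendsto (fun s => f s / s) Filter.atTop (nhds c) := by
  rw [tendsto_iff_norm_sub_tendsto_zero]
  have h0 : Filter.Tendsto (fun s : ℝ => B * s ^ (-(1 / n))) Filter.atTop (nhds 0) := by
    simpa using (tendsto_rpow_neg_atTop (one_div_pos.mpr hn)).const_mul B
  refine squeeze_zero' (Filter.Eventually.of_forall fun _ => norm_nonneg _) ?_ h0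
  filter_upwards [Filter.eventually_ge_atTop 1] with s hs
  have hs0 : 0 < s := lt_of_lt_of_le one_pos hs
  rw [Real.norm_eq_abs, show f s / s - c = (f s - c * s) / s by field_simp, abs_div,
    abs_of_pos hs0, div_le_iff₀ hs0]
  calc |f s - c * s| ≤ B * s ^ (1 - 1 / n) := h s hs
    _ = B * s ^ (-(1 / n)) * s := by
      rw [mul_assoc, ← Real.rpow_add_one hs0.ne']
      congr 2
      ring

/-- The constant in the asymptotic count of ideals in a class. -/
noncomputable def kappa : ℝ :=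
  (2 ^ nrRealPlaces K * (2 * π) ^ nrComplexPlaces K * regulator K) /
    (torsionOrder K * Real.sqrt |discr K|)

/-- **Uniform quantitative count of ideals in a class.** -/
theorem exists_abs_card_class_sub_kappa_le :
    ∃ B : ℝ, 0 ≤ B ∧ ∀ (C : ClassGroup (𝓞 K)) (s : ℝ), 1 ≤ s →
      |(Nat.card {I : (Ideal (𝓞 K))⁰ //
          Ideal.absNorm (I : Ideal (𝓞 K)) ≤ s ∧ ClassGroup.mk0 I = C} : ℝ) - kappa K * s|
        ≤ B * s ^ (1 - 1 / (Module.finrank ℚ K : ℝ)) := by
  have hnpos : (0 : ℝ) < (Module.finrank ℚ K : ℝ) := Nat.cast_pos.mpr Module.finrank_pos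
  choose c B hcB using exists_abs_card_class_sub_le K
  have hc : ∀ C, c C = kappa K := fun C =>
    tendsto_nhds_unique (tendsto_div_of_abs_sub_le hnpos (hcB C))
      (NumberField.Ideal.tendsto_norm_le_and_mk_eq_div_atTop K C)
  obtain ⟨M, hM⟩ := Finite.exists_le B
  refine ⟨|M|, abs_nonneg _, fun C s hs => ?_⟩
  have := hcB C s hs
  rw [hc C] at this
  refine this.trans ?_
  gcongr
  exact (hM C).trans (le_abs_self _)

end Fermat.Agent.Lib.CFT.Unram.Count
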