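/-
helper72 (P-CFT, S14 fast track, slice of WP-U2).  Regrouping of the Dirichlet series of a
class group character by ideal classes, and the resulting bound for nontrivial characters.
-/
import Mathlib

set_option autoImplicit false

namespace Fermat.Agent.Lib.CFT.Unram

open NumberField Ideal
open scoped nonZeroDivisors

variable (K : Type*) [Field K] [NumberField K]

/-- The nonzero ideals in the class `C`. -/
abbrev IdealsInClass (C : ClassGroup (𝓞 K)) : Type _ :=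
  {I : (Ideal (𝓞 K))⁰ // ClassGroup.mk0 I = C}

/-- The partial zeta function of the ideal class `C` (real argument). -/
noncomputable def zetaC (s : ℝ) (C : ClassGroup (𝓞 K)) : ℝ :=
  ∑' a : IdealsInClass K C, ((absNorm (a.1 : Ideal (𝓞 K)) : ℝ)) ^ (-s)

/-- The term of the `L`-series of a class group character. -/
noncomputable def charTerm (χ : ClassGroup (𝓞 K) →* ℂˣ) (s : ℝ) (a : (Ideal (𝓞 K))⁰) : ℂ :=
  ((χ (ClassGroup.mk0 a) : ℂˣ) : ℂ) * (((absNorm (a : Ideal (𝓞 K)) : ℝ) ^ (-s) : ℝ) : ℂ)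

variable {K}

/-- Values of a character of a finite group have norm one. -/
theorem norm_char_eq_one {G : Type*} [Group G] [Finite G] (χ : G →* ℂˣ) (g : G) :
    ‖((χ g : ℂˣ) : ℂ)‖ = 1 := by
  have hfin : IsOfFinOrder g := isOfFinOrder_of_finite g
  obtain ⟨n, hn, hg⟩ := hfin.exists_pow_eq_one
  have h1 : ((χ g : ℂˣ) : ℂ) ^ n = 1 := by
    rw [← Units.val_pow_eq_pow_val, ← map_pow, hg, map_one, Units.val_one]
  exact Complex.norm_eq_one_of_pow_eq_one h1 hn.ne'

theorem norm_charTerm (χ : ClassGroup (𝓞 K) →* ℂˣ) (s : ℝ) (a : (Ideal (𝓞 K))⁰) :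
    ‖charTerm K χ s a‖ = ((absNorm (a : Ideal (𝓞 K)) : ℝ)) ^ (-s) := by
  rw [charTerm, norm_mul, norm_char_eq_one, one_mul, Complex.norm_real, Real.norm_eq_abs,
    abs_of_nonneg (Real.rpow_nonneg (Nat.cast_nonneg _) _)]

/-- The decomposition of the nonzero ideals into ideal classes. -/
noncomputable def classFiberEquiv (K : Type*) [Field K] [NumberField K] :
    (Σ C : ClassGroup (𝓞 K), IdealsInClass K C) ≃ (Ideal (𝓞 K))⁰ :=
  Equiv.sigmaFiberEquiv (ClassGroup.mk0 (R := 𝓞 K))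

theorem classFiberEquiv_apply (p : Σ C : ClassGroup (𝓞 K), IdealsInClass K C) :
    classFiberEquiv K p = p.2.1 := rfl

/-- **Regrouping by ideal classes.**  If the partial zeta series of all classes converge at `s`,
then the `L`-series of `χ` converges absolutely and equals `∑_C χ(C) ζ_C(s)`. -/
theorem tsum_char_eq_sum_zetaC (χ : ClassGroup (𝓞 K) →* ℂˣ) (s : ℝ)
    (hsum : ∀ C : ClassGroup (𝓞 K),
      Summable fun a : IdealsInClass K C => ((absNorm (a.1 : Ideal (𝓞 K)) : ℝ)) ^ (-s)) :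
    Summable (charTerm K χ s) ∧
      ∑' a : (Ideal (𝓞 K))⁰, charTerm K χ s a =
        ∑ C : ClassGroup (𝓞 K), ((χ C : ℂˣ) : ℂ) * ((zetaC K s C : ℝ) : ℂ) := by
  -- the terms on a class
  have hterm : ∀ (C : ClassGroup (𝓞 K)) (a : IdealsInClass K C),
      charTerm K χ s (classFiberEquiv K ⟨C, a⟩) =
        ((χ C : ℂˣ) : ℂ) * (((absNorm (a.1 : Ideal (𝓞 K)) : ℝ) ^ (-s) : ℝ) : ℂ) := by
    intro C a
    rw [classFiberEquiv_apply, charTerm, a.2]
  -- summability of the norms over the sigma type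
  have hnorm : Summable fun p : Σ C : ClassGroup (𝓞 K), IdealsInClass K C =>
      ‖charTerm K χ s (classFiberEquiv K p)‖ := by
    rw [summable_sigma_of_nonneg (fun _ => norm_nonneg _)]
    refine ⟨fun C => ?_, Summable.of_finite⟩
    refine (hsum C).congr fun a => ?_
    rw [norm_charTerm, classFiberEquiv_apply]
  have hsigma : Summable fun p : Σ C : ClassGroup (𝓞 K), IdealsInClass K C =>
      charTerm K χ s (classFiberEquiv K p) := Summable.of_norm hnorm
  have hS : Summable (charTerm K χ s) := (classFiberEquiv K).summable_iff.mp hsigma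
  refine ⟨hS, ?_⟩
  have hfib : ∀ C : ClassGroup (𝓞 K), Summable fun a : IdealsInClass K C =>
      charTerm K χ s (classFiberEquiv K ⟨C, a⟩) := fun C => hsigma.sigma_factor C
  rw [← (classFiberEquiv K).tsum_eq (charTerm K χ s), hsigma.tsum_sigma' hfib, tsum_fintype]
  refine Finset.sum_congr rfl fun C _ => ?_
  rw [zetaC, Complex.ofReal_tsum, ← tsum_mul_left]
  exact tsum_congr fun a => hterm C a

theorem charTerm_def (χ : ClassGroup (𝓞 K) →* ℂˣ) (s : ℝ) (a : (Ideal (𝓞 K))⁰) :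
    charTerm K χ s a =
      ((χ (ClassGroup.mk0 a) : ℂˣ) : ℂ) * (((absNorm (a : Ideal (𝓞 K)) : ℝ) ^ (-s) : ℝ) : ℂ) := rfl

/-- The real Dirichlet series over all nonzero ideals is the sum of the partial zeta functions. -/
theorem tsum_absNorm_rpow_eq_sum_zetaC (s : ℝ)
    (hsum : ∀ C : ClassGroup (𝓞 K),
      Summable fun a : IdealsInClass K C => ((absNorm (a.1 : Ideal (𝓞 K)) : ℝ)) ^ (-s)) :
    Summable (fun a : (Ideal (𝓞 K))⁰ => ((absNorm (a : Ideal (𝓞 K)) : ℝ)) ^ (-s)) ∧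
      ∑' a : (Ideal (𝓞 K))⁰, ((absNorm (a : Ideal (𝓞 K)) : ℝ)) ^ (-s) =
        ∑ C : ClassGroup (𝓞 K), zetaC K s C := by
  have hsigma : Summable fun p : Σ C : ClassGroup (𝓞 K), IdealsInClass K C =>
      ((absNorm ((classFiberEquiv K p : (Ideal (𝓞 K))⁰) : Ideal (𝓞 K)) : ℝ)) ^ (-s) := by
    rw [summable_sigma_of_nonneg (fun _ => Real.rpow_nonneg (Nat.cast_nonneg _) _)]
    exact ⟨fun C => hsum C, Summable.of_finite⟩
  have hS : Summable (fun a : (Ideal (𝓞 K))⁰ => ((absNorm (a : Ideal (𝓞 K)) : ℝ)) ^ (-s)) :=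
    (classFiberEquiv K).summable_iff.mp hsigma
  refine ⟨hS, ?_⟩
  rw [← (classFiberEquiv K).tsum_eq
    (fun a : (Ideal (𝓞 K))⁰ => ((absNorm (a : Ideal (𝓞 K)) : ℝ)) ^ (-s)),
    hsigma.tsum_sigma' (fun C => hsum C), tsum_fintype]
  rfl

/-- **Bound for nontrivial characters.**  If all partial zeta functions at `s` are within `B` of a
common value `Z`, then the `L`-series of a nontrivial class group character at `s` is bounded by
`h_K * B`. -/
theorem norm_tsum_char_le (χ : ClassGroup (𝓞 K) →* ℂˣ) (hχ : χ ≠ 1) (s : ℝ)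
    (hsum : ∀ C : ClassGroup (𝓞 K),
      Summable fun a : IdealsInClass K C => ((absNorm (a.1 : Ideal (𝓞 K)) : ℝ)) ^ (-s))
    (Z B : ℝ) (hB : ∀ C : ClassGroup (𝓞 K), |zetaC K s C - Z| ≤ B) :
    ‖∑' a : (Ideal (𝓞 K))⁰, charTerm K χ s a‖ ≤ (classNumber K : ℝ) * B := by
  rw [(tsum_char_eq_sum_zetaC χ s hsum).2]
  have hzero : ∑ C : ClassGroup (𝓞 K), ((χ C : ℂˣ) : ℂ) = 0 := by
    have hne : (Units.coeHom ℂ).comp χ ≠ 1 := by
      intro h
      apply hχ
      ext C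
      have := DFunLike.congr_fun h C
      simpa using this
    simpa using sum_hom_units_eq_zero ((Units.coeHom ℂ).comp χ) hne
  have hrew : ∑ C : ClassGroup (𝓞 K), ((χ C : ℂˣ) : ℂ) * ((zetaC K s C : ℝ) : ℂ) =
      ∑ C : ClassGroup (𝓞 K), ((χ C : ℂˣ) : ℂ) * (((zetaC K s C - Z : ℝ)) : ℂ) := by
    have : ∑ C : ClassGroup (𝓞 K), ((χ C : ℂˣ) : ℂ) * (((zetaC K s C - Z : ℝ)) : ℂ) =
        ∑ C : ClassGroup (𝓞 K), ((χ C : ℂˣ) : ℂ) * ((zetaC K s C : ℝ) : ℂ) -
          (∑ C : ClassGroup (𝓞 K), ((χ C : ℂˣ) : ℂ)) * (Z : ℂ) := by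
      rw [Finset.sum_mul, ← Finset.sum_sub_distrib]
      refine Finset.sum_congr rfl fun C _ => ?_
      push_cast
      ring
    rw [this, hzero, zero_mul, sub_zero]
  rw [hrew]
  calc ‖∑ C : ClassGroup (𝓞 K), ((χ C : ℂˣ) : ℂ) * (((zetaC K s C - Z : ℝ)) : ℂ)‖
      ≤ ∑ C : ClassGroup (𝓞 K), ‖((χ C : ℂˣ) : ℂ) * (((zetaC K s C - Z : ℝ)) : ℂ)‖ :=
        norm_sum_le _ _
    _ ≤ ∑ _C : ClassGroup (𝓞 K), B := by
        refine Finset.sum_le_sum fun C _ => ?_
        rw [norm_mul, norm_char_eq_one, one_mul, Complex.norm_real, Real.norm_eq_abs]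
        exact hB C
    _ = (classNumber K : ℝ) * B := by
        rw [Finset.sum_const, Finset.card_univ, nsmul_eq_mul, classNumber]

end Fermat.Agent.Lib.CFT.Unram
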