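/-
helper68 (P-CFT, S14 fast track, independent backup of WP-U2).
The Dirichlet series of a nontrivial class group character is bounded on `(1, 2]`.
Route: quantitative count of ideals in a class (`IdealCount.lean`) + Abel summation
(`LSeries_eq_mul_integral`).
-/
import Mathlib
import Fermat.Agent.Lib.CFT.Unram.IdealCount
import Fermat.Agent.Lib.CFT.Unram.PartialZetaClasses
import Fermat.Agent.Lib.CFT.Unram.DedekindZetaSum

set_option autoImplicit false

namespace Fermat.Agent.Lib.CFT.Unram.Count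

open NumberField Ideal Filter Topology MeasureTheory Fermat.Agent.Lib.CFT.Unram
open scoped nonZeroDivisors

/-! ### A general bound for Dirichlet series with small partial sums -/

theorem norm_LSeries_le_of_sum_le {g : ℕ → ℂ} {r B s : ℝ} (hr : 0 ≤ r) (hs : r < s)
    (hS : LSeriesSummable g (s : ℂ))
    (hsum : ∀ m : ℕ, 1 ≤ m → ‖∑ k ∈ Finset.Icc 1 m, g k‖ ≤ B * (m : ℝ) ^ r) :
    ‖LSeries g (s : ℂ)‖ ≤ s * (B / (s - r)) := by
  have hs0 : 0 < s := lt_of_le_of_lt hr hs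
  have hB : 0 ≤ B := by
    have := (norm_nonneg _).trans (hsum 1 le_rfl)
    simpa using this
  have hO : (fun n : ℕ ↦ ∑ k ∈ Finset.Icc 1 n, g k) =O[atTop] fun n : ℕ ↦ (n : ℝ) ^ r := by
    refine Asymptotics.IsBigO.of_bound B ?_
    filter_upwards [eventually_ge_atTop 1] with m hm
    rw [Real.norm_eq_abs, abs_of_nonneg (Real.rpow_nonneg (Nat.cast_nonneg _) _)]
    exact hsum m hm
  rw [LSeries_eq_mul_integral g hr (by simpa using hs) hS hO, norm_mul, Complex.norm_real,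
    Real.norm_eq_abs, abs_of_pos hs0]
  gcongr
  have ha : r - s - 1 < -1 := by linarith
  have hint : IntegrableOn (fun t : ℝ => B * t ^ (r - s - 1)) (Set.Ioi 1) :=
    (integrableOn_Ioi_rpow_of_lt ha one_pos).const_mul B
  refine (norm_integral_le_of_norm_le hint ?_).trans_eq ?_
  · refine (ae_restrict_iff' measurableSet_Ioi).mpr (Eventually.of_forall fun t ht => ?_)
    have ht1 : (1 : ℝ) < t := ht
    have ht0 : 0 < t := one_pos.trans ht1
    have hfl : 1 ≤ ⌊t⌋₊ := Nat.le_floor (by exact_mod_cast ht1.le)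
    have hre : (-((s : ℂ) + 1)).re = -(s + 1) := by simp
    rw [norm_mul, Complex.norm_cpow_eq_rpow_re_of_pos ht0, hre]
    calc ‖∑ k ∈ Finset.Icc 1 ⌊t⌋₊, g k‖ * t ^ (-(s + 1))
        ≤ B * (⌊t⌋₊ : ℝ) ^ r * t ^ (-(s + 1)) := by
          gcongr
          exact hsum _ hfl
      _ ≤ B * t ^ r * t ^ (-(s + 1)) := by
          gcongr
          exact Nat.floor_le ht0.le
      _ = B * t ^ (r - s - 1) := by
          rw [mul_assoc, ← Real.rpow_add ht0]
          congr 2
          ring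
  · rw [integral_const_mul, integral_Ioi_rpow_of_lt ha one_pos]
    have h1 : s - r ≠ 0 := (sub_pos.mpr hs).ne'
    have h2 : r - s - 1 + 1 ≠ 0 := by
      have : r - s - 1 + 1 = -(s - r) := by ring
      rw [this]
      exact neg_ne_zero.mpr h1
    rw [Real.one_rpow]
    field_simp
    ring

variable (K : Type*) [Field K] [NumberField K]

/-! ### Coefficients of the partial zeta function of a class -/

/-- The fibre of the norm on the ideals of a class. -/
abbrev ClsFiber (C : ClassGroup (𝓞 K)) (m : ℕ) : Type _ :=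
  {a : IdealsInClass K C // absNorm (a.1 : Ideal (𝓞 K)) = m}

instance finite_clsFiber (C : ClassGroup (𝓞 K)) (m : ℕ) : Finite (ClsFiber K C m) :=
  Finite.of_injective
    (fun a : ClsFiber K C m => (⟨a.1.1, a.2⟩ : NormFiber K m))
    (fun a b h => by
      simp only [Subtype.mk.injEq] at h
      exact Subtype.ext (Subtype.ext h))

/-- Number of ideals of norm `m` in the class `C`. -/
noncomputable def cCoeff (C : ClassGroup (𝓞 K)) (m : ℕ) : ℝ := Nat.card (ClsFiber K C m)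

theorem cCoeff_nonneg (C : ClassGroup (𝓞 K)) (m : ℕ) : 0 ≤ cCoeff K C m := Nat.cast_nonneg _

theorem cCoeff_zero (C : ClassGroup (𝓞 K)) : cCoeff K C 0 = 0 := by
  have : IsEmpty (ClsFiber K C 0) := by
    refine ⟨fun a => ?_⟩
    have h := a.2
    rw [absNorm_eq_zero_iff] at h
    exact nonZeroDivisors.coe_ne_zero a.1.1 h
  simp [cCoeff]

theorem sum_cCoeff (C : ClassGroup (𝓞 K)) (m : ℕ) :
    ∑ k ∈ Finset.Icc 1 m, cCoeff K C k =
      (Nat.card {I : (Ideal (𝓞 K))⁰ //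
        (absNorm (I : Ideal (𝓞 K)) : ℝ) ≤ (m : ℝ) ∧ ClassGroup.mk0 I = C} : ℝ) := by
  unfold cCoeff
  rw [← Nat.cast_sum, ← Finset.card_preimage_eq_sum_card_image_eq
    (f := fun a : IdealsInClass K C => absNorm (a.1 : Ideal (𝓞 K))) (fun k _ => Set.finite_coe_iff.mp (finite_clsFiber K C k))]
  congr 1
  refine Nat.card_congr ?_
  exact
    { toFun := fun a => ⟨a.1.1, by
        have h := a.2
        simp only [Set.mem_preimage, Finset.coe_Icc, Set.mem_Icc] at h
        exact_mod_cast h.2, a.1.2⟩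
      invFun := fun I => ⟨⟨I.1, I.2.2⟩, by
        simp only [Set.mem_preimage, Finset.coe_Icc, Set.mem_Icc]
        exact ⟨Nat.succ_le_of_lt (absNorm_pos_of_nonZeroDivisors I.1), by exact_mod_cast I.2.1⟩⟩
      left_inv := fun _ => rfl
      right_inv := fun _ => rfl }

/-- The real-valued terms of the partial zeta function. -/
noncomputable def cTerm (C : ClassGroup (𝓞 K)) (s : ℝ) (m : ℕ) : ℝ :=
  if m = 0 then 0 else cCoeff K C m * (m : ℝ) ^ (-s)

theorem term_cCoeff_eq (C : ClassGroup (𝓞 K)) (s : ℝ) (m : ℕ) :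
    LSeries.term (fun m => (cCoeff K C m : ℂ)) (s : ℂ) m = ((cTerm K C s m : ℝ) : ℂ) := by
  unfold cTerm
  by_cases hm : m = 0
  · simp [hm]
  · rw [LSeries.term_of_ne_zero hm, if_neg hm, Real.rpow_neg (Nat.cast_nonneg m)]
    push_cast
    rw [Complex.ofReal_cpow (Nat.cast_nonneg m)]
    simp [div_eq_mul_inv]

/-- The decomposition of the ideals of a class along the norm. -/
noncomputable def sigmaClsEquiv (C : ClassGroup (𝓞 K)) :
    (Σ m : ℕ, ClsFiber K C m) ≃ IdealsInClass K C :=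
  Equiv.sigmaFiberEquiv (fun a : IdealsInClass K C => absNorm (a.1 : Ideal (𝓞 K)))

theorem tsum_clsFiber (C : ClassGroup (𝓞 K)) (s : ℝ) (m : ℕ) :
    ∑' a : ClsFiber K C m, ((absNorm (a.1.1 : Ideal (𝓞 K)) : ℕ) : ℝ) ^ (-s) = cTerm K C s m := by
  have h : ∀ a : ClsFiber K C m,
      ((absNorm (a.1.1 : Ideal (𝓞 K)) : ℕ) : ℝ) ^ (-s) = (m : ℝ) ^ (-s) := fun a => by rw [a.2]
  rw [tsum_congr h, tsum_const, nsmul_eq_mul]
  unfold cTerm
  by_cases hm : m = 0
  · subst hm
    have := cCoeff_zero K C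
    unfold cCoeff at this
    rw [if_pos rfl, this, zero_mul]
  · rw [if_neg hm]
    rfl

theorem summable_class {s : ℝ} (hs : 1 < s) (C : ClassGroup (𝓞 K)) :
    Summable fun a : IdealsInClass K C => ((absNorm (a.1 : Ideal (𝓞 K)) : ℝ)) ^ (-s) :=
  (summable_absNorm_rpow K hs).comp_injective Subtype.val_injective

theorem summable_sigmaCls {s : ℝ} (hs : 1 < s) (C : ClassGroup (𝓞 K)) :
    Summable fun x : Σ m : ℕ, ClsFiber K C m =>
      ((absNorm (x.2.1.1 : Ideal (𝓞 K)) : ℕ) : ℝ) ^ (-s) :=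
  (sigmaClsEquiv K C).summable_iff.mpr (summable_class K hs C)

theorem summable_cTerm {s : ℝ} (hs : 1 < s) (C : ClassGroup (𝓞 K)) :
    Summable (cTerm K C s) := by
  have h := (summable_sigmaCls K hs C).sigma
  refine h.congr fun m => ?_
  exact tsum_clsFiber K C s m

theorem zetaC_eq_tsum_cTerm {s : ℝ} (hs : 1 < s) (C : ClassGroup (𝓞 K)) :
    zetaC K s C = ∑' m, cTerm K C s m := by
  unfold zetaC
  calc ∑' a : IdealsInClass K C, ((absNorm (a.1 : Ideal (𝓞 K)) : ℝ)) ^ (-s)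
      = ∑' x : Σ m : ℕ, ClsFiber K C m, ((absNorm (x.2.1.1 : Ideal (𝓞 K)) : ℕ) : ℝ) ^ (-s) :=
        ((sigmaClsEquiv K C).tsum_eq
          (fun a : IdealsInClass K C => ((absNorm (a.1 : Ideal (𝓞 K)) : ℝ)) ^ (-s))).symm
    _ = ∑' m, ∑' a : ClsFiber K C m, ((absNorm (a.1.1 : Ideal (𝓞 K)) : ℕ) : ℝ) ^ (-s) :=
        (summable_sigmaCls K hs C).tsum_sigma
    _ = ∑' m, cTerm K C s m := tsum_congr fun m => tsum_clsFiber K C s m

theorem lSeriesSummable_cCoeff {s : ℝ} (hs : 1 < s) (C : ClassGroup (𝓞 K)) :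
    LSeriesSummable (fun m => (cCoeff K C m : ℂ)) (s : ℂ) := by
  unfold LSeriesSummable
  rw [show LSeries.term (fun m => (cCoeff K C m : ℂ)) (s : ℂ) = fun m => ((cTerm K C s m : ℝ) : ℂ)
    from funext (term_cCoeff_eq K C s)]
  exact Complex.summable_ofReal.mpr (summable_cTerm K hs C)

theorem LSeries_cCoeff_eq {s : ℝ} (hs : 1 < s) (C : ClassGroup (𝓞 K)) :
    LSeries (fun m => (cCoeff K C m : ℂ)) (s : ℂ) = ((zetaC K s C : ℝ) : ℂ) := by
  rw [zetaC_eq_tsum_cTerm K hs, LSeries, Complex.ofReal_tsum]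
  exact tsum_congr (term_cCoeff_eq K C s)

/-! ### The main bound -/

/-- The partial zeta functions of two classes differ by a bounded amount on `(1, 2]`. -/
theorem exists_abs_zetaC_sub_le :
    ∃ B : ℝ, ∀ (C C' : ClassGroup (𝓞 K)) (s : ℝ), 1 < s → s ≤ 2 →
      |zetaC K s C - zetaC K s C'| ≤ B := by
  obtain ⟨B₀, hB₀, hcount⟩ := exists_abs_card_class_sub_kappa_le K
  set n : ℝ := (Module.finrank ℚ K : ℝ) with hn
  have hn1 : (1 : ℝ) ≤ n := by
    rw [hn]
    exact_mod_cast Nat.succ_le_of_lt (Module.finrank_pos (R := ℚ) (M := K))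
  have hn0 : 0 < n := lt_of_lt_of_le one_pos hn1
  set r : ℝ := 1 - 1 / n with hr
  have hr0 : 0 ≤ r := by
    rw [hr, sub_nonneg, div_le_one hn0]
    exact hn1
  have hr1 : r < 1 := by
    rw [hr]
    have : 0 < 1 / n := one_div_pos.mpr hn0
    linarith
  refine ⟨2 * (2 * B₀ * n), fun C C' s hs1 hs2 => ?_⟩
  set g : ℕ → ℂ := (fun m => (cCoeff K C m : ℂ)) - (fun m => (cCoeff K C' m : ℂ)) with hg
  have hS : LSeriesSummable g (s : ℂ) :=
    (lSeriesSummable_cCoeff K hs1 C).sub (lSeriesSummable_cCoeff K hs1 C')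
  have hsum : ∀ m : ℕ, 1 ≤ m → ‖∑ k ∈ Finset.Icc 1 m, g k‖ ≤ 2 * B₀ * (m : ℝ) ^ r := by
    intro m hm
    have hm1 : (1 : ℝ) ≤ (m : ℝ) := by exact_mod_cast hm
    have h1 := hcount C m hm1
    have h2 := hcount C' m hm1
    have : ∑ k ∈ Finset.Icc 1 m, g k =
        ((∑ k ∈ Finset.Icc 1 m, cCoeff K C k - ∑ k ∈ Finset.Icc 1 m, cCoeff K C' k : ℝ) : ℂ) := by
      rw [hg]
      simp only [Pi.sub_apply, Finset.sum_sub_distrib]
      push_cast
      rfl
    rw [this, Complex.norm_real, Real.norm_eq_abs, sum_cCoeff, sum_cCoeff]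
    calc _ ≤ _ := abs_sub_le _ (kappa K * (m : ℝ)) _
      _ ≤ B₀ * (m : ℝ) ^ r + B₀ * (m : ℝ) ^ r := by
          refine add_le_add h1 ?_
          rw [abs_sub_comm]
          exact h2
      _ = 2 * B₀ * (m : ℝ) ^ r := by ring
  have hmain := norm_LSeries_le_of_sum_le hr0 (hr1.trans hs1) hS hsum
  rw [hg, LSeries_sub (lSeriesSummable_cCoeff K hs1 C) (lSeriesSummable_cCoeff K hs1 C'),
    LSeries_cCoeff_eq K hs1, LSeries_cCoeff_eq K hs1, ← Complex.ofReal_sub, Complex.norm_real,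
    Real.norm_eq_abs] at hmain
  refine hmain.trans ?_
  have hsr : 1 / n ≤ s - r := by
    rw [hr]
    linarith
  have hsr0 : 0 < s - r := lt_of_lt_of_le (one_div_pos.mpr hn0) hsr
  have h3 : 2 * B₀ / (s - r) ≤ 2 * B₀ * n := by
    rw [div_le_iff₀ hsr0]
    have : 1 ≤ n * (s - r) := by
      have := mul_le_mul_of_nonneg_left hsr hn0.le
      rwa [mul_one_div_cancel hn0.ne'] at this
    nlinarith
  have h4 : 0 ≤ 2 * B₀ * n := by positivity
  calc s * (2 * B₀ / (s - r)) ≤ 2 * (2 * B₀ * n) := by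
        apply mul_le_mul hs2 h3 _ (by norm_num)
        exact div_nonneg (by positivity) hsr0.le

/-- **(PZ): boundedness of the `L`-series of nontrivial class group characters on `(1, 2]`.** -/
theorem exists_norm_tsum_char_le :
    ∃ B : ℝ, ∀ χ : ClassGroup (𝓞 K) →* ℂˣ, χ ≠ 1 → ∀ s : ℝ, 1 < s → s ≤ 2 →
      ‖∑' a : (Ideal (𝓞 K))⁰, ((χ (ClassGroup.mk0 a) : ℂˣ) : ℂ) *
        (((absNorm (a : Ideal (𝓞 K)) : ℝ) ^ (-s) : ℝ) : ℂ)‖ ≤ B := by
  obtain ⟨B, hB⟩ := exists_abs_zetaC_sub_le K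
  refine ⟨(classNumber K : ℝ) * B, fun χ hχ s hs1 hs2 => ?_⟩
  exact norm_tsum_char_le χ hχ s (summable_class K hs1) (zetaC K s 1) B
    (fun C => hB C 1 s hs1 hs2)

/-- Summability of the `L`-series of a class group character for real `s > 1`. -/
theorem summable_char {s : ℝ} (hs : 1 < s) (χ : ClassGroup (𝓞 K) →* ℂˣ) :
    Summable fun a : (Ideal (𝓞 K))⁰ => ((χ (ClassGroup.mk0 a) : ℂˣ) : ℂ) *
        (((absNorm (a : Ideal (𝓞 K)) : ℝ) ^ (-s) : ℝ) : ℂ) :=
  (tsum_char_eq_sum_zetaC χ s (summable_class K hs)).1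

end Fermat.Agent.Lib.CFT.Unram.Count
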