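/-
helper57 (P-CFT, S14 fast track).  The (CYC) statement: explicit reciprocity for an everywhere
unramified extension of prime degree contained in a cyclotomic extension, deduced from
`CycloFrob.lean` (WP-A2), norm surjectivity modulo `m` (WP-A3) and the fact that Artin maps kill
norms (WP-A1).
-/
import Mathlib
import Fermat.Agent.Lib.CFT.Unram.CrossingDefs
import Fermat.Agent.Lib.CFT.Unram.CycloFrob

set_option autoImplicit false

namespace Fermat.Agent.Lib.CFT.Unram

open NumberField
open scoped nonZeroDivisors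

/-- (CYC): explicit reciprocity inside cyclotomic extensions. -/
theorem cycloReciprocity (p : ℕ) (hp : p.Prime) (hN : NormSurjMod p)
    (hK : ArtinMapKillsNorms) : CycloReciprocity p := by
  intro F E M _ _ _ _ _ _ _ _ _ _ _ m _ _ hTC hdeg hur φ hφ x hx hcop
  have : IsGalois F M := IsCyclotomicExtension.isGalois {m} F M
  have : IsTotallyComplex F := hTC
  have hζ : IsPrimitiveRoot (IsCyclotomicExtension.zeta m F M) m :=
    IsCyclotomicExtension.zeta_spec m F M
  obtain ⟨y, hy0, hy⟩ := hN F E hp hdeg hur m (NeZero.ne m) x hcop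
  set z : 𝓞 F := Algebra.intNorm (𝓞 F) (𝓞 E) y * x with hz
  have hn0 : Algebra.intNorm (𝓞 F) (𝓞 E) y ≠ 0 := by
    rwa [Ne, Algebra.intNorm_eq_zero]
  have hz0 : z ≠ 0 := mul_ne_zero hn0 hx
  -- the ideal generated by `y`
  have hyI : Ideal.span {y} ∈ (Ideal (𝓞 E))⁰ := mem_nonZeroDivisors_iff_ne_zero.mpr (by
    rwa [Ne, Ideal.zero_eq_bot, Ideal.span_singleton_eq_bot])
  have hprod : span0 z hz0 = relNorm0 F E ⟨Ideal.span {y}, hyI⟩ * span0 x hx := by
    apply Subtype.ext
    rw [Submonoid.coe_mul, coe_relNorm0, coe_span0, coe_span0, Ideal.relNorm_singleton, hz,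
      Ideal.span_singleton_mul_span_singleton]
  have h1 : φ (span0 z hz0) = 1 :=
    CycloFrob.artinMap_span_singleton_eq_one hζ hφ hur (span0 z hz0) (coe_span0 z hz0) hy
  rw [hprod, map_mul, hK F E φ hφ hur, one_mul] at h1
  exact h1

end Fermat.Agent.Lib.CFT.Unram
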