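/-
helper91 (P-CFT, S14 fast track, WP-L).  The abstract index inequality behind the lower bound
`[I_K : P_K N(I_L)] ≥ p`: two "hexagons" for `0 → E → B → P → 0` and `0 → P → I → Cl → 0`
written with the concrete indices of `Fermat.Agent.Lib.CFT.Herbrand`.
-/
import Fermat.Agent.Lib.CFT.HerbrandIso

set_option autoImplicit false

namespace Fermat.Agent.Lib.CFT.Unram

open Fermat.Agent.Lib.CFT.Herbrand

section General

variable {I : Type*} [AddCommGroup I]

/-- The precise form of `defect_dvd_quotIndex`. -/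
theorem quotIndex_eq_mul_defect {f g : I →+ I} {A : AddSubgroup I}
    (hfA : ∀ a ∈ A, f a ∈ A) (hfg : ∀ x, f (g x) = 0) :
    quotIndex f g A = (g.range ⊔ A).relIndex (f.ker ⊔ A) * defect f A := by
  have hIK : g.range ≤ f.ker := by
    rintro _ ⟨x, rfl⟩
    exact hfg x
  have hAcomap : A ≤ A.comap f := fun a ha => hfA a ha
  have hKcomap : f.ker ≤ A.comap f := fun x hx => by
    have : f x = 0 := hx
    simp [AddSubgroup.mem_comap, this, A.zero_mem]
  rw [defect_eq]
  unfold quotIndex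
  rw [AddSubgroup.relIndex_mul_relIndex _ _ _ (sup_le_sup_right hIK A)
      (sup_le hKcomap hAcomap)]

/-- The modular law in the form we need. -/
theorem sup_inf_eq_of_le {X Q R : AddSubgroup I} (hXR : X ≤ R) :
    (X ⊔ Q) ⊓ R = X ⊔ (Q ⊓ R) := by
  rw [sup_inf_assoc_of_le Q hXR]

/-- `[R ⊔ Q : X ⊔ Q] = [R : X ⊔ (Q ⊓ R)]` when `X ≤ R`. -/
theorem relIndex_sup_sup_eq {X Q R : AddSubgroup I} (hXR : X ≤ R) :
    (X ⊔ Q).relIndex (R ⊔ Q) = (X ⊔ (Q ⊓ R)).relIndex R := by
  have h1 : R ⊔ Q = R ⊔ (X ⊔ Q) := by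
    rw [← sup_assoc, sup_eq_left.mpr hXR]
  rw [h1, AddSubgroup.relIndex_sup_right, ← AddSubgroup.inf_relIndex_right, sup_inf_eq_of_le hXR]


/-- Second hexagon: for a stable subgroup `P` of `I` with finite quotient and `H¹(I) = 0`,
`[P ∩ im N : N P] = [ker D + P : im N + P] * [P ∩ ker N : D P]`. -/
theorem defect_eq_mul_of_finite_quotient {DI NI : I →+ I} {P : AddSubgroup I}
    (hDN : ∀ x, DI (NI x) = 0) (hND : ∀ x, NI (DI x) = 0)
    (hDP : ∀ a ∈ P, DI a ∈ P) (hNP : ∀ a ∈ P, NI a ∈ P)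
    (h1I : NI.ker ≤ DI.range) [Finite (I ⧸ P)]
    (h1P : subIndex NI DI P ≠ 0) :
    defect NI P = (NI.range ⊔ P).relIndex (DI.ker ⊔ P) * subIndex NI DI P ∧ defect NI P ≠ 0 := by
  have hrange : DI.range = NI.ker := by
    apply le_antisymm
    · rintro _ ⟨x, rfl⟩
      exact hND x
    · exact h1I
  have hdef : defect DI P = subIndex NI DI P := by
    unfold defect subIndex
    rw [hrange]
  have E1 := hIndex_mul_of_stable (f := NI) (g := DI) (A := P) hND hNP hDP
  have hone : hIndex NI DI = 1 := by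
    unfold hIndex
    rw [AddSubgroup.relIndex_eq_one]
    exact h1I
  rw [hone, one_mul, hdef] at E1
  have E2 := quotIndex_eq_mul_defect (f := DI) (g := NI) (A := P) hDP hDN
  rw [hdef] at E2
  -- finiteness of the quotient
  have hq := hIndex_eq_of_finite (quotEnd DI P hDP) (quotEnd NI P hNP)
    (quotEnd_comp_zero hDN P hDP hNP) (quotEnd_comp_zero hND P hNP hDP)
  have k0 : quotIndex DI NI P = hIndex (quotEnd DI P hDP) (quotEnd NI P hNP) := by
    have := quotIndex_ker (fB := DI) (gB := NI) (fC := quotEnd DI P hDP) (gC := quotEnd NI P hNP)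
      (p := QuotientAddGroup.mk' P) (QuotientAddGroup.mk'_surjective P)
      (fun b => rfl) (fun b => rfl)
    rwa [QuotientAddGroup.ker_mk'] at this
  have k1 : quotIndex NI DI P = hIndex (quotEnd NI P hNP) (quotEnd DI P hDP) := by
    have := quotIndex_ker (fB := NI) (gB := DI) (fC := quotEnd NI P hNP) (gC := quotEnd DI P hDP)
      (p := QuotientAddGroup.mk' P) (QuotientAddGroup.mk'_surjective P)
      (fun b => rfl) (fun b => rfl)
    rwa [QuotientAddGroup.ker_mk'] at this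
  have hq01 : quotIndex DI NI P = quotIndex NI DI P := by rw [k0, k1, hq.1]
  have hq0 : quotIndex DI NI P ≠ 0 := by rw [k0]; exact hq.2
  have hk : defect NI P = quotIndex NI DI P := by
    have : defect NI P * subIndex NI DI P = quotIndex NI DI P * subIndex NI DI P := by
      rw [E1, mul_comm]
    exact Nat.eq_of_mul_eq_mul_right (Nat.pos_of_ne_zero h1P) this
  constructor
  · rw [hk, ← hq01, E2]
  · rw [hk, ← hq01]
    exact hq0

end General

section Bound

variable {B I : Type*} [AddCommGroup B] [AddCommGroup I]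
variable {DB NB : B →+ B} {DI NI : I →+ I} {φ : B →+ I}

/-- First hexagon, `H¹(E)` side: `[P ∩ ker D_I : φ(ker D_B)] = [E ∩ ker N_B : D_B E]`
(uses Hilbert 90 for `B`). -/
theorem relIndex_invariants_eq
    (hND : ∀ x, NB (DB x) = 0)
    (hD : ∀ x, φ (DB x) = DI (φ x))
    (h90 : NB.ker ≤ DB.range) :
    (DB.ker.map φ).relIndex (φ.range ⊓ DI.ker) = subIndex NB DB φ.ker := by
  have hEst : φ.ker ≤ φ.ker.comap DB := by
    intro e he
    have he' : φ e = 0 := he
    show φ (DB e) = 0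
    rw [hD, he', map_zero]
  have e1 : φ.range ⊓ DI.ker = (φ.ker.comap DB).map φ := by
    ext x
    constructor
    · rintro ⟨⟨b, rfl⟩, hx⟩
      refine ⟨b, ?_, rfl⟩
      have hx' : DI (φ b) = 0 := hx
      show φ (DB b) = 0
      rw [hD, hx']
    · rintro ⟨b, hb, rfl⟩
      refine ⟨⟨b, rfl⟩, ?_⟩
      have hb' : φ (DB b) = 0 := hb
      show DI (φ b) = 0
      rw [← hD, hb']
  have hrange : DB.range = NB.ker := by
    apply le_antisymm
    · rintro _ ⟨x, rfl⟩
      exact hND x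
    · exact h90
  rw [e1, AddSubgroup.relIndex_map_map, sup_eq_left.mpr hEst]
  unfold subIndex
  rw [← hrange, ← defect, defect_eq]

/-- First hexagon, `H¹(P)` side: `[P ∩ ker N_I : D_I P]` divides `[E ∩ ker D_B : N_B E]`
(uses Hilbert 90 for `B`). -/
theorem subIndex_range_dvd
    (hND : ∀ x, NB (DB x) = 0) (hDN : ∀ x, DB (NB x) = 0)
    (hD : ∀ x, φ (DB x) = DI (φ x)) (hN : ∀ x, φ (NB x) = NI (φ x))
    (h90 : NB.ker ≤ DB.range) :
    subIndex NI DI φ.range ∣ subIndex DB NB φ.ker := by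
  have hEst : φ.ker ≤ φ.ker.comap NB := by
    intro e he
    have he' : φ e = 0 := he
    show φ (NB e) = 0
    rw [hN, he', map_zero]
  have e1 : φ.range ⊓ NI.ker = (φ.ker.comap NB).map φ := by
    ext x
    constructor
    · rintro ⟨⟨b, rfl⟩, hx⟩
      refine ⟨b, ?_, rfl⟩
      have hx' : NI (φ b) = 0 := hx
      show φ (NB b) = 0
      rw [hN, hx']
    · rintro ⟨b, hb, rfl⟩
      refine ⟨⟨b, rfl⟩, ?_⟩
      have hb' : φ (NB b) = 0 := hb
      show NI (φ b) = 0
      rw [← hN, hb']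
  have e2 : φ.range.map DI = DB.range.map φ := by
    rw [AddMonoidHom.map_range, AddMonoidHom.map_range]
    congr 1
    ext b
    simp [hD]
  have hrange : DB.range = NB.ker := by
    apply le_antisymm
    · rintro _ ⟨x, rfl⟩
      exact hND x
    · exact h90
  have hNrange : NB.range ≤ DB.ker := by
    rintro _ ⟨x, rfl⟩
    exact hDN x
  have key : subIndex NI DI φ.range = defect NB φ.ker := by
    unfold subIndex
    rw [e1, e2, AddSubgroup.relIndex_map_map, sup_eq_left.mpr hEst, hrange, defect_eq]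
  rw [key]
  unfold defect subIndex
  rw [← AddSubgroup.relIndex_mul_relIndex (φ.ker.map NB) (φ.ker ⊓ NB.range) (φ.ker ⊓ DB.ker)
    ?_ (inf_le_inf_left _ hNrange)]
  · exact dvd_mul_right _ _
  · rintro _ ⟨e, he, rfl⟩
    exact ⟨hEst he, ⟨e, rfl⟩⟩


/-- **The abstract lower bound.**  `B` (think `L^×`) and `I` (think ideals of `L`) are abelian
groups with endomorphisms `D = σ - 1`, `N = norm`; `φ : B → I` is equivariant with kernel `E`
(units) and finite cokernel (class group).  If `H¹(B) = 0` (Hilbert 90) and `H¹(I) = 0`, then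
`|H¹(E)| ≤ [I^G : N(I) + φ(B^G)] * |Ĥ⁰(E)|`. -/
theorem subIndex_le_mul
    (hDNB : ∀ x, DB (NB x) = 0) (hNDB : ∀ x, NB (DB x) = 0)
    (hDNI : ∀ x, DI (NI x) = 0) (hNDI : ∀ x, NI (DI x) = 0)
    (hD : ∀ x, φ (DB x) = DI (φ x)) (hN : ∀ x, φ (NB x) = NI (φ x))
    (h90 : NB.ker ≤ DB.range) (h1I : NI.ker ≤ DI.range)
    [Finite (I ⧸ φ.range)]
    (h0E : subIndex DB NB φ.ker ≠ 0) :
    subIndex NB DB φ.ker ≤
      (NI.range ⊔ DB.ker.map φ).relIndex DI.ker * subIndex DB NB φ.ker := by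
  set P : AddSubgroup I := φ.range with hP
  set P0 : AddSubgroup I := DB.ker.map φ with hP0
  set Q : AddSubgroup I := P ⊓ DI.ker with hQ
  have hDP : ∀ a ∈ P, DI a ∈ P := by
    rintro _ ⟨b, rfl⟩
    exact ⟨DB b, hD b⟩
  have hNP : ∀ a ∈ P, NI a ∈ P := by
    rintro _ ⟨b, rfl⟩
    exact ⟨NB b, hN b⟩
  have hNrange : NI.range ≤ DI.ker := by
    rintro _ ⟨x, rfl⟩
    exact hDNI x
  have hP0Q : P0 ≤ Q := by
    rintro _ ⟨b, hb, rfl⟩
    refine ⟨⟨b, rfl⟩, ?_⟩
    have hb' : DB b = 0 := hb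
    show DI (φ b) = 0
    rw [← hD, hb', map_zero]
  have hQker : Q ≤ DI.ker := inf_le_right
  -- first hexagon
  have hce : P0.relIndex Q = subIndex NB DB φ.ker := relIndex_invariants_eq hNDB hD h90
  have hdvd : subIndex NI DI P ∣ subIndex DB NB φ.ker := subIndex_range_dvd hNDB hDNB hD hN h90
  have h1P : subIndex NI DI P ≠ 0 := fun h => h0E (by rw [h] at hdvd; exact zero_dvd_iff.mp hdvd)
  have h1Ple : subIndex NI DI P ≤ subIndex DB NB φ.ker :=
    Nat.le_of_dvd (Nat.pos_of_ne_zero h0E) hdvd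
  -- second hexagon
  obtain ⟨hk, hk0⟩ := defect_eq_mul_of_finite_quotient hDNI hNDI hDP hNP h1I h1P
  -- the index `Y`
  have hY : (NI.range ⊔ P0).relIndex DI.ker =
      (NI.range ⊔ P0).relIndex (NI.range ⊔ Q) * (NI.range ⊔ P).relIndex (DI.ker ⊔ P) := by
    rw [relIndex_sup_sup_eq (X := NI.range) (Q := P) (R := DI.ker) hNrange]
    rw [AddSubgroup.relIndex_mul_relIndex _ _ _ (sup_le_sup_left hP0Q _) (sup_le hNrange hQker)]
  -- the factor `W`
  set T : AddSubgroup I := NI.range ⊓ Q with hT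
  have hW : (NI.range ⊔ P0).relIndex (NI.range ⊔ Q) = (P0 ⊔ T).relIndex Q := by
    rw [sup_comm NI.range P0, sup_comm NI.range Q]
    exact relIndex_sup_sup_eq (X := P0) (Q := NI.range) (R := Q) hP0Q
  have hTeq : T = P ⊓ NI.range := by
    rw [hT, hQ, inf_comm, inf_assoc, inf_eq_right.mpr hNrange]
  have hce2 : P0.relIndex Q = P0.relIndex T * (P0 ⊔ T).relIndex Q := by
    rw [← AddSubgroup.relIndex_mul_relIndex P0 (P0 ⊔ T) Q le_sup_left
      (sup_le hP0Q (inf_le_right)), AddSubgroup.relIndex_sup_left]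
  have hmdvd : P0.relIndex T ∣ defect NI P := by
    have hle : P.map NI ≤ P0 ⊓ T := by
      rintro _ ⟨_, ⟨b, rfl⟩, rfl⟩
      have h1 : NI (φ b) = φ (NB b) := (hN b).symm
      have hmem : φ (NB b) ∈ P0 := ⟨NB b, hDNB b, rfl⟩
      refine ⟨by rw [h1]; exact hmem, ⟨φ b, rfl⟩, ?_⟩
      rw [h1]
      exact hP0Q hmem
    unfold defect
    rw [← hTeq, ← AddSubgroup.relIndex_mul_relIndex (P.map NI) (P0 ⊓ T) T hle inf_le_right,
      AddSubgroup.inf_relIndex_right]
    exact dvd_mul_left _ _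
  have hmle : P0.relIndex T ≤ defect NI P := Nat.le_of_dvd (Nat.pos_of_ne_zero hk0) hmdvd
  calc subIndex NB DB φ.ker = P0.relIndex T * (P0 ⊔ T).relIndex Q := by rw [← hce, hce2]
    _ ≤ defect NI P * (P0 ⊔ T).relIndex Q := Nat.mul_le_mul_right _ hmle
    _ = (NI.range ⊔ P0).relIndex DI.ker * subIndex NI DI P := by
        rw [hk, hY, hW]; ring
    _ ≤ (NI.range ⊔ P0).relIndex DI.ker * subIndex DB NB φ.ker := Nat.mul_le_mul_left _ h1Ple

end Bound

end Fermat.Agent.Lib.CFT.Unram
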