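/-
helper91 (P-CFT, S14 fast track, WP-L).  The Galois action on the group of invertible fractional
ideals of a number field, and the extension map from the base field.
-/
import Mathlib
import Fermat.Agent.Lib.CFT.Unram.Defs

set_option autoImplicit false
set_option linter.unusedSectionVars false

namespace Fermat.Agent.Lib.CFT.Unram

open NumberField FractionalIdeal
open scoped nonZeroDivisors Pointwise

section Action

variable (K L : Type*) [Field K] [Field L] [NumberField L] [Algebra K L]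

/-- The ring endomorphism of `𝓞 L` induced by `σ`. -/
noncomputable def ringOfIntegersHom (σ : Gal(L/K)) : 𝓞 L →+* 𝓞 L :=
  MulSemiringAction.toRingHom Gal(L/K) (𝓞 L) σ

variable {K L}

@[simp] lemma ringOfIntegersHom_apply (σ : Gal(L/K)) (x : 𝓞 L) :
    ((ringOfIntegersHom K L σ x : 𝓞 L) : L) = σ (x : L) := rfl

lemma ringOfIntegersHom_apply' (σ : Gal(L/K)) (x : 𝓞 L) :
    ringOfIntegersHom K L σ x = σ • x := rfl

lemma ringOfIntegersHom_injective (σ : Gal(L/K)) :
    Function.Injective (ringOfIntegersHom K L σ) := by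
  intro x y h
  have := congrArg (fun z : 𝓞 L => (z : L)) h
  simp only [ringOfIntegersHom_apply] at this
  exact RingOfIntegers.ext (σ.injective this)

lemma le_comap_ringOfIntegersHom (σ : Gal(L/K)) :
    (𝓞 L)⁰ ≤ Submonoid.comap (ringOfIntegersHom K L σ) (𝓞 L)⁰ :=
  nonZeroDivisors_le_comap_nonZeroDivisors_of_injective _ (ringOfIntegersHom_injective σ)

lemma isLocalization_map_ringOfIntegersHom (σ : Gal(L/K)) (x : L) :
    IsLocalization.map (S := L) L (ringOfIntegersHom K L σ) (le_comap_ringOfIntegersHom σ) x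
      = σ x := by
  obtain ⟨a, b, hb, rfl⟩ := IsFractionRing.div_surjective (A := 𝓞 L) x
  rw [map_div₀, map_div₀, IsLocalization.map_eq, IsLocalization.map_eq]
  rfl

variable (K L)

/-- The action of `σ` on fractional ideals, as a ring homomorphism. -/
noncomputable def fracIdealHom (σ : Gal(L/K)) :
    FractionalIdeal (𝓞 L)⁰ L →+* FractionalIdeal (𝓞 L)⁰ L :=
  FractionalIdeal.extendedHom' (A := 𝓞 L) (B := 𝓞 L) (K := L) L (le_comap_ringOfIntegersHom σ)

variable {K L}

lemma mem_fracIdealHom_iff (σ : Gal(L/K)) (I : FractionalIdeal (𝓞 L)⁰ L) (x : L) :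
    x ∈ fracIdealHom K L σ I ↔ σ.symm x ∈ I := by
  unfold fracIdealHom
  rw [extendedHom'_apply, mem_extended_iff]
  constructor
  · intro hx
    rw [← FractionalIdeal.mem_coe]
    refine Submodule.span_induction ?_ ?_ ?_ ?_ hx
    · rintro _ ⟨y, hy, rfl⟩
      rw [isLocalization_map_ringOfIntegersHom, AlgEquiv.symm_apply_apply]
      exact hy
    · rw [map_zero]
      exact Submodule.zero_mem _
    · intro a b _ _ ha hb
      rw [map_add]
      exact Submodule.add_mem _ ha hb
    · intro b a _ ha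
      rw [Algebra.smul_def, map_mul]
      have : σ.symm (algebraMap (𝓞 L) L b) = algebraMap (𝓞 L) L (σ.symm • b) := rfl
      rw [this, ← Algebra.smul_def]
      exact Submodule.smul_mem _ _ ha
  · intro hx
    refine Submodule.subset_span ⟨σ.symm x, hx, ?_⟩
    rw [isLocalization_map_ringOfIntegersHom, AlgEquiv.apply_symm_apply]

lemma fracIdealHom_one (I : FractionalIdeal (𝓞 L)⁰ L) : fracIdealHom K L 1 I = I := by
  ext x
  rw [mem_fracIdealHom_iff]
  rfl

lemma fracIdealHom_mul (σ τ : Gal(L/K)) (I : FractionalIdeal (𝓞 L)⁰ L) :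
    fracIdealHom K L (σ * τ) I = fracIdealHom K L σ (fracIdealHom K L τ I) := by
  ext x
  rw [mem_fracIdealHom_iff, mem_fracIdealHom_iff, mem_fracIdealHom_iff]
  rfl

lemma fracIdealHom_spanSingleton (σ : Gal(L/K)) (x : L) :
    fracIdealHom K L σ (spanSingleton (𝓞 L)⁰ x) = spanSingleton (𝓞 L)⁰ (σ x) := by
  unfold fracIdealHom
  rw [extendedHom'_apply, extended_spanSingleton, isLocalization_map_ringOfIntegersHom]

lemma fracIdealHom_coeIdeal (σ : Gal(L/K)) (𝔄 : Ideal (𝓞 L)) :
    fracIdealHom K L σ (𝔄 : FractionalIdeal (𝓞 L)⁰ L) =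
      ((σ • 𝔄 : Ideal (𝓞 L)) : FractionalIdeal (𝓞 L)⁰ L) := by
  unfold fracIdealHom
  rw [extendedHom'_apply, extended_coeIdeal_eq_map]
  rfl

/-- The action of `Gal(L/K)` on the group of invertible fractional ideals of `L`. -/
@[reducible] noncomputable def idealMulDistribMulAction :
    MulDistribMulAction Gal(L/K) (FractionalIdeal (𝓞 L)⁰ L)ˣ where
  smul σ J := Units.map (fracIdealHom K L σ).toMonoidHom J
  one_smul J := by
    apply Units.ext
    exact fracIdealHom_one _
  mul_smul σ τ J := by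
    apply Units.ext
    exact fracIdealHom_mul σ τ _
  smul_mul σ J J' := map_mul _ _ _
  smul_one σ := map_one _

scoped[Fermat.Agent.Lib.CFT.Unram] attribute [instance] idealMulDistribMulAction

@[simp] lemma coe_smul_ideal (σ : Gal(L/K)) (J : (FractionalIdeal (𝓞 L)⁰ L)ˣ) :
    ((σ • J : (FractionalIdeal (𝓞 L)⁰ L)ˣ) : FractionalIdeal (𝓞 L)⁰ L) =
      fracIdealHom K L σ (J : FractionalIdeal (𝓞 L)⁰ L) := rfl

lemma smul_toPrincipalIdeal (σ : Gal(L/K)) (x : Lˣ) :
    σ • toPrincipalIdeal (𝓞 L) L x =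
      toPrincipalIdeal (𝓞 L) L (Units.map (σ : L →* L) x) := by
  apply Units.ext
  rw [coe_smul_ideal, coe_toPrincipalIdeal, coe_toPrincipalIdeal, fracIdealHom_spanSingleton]
  rfl

lemma coe_smul_mk0 (σ : Gal(L/K)) (𝔄 : (Ideal (𝓞 L))⁰) :
    ((σ • FractionalIdeal.mk0 L 𝔄 : (FractionalIdeal (𝓞 L)⁰ L)ˣ) : FractionalIdeal (𝓞 L)⁰ L) =
      ((σ • (𝔄 : Ideal (𝓞 L)) : Ideal (𝓞 L)) : FractionalIdeal (𝓞 L)⁰ L) := by
  rw [coe_smul_ideal, FractionalIdeal.coe_mk0, fracIdealHom_coeIdeal]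

end Action

section Ext

variable (K L : Type*) [Field K] [NumberField K] [Field L] [NumberField L] [Algebra K L]

/-- Extension of invertible fractional ideals from `K` to `L`. -/
noncomputable def extK : (FractionalIdeal (𝓞 K)⁰ K)ˣ →* (FractionalIdeal (𝓞 L)⁰ L)ˣ :=
  Units.map (FractionalIdeal.extendedHom (A := 𝓞 K) (K := K) L (𝓞 L)).toMonoidHom

variable {K L}

@[simp] lemma coe_extK (J : (FractionalIdeal (𝓞 K)⁰ K)ˣ) :
    ((extK K L J : (FractionalIdeal (𝓞 L)⁰ L)ˣ) : FractionalIdeal (𝓞 L)⁰ L) =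
      FractionalIdeal.extendedHom L (𝓞 L) (J : FractionalIdeal (𝓞 K)⁰ K) := rfl

lemma extK_injective : Function.Injective (extK K L) := by
  intro I J h
  apply Units.ext
  have := congrArg (fun x : (FractionalIdeal (𝓞 L)⁰ L)ˣ => (x : FractionalIdeal (𝓞 L)⁰ L)) h
  simp only [coe_extK] at this
  exact FractionalIdeal.extendedHom_injective (𝓞 K) K L (𝓞 L) this

lemma mem_extendedHom_iff_of_span (I : FractionalIdeal (𝓞 K)⁰ K) (x : L) :
    x ∈ FractionalIdeal.extendedHom L (𝓞 L) I ↔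
      x ∈ Submodule.span (𝓞 L) (algebraMap K L '' (I : Set K)) := by
  rw [← FractionalIdeal.mem_coe, FractionalIdeal.coe_extendedHom_eq_span]

lemma extK_toPrincipalIdeal (x : Kˣ) :
    extK K L (toPrincipalIdeal (𝓞 K) K x) =
      toPrincipalIdeal (𝓞 L) L (Units.map (algebraMap K L : K →* L) x) := by
  apply Units.ext
  rw [coe_extK, coe_toPrincipalIdeal, coe_toPrincipalIdeal, extendedHom_spanSingleton]
  congr 1
  have : (x : K) = algebraMap (𝓞 K) K (IsLocalization.sec (𝓞 K)⁰ (x : K)).1 /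
      algebraMap (𝓞 K) K (IsLocalization.sec (𝓞 K)⁰ (x : K)).2 := by
    rw [eq_div_iff]
    · exact (IsLocalization.sec_spec (𝓞 K)⁰ (x : K))
    · exact IsFractionRing.to_map_ne_zero_of_mem_nonZeroDivisors
        (IsLocalization.sec (𝓞 K)⁰ (x : K)).2.2
  conv_lhs => rw [this]
  rw [map_div₀, IsFractionRing.map, IsLocalization.map_eq, IsLocalization.map_eq]
  conv_rhs => rw [Units.coe_map, MonoidHom.coe_coe, this, map_div₀]
  rfl

lemma coe_extK_mk0 (𝔞 : (Ideal (𝓞 K))⁰) :
    ((extK K L (FractionalIdeal.mk0 K 𝔞) : (FractionalIdeal (𝓞 L)⁰ L)ˣ) :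
        FractionalIdeal (𝓞 L)⁰ L) =
      (((𝔞 : Ideal (𝓞 K)).map (algebraMap (𝓞 K) (𝓞 L)) : Ideal (𝓞 L)) :
        FractionalIdeal (𝓞 L)⁰ L) := by
  rw [coe_extK, FractionalIdeal.coe_mk0, extendedHom_coeIdeal_eq_map]

lemma smul_extK (σ : Gal(L/K)) (J : (FractionalIdeal (𝓞 K)⁰ K)ˣ) :
    σ • extK K L J = extK K L J := by
  apply Units.ext
  rw [coe_smul_ideal, coe_extK]
  ext x
  rw [mem_fracIdealHom_iff, mem_extendedHom_iff_of_span, mem_extendedHom_iff_of_span]
  have key : ∀ (τ : Gal(L/K)) (y : L),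
      y ∈ Submodule.span (𝓞 L) (algebraMap K L '' ((J : FractionalIdeal (𝓞 K)⁰ K) : Set K)) →
      τ y ∈ Submodule.span (𝓞 L) (algebraMap K L '' ((J : FractionalIdeal (𝓞 K)⁰ K) : Set K)) := by
    intro τ y hy
    refine Submodule.span_induction ?_ ?_ ?_ ?_ hy
    · rintro _ ⟨z, hz, rfl⟩
      rw [AlgEquiv.commutes]
      exact Submodule.subset_span ⟨z, hz, rfl⟩
    · simp
    · intro a b _ _ ha hb
      rw [map_add]
      exact Submodule.add_mem _ ha hb
    · intro b a _ ha
      rw [Algebra.smul_def, map_mul]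
      have : τ (algebraMap (𝓞 L) L b) = algebraMap (𝓞 L) L (τ • b) := rfl
      rw [this, ← Algebra.smul_def]
      exact Submodule.smul_mem _ _ ha
  constructor
  · intro h
    have := key σ _ h
    rwa [AlgEquiv.apply_symm_apply] at this
  · intro h
    exact key σ.symm _ h

end Ext

end Fermat.Agent.Lib.CFT.Unram
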