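/-
helper45 (P-CFT, S14 fast track, WP-L3(c)).  `H^{-1}` of the ideal group of a cyclic extension
vanishes: an invertible fractional ideal `J` of `L` with `∏ τ, τ • J = 1` is of the form
`σ • B / B` for a generator `σ` of `Gal(L/K)`.

The proof is the standard one: the ideal group is the permutation module `X →₀ ℤ` on the set `X` of
nonzero primes, the coinvariants of a permutation module are free on the orbits (hence
torsion-free), and `N f = 0` forces the image of `f` in the coinvariants to be torsion.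
-/
import Mathlib
import Fermat.Agent.Lib.CFT.Unram.IdealAct

set_option autoImplicit false
set_option linter.unusedSectionVars false

namespace Fermat.Agent.Lib.CFT.Unram

namespace IdealH1

/-! ### The abstract statement on permutation modules -/

section Abstract

variable {G X : Type*} [Group G] [MulAction G X]

/-- The permutation operator of `τ` on the permutation module `X →₀ ℤ`:
`single x a ↦ single (τ • x) a`. -/
noncomputable def permOp (τ : G) : (X →₀ ℤ) →ₗ[ℤ] (X →₀ ℤ) :=
  Finsupp.lmapDomain ℤ ℤ (fun x : X => τ • x)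

lemma permOp_single (τ : G) (x : X) (a : ℤ) :
    permOp τ (Finsupp.single x a) = Finsupp.single (τ • x) a := by
  simp [permOp, Finsupp.lmapDomain_apply, Finsupp.mapDomain_single]

lemma permOp_apply (τ : G) (f : X →₀ ℤ) (x : X) : permOp τ f x = f (τ⁻¹ • x) := by
  have hinj : Function.Injective (fun x : X => τ • x) := MulAction.injective τ
  have h := Finsupp.mapDomain_apply hinj f (τ⁻¹ • x)
  simpa [permOp, Finsupp.lmapDomain_apply] using h

lemma permOp_one : permOp (1 : G) = (1 : Module.End ℤ (X →₀ ℤ)) := by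
  apply Finsupp.lhom_ext
  intro x a
  simp [permOp_single]

lemma permOp_mul (τ₁ τ₂ : G) :
    permOp (X := X) (τ₁ * τ₂) = (permOp τ₁ * permOp τ₂ : Module.End ℤ (X →₀ ℤ)) := by
  apply Finsupp.lhom_ext
  intro x a
  simp [permOp_single, mul_smul, Module.End.mul_apply]

lemma permOp_pow (σ : G) (n : ℕ) :
    permOp (X := X) (σ ^ n) = (permOp σ : Module.End ℤ (X →₀ ℤ)) ^ n := by
  induction n with
  | zero => simp [permOp_one]
  | succ n ih => rw [pow_succ, permOp_mul, ih, pow_succ]

/-- The projection to the free module on the orbits. -/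
noncomputable def orbitProj : (X →₀ ℤ) →ₗ[ℤ] (MulAction.orbitRel.Quotient G X →₀ ℤ) :=
  Finsupp.lmapDomain ℤ ℤ (fun x : X => (Quotient.mk'' x : MulAction.orbitRel.Quotient G X))

lemma orbitProj_single (x : X) (a : ℤ) :
    orbitProj (G := G) (Finsupp.single x a) =
      Finsupp.single (Quotient.mk'' x : MulAction.orbitRel.Quotient G X) a := by
  simp [orbitProj, Finsupp.lmapDomain_apply, Finsupp.mapDomain_single]

lemma orbitProj_permOp (τ : G) (f : X →₀ ℤ) :
    orbitProj (G := G) (permOp τ f) = orbitProj (G := G) f := by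
  have : (orbitProj (G := G) (X := X)) ∘ₗ permOp τ = orbitProj (G := G) := by
    apply Finsupp.lhom_ext
    intro x a
    rw [LinearMap.comp_apply, permOp_single, orbitProj_single, orbitProj_single]
    congr 1
    exact Quotient.sound' ((MulAction.orbitRel_apply).2 (MulAction.mem_orbit x τ))
  exact LinearMap.congr_fun this f

/-- A section of `orbitProj`, through a choice of representatives. -/
noncomputable def orbitSec : (MulAction.orbitRel.Quotient G X →₀ ℤ) →ₗ[ℤ] (X →₀ ℤ) :=
  Finsupp.lmapDomain ℤ ℤ (fun o : MulAction.orbitRel.Quotient G X => o.out)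

lemma sub_orbitSec_mem_range (σ : G) (hgen : ∀ τ : G, τ ∈ Submonoid.powers σ) (f : X →₀ ℤ) :
    f - orbitSec (G := G) (orbitProj (G := G) f) ∈
      LinearMap.range ((permOp σ : Module.End ℤ (X →₀ ℤ)) - 1) := by
  induction f using Finsupp.induction_linear with
  | zero => simp
  | add f g hf hg =>
    have : f + g - orbitSec (G := G) (orbitProj (G := G) (f + g)) =
        (f - orbitSec (G := G) (orbitProj (G := G) f)) +
          (g - orbitSec (G := G) (orbitProj (G := G) g)) := by
      rw [map_add, map_add]; abel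
    rw [this]
    exact Submodule.add_mem _ hf hg
  | single x a =>
    set x₀ : X := (Quotient.mk'' x : MulAction.orbitRel.Quotient G X).out with hx₀
    have hrel : (Quotient.mk'' x₀ : MulAction.orbitRel.Quotient G X) = Quotient.mk'' x :=
      Quotient.out_eq' _
    have hmem : x ∈ MulAction.orbit G x₀ := by
      have := Quotient.exact' hrel
      exact (MulAction.orbitRel_apply).1 (Setoid.symm' _ this)
    obtain ⟨τ, hτ⟩ := hmem
    obtain ⟨n, hn⟩ := hgen τ
    have hsec : orbitSec (G := G) (orbitProj (G := G) (Finsupp.single x a)) =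
        Finsupp.single x₀ a := by
      rw [orbitProj_single]
      simp [orbitSec, Finsupp.lmapDomain_apply, Finsupp.mapDomain_single, hx₀]
    have hx : Finsupp.single x a =
        ((permOp σ : Module.End ℤ (X →₀ ℤ)) ^ n) (Finsupp.single x₀ a) := by
      have hn' : σ ^ n = τ := hn
      have hτ' : τ • x₀ = x := hτ
      rw [← permOp_pow, permOp_single, hn', hτ']
    rw [hsec, hx]
    refine ⟨(∑ i ∈ Finset.range n, (permOp σ : Module.End ℤ (X →₀ ℤ)) ^ i)
      (Finsupp.single x₀ a), ?_⟩
    rw [← Module.End.mul_apply, mul_geom_sum]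
    simp

/-- **Vanishing of `Ĥ^{-1}` for permutation modules** (cyclic case): if the group `G` consists
of the powers of `σ`, then every `f : X →₀ ℤ` of norm zero is of the form `σ g - g`. -/
theorem exists_eq_permOp_sub [Fintype G] (σ : G) (hgen : ∀ τ : G, τ ∈ Submonoid.powers σ)
    (f : X →₀ ℤ) (hf : ∑ τ : G, permOp τ f = 0) : ∃ g : X →₀ ℤ, f = permOp σ g - g := by
  have h1 : (Fintype.card G : ℤ) • orbitProj (G := G) f = 0 := by
    have := congrArg (orbitProj (G := G)) hf
    rw [map_sum, map_zero] at this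
    simp only [orbitProj_permOp] at this
    rw [Finset.sum_const, Finset.card_univ] at this
    rw [← this]
    simp
  have h2 : orbitProj (G := G) f = 0 := by
    rcases smul_eq_zero.1 h1 with h | h
    · exact absurd h (by exact_mod_cast Fintype.card_ne_zero)
    · exact h
  have h3 := sub_orbitSec_mem_range σ hgen f
  rw [h2, map_zero, sub_zero] at h3
  obtain ⟨g, hg⟩ := h3
  refine ⟨g, ?_⟩
  rw [← hg]
  simp [LinearMap.sub_apply]

end Abstract

/-! ### The ideal group as a permutation module -/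

section Ideals

open NumberField FractionalIdeal IsDedekindDomain
open scoped nonZeroDivisors Pointwise

variable {K L : Type*} [Field K] [Field L] [NumberField L] [Algebra K L]

/-- The action of `Gal(L/K)` on the nonzero primes of `𝓞 L`. -/
@[reducible] noncomputable def primeMulAction :
    MulAction Gal(L/K) (HeightOneSpectrum (𝓞 L)) where
  smul σ v := ⟨σ • v.asIdeal, inferInstance, by
    intro h
    apply v.ne_bot
    have h' := congrArg (fun I : Ideal (𝓞 L) => σ⁻¹ • I) h
    simpa using h'⟩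
  one_smul v := HeightOneSpectrum.ext (one_smul _ v.asIdeal)
  mul_smul σ τ v := HeightOneSpectrum.ext (mul_smul σ τ v.asIdeal)

scoped[Fermat.Agent.Lib.CFT.Unram.IdealH1] attribute [instance] primeMulAction

@[simp] lemma smul_asIdeal (σ : Gal(L/K)) (v : HeightOneSpectrum (𝓞 L)) :
    (σ • v).asIdeal = σ • v.asIdeal := rfl

/-- The vector of exponents of a fractional ideal. -/
noncomputable def cnt (J : FractionalIdeal (𝓞 L)⁰ L) : HeightOneSpectrum (𝓞 L) →₀ ℤ :=
  Finsupp.ofSupportFinite (fun v => FractionalIdeal.count L v J)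
    (Filter.eventually_cofinite.1 (FractionalIdeal.finite_factors J))

@[simp] lemma cnt_apply (J : FractionalIdeal (𝓞 L)⁰ L) (v : HeightOneSpectrum (𝓞 L)) :
    cnt J v = FractionalIdeal.count L v J := rfl

/-- The fractional ideal with a given vector of exponents. -/
noncomputable def ofExps (g : HeightOneSpectrum (𝓞 L) →₀ ℤ) : FractionalIdeal (𝓞 L)⁰ L :=
  g.prod (fun v n => (v.asIdeal : FractionalIdeal (𝓞 L)⁰ L) ^ n)

lemma ofExps_ne_zero (g : HeightOneSpectrum (𝓞 L) →₀ ℤ) : ofExps g ≠ 0 := by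
  unfold ofExps
  rw [Finsupp.prod, Finset.prod_ne_zero_iff]
  intro v _
  exact zpow_ne_zero _ (coeIdeal_ne_zero.mpr v.ne_bot)

lemma cnt_ofExps (g : HeightOneSpectrum (𝓞 L) →₀ ℤ) : cnt (ofExps g) = g := by
  ext v
  rw [cnt_apply]
  exact FractionalIdeal.count_finsuppProd L v g

lemma ofExps_cnt {J : FractionalIdeal (𝓞 L)⁰ L} (hJ : J ≠ 0) : ofExps (cnt J) = J := by
  conv_rhs => rw [← FractionalIdeal.finprod_heightOneSpectrum_factorization' L hJ]
  unfold ofExps
  rw [Finsupp.prod, finprod_eq_finsetProd_of_mulSupport_subset (s := (cnt J).support)]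
  · rfl
  · intro v hv
    rw [Finset.mem_coe, Finsupp.mem_support_iff, cnt_apply]
    intro h
    rw [Function.mem_mulSupport, h, zpow_zero] at hv
    exact hv rfl

lemma fracIdealHom_ofExps (σ : Gal(L/K)) (g : HeightOneSpectrum (𝓞 L) →₀ ℤ) :
    fracIdealHom K L σ (ofExps g) = ofExps (permOp σ g) := by
  unfold ofExps permOp
  rw [map_finsuppProd, Finsupp.lmapDomain_apply,
    Finsupp.prod_mapDomain_index_inj (MulAction.injective σ)]
  refine Finsupp.prod_congr ?_
  intro v _
  rw [map_zpow₀, fracIdealHom_coeIdeal]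
  rfl

lemma cnt_fracIdealHom (σ : Gal(L/K)) {J : FractionalIdeal (𝓞 L)⁰ L} (hJ : J ≠ 0) :
    cnt (fracIdealHom K L σ J) = permOp σ (cnt J) := by
  conv_lhs => rw [← ofExps_cnt hJ]
  rw [fracIdealHom_ofExps, cnt_ofExps]

/-- Transport of valuations: `ord_{σ v} (σ J) = ord_v J`. -/
theorem count_smul (σ : Gal(L/K)) (v : HeightOneSpectrum (𝓞 L))
    {J : FractionalIdeal (𝓞 L)⁰ L} (hJ : J ≠ 0) :
    FractionalIdeal.count L (σ • v) (fracIdealHom K L σ J) = FractionalIdeal.count L v J := by
  have h := DFunLike.congr_fun (cnt_fracIdealHom σ hJ) (σ • v)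
  rw [cnt_apply, permOp_apply, inv_smul_smul, cnt_apply] at h
  exact h

/-! #### units -/

/-- The vector of exponents of an invertible fractional ideal. -/
noncomputable def cntU (J : (FractionalIdeal (𝓞 L)⁰ L)ˣ) : HeightOneSpectrum (𝓞 L) →₀ ℤ :=
  cnt (J : FractionalIdeal (𝓞 L)⁰ L)

lemma cntU_one : cntU (1 : (FractionalIdeal (𝓞 L)⁰ L)ˣ) = 0 := by
  ext v
  simp [cntU, FractionalIdeal.count_one]

lemma cntU_mul (J₁ J₂ : (FractionalIdeal (𝓞 L)⁰ L)ˣ) : cntU (J₁ * J₂) = cntU J₁ + cntU J₂ := by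
  ext v
  simp only [cntU, Units.val_mul, cnt_apply, Finsupp.add_apply]
  exact FractionalIdeal.count_mul L v J₁.ne_zero J₂.ne_zero

lemma cntU_inv (J : (FractionalIdeal (𝓞 L)⁰ L)ˣ) : cntU J⁻¹ = - cntU J := by
  have h : cntU (J⁻¹ * J) = cntU J⁻¹ + cntU J := cntU_mul _ _
  rw [inv_mul_cancel, cntU_one] at h
  exact eq_neg_of_add_eq_zero_left h.symm

lemma cntU_div (J₁ J₂ : (FractionalIdeal (𝓞 L)⁰ L)ˣ) : cntU (J₁ / J₂) = cntU J₁ - cntU J₂ := by
  rw [div_eq_mul_inv, cntU_mul, cntU_inv, sub_eq_add_neg]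

lemma cntU_prod {ι : Type*} (s : Finset ι) (F : ι → (FractionalIdeal (𝓞 L)⁰ L)ˣ) :
    cntU (∏ i ∈ s, F i) = ∑ i ∈ s, cntU (F i) := by
  classical
  induction s using Finset.induction_on with
  | empty => simp [cntU_one]
  | insert a s ha ih => rw [Finset.prod_insert ha, Finset.sum_insert ha, cntU_mul, ih]

lemma cntU_injective :
    Function.Injective (cntU : (FractionalIdeal (𝓞 L)⁰ L)ˣ → HeightOneSpectrum (𝓞 L) →₀ ℤ) := by
  intro J₁ J₂ h
  apply Units.ext
  rw [← ofExps_cnt J₁.ne_zero, ← ofExps_cnt J₂.ne_zero]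
  exact congrArg ofExps h

lemma cntU_smul (σ : Gal(L/K)) (J : (FractionalIdeal (𝓞 L)⁰ L)ˣ) :
    cntU (σ • J) = permOp σ (cntU J) := by
  unfold cntU
  rw [coe_smul_ideal]
  exact cnt_fracIdealHom σ J.ne_zero

/-- The invertible fractional ideal with a given vector of exponents. -/
noncomputable def ofExpsU (g : HeightOneSpectrum (𝓞 L) →₀ ℤ) : (FractionalIdeal (𝓞 L)⁰ L)ˣ :=
  Units.mk0 (ofExps g) (ofExps_ne_zero g)

lemma cntU_ofExpsU (g : HeightOneSpectrum (𝓞 L) →₀ ℤ) : cntU (ofExpsU g) = g := by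
  unfold cntU ofExpsU
  rw [Units.val_mk0]
  exact cnt_ofExps g

end Ideals

end IdealH1

/-! ### The main statements -/

section Main

open NumberField FractionalIdeal IsDedekindDomain
open scoped nonZeroDivisors
open scoped Fermat.Agent.Lib.CFT.Unram.IdealH1

variable {K L : Type*} [Field K] [Field L] [NumberField L] [Algebra K L]

/-- **`Ĥ^{-1}(G, I_L) = 0`**, general cyclic form: if every element of `Gal(L/K)` is a power
of `σ`, an invertible fractional ideal of `L` with trivial norm is of the form `σ • B / B`. -/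
theorem h1_ideals_of_forall_mem_powers [Fintype Gal(L/K)] {σ : Gal(L/K)}
    (hgen : ∀ τ : Gal(L/K), τ ∈ Submonoid.powers σ)
    (J : (FractionalIdeal (𝓞 L)⁰ L)ˣ) (hJ : ∏ τ : Gal(L/K), τ • J = 1) :
    ∃ B : (FractionalIdeal (𝓞 L)⁰ L)ˣ, J = σ • B / B := by
  have h0 : ∑ τ : Gal(L/K), IdealH1.permOp τ (IdealH1.cntU J) = 0 := by
    have := congrArg IdealH1.cntU hJ
    rw [IdealH1.cntU_prod, IdealH1.cntU_one] at this
    simpa only [IdealH1.cntU_smul] using this
  obtain ⟨g, hg⟩ := IdealH1.exists_eq_permOp_sub σ hgen (IdealH1.cntU J) h0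
  refine ⟨IdealH1.ofExpsU g, ?_⟩
  apply IdealH1.cntU_injective
  rw [IdealH1.cntU_div, IdealH1.cntU_smul, IdealH1.cntU_ofExpsU]
  exact hg

/-- The same with the hypothesis `τ ∈ Subgroup.zpowers σ`. -/
theorem h1_ideals_of_forall_mem_zpowers [Fintype Gal(L/K)] {σ : Gal(L/K)}
    (hgen : ∀ τ : Gal(L/K), τ ∈ Subgroup.zpowers σ)
    (J : (FractionalIdeal (𝓞 L)⁰ L)ˣ) (hJ : ∏ τ : Gal(L/K), τ • J = 1) :
    ∃ B : (FractionalIdeal (𝓞 L)⁰ L)ˣ, J = σ • B / B :=
  h1_ideals_of_forall_mem_powers (fun τ => mem_powers_iff_mem_zpowers.2 (hgen τ)) J hJ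

/-- **`Ĥ^{-1}(G, I_L) = 0`** for a Galois extension `L/K` of prime degree `p`, with implicit
arguments and an arbitrary `Fintype` instance. -/
theorem h1_ideals' [FiniteDimensional K L] [IsGalois K L] [Fintype Gal(L/K)] {p : ℕ}
    (hp : p.Prime) (hKL : Module.finrank K L = p) {σ : Gal(L/K)} (hσ : σ ≠ 1)
    (J : (FractionalIdeal (𝓞 L)⁰ L)ˣ) (hJ : ∏ τ : Gal(L/K), τ • J = 1) :
    ∃ B : (FractionalIdeal (𝓞 L)⁰ L)ˣ, J = σ • B / B := by
  have : Fact p.Prime := ⟨hp⟩
  have hcard : Nat.card Gal(L/K) = p := by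
    rw [IsGalois.card_aut_eq_finrank, hKL]
  exact h1_ideals_of_forall_mem_powers (fun τ => mem_powers_of_prime_card hcard hσ) J hJ

end Main

section Final

open NumberField FractionalIdeal
open scoped nonZeroDivisors Pointwise

variable (K L : Type*) [Field K] [NumberField K] [Field L] [NumberField L] [Algebra K L]
  [IsGalois K L]

/-- **`Ĥ^{-1}(G, I_L) = 0`** for a Galois extension `L/K` of number fields of prime degree `p`
(WP-L3(c), in the exact shape of the WP-L3 interface). -/
theorem h1_ideals {p : ℕ} (hp : p.Prime) (hdeg : Module.finrank K L = p) (σ : Gal(L/K))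
    (hσ : σ ≠ 1) (J : (FractionalIdeal (𝓞 L)⁰ L)ˣ) (hJ : ∏ τ : Gal(L/K), τ • J = 1) :
    ∃ B : (FractionalIdeal (𝓞 L)⁰ L)ˣ, J = σ • B / B :=
  h1_ideals' hp hdeg hσ J hJ

end Final

end Fermat.Agent.Lib.CFT.Unram
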