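/-
helper91 (P-CFT, S14 fast track, WP-L).  The Galois action on the unit group `(𝓞 L)ˣ`.
-/
import Mathlib

set_option autoImplicit false
set_option linter.unusedSectionVars false

namespace Fermat.Agent.Lib.CFT.Unram

open NumberField

variable {K L : Type*} [Field K] [Field L] [Algebra K L]

/-- The action of `Gal(L/K)` on the units of the ring of integers of `L`. -/
@[reducible] noncomputable def unitsMulDistribMulAction :
    MulDistribMulAction Gal(L/K) (𝓞 L)ˣ :=
  Units.mulDistribMulActionRight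

scoped[Fermat.Agent.Lib.CFT.Unram] attribute [instance] unitsMulDistribMulAction

@[simp] lemma coe_smul_unit (τ : Gal(L/K)) (u : (𝓞 L)ˣ) :
    ((τ • u : (𝓞 L)ˣ) : 𝓞 L) = τ • (u : 𝓞 L) := rfl

@[simp] lemma coe_coe_smul_unit (τ : Gal(L/K)) (u : (𝓞 L)ˣ) :
    (((τ • u : (𝓞 L)ˣ) : 𝓞 L) : L) = τ ((u : 𝓞 L) : L) := rfl

/-- The inclusion `(𝓞 L)ˣ → Lˣ`. -/
noncomputable def unitsToField (L : Type*) [Field L] : (𝓞 L)ˣ →* Lˣ :=
  Units.map (algebraMap (𝓞 L) L : 𝓞 L →* L)

@[simp] lemma coe_unitsToField (u : (𝓞 L)ˣ) : ((unitsToField L u : Lˣ) : L) = ((u : 𝓞 L) : L) := rfl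

lemma unitsToField_injective : Function.Injective (unitsToField L) := by
  intro u v h
  apply Units.ext
  apply RingOfIntegers.ext
  have := congrArg (fun x : Lˣ => (x : L)) h
  simpa using this

lemma unitsToField_smul (τ : Gal(L/K)) (u : (𝓞 L)ˣ) :
    unitsToField L (τ • u) = τ • unitsToField L u := by
  apply Units.ext
  rfl

end Fermat.Agent.Lib.CFT.Unram
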