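/-
helper91 (P-CFT, S14 fast track, WP-L4).  Notation for the lower bound: the additive versions of
`σ - 1` and of the norm on `Lˣ` and on the group of invertible fractional ideals of `L`.
-/
import Mathlib
import Fermat.Agent.Lib.CFT.HerbrandMul
import Fermat.Agent.Lib.CFT.Unram.IdealAct
import Fermat.Agent.Lib.CFT.Unram.UnitsAct

set_option autoImplicit false
set_option linter.unusedSectionVars false

namespace Fermat.Agent.Lib.CFT.Unram

open NumberField FractionalIdeal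
open Fermat.Agent.Lib.CFT.Herbrand
open scoped nonZeroDivisors Pointwise

namespace LB

variable (K L : Type*) [Field K] [NumberField K] [Field L] [NumberField L] [Algebra K L]
  [IsGalois K L]

/-- `x ↦ σ x / x` on `Lˣ`, additively. -/
noncomputable def DB (σ : Gal(L/K)) : Additive Lˣ →+ Additive Lˣ :=
  MonoidHom.toAdditive (subOneMul Gal(L/K) Lˣ σ)

/-- `x ↦ ∏ τ, τ x` on `Lˣ`, additively. -/
noncomputable def NB : Additive Lˣ →+ Additive Lˣ :=
  MonoidHom.toAdditive (normMul Gal(L/K) Lˣ)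

/-- `J ↦ σ J / J` on invertible fractional ideals, additively. -/
noncomputable def DI (σ : Gal(L/K)) :
    Additive (FractionalIdeal (𝓞 L)⁰ L)ˣ →+ Additive (FractionalIdeal (𝓞 L)⁰ L)ˣ :=
  MonoidHom.toAdditive (subOneMul Gal(L/K) (FractionalIdeal (𝓞 L)⁰ L)ˣ σ)

/-- `J ↦ ∏ τ, τ J` on invertible fractional ideals, additively. -/
noncomputable def NI :
    Additive (FractionalIdeal (𝓞 L)⁰ L)ˣ →+ Additive (FractionalIdeal (𝓞 L)⁰ L)ˣ :=
  MonoidHom.toAdditive (normMul Gal(L/K) (FractionalIdeal (𝓞 L)⁰ L)ˣ)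

/-- `x ↦ (x)`, additively. -/
noncomputable def phi : Additive Lˣ →+ Additive (FractionalIdeal (𝓞 L)⁰ L)ˣ :=
  MonoidHom.toAdditive (toPrincipalIdeal (𝓞 L) L)

variable {K L}

@[simp] lemma DB_apply (σ : Gal(L/K)) (x : Additive Lˣ) :
    DB K L σ x = Additive.ofMul (σ • x.toMul / x.toMul) := rfl

@[simp] lemma NB_apply (x : Additive Lˣ) :
    NB K L x = Additive.ofMul (∏ τ : Gal(L/K), τ • x.toMul) := by
  unfold NB
  rw [MonoidHom.toAdditive_apply_apply, normMul_apply]

@[simp] lemma DI_apply (σ : Gal(L/K)) (J : Additive (FractionalIdeal (𝓞 L)⁰ L)ˣ) :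
    DI K L σ J = Additive.ofMul (σ • J.toMul / J.toMul) := rfl

@[simp] lemma NI_apply (J : Additive (FractionalIdeal (𝓞 L)⁰ L)ˣ) :
    NI K L J = Additive.ofMul (∏ τ : Gal(L/K), τ • J.toMul) := by
  unfold NI
  rw [MonoidHom.toAdditive_apply_apply, normMul_apply]

@[simp] lemma phi_apply (x : Additive Lˣ) :
    phi L x = Additive.ofMul (toPrincipalIdeal (𝓞 L) L x.toMul) := rfl

lemma DB_NB (σ : Gal(L/K)) (x : Additive Lˣ) : DB K L σ (NB K L x) = 0 :=
  subOneMul_normMul σ x.toMul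

lemma NB_DB (σ : Gal(L/K)) (x : Additive Lˣ) : NB K L (DB K L σ x) = 0 :=
  normMul_subOneMul σ x.toMul

lemma DI_NI (σ : Gal(L/K)) (J : Additive (FractionalIdeal (𝓞 L)⁰ L)ˣ) :
    DI K L σ (NI K L J) = 0 :=
  subOneMul_normMul σ J.toMul

lemma NI_DI (σ : Gal(L/K)) (J : Additive (FractionalIdeal (𝓞 L)⁰ L)ˣ) :
    NI K L (DI K L σ J) = 0 :=
  normMul_subOneMul σ J.toMul

lemma phi_DB (σ : Gal(L/K)) (x : Additive Lˣ) : phi L (DB K L σ x) = DI K L σ (phi L x) := by
  simp only [phi_apply, DB_apply, DI_apply, toMul_ofMul, map_div, smul_toPrincipalIdeal]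
  rfl

lemma phi_NB (x : Additive Lˣ) : phi L (NB K L x) = NI K L (phi L x) := by
  simp only [phi_apply, NB_apply, NI_apply, toMul_ofMul, map_prod, smul_toPrincipalIdeal]
  rfl

end LB

end Fermat.Agent.Lib.CFT.Unram
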