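/-
helper91 (P-CFT, S14 fast track, WP-L4).  Core of the lower bound: Hilbert 90, `H¹(I_L) = 0`,
finiteness of the class group and the final assembly from the abstract hexagon inequality.
-/
import Mathlib
import Fermat.Agent.Lib.CFT.Unram.LowerBoundSetup
import Fermat.Agent.Lib.CFT.Unram.HexagonBound
import Fermat.Agent.Lib.CFT.Unram.IdealH1

set_option autoImplicit false
set_option linter.unusedSectionVars false
set_option linter.style.haveILetI false

namespace Fermat.Agent.Lib.CFT.Unram

open NumberField FractionalIdeal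
open Fermat.Agent.Lib.CFT.Herbrand
open scoped nonZeroDivisors Pointwise

namespace LB

variable (K L : Type*) [Field K] [NumberField K] [Field L] [NumberField L] [Algebra K L]
  [IsGalois K L]

variable {K L}

/-- Hilbert 90 in the additive notation. -/
theorem hilbert90 {K L : Type} [Field K] [NumberField K] [Field L] [NumberField L] [Algebra K L]
    [IsGalois K L] (σ : Gal(L/K)) (hσ : ∀ τ : Gal(L/K), τ ∈ Subgroup.zpowers σ) :
    (NB K L).ker ≤ (DB K L σ).range := by
  intro x hx
  have hx' : NB K L x = 0 := hx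
  rw [NB_apply] at hx'
  have h1 : ∏ τ : Gal(L/K), τ • x.toMul = 1 := hx'
  have hcyc : IsCyclic Gal(L/K) :=
    ⟨⟨σ, fun τ => Subgroup.mem_zpowers_iff.mp (hσ τ)⟩⟩
  have hnorm : Algebra.norm K ((x.toMul : Lˣ) : L) = 1 := by
    apply (algebraMap K L).injective
    rw [Algebra.norm_eq_prod_automorphisms, map_one]
    have := congrArg (fun u : Lˣ => (u : L)) h1
    simp only [Units.coe_prod, Units.val_one] at this
    exact this
  obtain ⟨y, hy⟩ := groupCohomology.exists_div_of_norm_eq_one hσ hnorm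
  refine ⟨Additive.ofMul y⁻¹, ?_⟩
  have key : σ • y⁻¹ / y⁻¹ = x.toMul := by
    apply Units.ext
    rw [← hy, Units.val_div_eq_div_val]
    have h2 : ((σ • y⁻¹ : Lˣ) : L) = (σ (y : L))⁻¹ := by
      rw [smul_inv', Units.val_inv_eq_inv_val]
      rfl
    rw [h2, Units.val_inv_eq_inv_val, inv_div_inv]
  rw [DB_apply, toMul_ofMul, key, ofMul_toMul]

theorem h1_ideals_additive {p : ℕ} (hp : p.Prime) (hdeg : Module.finrank K L = p)
    (σ : Gal(L/K)) (hσ : σ ≠ 1) : (NI K L).ker ≤ (DI K L σ).range := by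
  intro J hJ
  have hJ' : NI K L J = 0 := hJ
  rw [NI_apply] at hJ'
  have h1 : ∏ τ : Gal(L/K), τ • J.toMul = 1 := hJ'
  obtain ⟨B, hB⟩ := h1_ideals K L hp hdeg σ hσ J.toMul h1
  refine ⟨Additive.ofMul B, ?_⟩
  rw [DI_apply, toMul_ofMul, ← hB]
  rfl

instance finite_quotient_phi : Finite (Additive (FractionalIdeal (𝓞 L)⁰ L)ˣ ⧸ (phi L).range) := by
  have h1 : (phi L).range = Subgroup.toAddSubgroup (toPrincipalIdeal (𝓞 L) L).range := by
    ext x
    constructor
    · rintro ⟨y, rfl⟩
      exact ⟨y.toMul, rfl⟩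
    · rintro ⟨y, hy⟩
      exact ⟨Additive.ofMul y, hy⟩
  have h2 : (toPrincipalIdeal (𝓞 L) L).range.index ≠ 0 := by
    rw [Subgroup.index_eq_card]
    have : Finite ((FractionalIdeal (𝓞 L)⁰ L)ˣ ⧸ (toPrincipalIdeal (𝓞 L) L).range) :=
      Finite.of_equiv _ (ClassGroup.equiv L).toEquiv
    exact Nat.card_pos.ne'
  have h3 : (phi L).range.index ≠ 0 := by
    rw [h1, Subgroup.index_toAddSubgroup]
    exact h2
  have : (phi L).range.FiniteIndex := ⟨h3⟩
  infer_instance

end LB

open LB in
/-- **The lower bound** `[I_K : P_K N(I_L)] ≥ p` for everywhere unramified Galois extensions of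
prime degree of a totally complex number field, from the two remaining number field inputs:
`hU` (Herbrand quotient of the units) and `hY` (translation of the index to the class group). -/
theorem lowerBound_of {p : ℕ} (hp : p.Prime)
    (hU : ∀ (K L : Type) [Field K] [NumberField K] [Field L] [NumberField L] [Algebra K L]
      [IsGalois K L], Module.finrank K L = p → IsTotallyComplex K → ∀ σ : Gal(L/K), σ ≠ 1 →
      subIndex (DB K L σ) (NB K L) (phi L).ker ≠ 0 ∧
      subIndex (NB K L) (DB K L σ) (phi L).ker =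
        p * subIndex (DB K L σ) (NB K L) (phi L).ker)
    (hY : ∀ (K L : Type) [Field K] [NumberField K] [Field L] [NumberField L] [Algebra K L]
      [IsGalois K L], Module.finrank K L = p → IsUnramifiedEverywhere K L →
      ∀ σ : Gal(L/K), σ ≠ 1 →
      ((NI K L).range ⊔ (DB K L σ).ker.map (phi L)).relIndex (DI K L σ).ker ∣
        (normClasses K L).index) :
    LowerBound p := by
  intro K L _ _ _ _ _ _ hK hdeg hun
  have hcard : Nat.card Gal(L/K) = p := by rw [IsGalois.card_aut_eq_finrank, hdeg]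
  have hnt : ∃ σ : Gal(L/K), σ ≠ 1 := by
    have : 1 < Nat.card Gal(L/K) := hcard ▸ hp.one_lt
    have := Finite.one_lt_card_iff_nontrivial.mp this
    exact exists_ne 1
  obtain ⟨σ, hσ1⟩ := hnt
  have hσ : ∀ τ : Gal(L/K), τ ∈ Subgroup.zpowers σ := fun τ =>
    haveI : Fact p.Prime := ⟨hp⟩
    mem_zpowers_of_prime_card hcard hσ1
  obtain ⟨h0, h1⟩ := hU K L hdeg hK σ hσ1
  have key := subIndex_le_mul (DB := DB K L σ) (NB := NB K L) (DI := DI K L σ) (NI := NI K L)
    (φ := phi L) (DB_NB σ) (NB_DB σ) (DI_NI σ) (NI_DI σ) (phi_DB σ) phi_NB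
    (hilbert90 σ hσ) (h1_ideals_additive hp hdeg σ hσ1) h0
  rw [h1] at key
  have hY' : p ≤ ((NI K L).range ⊔ (DB K L σ).ker.map (phi L)).relIndex (DI K L σ).ker :=
    Nat.le_of_mul_le_mul_right key (Nat.pos_of_ne_zero h0)
  have hdvd := hY K L hdeg hun σ hσ1
  have hidx : (normClasses K L).index ≠ 0 := Subgroup.index_ne_zero_of_finite
  exact hY'.trans (Nat.le_of_dvd (Nat.pos_of_ne_zero hidx) hdvd)

end Fermat.Agent.Lib.CFT.Unram
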