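/-
helper53 (P-CFT, S14 fast track, WP-L3(b)).  In an everywhere unramified Galois extension `L/K`
of number fields, the Galois invariant invertible fractional ideals of `L` are exactly the ideals
extended from `K`.  Step A treats integral ideals by induction on the absolute norm (an invariant
ideal contained in a prime `P` is divisible by the extension of the prime below `P`, which is the
product of the conjugates of `P` because all ramification indices are one); Step B clears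
denominators with a rational integer.
-/
import Mathlib
import Fermat.Agent.Lib.CFT.Unram.IdealAct

set_option autoImplicit false
set_option linter.unusedSectionVars false

namespace Fermat.Agent.Lib.CFT.Unram

open NumberField FractionalIdeal
open scoped nonZeroDivisors Pointwise

namespace IdealInvariant

variable {K L : Type*} [Field K] [NumberField K] [Field L] [NumberField L] [Algebra K L]
  [IsGalois K L]

/-- Trivial inertia forces ramification index one. -/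
lemma ramificationIdx_eq_one (hun : IsUnramifiedEverywhere K L) (P : Ideal (𝓞 L)) [P.IsPrime]
    (hP : P ≠ ⊥) : P.ramificationIdx (𝓞 K) = 1 := by
  have : P.LiesOver (P.under (𝓞 K)) := ⟨rfl⟩
  rw [← Ideal.ramificationIdxIn_eq_ramificationIdx (P.under (𝓞 K)) P Gal(L/K),
    ← Ideal.card_inertia_eq_ramificationIdxIn (G := Gal(L/K)) (P.under (𝓞 K)) P,
    hun P inferInstance hP]
  simp

/-- The Galois action fixes ideals extended from the base. -/
lemma smul_map_algebraMap (τ : Gal(L/K)) (𝔞 : Ideal (𝓞 K)) :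
    τ • (𝔞.map (algebraMap (𝓞 K) (𝓞 L))) = 𝔞.map (algebraMap (𝓞 K) (𝓞 L)) := by
  rw [Ideal.pointwise_smul_def, Ideal.map_map]
  congr 1
  ext x
  change τ (algebraMap K L (x : K)) = algebraMap K L (x : K)
  exact τ.commutes _

/-- For an unramified extension, the extension of a maximal ideal is the product of the primes
above it. -/
lemma map_eq_prod_primesOver (hun : IsUnramifiedEverywhere K L) (𝔭 : Ideal (𝓞 K)) [𝔭.IsMaximal]
    (h𝔭 : 𝔭 ≠ ⊥) :
    𝔭.map (algebraMap (𝓞 K) (𝓞 L)) = ∏ Q ∈ 𝔭.primesOver (𝓞 L), Q := by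
  rw [Ideal.map_algebraMap_eq_finsetProd_pow (R := 𝓞 L) h𝔭]
  refine Finset.prod_congr rfl fun Q hQ => ?_
  rw [Set.mem_toFinset] at hQ
  have := hQ.1
  have := hQ.2
  have hQ0 : Q ≠ ⊥ := Ideal.ne_bot_of_liesOver_of_ne_bot h𝔭 Q
  rw [ramificationIdx_eq_one hun Q hQ0, pow_one]

/-- An invariant ideal contained in a prime is contained in all its conjugates, hence is divisible
by the extension of the prime below. -/
lemma map_under_dvd (hun : IsUnramifiedEverywhere K L) (𝔄 : Ideal (𝓞 L))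
    (hinv : ∀ τ : Gal(L/K), τ • 𝔄 = 𝔄) (P : Ideal (𝓞 L)) [P.IsMaximal] (hP0 : P ≠ ⊥)
    (hle : 𝔄 ≤ P) :
    (P.under (𝓞 K)).map (algebraMap (𝓞 K) (𝓞 L)) ∣ 𝔄 := by
  have h𝔭 : P.under (𝓞 K) ≠ ⊥ := Ideal.under_ne_bot (𝓞 K) hP0
  have : P.LiesOver (P.under (𝓞 K)) := ⟨rfl⟩
  rw [map_eq_prod_primesOver hun _ h𝔭]
  refine Finset.prod_primes_dvd 𝔄 ?_ ?_
  · intro Q hQ
    rw [Set.mem_toFinset] at hQ
    have := hQ.1
    have := hQ.2
    exact Ideal.prime_of_isPrime (Ideal.ne_bot_of_liesOver_of_ne_bot h𝔭 Q) inferInstance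
  · intro Q hQ
    rw [Set.mem_toFinset] at hQ
    have := hQ.1
    have := hQ.2
    obtain ⟨τ, rfl⟩ := Ideal.exists_smul_eq_of_isGaloisGroup (P.under (𝓞 K)) P Q Gal(L/K)
    rw [Ideal.dvd_iff_le, ← hinv τ]
    exact Ideal.map_mono hle

/-- **Step A.** A nonzero invariant integral ideal of an everywhere unramified Galois extension is
extended from the base. -/
theorem exists_map_eq_of_invariant (hun : IsUnramifiedEverywhere K L) :
    ∀ (n : ℕ) (𝔄 : Ideal (𝓞 L)), Ideal.absNorm 𝔄 = n → 𝔄 ≠ ⊥ →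
      (∀ τ : Gal(L/K), τ • 𝔄 = 𝔄) →
      ∃ 𝔞 : Ideal (𝓞 K), 𝔞.map (algebraMap (𝓞 K) (𝓞 L)) = 𝔄 := by
  intro n
  induction n using Nat.strong_induction_on with
  | _ n ih =>
    intro 𝔄 hn h0 hinv
    by_cases htop : 𝔄 = ⊤
    · exact ⟨⊤, by rw [Ideal.map_top, htop]⟩
    obtain ⟨P, hPmax, hle⟩ := Ideal.exists_le_maximal 𝔄 htop
    have hP0 : P ≠ ⊥ := fun h => h0 (le_bot_iff.mp (h ▸ hle))
    obtain ⟨𝔄', h𝔄'⟩ := map_under_dvd hun 𝔄 hinv P hP0 hle
    have h𝔓0 : (P.under (𝓞 K)).map (algebraMap (𝓞 K) (𝓞 L)) ≠ ⊥ := by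
      intro h
      apply h0
      rw [h𝔄', h, Ideal.bot_mul]
    have h𝔄'0 : 𝔄' ≠ ⊥ := by
      intro h
      apply h0
      rw [h𝔄', h, Ideal.mul_bot]
    have hinv' : ∀ τ : Gal(L/K), τ • 𝔄' = 𝔄' := by
      intro τ
      have h1 := hinv τ
      rw [h𝔄', smul_mul', smul_map_algebraMap] at h1
      exact mul_left_cancel₀ h𝔓0 h1
    have h𝔓top : (P.under (𝓞 K)).map (algebraMap (𝓞 K) (𝓞 L)) ≠ ⊤ := by
      intro h
      have h1 : (P.under (𝓞 K)).map (algebraMap (𝓞 K) (𝓞 L)) ≤ P := Ideal.map_comap_le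
      rw [h] at h1
      exact hPmax.ne_top (top_le_iff.mp h1)
    have hlt : Ideal.absNorm 𝔄' < n := by
      rw [← hn, h𝔄', map_mul]
      have h2 : Ideal.absNorm ((P.under (𝓞 K)).map (algebraMap (𝓞 K) (𝓞 L))) ≠ 0 := by
        rwa [Ne, Ideal.absNorm_eq_zero_iff]
      have h3 : Ideal.absNorm ((P.under (𝓞 K)).map (algebraMap (𝓞 K) (𝓞 L))) ≠ 1 := by
        rwa [Ne, Ideal.absNorm_eq_one_iff]
      have h4 : Ideal.absNorm 𝔄' ≠ 0 := by rwa [Ne, Ideal.absNorm_eq_zero_iff]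
      have h5 : 2 ≤ Ideal.absNorm ((P.under (𝓞 K)).map (algebraMap (𝓞 K) (𝓞 L))) := by omega
      have h6 : 1 ≤ Ideal.absNorm 𝔄' := by omega
      nlinarith
    obtain ⟨𝔞', h𝔞'⟩ := ih _ hlt 𝔄' rfl h𝔄'0 hinv'
    exact ⟨P.under (𝓞 K) * 𝔞', by rw [Ideal.map_mul, h𝔞', h𝔄']⟩

/-- **Step B.** Every invertible fractional ideal becomes integral after multiplication by the
principal ideal of a nonzero rational integer. -/
lemma exists_natCast_mul_eq_coeIdeal (J : FractionalIdeal (𝓞 L)⁰ L) :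
    ∃ (N : ℕ) (𝔄 : Ideal (𝓞 L)), N ≠ 0 ∧
      spanSingleton (𝓞 L)⁰ ((N : ℕ) : L) * J = (𝔄 : FractionalIdeal (𝓞 L)⁰ L) := by
  obtain ⟨a, aI, ha, hJ⟩ := FractionalIdeal.exists_eq_spanSingleton_mul J
  have hspan : Ideal.span {a} ≠ (⊥ : Ideal (𝓞 L)) := by
    rwa [Ne, Ideal.span_singleton_eq_bot]
  have hN0 : Ideal.absNorm (Ideal.span {a}) ≠ 0 := by
    rwa [Ne, Ideal.absNorm_eq_zero_iff]
  obtain ⟨b, hb⟩ := Ideal.mem_span_singleton'.mp (Ideal.absNorm_mem (Ideal.span {a}))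
  refine ⟨Ideal.absNorm (Ideal.span {a}), Ideal.span {b} * aI, hN0, ?_⟩
  have ha' : algebraMap (𝓞 L) L a ≠ 0 := by
    rwa [Ne, FaithfulSMul.algebraMap_eq_zero_iff]
  have hcast : ((Ideal.absNorm (Ideal.span {a}) : ℕ) : L) =
      algebraMap (𝓞 L) L b * algebraMap (𝓞 L) L a := by
    rw [← map_mul, hb, map_natCast]
  rw [hJ, ← mul_assoc, spanSingleton_mul_spanSingleton, hcast, mul_assoc,
    mul_inv_cancel₀ ha', mul_one, coeIdeal_mul, coeIdeal_span_singleton]

end IdealInvariant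

variable (K L : Type*) [Field K] [NumberField K] [Field L] [NumberField L] [Algebra K L]
  [IsGalois K L]

/-- **WP-L3(b).** In an everywhere unramified Galois extension of number fields, an invertible
fractional ideal is Galois invariant if and only if it is extended from the base field. -/
theorem invariant_iff_mem_range_extK (hun : IsUnramifiedEverywhere K L)
    (J : (FractionalIdeal (𝓞 L)⁰ L)ˣ) :
    (∀ τ : Gal(L/K), τ • J = J) ↔ J ∈ (extK K L).range := by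
  constructor
  · intro hinv
    obtain ⟨N, 𝔄, hN, h𝔄⟩ :=
      IdealInvariant.exists_natCast_mul_eq_coeIdeal (J : FractionalIdeal (𝓞 L)⁰ L)
    have hNK : ((N : ℕ) : K) ≠ 0 := by exact_mod_cast hN
    set c : (FractionalIdeal (𝓞 K)⁰ K)ˣ := toPrincipalIdeal (𝓞 K) K (Units.mk0 (N : K) hNK)
      with hc
    have hcJ : ((extK K L c * J : (FractionalIdeal (𝓞 L)⁰ L)ˣ) : FractionalIdeal (𝓞 L)⁰ L) =
        (𝔄 : FractionalIdeal (𝓞 L)⁰ L) := by
      rw [Units.val_mul, hc, extK_toPrincipalIdeal, coe_toPrincipalIdeal, ← h𝔄]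
      congr 2
      simp
    have h𝔄0 : 𝔄 ≠ ⊥ := by
      intro h
      have h1 := (extK K L c * J).ne_zero
      rw [hcJ, h] at h1
      exact h1 (by simp)
    have h𝔄inv : ∀ τ : Gal(L/K), τ • 𝔄 = 𝔄 := by
      intro τ
      apply FractionalIdeal.coeIdeal_injective (K := L)
      change ((τ • 𝔄 : Ideal (𝓞 L)) : FractionalIdeal (𝓞 L)⁰ L) = (𝔄 : FractionalIdeal (𝓞 L)⁰ L)
      rw [← fracIdealHom_coeIdeal, ← hcJ, ← coe_smul_ideal, smul_mul', smul_extK, hinv τ]
    obtain ⟨𝔞, h𝔞⟩ := IdealInvariant.exists_map_eq_of_invariant hun _ 𝔄 rfl h𝔄0 h𝔄inv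
    have h𝔞0 : 𝔞 ∈ (Ideal (𝓞 K))⁰ := by
      rw [mem_nonZeroDivisors_iff_ne_zero]
      intro h
      apply h𝔄0
      rw [← h𝔞, h, Ideal.zero_eq_bot, Ideal.map_bot]
    have hfin : extK K L c * J = extK K L (FractionalIdeal.mk0 K ⟨𝔞, h𝔞0⟩) := by
      apply Units.ext
      rw [hcJ, coe_extK_mk0, h𝔞]
    refine ⟨c⁻¹ * FractionalIdeal.mk0 K ⟨𝔞, h𝔞0⟩, ?_⟩
    rw [map_mul, map_inv, ← hfin, inv_mul_cancel_left]
  · rintro ⟨I, rfl⟩ τ
    exact smul_extK τ I

end Fermat.Agent.Lib.CFT.Unram
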