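/-
helper38 (P-CFT, S14 fast track, WP-L3(d)).  For a Galois extension `L/K` of number fields the
product of the Galois conjugates of an ideal `𝔄` of `𝓞 L` is the extension of its relative norm.
-/
import Mathlib
import Fermat.Agent.Lib.CFT.Unram.IdealAct

set_option autoImplicit false
set_option linter.unusedSectionVars false

namespace Fermat.Agent.Lib.CFT.Unram

open NumberField FractionalIdeal
open scoped nonZeroDivisors Pointwise

section

variable {K L : Type*} [Field K] [NumberField K] [Field L] [NumberField L] [Algebra K L]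

/-- The Galois action on `𝓞 L` commutes with scalar multiplication by `𝓞 K`. -/
instance smulCommClass_gal_ringOfIntegers : SMulCommClass Gal(L/K) (𝓞 K) (𝓞 L) where
  smul_comm σ r x := by
    apply RingOfIntegers.ext
    change σ ((r • x : 𝓞 L) : L) = ((r • (σ • x) : 𝓞 L) : L)
    rw [Algebra.smul_def, Algebra.smul_def]
    change σ (((algebraMap (𝓞 K) (𝓞 L) r : 𝓞 L) : L) * (x : L)) =
      ((algebraMap (𝓞 K) (𝓞 L) r : 𝓞 L) : L) * σ (x : L)
    rw [map_mul]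
    congr 1
    have : ((algebraMap (𝓞 K) (𝓞 L) r : 𝓞 L) : L) = algebraMap K L (r : K) := rfl
    rw [this, AlgEquiv.commutes]

variable [IsGalois K L]

theorem algebraMap_intNorm_eq_prod (x : 𝓞 L) :
    algebraMap (𝓞 K) (𝓞 L) (Algebra.intNorm (𝓞 K) (𝓞 L) x) = ∏ σ : Gal(L/K), σ • x := by
  apply RingOfIntegers.ext
  have h1 : ((algebraMap (𝓞 K) (𝓞 L) (Algebra.intNorm (𝓞 K) (𝓞 L) x) : 𝓞 L) : L) =
      algebraMap K L (algebraMap (𝓞 K) K (Algebra.intNorm (𝓞 K) (𝓞 L) x)) := rfl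
  rw [h1, Algebra.algebraMap_intNorm (K := K) (L := L), Algebra.norm_eq_prod_automorphisms]
  have h2 : ((∏ σ : Gal(L/K), σ • x : 𝓞 L) : L) = ∏ σ : Gal(L/K), ((σ • x : 𝓞 L) : L) :=
    map_prod (algebraMap (𝓞 L) L) _ _
  rw [h2]
  rfl

theorem map_relNorm_le_prod_smul (I : Ideal (𝓞 L)) :
    (Ideal.relNorm (𝓞 K) I).map (algebraMap (𝓞 K) (𝓞 L)) ≤ ∏ σ : Gal(L/K), σ • I := by
  rw [Ideal.relNorm_apply, Ideal.map_span, Ideal.span_le]
  rintro _ ⟨_, ⟨x, hx, rfl⟩, rfl⟩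
  rw [algebraMap_intNorm_eq_prod]
  apply Ideal.prod_mem_prod
  intro σ _
  exact Ideal.smul_mem_pointwise_smul σ x I hx

theorem relNorm_prod_smul (I : Ideal (𝓞 L)) :
    Ideal.relNorm (𝓞 K) (∏ σ : Gal(L/K), σ • I) =
      Ideal.relNorm (𝓞 K) I ^ Module.finrank K L := by
  rw [map_prod]
  simp only [Ideal.relNorm_smul]
  rw [Finset.prod_const, Finset.card_univ, ← Nat.card_eq_fintype_card,
    IsGalois.card_aut_eq_finrank]

theorem finrank_ringOfIntegers : Module.finrank (𝓞 K) (𝓞 L) = Module.finrank K L :=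
  (IsFractionRing.finrank_eq (𝓞 K) K (𝓞 L) L).symm

theorem relNorm_map_relNorm (I : Ideal (𝓞 L)) :
    Ideal.relNorm (𝓞 K) ((Ideal.relNorm (𝓞 K) I).map (algebraMap (𝓞 K) (𝓞 L))) =
      Ideal.relNorm (𝓞 K) I ^ Module.finrank K L := by
  rw [Ideal.relNorm_algebraMap, finrank_ringOfIntegers]

/-- **Ideal form.** `∏_σ σ(I) = N_{L/K}(I) 𝓞_L` for a Galois extension of number fields. -/
theorem prod_smul_eq_map_relNorm (I : Ideal (𝓞 L)) :
    ∏ σ : Gal(L/K), σ • I = (Ideal.relNorm (𝓞 K) I).map (algebraMap (𝓞 K) (𝓞 L)) := by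
  by_cases hI : I = ⊥
  · subst hI
    rw [Ideal.relNorm_bot, Ideal.map_bot]
    apply Finset.prod_eq_zero (Finset.mem_univ (1 : Gal(L/K)))
    rw [one_smul]
    rfl
  set A := ∏ σ : Gal(L/K), σ • I with hA
  set B := (Ideal.relNorm (𝓞 K) I).map (algebraMap (𝓞 K) (𝓞 L)) with hB
  have hle : B ≤ A := map_relNorm_le_prod_smul I
  obtain ⟨C, hC⟩ := Ideal.dvd_iff_le.mpr hle
  have hN : Ideal.relNorm (𝓞 K) I ≠ ⊥ := by
    rw [Ne, Ideal.relNorm_eq_bot_iff]
    exact hI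
  have h1 : Ideal.relNorm (𝓞 K) B = Ideal.relNorm (𝓞 K) A * Ideal.relNorm (𝓞 K) C := by
    rw [hC, map_mul]
  rw [hB, relNorm_map_relNorm, hA, relNorm_prod_smul] at h1
  have h2 : Ideal.relNorm (𝓞 K) C = 1 := by
    have hne : Ideal.relNorm (𝓞 K) I ^ Module.finrank K L ≠ 0 := pow_ne_zero _ hN
    have : Ideal.relNorm (𝓞 K) I ^ Module.finrank K L * 1 =
        Ideal.relNorm (𝓞 K) I ^ Module.finrank K L * Ideal.relNorm (𝓞 K) C := by
      rw [mul_one]; exact h1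
    exact (mul_left_cancel₀ hne this).symm
  have h3 : C = ⊤ := by
    have := Ideal.relNorm_le_comap (𝓞 K) C
    rw [h2, Ideal.one_eq_top, top_le_iff] at this
    rw [Ideal.eq_top_iff_one]
    have h1mem : (1 : 𝓞 K) ∈ Ideal.comap (algebraMap (𝓞 K) (𝓞 L)) C := by
      rw [this]; trivial
    rw [Ideal.mem_comap, map_one] at h1mem
    exact h1mem
  rw [hC, h3, Ideal.mul_top]

theorem coeIdeal_prod_univ {ι : Type*} [Fintype ι] (f : ι → Ideal (𝓞 L)) :
    ((∏ i, f i : Ideal (𝓞 L)) : FractionalIdeal (𝓞 L)⁰ L) =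
      ∏ i, (f i : FractionalIdeal (𝓞 L)⁰ L) :=
  map_prod (FractionalIdeal.coeIdealHom (𝓞 L)⁰ L) f Finset.univ

/-- **WP-L3(d).** `∏_τ τ • 𝔄 = N_{L/K}(𝔄) 𝓞_L` in the group of invertible fractional ideals. -/
theorem prod_smul_eq_extK_relNorm (𝔄 : (Ideal (𝓞 L))⁰) :
    ∏ τ : Gal(L/K), τ • (FractionalIdeal.mk0 L 𝔄 : (FractionalIdeal (𝓞 L)⁰ L)ˣ) =
      extK K L (FractionalIdeal.mk0 K (relNorm0 K L 𝔄)) := by
  apply Units.ext
  rw [Units.coe_prod, coe_extK_mk0, coe_relNorm0, ← prod_smul_eq_map_relNorm, coeIdeal_prod_univ]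
  exact Finset.prod_congr rfl fun τ _ => coe_smul_mk0 τ 𝔄

variable (K L) in
/-- The same statement with the name and explicit arguments `(K L)` of helper91's WP-L3
interface note. -/
theorem prod_smul_mk0_eq_extK (𝔄 : (Ideal (𝓞 L))⁰) :
    ∏ τ : Gal(L/K), τ • FractionalIdeal.mk0 L 𝔄 =
      extK K L (FractionalIdeal.mk0 K (relNorm0 K L 𝔄)) :=
  prod_smul_eq_extK_relNorm 𝔄

end

end Fermat.Agent.Lib.CFT.Unram
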