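/-
helper93 (P-CFT, S14 fast track, WP-L glue).  The index `[I_L^G : N(I_L) · P_K]`, computed inside
the group of invertible fractional ideals of `L`, equals the index of `normClasses K L` in the class
group of `K` (for an everywhere unramified Galois extension `L/K` of number fields).
-/
import Mathlib
import Fermat.Agent.Lib.CFT.Unram.IdealInvariant
import Fermat.Agent.Lib.CFT.Unram.IdealNormProd

set_option autoImplicit false
set_option linter.unusedSectionVars false

namespace Fermat.Agent.Lib.CFT.Unram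

open NumberField FractionalIdeal
open scoped nonZeroDivisors Pointwise

section

variable (K L : Type*) [Field K] [NumberField K] [Field L] [NumberField L] [Algebra K L]

/-- The subgroup of the ideal group of `K` generated by the norms of the nonzero integral ideals
of `L`. -/
noncomputable def normIdeals : Subgroup (FractionalIdeal (𝓞 K)⁰ K)ˣ :=
  Subgroup.closure
    (Set.range fun 𝔄 : (Ideal (𝓞 L))⁰ => FractionalIdeal.mk0 K (relNorm0 K L 𝔄))

/-- The classes of the norm ideals are the norm classes. -/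
theorem map_mk_normIdeals :
    (normIdeals K L).map (ClassGroup.mk (R := 𝓞 K) (K := K)) = normClasses K L := by
  unfold normIdeals normClasses
  rw [MonoidHom.map_closure]
  congr 1
  ext c
  constructor
  · rintro ⟨_, ⟨𝔄, rfl⟩, rfl⟩
    exact ⟨𝔄, (ClassGroup.mk_mk0 K _).symm⟩
  · rintro ⟨𝔄, rfl⟩
    exact ⟨_, ⟨𝔄, rfl⟩, ClassGroup.mk_mk0 K _⟩

theorem classGroup_mk_surjective :
    Function.Surjective (ClassGroup.mk (R := 𝓞 K) (K := K)) := by
  intro c
  obtain ⟨I, rfl⟩ := ClassGroup.mk0_surjective c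
  exact ⟨FractionalIdeal.mk0 K I, ClassGroup.mk_mk0 K I⟩

theorem classGroup_mk_ker :
    (ClassGroup.mk (R := 𝓞 K) (K := K)).ker = (toPrincipalIdeal (𝓞 K) K).range := by
  ext I
  rw [MonoidHom.mem_ker, ClassGroup.mk_eq_one_iff, mem_principal_ideals_iff,
    FractionalIdeal.isPrincipal_iff]
  constructor
  · rintro ⟨x, hx⟩
    exact ⟨x, hx.symm⟩
  · rintro ⟨x, hx⟩
    exact ⟨x, hx.symm⟩

/-- `[I_K : N(I_L) · P_K] = [Cl_K : normClasses]`. -/
theorem index_normIdeals_sup_principal :
    (normIdeals K L ⊔ (toPrincipalIdeal (𝓞 K) K).range).index = (normClasses K L).index := by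
  rw [← map_mk_normIdeals, Subgroup.index_map, classGroup_mk_ker,
    MonoidHom.range_eq_top.mpr (classGroup_mk_surjective K), Subgroup.index_top, mul_one]

variable {L} in
/-- Every invertible fractional ideal is a quotient of two nonzero integral ideals. -/
theorem exists_mul_mk0_eq_mk0 (J : (FractionalIdeal (𝓞 L)⁰ L)ˣ) :
    ∃ 𝔄 𝔅 : (Ideal (𝓞 L))⁰, J * FractionalIdeal.mk0 L 𝔅 = FractionalIdeal.mk0 L 𝔄 := by
  obtain ⟨a, aI, ha, hJ⟩ := exists_eq_spanSingleton_mul (J : FractionalIdeal (𝓞 L)⁰ L)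
  have haI : aI ≠ ⊥ := by
    rintro rfl
    apply J.ne_zero
    rw [hJ]
    simp
  have ha' : Ideal.span {a} ≠ ⊥ := by
    rwa [Ne, Ideal.span_singleton_eq_bot]
  refine ⟨⟨aI, mem_nonZeroDivisors_iff_ne_zero.mpr haI⟩,
    ⟨Ideal.span {a}, mem_nonZeroDivisors_iff_ne_zero.mpr ha'⟩, ?_⟩
  apply Units.ext
  rw [Units.val_mul, FractionalIdeal.coe_mk0, FractionalIdeal.coe_mk0]
  conv_lhs => rw [hJ]
  rw [coeIdeal_span_singleton, mul_comm, ← mul_assoc, spanSingleton_mul_spanSingleton,
    mul_inv_cancel₀ (by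
      rwa [Ne, IsFractionRing.to_map_eq_zero_iff]), spanSingleton_one, one_mul]

end

section Galois

open scoped Fermat.Agent.Lib.CFT.Unram

variable (K L : Type*) [Field K] [NumberField K] [Field L] [NumberField L] [Algebra K L]
  [IsGalois K L]

/-- The norm `J ↦ ∏ τ, τ • J` as an endomorphism of the ideal group of `L`. -/
noncomputable def idealNormHom :
    (FractionalIdeal (𝓞 L)⁰ L)ˣ →* (FractionalIdeal (𝓞 L)⁰ L)ˣ where
  toFun J := ∏ τ : Gal(L/K), τ • J
  map_one' := by simp
  map_mul' J J' := by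
    simp only [smul_mul']
    exact Finset.prod_mul_distrib

@[simp] lemma idealNormHom_apply (J : (FractionalIdeal (𝓞 L)⁰ L)ˣ) :
    idealNormHom K L J = ∏ τ : Gal(L/K), τ • J := rfl

/-- The norms of ideals of `L`, viewed in `L`, are the extensions of the norm ideals of `K`. -/
theorem range_idealNormHom :
    (idealNormHom K L).range = (normIdeals K L).map (extK K L) := by
  apply le_antisymm
  · rintro _ ⟨J, rfl⟩
    obtain ⟨𝔄, 𝔅, h⟩ := exists_mul_mk0_eq_mk0 J
    have hJ : J = FractionalIdeal.mk0 L 𝔄 * (FractionalIdeal.mk0 L 𝔅)⁻¹ := by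
      rw [← h, mul_assoc, mul_inv_cancel, mul_one]
    rw [hJ, map_mul, map_inv, idealNormHom_apply, idealNormHom_apply,
      prod_smul_mk0_eq_extK, prod_smul_mk0_eq_extK, ← map_inv, ← map_mul]
    refine Subgroup.mem_map_of_mem _ (Subgroup.mul_mem _ ?_ (Subgroup.inv_mem _ ?_))
    · exact Subgroup.subset_closure ⟨𝔄, rfl⟩
    · exact Subgroup.subset_closure ⟨𝔅, rfl⟩
  · unfold normIdeals
    rw [MonoidHom.map_closure, Subgroup.closure_le]
    rintro _ ⟨_, ⟨𝔄, rfl⟩, rfl⟩
    exact ⟨FractionalIdeal.mk0 L 𝔄, prod_smul_mk0_eq_extK K L 𝔄⟩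

/-- The principal ideals of `L` generated by elements of `K` are the extensions of the principal
ideals of `K`. -/
theorem map_extK_principal :
    (toPrincipalIdeal (𝓞 K) K).range.map (extK K L) =
      ((toPrincipalIdeal (𝓞 L) L).comp (Units.map (algebraMap K L : K →* L))).range := by
  ext J
  constructor
  · rintro ⟨_, ⟨x, rfl⟩, rfl⟩
    exact ⟨x, (extK_toPrincipalIdeal x).symm⟩
  · rintro ⟨x, rfl⟩
    exact ⟨_, ⟨x, rfl⟩, extK_toPrincipalIdeal x⟩

/-- **The index `[I_L^G : N(I_L) · P_K]` is the index of the norm classes.**  The three subgroups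
are given by their membership predicates, so that any concrete description can be plugged in. -/
theorem relIndex_eq_index_normClasses (hun : IsUnramifiedEverywhere K L)
    (Inv NR PK : Subgroup (FractionalIdeal (𝓞 L)⁰ L)ˣ)
    (hInv : ∀ J, J ∈ Inv ↔ ∀ τ : Gal(L/K), τ • J = J)
    (hNR : ∀ J, J ∈ NR ↔ ∃ J', ∏ τ : Gal(L/K), τ • J' = J)
    (hPK : ∀ J, J ∈ PK ↔
      ∃ x : Kˣ, toPrincipalIdeal (𝓞 L) L (Units.map (algebraMap K L : K →* L) x) = J) :
    (NR ⊔ PK).relIndex Inv = (normClasses K L).index := by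
  have e1 : Inv = (⊤ : Subgroup (FractionalIdeal (𝓞 K)⁰ K)ˣ).map (extK K L) := by
    ext J
    rw [hInv, invariant_iff_mem_range_extK K L hun J, ← MonoidHom.range_eq_map]
  have e2 : NR = (normIdeals K L).map (extK K L) := by
    rw [← range_idealNormHom]
    ext J
    rw [hNR]
    rfl
  have e3 : PK = (toPrincipalIdeal (𝓞 K) K).range.map (extK K L) := by
    rw [map_extK_principal]
    ext J
    rw [hPK]
    rfl
  rw [e1, e2, e3, ← Subgroup.map_sup,
    Subgroup.relIndex_map_map_of_injective _ _ extK_injective, Subgroup.relIndex_top_right,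
    index_normIdeals_sup_principal]

/-- Additive version of `relIndex_eq_index_normClasses`. -/
theorem relIndex_eq_index_normClasses_additive (hun : IsUnramifiedEverywhere K L)
    (Inv NR PK : AddSubgroup (Additive (FractionalIdeal (𝓞 L)⁰ L)ˣ))
    (hInv : ∀ J, Additive.ofMul J ∈ Inv ↔ ∀ τ : Gal(L/K), τ • J = J)
    (hNR : ∀ J, Additive.ofMul J ∈ NR ↔ ∃ J', ∏ τ : Gal(L/K), τ • J' = J)
    (hPK : ∀ J, Additive.ofMul J ∈ PK ↔
      ∃ x : Kˣ, toPrincipalIdeal (𝓞 L) L (Units.map (algebraMap K L : K →* L) x) = J) :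
    (NR ⊔ PK).relIndex Inv = (normClasses K L).index := by
  have h := relIndex_eq_index_normClasses K L hun (AddSubgroup.toSubgroup' Inv)
    (AddSubgroup.toSubgroup' NR) (AddSubgroup.toSubgroup' PK) hInv hNR hPK
  rw [← h, ← Subgroup.relIndex_toAddSubgroup]
  congr 1
  · rw [map_sup]
    rfl

end Galois

end Fermat.Agent.Lib.CFT.Unram
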