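/-
helper93 (P-CFT, S14 fast track, WP-L glue).  The index appearing in the abstract lower bound
(`subIndex_le_mul` of `HexagonBound.lean`), instantiated with the operators of
`LowerBoundSetup.lean`, is the index of the norm classes.
-/
import Mathlib
import Fermat.Agent.Lib.CFT.Unram.LowerBoundSetup
import Fermat.Agent.Lib.CFT.Unram.NormClassesIndex

set_option autoImplicit false
set_option linter.unusedSectionVars false

namespace Fermat.Agent.Lib.CFT.Unram

open NumberField FractionalIdeal
open scoped nonZeroDivisors Pointwise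

namespace LB

variable {K L : Type*} [Field K] [NumberField K] [Field L] [NumberField L] [Algebra K L]
  [IsGalois K L]

/-- Something fixed by a generator of the Galois group is fixed by all of it. -/
theorem smul_eq_of_forall_mem_zpowers {σ : Gal(L/K)}
    (hgen : ∀ τ : Gal(L/K), τ ∈ Subgroup.zpowers σ) {X : Type*} [MulAction Gal(L/K) X] {x : X}
    (hx : σ • x = x) (τ : Gal(L/K)) : τ • x = x := by
  have hle : Subgroup.zpowers σ ≤ MulAction.stabilizer Gal(L/K) x := by
    rw [Subgroup.zpowers_le]
    exact hx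
  exact hle (hgen τ)

/-- In a Galois extension of prime degree every nontrivial automorphism generates the Galois
group. -/
theorem forall_mem_zpowers_of_prime_degree {p : ℕ} (hp : p.Prime)
    (hdeg : Module.finrank K L = p) {σ : Gal(L/K)} (hσ : σ ≠ 1) (τ : Gal(L/K)) :
    τ ∈ Subgroup.zpowers σ := by
  have hcard : Nat.card Gal(L/K) = p := by
    rw [IsGalois.card_aut_eq_finrank, hdeg]
  have : Fact p.Prime := ⟨hp⟩
  exact mem_zpowers_of_prime_card hcard hσ

theorem mem_ker_DI_iff {σ : Gal(L/K)} (hgen : ∀ τ : Gal(L/K), τ ∈ Subgroup.zpowers σ)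
    (J : (FractionalIdeal (𝓞 L)⁰ L)ˣ) :
    Additive.ofMul J ∈ (DI K L σ).ker ↔ ∀ τ : Gal(L/K), τ • J = J := by
  rw [AddMonoidHom.mem_ker, DI_apply, toMul_ofMul, ofMul_eq_zero, div_eq_one]
  constructor
  · intro h τ
    exact smul_eq_of_forall_mem_zpowers hgen h τ
  · intro h
    exact h σ

theorem mem_range_NI_iff (J : (FractionalIdeal (𝓞 L)⁰ L)ˣ) :
    Additive.ofMul J ∈ (NI K L).range ↔ ∃ J', ∏ τ : Gal(L/K), τ • J' = J := by
  constructor
  · rintro ⟨J', hJ'⟩
    refine ⟨J'.toMul, ?_⟩
    rw [NI_apply] at hJ'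
    exact Additive.ofMul.injective hJ'
  · rintro ⟨J', rfl⟩
    refine ⟨Additive.ofMul J', ?_⟩
    rw [NI_apply, toMul_ofMul]

theorem mem_map_phi_ker_DB_iff {σ : Gal(L/K)}
    (hgen : ∀ τ : Gal(L/K), τ ∈ Subgroup.zpowers σ) (J : (FractionalIdeal (𝓞 L)⁰ L)ˣ) :
    Additive.ofMul J ∈ (DB K L σ).ker.map (phi L) ↔
      ∃ x : Kˣ, toPrincipalIdeal (𝓞 L) L (Units.map (algebraMap K L : K →* L) x) = J := by
  constructor
  · rintro ⟨y, hy, hyJ⟩
    rw [SetLike.mem_coe, AddMonoidHom.mem_ker, DB_apply, ofMul_eq_zero, div_eq_one] at hy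
    rw [phi_apply] at hyJ
    have hyJ' : toPrincipalIdeal (𝓞 L) L y.toMul = J := Additive.ofMul.injective hyJ
    have hfix : ∀ τ : Gal(L/K), τ ((y.toMul : Lˣ) : L) = ((y.toMul : Lˣ) : L) := by
      intro τ
      have h := smul_eq_of_forall_mem_zpowers hgen hy τ
      have h2 := congrArg (fun u : Lˣ => (u : L)) h
      simpa using h2
    obtain ⟨k, hk⟩ := (IsGalois.mem_range_algebraMap_iff_fixed (F := K) (E := L) _).mpr hfix
    have hk0 : k ≠ 0 := by
      rintro rfl
      rw [map_zero] at hk
      exact (y.toMul).ne_zero hk.symm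
    refine ⟨Units.mk0 k hk0, ?_⟩
    rw [← hyJ']
    congr 1
    apply Units.ext
    simpa using hk
  · rintro ⟨x, rfl⟩
    refine ⟨Additive.ofMul (Units.map (algebraMap K L : K →* L) x), ?_, ?_⟩
    · rw [SetLike.mem_coe, AddMonoidHom.mem_ker, DB_apply, ofMul_eq_zero, div_eq_one, toMul_ofMul]
      apply Units.ext
      simp
    · rw [phi_apply, toMul_ofMul]

/-- **The index of the abstract lower bound is the index of the norm classes** (`σ` a generator of
the Galois group). -/
theorem relIndex_eq_index_normClasses_of_generator (hun : IsUnramifiedEverywhere K L)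
    {σ : Gal(L/K)} (hgen : ∀ τ : Gal(L/K), τ ∈ Subgroup.zpowers σ) :
    ((NI K L).range ⊔ (DB K L σ).ker.map (phi L)).relIndex (DI K L σ).ker =
      (normClasses K L).index :=
  relIndex_eq_index_normClasses_additive K L hun _ _ _ (mem_ker_DI_iff hgen)
    mem_range_NI_iff (mem_map_phi_ker_DB_iff hgen)

/-- **The index of the abstract lower bound is the index of the norm classes** (prime degree). -/
theorem relIndex_eq_index_normClasses {p : ℕ} (hp : p.Prime) (hdeg : Module.finrank K L = p)
    {σ : Gal(L/K)} (hσ : σ ≠ 1) (hun : IsUnramifiedEverywhere K L) :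
    ((NI K L).range ⊔ (DB K L σ).ker.map (phi L)).relIndex (DI K L σ).ker =
      (normClasses K L).index :=
  relIndex_eq_index_normClasses_of_generator hun (forall_mem_zpowers_of_prime_degree hp hdeg hσ)

variable (K L) in
/-- The statement in the shape requested for the final assembly of the lower bound. -/
theorem relIndex_dvd_index_normClasses (hun : IsUnramifiedEverywhere K L) (σ : Gal(L/K))
    (hσ : ∀ τ : Gal(L/K), τ ∈ Subgroup.zpowers σ) :
    ((NI K L).range ⊔ (DB K L σ).ker.map (phi L)).relIndex (DI K L σ).ker ∣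
      (normClasses K L).index :=
  (relIndex_eq_index_normClasses_of_generator hun hσ).dvd

end LB

end Fermat.Agent.Lib.CFT.Unram
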