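/-
helper94 (S14 fast track, lower bound package): Herbrand quotient of a module over a cyclic group of
prime order `p` (Chevalley's formula, Lang ANT IX.4):
  `h(M)^(p-1) = q_{0,p}(M^G)^p / q_{0,p}(M)`,
and for finitely generated `M`: `h(M)^(p-1) = p^(p * rank M^G - rank M)`.
Built on helper58's `Herbrand` library (`herbrandCyc`, `powQuot`).
-/
import Fermat.Agent.Lib.CFT.HerbrandCyclic

set_option autoImplicit false

namespace Fermat.Agent.Lib.CFT.Unram.HerbrandRank

open Fermat.Agent.Lib.CFT.Herbrand Polynomial Finset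

section ZIndex

variable {B : Type*} [AddCommGroup B]

theorem hIndex_zero_left (φ : B →+ B) : hIndex (0 : B →+ B) φ = φ.range.index := by
  unfold hIndex
  rw [AddMonoidHom.ker_zero, AddSubgroup.relIndex_top_right]

theorem hIndex_zero_right (φ : B →+ B) : hIndex φ (0 : B →+ B) = Nat.card φ.ker := by
  unfold hIndex
  rw [AddMonoidHom.range_zero, AddSubgroup.relIndex_bot_left]

theorem isFin_zero_iff (φ : B →+ B) :
    IsFin (0 : B →+ B) φ ↔ φ.range.index ≠ 0 ∧ Nat.card φ.ker ≠ 0 := by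
  unfold IsFin
  rw [hIndex_zero_left, hIndex_zero_right]

theorem isFin_swap (f g : B →+ B) : IsFin f g ↔ IsFin g f := by
  unfold IsFin
  exact and_comm

theorem herbrand_swap (f g : B →+ B) : herbrand f g = (herbrand g f)⁻¹ := by
  unfold herbrand
  rw [inv_div]

theorem herbrand_zero_eq (φ : B →+ B) :
    herbrand (0 : B →+ B) φ = (φ.range.index : ℚ) / (Nat.card φ.ker : ℚ) := by
  unfold herbrand
  rw [hIndex_zero_left, hIndex_zero_right]

/-- the kernel of a composite: `|ker (φ ∘ ψ)| = |ker ψ| * |ker φ ∩ im ψ|`. -/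
theorem card_ker_comp (φ ψ : B →+ B) :
    Nat.card (φ.comp ψ).ker = Nat.card ψ.ker * Nat.card ↥(φ.ker ⊓ ψ.range) := by
  -- restrict ψ to ker (φ ∘ ψ)
  let K := (φ.comp ψ).ker
  let ψK : K →+ B := ψ.comp K.subtype
  have hker : Nat.card ψK.ker = Nat.card ψ.ker := by
    apply Nat.card_congr
    refine ⟨fun x => ⟨x.1.1, x.2⟩, fun y => ⟨⟨y.1, ?_⟩, y.2⟩, fun x => rfl, fun y => rfl⟩
    show φ (ψ y.1) = 0
    rw [show ψ y.1 = 0 from y.2, map_zero]
  have hrange : ψK.range = φ.ker ⊓ ψ.range := by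
    ext b
    constructor
    · rintro ⟨x, rfl⟩
      exact ⟨x.2, ⟨x.1, rfl⟩⟩
    · rintro ⟨hb, ⟨a, rfl⟩⟩
      exact ⟨⟨a, hb⟩, rfl⟩
  have h1 := AddSubgroup.card_mul_index ψK.ker
  rw [AddSubgroup.index_ker, hker, hrange] at h1
  exact h1.symm


/-- the image of a composite: `[B : φ ψ B] = [B : ψ B] * [ψ B : φ ψ B]`. -/
theorem index_range_comp (φ ψ : B →+ B) (hc : ∀ x, φ (ψ x) = ψ (φ x)) :
    (φ.comp ψ).range.index = (φ.comp ψ).range.relIndex ψ.range * ψ.range.index := by
  have hle : (φ.comp ψ).range ≤ ψ.range := by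
    rintro _ ⟨x, rfl⟩
    exact ⟨φ x, (hc x).symm⟩
  exact (AddSubgroup.relIndex_mul_index hle).symm


/-- multiplicativity of the generalized index `[B : φ B] / |ker φ|` for commuting endomorphisms. -/
theorem herbrand_zero_comp (φ ψ : B →+ B) (hc : ∀ x, φ (ψ x) = ψ (φ x))
    (hφ : IsFin (0 : B →+ B) φ) (hψ : IsFin (0 : B →+ B) ψ) :
    IsFin (0 : B →+ B) (φ.comp ψ) ∧
      herbrand (0 : B →+ B) (φ.comp ψ) = herbrand (0 : B →+ B) φ * herbrand (0 : B →+ B) ψ := by
  have hφS : ∀ a ∈ ψ.range, φ a ∈ ψ.range := by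
    rintro _ ⟨x, rfl⟩
    exact ⟨φ x, (hc x).symm⟩
  have h0S : ∀ a ∈ ψ.range, (0 : B →+ B) a ∈ ψ.range := fun a _ => ψ.range.zero_mem
  have hψi : ψ.range.index ≠ 0 := ((isFin_zero_iff ψ).mp hψ).1
  obtain ⟨hiff, heq⟩ := herbrand_resEnd_of_finiteIndex (f := (0 : B →+ B)) (g := φ)
    (fun x => rfl) (fun x => map_zero φ) ψ.range h0S hφS hψi
  have hres0 : resEnd (0 : B →+ B) ψ.range h0S = 0 := by
    ext x; rfl
  rw [hres0] at hiff heq
  have hφ' : IsFin (0 : ψ.range →+ ψ.range) (resEnd φ ψ.range hφS) := hiff.mpr hφ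
  -- identify range and kernel of the restriction
  have hrange : (resEnd φ ψ.range hφS).range = (φ.comp ψ).range.addSubgroupOf ψ.range := by
    ext x
    constructor
    · rintro ⟨⟨_, ⟨a, rfl⟩⟩, rfl⟩
      exact ⟨a, rfl⟩
    · rintro ⟨a, ha⟩
      exact ⟨⟨ψ a, ⟨a, rfl⟩⟩, Subtype.ext ha⟩
  have hker : Nat.card (resEnd φ ψ.range hφS).ker = Nat.card ↥(φ.ker ⊓ ψ.range) := by
    apply Nat.card_congr
    refine ⟨fun x => ⟨x.1.1, ?_, x.1.2⟩, fun y => ⟨⟨y.1, y.2.2⟩, ?_⟩, fun x => rfl, fun y => rfl⟩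
    · have := x.2
      exact congrArg Subtype.val this
    · apply Subtype.ext
      exact y.2.1
  have hidx : (resEnd φ ψ.range hφS).range.index = (φ.comp ψ).range.relIndex ψ.range := by
    rw [hrange]; rfl
  rw [isFin_zero_iff] at hφ' hψ ⊢
  rw [herbrand_zero_eq, hidx, hker] at heq
  rw [hidx, hker] at hφ'
  rw [herbrand_zero_eq (φ.comp ψ), herbrand_zero_eq ψ, ← heq, card_ker_comp,
    index_range_comp φ ψ hc]
  refine ⟨⟨Nat.mul_ne_zero hφ'.1 hψ.1, Nat.mul_ne_zero hψ.2 hφ'.2⟩, ?_⟩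
  push_cast
  have h1 : (Nat.card ψ.ker : ℚ) ≠ 0 := by exact_mod_cast hψ.2
  have h2 : (Nat.card ↥(φ.ker ⊓ ψ.range) : ℚ) ≠ 0 := by exact_mod_cast hφ'.2
  field_simp

/-- endomorphisms with the same kernel and image have the same generalized index. -/
theorem herbrand_zero_congr {φ ψ : B →+ B} (hk : φ.ker = ψ.ker) (hr : φ.range = ψ.range) :
    (IsFin (0 : B →+ B) φ ↔ IsFin (0 : B →+ B) ψ) ∧
      herbrand (0 : B →+ B) φ = herbrand (0 : B →+ B) ψ := by
  rw [isFin_zero_iff, isFin_zero_iff, herbrand_zero_eq, herbrand_zero_eq, hk, hr]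
  exact ⟨Iff.rfl, rfl⟩

end ZIndex

/-- `p ≡ ∏_{1 ≤ j < p} (1 - X^j)` modulo the `p`-th cyclotomic polynomial. -/
theorem cyclotomic_dvd_sub_prod {p : ℕ} (hp : p.Prime) :
    cyclotomic p ℤ ∣ C (p : ℤ) - ∏ k ∈ range (p - 1), (1 - X ^ (k + 1)) := by
  have hζ : IsPrimitiveRoot (Complex.exp (2 * Real.pi * Complex.I / p)) p :=
    Complex.isPrimitiveRoot_exp p hp.ne_zero
  rw [cyclotomic_eq_minpoly hζ hp.pos]
  apply minpoly.isIntegrallyClosed_dvd (hζ.isIntegral hp.pos)
  have hp1 : p - 1 + 1 = p := Nat.sub_add_cancel hp.one_le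
  have hζ' : IsPrimitiveRoot (Complex.exp (2 * Real.pi * Complex.I / p)) (p - 1 + 1) := by
    rw [hp1]; exact hζ
  have key := hζ'.prod_one_sub_pow_eq_order
  simp only [map_sub, map_prod, map_one, map_pow, aeval_X, aeval_C]
  rw [key]
  have : ((p - 1 : ℕ) : ℂ) + 1 = (p : ℂ) := by
    exact_mod_cast congrArg (Nat.cast (R := ℂ)) hp1
  rw [this]
  simp

variable {B : Type*} [AddCommGroup B]

section Operator

/-- the generalized index `[B : φ B] / |ker φ|` of a `ℤ`-linear endomorphism. -/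
noncomputable def zq (φ : Module.End ℤ B) : ℚ := herbrand (0 : B →+ B) φ.toAddMonoidHom

/-- kernel and cokernel of `φ` are finite. -/
def ZFin (φ : Module.End ℤ B) : Prop := IsFin (0 : B →+ B) φ.toAddMonoidHom

theorem zFin_one : ZFin (1 : Module.End ℤ B) ∧ zq (1 : Module.End ℤ B) = 1 := by
  have hr : ((1 : Module.End ℤ B).toAddMonoidHom).range = ⊤ := by
    rw [AddSubgroup.eq_top_iff']
    intro x
    exact ⟨x, rfl⟩
  have hk : ((1 : Module.End ℤ B).toAddMonoidHom).ker = ⊥ := by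
    rw [AddSubgroup.eq_bot_iff_forall]
    intro x hx
    exact hx
  unfold ZFin zq
  rw [isFin_zero_iff, herbrand_zero_eq, hr, hk]
  simp

theorem zFin_mul {φ ψ : Module.End ℤ B} (hc : Commute φ ψ) (hφ : ZFin φ) (hψ : ZFin ψ) :
    ZFin (φ * ψ) ∧ zq (φ * ψ) = zq φ * zq ψ := by
  have h := herbrand_zero_comp φ.toAddMonoidHom ψ.toAddMonoidHom
    (fun x => by
      have := congrArg (fun f : Module.End ℤ B => f x) hc.eq
      exact this) hφ hψ
  exact h

theorem zq_congr {φ ψ : Module.End ℤ B} (h1 : ∃ u, φ = ψ * u) (h2 : ∃ u, φ = u * ψ)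
    (h3 : ∃ u, ψ = φ * u) (h4 : ∃ u, ψ = u * φ) :
    (ZFin φ ↔ ZFin ψ) ∧ zq φ = zq ψ := by
  apply herbrand_zero_congr
  · ext x
    simp only [AddMonoidHom.mem_ker, LinearMap.toAddMonoidHom_coe]
    constructor
    · intro hx
      obtain ⟨u, rfl⟩ := h4
      simp [hx]
    · intro hx
      obtain ⟨u, rfl⟩ := h2
      simp [hx]
  · ext x
    simp only [AddMonoidHom.mem_range, LinearMap.toAddMonoidHom_coe]
    constructor
    · rintro ⟨y, rfl⟩
      obtain ⟨u, rfl⟩ := h1
      exact ⟨u y, rfl⟩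
    · rintro ⟨y, rfl⟩
      obtain ⟨u, rfl⟩ := h3
      exact ⟨u y, rfl⟩

theorem zq_natCast (n : ℕ) : zq (n : Module.End ℤ B) = powQuot B n ∧
    (ZFin (n : Module.End ℤ B) ↔ PowFin B n) := by
  have : (n : Module.End ℤ B).toAddMonoidHom = nsmulAddMonoidHom n := by
    ext x
    simp
  unfold zq ZFin powQuot PowFin
  rw [this]
  exact ⟨rfl, Iff.rfl⟩

end Operator

section Cyclo

variable {p : ℕ} (hp : p.Prime) (σ : Module.End ℤ B) (hN : ∑ i ∈ range p, σ ^ i = 0)

include hp hN

omit hp in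
theorem pow_prime_eq_one : σ ^ p = 1 := by
  have := mul_geom_sum σ p
  rw [hN, mul_zero] at this
  exact (sub_eq_zero.mp this.symm)

theorem aeval_cyclotomic_eq_zero : aeval σ (cyclotomic p ℤ) = 0 := by
  have := Fact.mk hp
  rw [cyclotomic_prime ℤ p]
  simp only [map_sum, map_pow, aeval_X]
  exact hN

theorem aeval_prod_eq_natCast :
    aeval σ (∏ k ∈ range (p - 1), (1 - X ^ (k + 1)) : ℤ[X]) = (p : Module.End ℤ B) := by
  obtain ⟨Q, hQ⟩ := cyclotomic_dvd_sub_prod hp
  have := congrArg (aeval σ) hQ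
  rw [map_sub, map_mul, aeval_cyclotomic_eq_zero hp σ hN, zero_mul, sub_eq_zero] at this
  rw [← this]
  simp

/-- `1 - σ^j` and `1 - σ` divide each other (on both sides) for `1 ≤ j < p`. -/
theorem zq_one_sub_pow {j : ℕ} (hj1 : 1 ≤ j) (hjp : j < p) :
    (ZFin (1 - σ ^ j) ↔ ZFin (1 - σ)) ∧ zq (1 - σ ^ j) = zq (1 - σ) := by
  have hcop : Nat.Coprime j p :=
    (Nat.coprime_of_lt_prime (by omega) hjp hp).symm
  obtain ⟨j', -, hj'⟩ := Nat.exists_mul_mod_eq_one_of_coprime hcop hp.one_lt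
  have hjj : j * j' = p * (j * j' / p) + 1 := by
    have := Nat.div_add_mod (j * j') p
    omega
  have hσ : (σ ^ j) ^ j' = σ := by
    rw [← pow_mul, hjj, pow_add, pow_mul, pow_prime_eq_one σ hN, one_pow, one_mul, pow_one]
  apply zq_congr
  · exact ⟨∑ i ∈ range j, σ ^ i, (mul_neg_geom_sum σ j).symm⟩
  · exact ⟨∑ i ∈ range j, σ ^ i, (geom_sum_mul_neg σ j).symm⟩
  · refine ⟨∑ i ∈ range j', (σ ^ j) ^ i, ?_⟩
    rw [mul_neg_geom_sum, hσ]
  · refine ⟨∑ i ∈ range j', (σ ^ j) ^ i, ?_⟩
    rw [geom_sum_mul_neg, hσ]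


/-- `1 - σ` has finite kernel and cokernel when `p` does. -/
theorem zFin_one_sub (hfin : PowFin B p) : ZFin (1 - σ) := by
  -- `p = (1 - σ) * W(σ) = W(σ) * (1 - σ)`
  have hdvd : (1 - X : ℤ[X]) ∣ ∏ k ∈ range (p - 1), (1 - X ^ (k + 1)) := by
    have h0 : 0 ∈ range (p - 1) := by
      rw [mem_range]
      have := hp.two_le
      omega
    have := Finset.dvd_prod_of_mem (fun k => (1 - X ^ (k + 1) : ℤ[X])) h0
    simpa using this
  obtain ⟨W, hW⟩ := hdvd
  have h1 : (p : Module.End ℤ B) = (1 - σ) * aeval σ W := by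
    rw [← aeval_prod_eq_natCast hp σ hN, hW, map_mul]
    simp
  have h2 : (p : Module.End ℤ B) = aeval σ W * (1 - σ) := by
    rw [← aeval_prod_eq_natCast hp σ hN, hW, mul_comm, map_mul]
    simp
  have hpfin : ZFin (p : Module.End ℤ B) := (zq_natCast (B := B) p).2.mpr hfin
  unfold ZFin at hpfin ⊢
  rw [isFin_zero_iff] at hpfin ⊢
  constructor
  · have hle : ((p : Module.End ℤ B).toAddMonoidHom).range ≤ ((1 - σ).toAddMonoidHom).range := by
      rintro _ ⟨x, rfl⟩
      refine ⟨aeval σ W x, ?_⟩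
      have := congrArg (fun f : Module.End ℤ B => f x) h1
      exact this.symm
    exact fun h0 => hpfin.1 (Nat.eq_zero_of_zero_dvd (h0 ▸ AddSubgroup.index_dvd_of_le hle))
  · have hle : ((1 - σ).toAddMonoidHom).ker ≤ ((p : Module.End ℤ B).toAddMonoidHom).ker := by
      intro x hx
      have hx' : (1 - σ) x = 0 := hx
      have := congrArg (fun f : Module.End ℤ B => f x) h2
      simp only [Module.End.mul_apply, hx', map_zero] at this
      exact this
    exact fun h0 => hpfin.2 (Nat.eq_zero_of_zero_dvd (h0 ▸ AddSubgroup.card_dvd_of_le hle))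

/-- **Key identity**: `q_{0,p}(B) = q_{0,1-σ}(B)^(p-1)` when `1 + σ + ... + σ^(p-1) = 0`. -/
theorem powQuot_eq_zq_pow (hfin : PowFin B p) :
    powQuot B p = zq (1 - σ) ^ (p - 1) := by
  have hz := zFin_one_sub hp σ hN hfin
  have key : ∀ n, n ≤ p - 1 →
      ZFin (aeval σ (∏ k ∈ range n, (1 - X ^ (k + 1)) : ℤ[X])) ∧
        zq (aeval σ (∏ k ∈ range n, (1 - X ^ (k + 1)) : ℤ[X])) = zq (1 - σ) ^ n := by
    intro n
    induction n with
    | zero =>
      intro _
      simpa using zFin_one (B := B)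
    | succ n ih =>
      intro hn
      obtain ⟨ih1, ih2⟩ := ih (by omega)
      have hτ := zq_one_sub_pow hp σ hN (j := n + 1) (by omega) (by omega)
      have hτfin : ZFin (1 - σ ^ (n + 1)) := hτ.1.mpr hz
      have hcomm : Commute (aeval σ (∏ k ∈ range n, (1 - X ^ (k + 1)) : ℤ[X]))
          (1 - σ ^ (n + 1)) := by
        have : (1 - σ ^ (n + 1) : Module.End ℤ B) = aeval σ (1 - X ^ (n + 1) : ℤ[X]) := by simp
        rw [this]
        exact (Commute.all _ _).map (aeval σ)
      have hmul : aeval σ (∏ k ∈ range (n + 1), (1 - X ^ (k + 1)) : ℤ[X])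
          = aeval σ (∏ k ∈ range n, (1 - X ^ (k + 1)) : ℤ[X]) * (1 - σ ^ (n + 1)) := by
        rw [prod_range_succ, map_mul]
        simp
      rw [hmul]
      obtain ⟨h1, h2⟩ := zFin_mul hcomm ih1 hτfin
      exact ⟨h1, by rw [h2, ih2, hτ.2, pow_succ]⟩
  have := (key (p - 1) le_rfl).2
  rw [aeval_prod_eq_natCast hp σ hN, (zq_natCast (B := B) p).1] at this
  exact this

end Cyclo

section Lang

variable {p : ℕ} (hp : p.Prime) (σ : Module.End ℤ B) (hσ : σ ^ p = 1)

/-- the norm operator `1 + σ + ... + σ^(p-1)`. -/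
noncomputable def normOp (p : ℕ) (σ : Module.End ℤ B) : Module.End ℤ B := ∑ i ∈ range p, σ ^ i

include hσ in
theorem sub_one_mul_normOp : (σ - 1) * normOp p σ = 0 := by
  unfold normOp
  rw [mul_geom_sum, hσ, sub_self]

include hσ in
theorem normOp_mul_sub_one : normOp p σ * (σ - 1) = 0 := by
  unfold normOp
  rw [geom_sum_mul, hσ, sub_self]

/-- `σ` restricted to the image of `σ - 1`. -/
noncomputable def sigmaRange : Module.End ℤ (LinearMap.range (σ - 1)) :=
  σ.restrict (p := LinearMap.range (σ - 1)) (q := LinearMap.range (σ - 1)) (by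
    rintro _ ⟨y, rfl⟩
    refine ⟨σ y, ?_⟩
    simp [map_sub])

theorem sigmaRange_pow_coe (i : ℕ) (x : LinearMap.range (σ - 1)) :
    (((sigmaRange σ) ^ i) x : B) = (σ ^ i) (x : B) := by
  induction i generalizing x with
  | zero => simp
  | succ n ih =>
    rw [pow_succ, pow_succ, Module.End.mul_apply, Module.End.mul_apply, ih]
    rfl

include hσ in
theorem normOp_sigmaRange : ∑ i ∈ range p, (sigmaRange σ) ^ i = 0 := by
  ext x
  obtain ⟨x, ⟨y, rfl⟩⟩ := x
  simp only [LinearMap.sum_apply, Submodule.coe_sum, sigmaRange_pow_coe, LinearMap.zero_apply,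
    ZeroMemClass.coe_zero]
  have := congrArg (fun f : Module.End ℤ B => f y) (normOp_mul_sub_one σ hσ (p := p))
  simpa [normOp, LinearMap.sum_apply] using this


theorem pow_apply_of_mem_ker {x : B} (hx : x ∈ LinearMap.ker (σ - 1)) (i : ℕ) :
    (σ ^ i) x = x := by
  have h1 : σ x = x := by
    have : (σ - 1) x = 0 := hx
    simpa [sub_eq_zero] using this
  induction i with
  | zero => simp
  | succ n ih => rw [pow_succ, Module.End.mul_apply, h1, ih]

theorem normOp_apply_of_mem_ker {x : B} (hx : x ∈ LinearMap.ker (σ - 1)) :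
    normOp p σ x = p • x := by
  unfold normOp
  rw [LinearMap.sum_apply]
  simp [pow_apply_of_mem_ker σ hx]

include hp hσ in
/-- **Chevalley / Lang**: for an operator `σ` of prime order `p` on an abelian group `B`,
`h(B)^(p-1) = q_{0,p}(B^σ)^p / q_{0,p}(B)`. -/
theorem herbrand_pow_eq (hfinB : PowFin B p) (hfinA : PowFin (LinearMap.ker (σ - 1)) p) :
    IsFin (σ - 1).toAddMonoidHom (normOp p σ).toAddMonoidHom ∧
    herbrand (σ - 1).toAddMonoidHom (normOp p σ).toAddMonoidHom ^ (p - 1)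
      = powQuot (LinearMap.ker (σ - 1)) p ^ p / powQuot B p := by
  set τ := sigmaRange σ with hτ
  let i : LinearMap.ker (σ - 1) →+ B := (LinearMap.ker (σ - 1)).subtype.toAddMonoidHom
  let π : B →+ LinearMap.range (σ - 1) := (σ - 1).rangeRestrict.toAddMonoidHom
  have hi : Function.Injective i := Subtype.val_injective
  have hπ : Function.Surjective π := LinearMap.surjective_rangeRestrict (σ - 1)
  have hex : i.range = π.ker := by
    ext b
    constructor
    · rintro ⟨a, rfl⟩
      apply Subtype.ext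
      exact a.2
    · intro hb
      exact ⟨⟨b, congrArg Subtype.val hb⟩, rfl⟩
  have hfN : ∀ x, (σ - 1).toAddMonoidHom ((normOp p σ).toAddMonoidHom x) = 0 := fun x =>
    congrArg (fun f : Module.End ℤ B => f x) (sub_one_mul_normOp σ hσ (p := p))
  have hNf : ∀ x, (normOp p σ).toAddMonoidHom ((σ - 1).toAddMonoidHom x) = 0 := fun x =>
    congrArg (fun f : Module.End ℤ B => f x) (normOp_mul_sub_one σ hσ (p := p))
  -- the two exact-sequence statements
  have E1 := herbrand_of_exact (fA := (0 : LinearMap.ker (σ - 1) →+ LinearMap.ker (σ - 1)))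
    (gA := nsmulAddMonoidHom p) (fB := (σ - 1).toAddMonoidHom)
    (gB := (normOp p σ).toAddMonoidHom) (fC := (τ - 1).toAddMonoidHom)
    (gC := (0 : LinearMap.range (σ - 1) →+ LinearMap.range (σ - 1))) hi hπ hex hfN hNf
    (fun a => by
      show (0 : B) = (σ - 1) (a : B)
      exact a.2.symm)
    (fun a => by
      show ((p • a : LinearMap.ker (σ - 1)) : B) = normOp p σ (a : B)
      rw [normOp_apply_of_mem_ker σ a.2]
      rfl)
    (fun b => by
      apply Subtype.ext
      show (σ - 1) ((σ - 1) b) = ((τ - 1) ((σ - 1).rangeRestrict b) : B)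
      simp [hτ, sigmaRange, LinearMap.restrict_apply])
    (fun b => by
      apply Subtype.ext
      exact hfN b)
  have E2 := powQuot_of_exact p hi hπ hex
  obtain ⟨-, E2b, -, E2d⟩ := E2
  have hfinC : PowFin (LinearMap.range (σ - 1)) p := E2b ⟨hfinA, hfinB⟩
  have hmulq : powQuot B p = powQuot (LinearMap.ker (σ - 1)) p * powQuot (LinearMap.range (σ - 1)) p :=
    E2d hfinA hfinC
  -- the key identity on the image
  have hNτ : ∑ i ∈ range p, τ ^ i = 0 := normOp_sigmaRange σ hσ
  have hzfin : ZFin (1 - τ) := zFin_one_sub hp τ hNτ hfinC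
  have hzpow : powQuot (LinearMap.range (σ - 1)) p = zq (1 - τ) ^ (p - 1) :=
    powQuot_eq_zq_pow hp τ hNτ hfinC
  -- sign change
  have hsign := herbrand_zero_congr (φ := (τ - 1).toAddMonoidHom) (ψ := (1 - τ).toAddMonoidHom)
    (by
      ext x
      simp only [AddMonoidHom.mem_ker, LinearMap.toAddMonoidHom_coe, LinearMap.sub_apply,
        Module.End.one_apply]
      rw [sub_eq_zero, sub_eq_zero, eq_comm])
    (by
      ext x
      simp only [AddMonoidHom.mem_range, LinearMap.toAddMonoidHom_coe, LinearMap.sub_apply,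
        Module.End.one_apply]
      constructor
      · rintro ⟨y, rfl⟩
        exact ⟨-y, by simp only [map_neg]; abel⟩
      · rintro ⟨y, rfl⟩
        exact ⟨-y, by simp only [map_neg]; abel⟩)
  have hfinC' : IsFin (τ - 1).toAddMonoidHom (0 : LinearMap.range (σ - 1) →+ _) :=
    (isFin_swap _ _).mp (hsign.1.mpr hzfin)
  have hhC : herbrand (τ - 1).toAddMonoidHom (0 : LinearMap.range (σ - 1) →+ _)
      = (zq (1 - τ))⁻¹ := by
    rw [herbrand_swap, hsign.2]
    rfl
  obtain ⟨E1a, -, -, E1d⟩ := E1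
  have hA : IsFin (0 : LinearMap.ker (σ - 1) →+ LinearMap.ker (σ - 1)) (nsmulAddMonoidHom p) :=
    hfinA
  refine ⟨E1a ⟨hA, hfinC'⟩, ?_⟩
  rw [E1d hA hfinC', hhC, hmulq, hzpow]
  have hz0 : zq (1 - τ) ≠ 0 := herbrand_ne_zero_of_isFin hzfin
  have hq0 : powQuot (LinearMap.ker (σ - 1)) p ≠ 0 := herbrand_ne_zero_of_isFin hfinA
  have hp1 : p = (p - 1) + 1 := by have := hp.one_le; omega
  show (herbrand (0 : LinearMap.ker (σ - 1) →+ LinearMap.ker (σ - 1)) (nsmulAddMonoidHom p)
    * (zq (1 - τ))⁻¹) ^ (p - 1) = _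
  change (powQuot (LinearMap.ker (σ - 1)) p * (zq (1 - τ))⁻¹) ^ (p - 1) = _
  have hpow : powQuot (LinearMap.ker (σ - 1)) p ^ p
      = powQuot (LinearMap.ker (σ - 1)) p ^ (p - 1) * powQuot (LinearMap.ker (σ - 1)) p := by
    rw [← pow_succ, ← hp1]
  rw [mul_pow, inv_pow, hpow]
  field_simp

end Lang

section Rank

/-- `q_{0,n}` of a free abelian group of finite rank. -/
theorem powQuot_of_free (L : Type*) [AddCommGroup L] [Module.Free ℤ L] [Module.Finite ℤ L]
    {n : ℕ} (hn : n ≠ 0) :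
    PowFin L n ∧ powQuot L n = (n : ℚ) ^ Module.finrank ℤ L := by
  let φ : L →ₗ[ℤ] L := (n : ℤ) • LinearMap.id
  have hφ : ∀ x, φ x = n • x := fun x => by simp [φ]
  have hinj : Function.Injective φ := by
    intro x y hxy
    rw [hφ, hφ] at hxy
    have : (n : ℤ) • x = (n : ℤ) • y := by simpa using hxy
    exact smul_right_injective L (by exact_mod_cast hn : (n : ℤ) ≠ 0) this
  have hdet : LinearMap.det φ = (n : ℤ) ^ Module.finrank ℤ L := by
    rw [LinearMap.det_smul, LinearMap.det_id, mul_one]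
  let e : L ≃ₗ[ℤ] LinearMap.range φ := LinearEquiv.ofInjective φ hinj
  have hidx := Submodule.natAbs_det_equiv (LinearMap.range φ) e.toAddEquiv
  have hcomp : (LinearMap.range φ).subtype ∘ₗ AddMonoidHom.toIntLinearMap
      ((e.toAddEquiv : L ≃+ LinearMap.range φ) : L →+ LinearMap.range φ) = φ := by
    ext x; rfl
  rw [hcomp, hdet, Int.natAbs_pow, Int.natAbs_natCast] at hidx
  have hrange : (nsmulAddMonoidHom n : L →+ L).range = (LinearMap.range φ).toAddSubgroup := by
    ext x
    simp only [AddMonoidHom.mem_range, nsmulAddMonoidHom_apply, Submodule.mem_toAddSubgroup,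
      LinearMap.mem_range, hφ]
  have hker : (nsmulAddMonoidHom n : L →+ L).ker = ⊥ := by
    rw [AddSubgroup.eq_bot_iff_forall]
    intro x hx
    have : φ x = φ 0 := by
      rw [hφ, hφ, smul_zero]; exact hx
    exact hinj this
  have h0 : (nsmulAddMonoidHom n : L →+ L).range.index = n ^ Module.finrank ℤ L := by
    rw [hrange, hidx]
    rfl
  have h1 : Nat.card (nsmulAddMonoidHom n : L →+ L).ker = 1 := by
    rw [hker]; simp
  constructor
  · rw [powFin_iff, h0, h1]
    exact ⟨pow_ne_zero _ hn, one_ne_zero⟩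
  · rw [powQuot_eq, h0, h1]
    simp

/-- `q_{0,n}(X) = n^rank(X)` for a finitely generated abelian group `X`. -/
theorem powQuot_of_finite (X : Type*) [AddCommGroup X] [Module.Finite ℤ X] {n : ℕ} (hn : n ≠ 0) :
    PowFin X n ∧ powQuot X n = (n : ℚ) ^ Module.finrank ℤ X := by
  let T : Submodule ℤ X := Submodule.torsion ℤ X
  have hTfin : Finite T := by
    have : Module.Finite ℤ T := Module.IsNoetherian.finite ℤ T
    exact Module.finite_of_fg_torsion T (Submodule.torsion_isTorsion)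
  have hrank : Module.finrank ℤ (X ⧸ T) = Module.finrank ℤ X := by
    have h1 := Submodule.finrank_quotient_add_finrank T
    have h2 : Module.finrank ℤ T = 0 :=
      Module.finrank_eq_zero_iff_isTorsion.mpr Submodule.torsion_isTorsion
    omega
  obtain ⟨hF, hq⟩ := powQuot_of_free (X ⧸ T) hn
  have key := powQuot_of_exact n (i := T.subtype.toAddMonoidHom) (p := T.mkQ.toAddMonoidHom)
    Subtype.val_injective (Submodule.mkQ_surjective T) (by
      ext x
      simp only [AddMonoidHom.mem_range, AddMonoidHom.mem_ker, LinearMap.toAddMonoidHom_coe,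
        Submodule.subtype_apply, Submodule.mkQ_apply, Submodule.Quotient.mk_eq_zero]
      constructor
      · rintro ⟨y, rfl⟩; exact y.2
      · intro hx; exact ⟨⟨x, hx⟩, rfl⟩)
  obtain ⟨k1, -, -, k4⟩ := key
  have hT : PowFin T n := powFin_of_finite n
  refine ⟨k1 ⟨hT, hF⟩, ?_⟩
  rw [k4 hT hF, powQuot_eq_one_of_finite, one_mul, hq, hrank]

end Rank

section Group

variable {G : Type*} [Group G] [Fintype G] {M : Type*} [AddCommGroup M] [DistribMulAction G M]

/-- the action of `s` as a `ℤ`-linear endomorphism. -/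
def actOp (s : G) : Module.End ℤ M := (DistribSMul.toAddMonoidHom M s).toIntLinearMap

omit [Fintype G] in
@[simp] theorem actOp_apply (s : G) (x : M) : actOp s x = s • x := rfl

omit [Fintype G] in
theorem actOp_pow_apply (s : G) (i : ℕ) (x : M) : ((actOp s) ^ i) x = s ^ i • x := by
  induction i generalizing x with
  | zero => simp
  | succ n ih => rw [pow_succ, Module.End.mul_apply, actOp_apply, ih, smul_smul, pow_succ]

omit [Fintype G] in
theorem actOp_sub_one (s : G) :
    ((actOp s : Module.End ℤ M) - 1).toAddMonoidHom = subOne G M s := by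
  ext x
  rfl

omit [Fintype G] in
/-- the fixed points as a submodule and as the kernel of `subOne` are the same group. -/
def kerEquiv (s : G) : LinearMap.ker ((actOp s : Module.End ℤ M) - 1) ≃+ (subOne G M s).ker where
  toFun x := ⟨x.1, x.2⟩
  invFun y := ⟨y.1, y.2⟩
  left_inv _ := rfl
  right_inv _ := rfl
  map_add' _ _ := rfl

omit [Fintype G] in
theorem finite_ker_subOne [Module.Finite ℤ M] (s : G) : Module.Finite ℤ (subOne G M s).ker := by
  have : Module.Finite ℤ (LinearMap.ker ((actOp s : Module.End ℤ M) - 1)) :=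
    Module.IsNoetherian.finite ℤ _
  exact Module.Finite.equiv (kerEquiv s).toIntLinearEquiv

omit [Group G] [Fintype G] in
theorem herbrand_nonneg {B : Type*} [AddCommGroup B] (f g : B →+ B) : 0 ≤ herbrand f g := by
  unfold herbrand
  positivity

variable {p : ℕ} (hp : p.Prime) (hG : Fintype.card G = p) {s : G} (hs : s ≠ 1)

include hp hG hs

theorem forall_mem_zpowers : ∀ x : G, x ∈ Subgroup.zpowers s := by
  have := Fact.mk hp
  have h : Nat.card G = p := by rw [Nat.card_eq_fintype_card]; exact hG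
  intro x
  exact mem_zpowers_of_prime_card h hs

theorem orderOf_eq : orderOf s = p := by
  rw [orderOf_eq_card_of_forall_mem_zpowers (forall_mem_zpowers hp hG hs),
    Nat.card_eq_fintype_card, hG]

theorem actOp_pow_prime : (actOp s : Module.End ℤ M) ^ p = 1 := by
  ext x
  rw [actOp_pow_apply, ← orderOf_eq hp hG hs, pow_orderOf_eq_one, one_smul]
  rfl

theorem sum_range_pow_smul (x : M) : ∑ i ∈ range p, s ^ i • x = ∑ g : G, g • x := by
  classical
  have hinj : Function.Injective (fun i : Fin p => s ^ (i : ℕ)) := by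
    intro i j hij
    have := pow_injOn_Iio_orderOf (x := s)
      (by rw [Set.mem_Iio, orderOf_eq hp hG hs]; exact i.2)
      (by rw [Set.mem_Iio, orderOf_eq hp hG hs]; exact j.2) hij
    exact Fin.ext this
  have hbij : Function.Bijective (fun i : Fin p => s ^ (i : ℕ)) := by
    rw [Fintype.bijective_iff_injective_and_card]
    exact ⟨hinj, by rw [Fintype.card_fin, hG]⟩
  rw [← Fin.sum_univ_eq_sum_range (fun i => s ^ i • x) p]
  exact Fintype.sum_bijective _ hbij _ _ (fun _ => rfl)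

theorem normOp_actOp : (normOp p (actOp s : Module.End ℤ M)).toAddMonoidHom = normHom G M := by
  ext x
  show normOp p (actOp s) x = normHom G M x
  rw [Herbrand.normHom_apply, normOp, LinearMap.sum_apply]
  simp only [actOp_pow_apply]
  exact sum_range_pow_smul hp hG hs x

/-- **Chevalley's formula** for a cyclic group of prime order `p`:
`h(M)^(p-1) = q_{0,p}(M^G)^p / q_{0,p}(M)`. -/
theorem herbrandCyc_pow_eq (hfinM : PowFin M p) (hfinA : PowFin (subOne G M s).ker p) :
    CycFin G M s ∧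
      herbrandCyc G M s ^ (p - 1) = powQuot (subOne G M s).ker p ^ p / powQuot M p := by
  have hfinA' : PowFin (LinearMap.ker ((actOp s : Module.End ℤ M) - 1)) p :=
    (isFin_congr (kerEquiv s) (fun a => rfl) (fun a => rfl)).mpr hfinA
  have hq : powQuot (LinearMap.ker ((actOp s : Module.End ℤ M) - 1)) p
      = powQuot (subOne G M s).ker p :=
    herbrand_congr (kerEquiv s) (fun a => rfl) (fun a => rfl)
  have key := herbrand_pow_eq hp (actOp s : Module.End ℤ M) (actOp_pow_prime hp hG hs) hfinM hfinA'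
  rw [actOp_sub_one, normOp_actOp hp hG hs, hq] at key
  exact key

include hp hG hs in
/-- **Herbrand quotient of a finitely generated module over a cyclic group of prime order**:
`h(M)^(p-1) = p^(p * rank M^G - rank M)`. -/
theorem herbrandCyc_pow_eq_of_finite [Module.Finite ℤ M] :
    CycFin G M s ∧ herbrandCyc G M s ^ (p - 1) =
      (p : ℚ) ^ ((p : ℤ) * (Module.finrank ℤ (subOne G M s).ker : ℤ) - (Module.finrank ℤ M : ℤ)) := by
  have := finite_ker_subOne (M := M) s
  obtain ⟨hM, hqM⟩ := powQuot_of_finite M hp.ne_zero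
  obtain ⟨hA, hqA⟩ := powQuot_of_finite (subOne G M s).ker hp.ne_zero
  obtain ⟨h1, h2⟩ := herbrandCyc_pow_eq hp hG hs hM hA
  refine ⟨h1, ?_⟩
  have hp0 : (p : ℚ) ≠ 0 := by exact_mod_cast hp.ne_zero
  rw [h2, hqM, hqA, ← pow_mul, zpow_sub₀ hp0, ← zpow_natCast, ← zpow_natCast]
  congr 2
  push_cast
  ring

include hp hG hs in
/-- the Herbrand quotient itself, once the exponent is known. -/
theorem herbrandCyc_eq_of_finite [Module.Finite ℤ M] (k : ℤ)
    (hk : ((p : ℤ) - 1) * k =
      (p : ℤ) * (Module.finrank ℤ (subOne G M s).ker : ℤ) - (Module.finrank ℤ M : ℤ)) :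
    herbrandCyc G M s = (p : ℚ) ^ k := by
  obtain ⟨-, h2⟩ := herbrandCyc_pow_eq_of_finite hp hG hs (M := M)
  have hp0 : (0 : ℚ) < p := by exact_mod_cast hp.pos
  have hp1 : p - 1 ≠ 0 := by have := hp.two_le; omega
  have hcast : ((p - 1 : ℕ) : ℤ) = (p : ℤ) - 1 := by
    have := hp.one_le
    omega
  rw [← hk, mul_comm, zpow_mul, ← hcast, zpow_natCast] at h2
  exact (pow_left_inj₀ (herbrand_nonneg _ _) (zpow_nonneg hp0.le _) hp1).mp h2

end Group

end Fermat.Agent.Lib.CFT.Unram.HerbrandRank
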