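/-
helper1 (P-CFT, S14 fast track, WP-L3 units).  The Galois action on the unit group of the ring of
integers of a number field, its invariants, and the Dirichlet ranks in a totally complex extension
of prime degree.
-/
import Mathlib
import Fermat.Agent.Lib.CFT.Unram.IdealAct
import Fermat.Agent.Lib.CFT.Unram.UnitsAct

set_option autoImplicit false
set_option linter.unusedSectionVars false

namespace Fermat.Agent.Lib.CFT.Unram

open NumberField Module
open scoped nonZeroDivisors

section UnitsAction

variable {K L : Type*} [Field K] [Field L] [NumberField L] [Algebra K L]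

lemma smul_unit_eq_iff (σ : Gal(L/K)) (u v : (𝓞 L)ˣ) :
    σ • u = v ↔ σ ((u : 𝓞 L) : L) = ((v : 𝓞 L) : L) := by
  constructor
  · intro h
    rw [← h]
    rfl
  · intro h
    apply Units.ext
    apply RingOfIntegers.ext
    exact h

end UnitsAction

section Invariants

variable {K L : Type*} [Field K] [NumberField K] [Field L] [NumberField L] [Algebra K L]

/-- The map on units induced by `𝓞 K → 𝓞 L`. -/
noncomputable def unitsExt (K L : Type*) [Field K] [NumberField K] [Field L] [NumberField L]
    [Algebra K L] : (𝓞 K)ˣ →* (𝓞 L)ˣ :=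
  Units.map (algebraMap (𝓞 K) (𝓞 L)).toMonoidHom

@[simp] lemma coe_unitsExt (u : (𝓞 K)ˣ) :
    (((unitsExt K L u : (𝓞 L)ˣ) : 𝓞 L) : L) = algebraMap K L ((u : 𝓞 K) : K) := rfl

lemma unitsExt_injective : Function.Injective (unitsExt K L) := by
  intro u v h
  apply Units.ext
  apply RingOfIntegers.ext
  have := congrArg (fun w : (𝓞 L)ˣ => ((w : 𝓞 L) : L)) h
  simp only [coe_unitsExt] at this
  exact (algebraMap K L).injective this

lemma smul_unitsExt (σ : Gal(L/K)) (u : (𝓞 K)ˣ) : σ • unitsExt K L u = unitsExt K L u := by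
  rw [smul_unit_eq_iff, coe_unitsExt, AlgEquiv.commutes]

/-- An element of `K` whose image in `L` is an algebraic integer is an algebraic integer. -/
lemma isIntegral_of_algebraMap_isIntegral (x : K) (hx : IsIntegral ℤ (algebraMap K L x)) :
    IsIntegral ℤ x :=
  (isIntegral_algHom_iff (IsScalarTower.toAlgHom ℤ K L) (algebraMap K L).injective).mp hx

/-- A unit of `𝓞 L` which lies in `K` is (the image of) a unit of `𝓞 K`. -/
lemma unit_mem_range_unitsExt_of_coe (u : (𝓞 L)ˣ) (x : K)
    (hx : algebraMap K L x = ((u : 𝓞 L) : L)) : u ∈ (unitsExt K L).range := by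
  have hu : ((u : 𝓞 L) : L) ≠ 0 := by
    intro h
    exact u.ne_zero (RingOfIntegers.ext (by rw [h]; rfl))
  have hx0 : x ≠ 0 := by
    rintro rfl
    rw [map_zero] at hx
    exact hu hx.symm
  have h1 : IsIntegral ℤ x := by
    apply isIntegral_of_algebraMap_isIntegral (L := L)
    rw [hx]
    exact RingOfIntegers.isIntegral_coe (u : 𝓞 L)
  have hinv : algebraMap K L x⁻¹ = (((u⁻¹ : (𝓞 L)ˣ) : 𝓞 L) : L) := by
    rw [map_inv₀, hx]
    apply inv_eq_of_mul_eq_one_right
    have : ((u : 𝓞 L) * ((u⁻¹ : (𝓞 L)ˣ) : 𝓞 L)) = 1 := u.mul_inv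
    have h2 := congrArg (fun z : 𝓞 L => (z : L)) this
    exact h2
  have h2 : IsIntegral ℤ x⁻¹ := by
    apply isIntegral_of_algebraMap_isIntegral (L := L)
    rw [hinv]
    exact RingOfIntegers.isIntegral_coe ((u⁻¹ : (𝓞 L)ˣ) : 𝓞 L)
  let a : 𝓞 K := ⟨x, h1⟩
  let b : 𝓞 K := ⟨x⁻¹, h2⟩
  have hab : a * b = 1 := by
    apply RingOfIntegers.ext
    change x * x⁻¹ = 1
    exact mul_inv_cancel₀ hx0
  have hba : b * a = 1 := by rw [mul_comm]; exact hab
  refine ⟨⟨a, b, hab, hba⟩, ?_⟩
  apply Units.ext
  apply RingOfIntegers.ext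
  exact hx

/-- The units of `𝓞 L` fixed by `Gal(L/K)` are the units of `𝓞 K`. -/
theorem unit_fixed_iff' [IsGalois K L] (u : (𝓞 L)ˣ) :
    (∀ τ : Gal(L/K), τ • u = u) ↔ u ∈ (unitsExt K L).range := by
  constructor
  · intro h
    have hfix : ∀ τ : Gal(L/K), τ ((u : 𝓞 L) : L) = ((u : 𝓞 L) : L) := fun τ =>
      (smul_unit_eq_iff τ u u).mp (h τ)
    obtain ⟨x, hx⟩ := (IsGalois.mem_range_algebraMap_iff_fixed (F := K) (E := L) _).mpr hfix
    exact unit_mem_range_unitsExt_of_coe u x hx
  · rintro ⟨v, rfl⟩ τ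
    exact smul_unitsExt τ v

end Invariants

section Ranks

variable (K : Type*) [Field K] [NumberField K]

/-- The `ℤ`-rank of the full unit group is the Dirichlet rank (the torsion does not contribute). -/
theorem finrank_units : finrank ℤ (Additive (𝓞 K)ˣ) = NumberField.Units.rank K :=
  NumberField.Units.finrank_eq K

variable {K}

theorem finrank_units_add_one :
    finrank ℤ (Additive (𝓞 K)ˣ) + 1 = Fintype.card (InfinitePlace K) := by
  rw [finrank_units, NumberField.Units.rank]
  have : 0 < Fintype.card (InfinitePlace K) := Fintype.card_pos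
  omega

theorem two_mul_card_infinitePlace (hK : IsTotallyComplex K) :
    2 * Fintype.card (InfinitePlace K) = finrank ℚ K := by
  rw [InfinitePlace.card_eq_nrRealPlaces_add_nrComplexPlaces, IsTotallyComplex.nrRealPlaces_eq_zero,
    zero_add, IsTotallyComplex.finrank]

theorem two_mul_finrank_units_add_one (hK : IsTotallyComplex K) :
    2 * (finrank ℤ (Additive (𝓞 K)ˣ) + 1) = finrank ℚ K := by
  rw [finrank_units_add_one, two_mul_card_infinitePlace hK]

variable {L : Type*} [Field L] [NumberField L] [Algebra K L]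

theorem card_infinitePlace_L (hK : IsTotallyComplex K) :
    Fintype.card (InfinitePlace L) = finrank K L * Fintype.card (InfinitePlace K) := by
  have hL : IsTotallyComplex L := NumberField.isTotallyComplex_of_algebra K L
  have h1 := two_mul_card_infinitePlace hK
  have h2 := two_mul_card_infinitePlace hL
  have h3 := Module.finrank_mul_finrank ℚ K L
  have : 2 * Fintype.card (InfinitePlace L) =
      2 * (finrank K L * Fintype.card (InfinitePlace K)) := by
    rw [h2, ← h3, ← h1]
    ring
  omega

/-- Unit rank of `L` in terms of the unit rank of `K`: `r_L + 1 = [L:K] (r_K + 1)`. -/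
theorem finrank_units_L_add_one (hK : IsTotallyComplex K) :
    finrank ℤ (Additive (𝓞 L)ˣ) + 1 = finrank K L * (finrank ℤ (Additive (𝓞 K)ˣ) + 1) := by
  rw [finrank_units_add_one, finrank_units_add_one, card_infinitePlace_L hK]

end Ranks

/-! ### The statements in the exact shape of the WP-L3 interface -/

section Final

variable (K L : Type*) [Field K] [NumberField K] [Field L] [NumberField L] [Algebra K L]
  [IsGalois K L]

/-- The units of `𝓞 L` fixed by `Gal(L/K)` are the units of `𝓞 K`. -/
theorem unit_fixed_iff (u : (𝓞 L)ˣ) :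
    (∀ τ : Gal(L/K), τ • u = u) ↔
      u ∈ (Units.map (algebraMap (𝓞 K) (𝓞 L)).toMonoidHom).range :=
  unit_fixed_iff' u

/-- Unit rank of a totally complex field: `2 (r + 1) = [K : ℚ]`. -/
theorem finrank_units_K (hK : IsTotallyComplex K) :
    2 * (Module.finrank ℤ (Additive (𝓞 K)ˣ) + 1) = Module.finrank ℚ K :=
  two_mul_finrank_units_add_one hK

/-- Unit rank of `L` in terms of the unit rank of `K`: `r_L + 1 = p (r_K + 1)`. -/
theorem finrank_units_L (hK : IsTotallyComplex K) {p : ℕ} (hdeg : Module.finrank K L = p) :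
    Module.finrank ℤ (Additive (𝓞 L)ˣ) + 1 = p * (Module.finrank ℤ (Additive (𝓞 K)ˣ) + 1) := by
  rw [finrank_units_L_add_one hK, hdeg]

end Final

end Fermat.Agent.Lib.CFT.Unram
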