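/-
helper1 (P-CFT, S14 fast track, WP-L4 piece (U)).  The Herbrand quotient of the unit group of a
Galois extension `L/K` of prime degree `p` of a totally complex number field is `1/p`, in the form
needed for the lower bound: `|H^1(E_L)| = p * |Ĥ^0(E_L)|`, both finite.
-/
import Mathlib
import Fermat.Agent.Lib.CFT.Unram.LowerBoundSetup
import Fermat.Agent.Lib.CFT.Unram.HerbrandRank
import Fermat.Agent.Lib.CFT.Unram.UnitsModule

set_option autoImplicit false
set_option linter.unusedSectionVars false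

namespace Fermat.Agent.Lib.CFT.Unram

open NumberField FractionalIdeal
open Fermat.Agent.Lib.CFT.Herbrand
open scoped nonZeroDivisors Pointwise

namespace LB

/-! ### From multiplicative to additive actions -/

section Additive

variable (G M : Type*) [Group G] [CommGroup M] [MulDistribMulAction G M]

/-- The additive version of a multiplicative distributive action. -/
@[reducible] def additiveDistribMulAction : DistribMulAction G (Additive M) where
  smul g a := Additive.ofMul (g • a.toMul)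
  one_smul a := by
    change Additive.ofMul ((1 : G) • a.toMul) = a
    rw [one_smul]
    rfl
  mul_smul g h a := by
    change Additive.ofMul ((g * h) • a.toMul) = Additive.ofMul (g • (h • a.toMul))
    rw [mul_smul]
  smul_zero g := by
    change Additive.ofMul (g • (1 : M)) = 0
    rw [smul_one]
    rfl
  smul_add g a b := by
    change Additive.ofMul (g • (a.toMul * b.toMul)) =
      Additive.ofMul (g • a.toMul) + Additive.ofMul (g • b.toMul)
    rw [smul_mul']
    rfl

attribute [local instance] additiveDistribMulAction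

lemma additive_smul_def (g : G) (a : Additive M) : g • a = Additive.ofMul (g • a.toMul) := rfl

variable {G M}

lemma subOne_additive (s : G) :
    subOne G (Additive M) s = MonoidHom.toAdditive (subOneMul G M s) :=
  AddMonoidHom.ext fun _ => rfl

lemma normHom_additive [Fintype G] :
    normHom G (Additive M) = MonoidHom.toAdditive (normMul G M) := by
  refine AddMonoidHom.ext fun a => ?_
  rw [Herbrand.normHom_apply, MonoidHom.toAdditive_apply_apply, normMul_apply, ofMul_prod]
  rfl

end Additive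

variable (K L : Type*) [Field K] [NumberField K] [Field L] [NumberField L] [Algebra K L]
  [IsGalois K L]

/-! ### The kernel of `phi` is the unit group -/

/-- The inclusion of the units of `𝓞 L` into `Lˣ`, additively. -/
noncomputable def unitsIncl : Additive (𝓞 L)ˣ →+ Additive Lˣ :=
  MonoidHom.toAdditive (unitsToField L)

variable {L} in
@[simp] lemma unitsIncl_apply (a : Additive (𝓞 L)ˣ) :
    unitsIncl L a = Additive.ofMul (unitsToField L a.toMul) := rfl

lemma unitsIncl_injective : Function.Injective (unitsIncl L) := by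
  intro a b h
  have : unitsToField L a.toMul = unitsToField L b.toMul := congrArg Additive.toMul h
  exact Additive.toMul.injective (unitsToField_injective this)

variable {L} in
lemma toPrincipalIdeal_eq_one_iff (x : Lˣ) :
    toPrincipalIdeal (𝓞 L) L x = 1 ↔ ∃ u : (𝓞 L)ˣ, unitsToField L u = x := by
  have hcoe : ∀ a : 𝓞 L, ((a : 𝓞 L) : L) = algebraMap (𝓞 L) L a := fun _ => rfl
  rw [toPrincipalIdeal_eq_iff, Units.val_one]
  constructor
  · intro h
    have hx : (x : L) ∈ (1 : FractionalIdeal (𝓞 L)⁰ L) := by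
      rw [← h]; exact mem_spanSingleton_self _ _
    have hx' : ((x⁻¹ : Lˣ) : L) ∈ (1 : FractionalIdeal (𝓞 L)⁰ L) := by
      have h1 : (1 : L) ∈ spanSingleton (𝓞 L)⁰ (x : L) := by
        rw [h]; exact one_mem_one _
      obtain ⟨z, hz⟩ := (mem_spanSingleton _).mp h1
      rw [mem_one_iff]
      refine ⟨z, ?_⟩
      rw [Algebra.smul_def] at hz
      rw [Units.val_inv_eq_inv_val]
      exact eq_inv_of_mul_eq_one_left hz
    obtain ⟨a, ha⟩ := (mem_one_iff _).mp hx
    obtain ⟨b, hb⟩ := (mem_one_iff _).mp hx'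
    have hab : a * b = 1 := by
      apply RingOfIntegers.ext
      rw [hcoe, hcoe, map_mul, ha, hb, map_one, Units.mul_inv]
    have hba : b * a = 1 := by rw [mul_comm]; exact hab
    refine ⟨⟨a, b, hab, hba⟩, ?_⟩
    apply Units.ext
    exact ha
  · rintro ⟨u, rfl⟩
    ext y
    rw [mem_one_iff, mem_spanSingleton, coe_unitsToField, hcoe]
    constructor
    · rintro ⟨z, rfl⟩
      refine ⟨z * (u : 𝓞 L), ?_⟩
      rw [Algebra.smul_def, map_mul]
    · rintro ⟨a, rfl⟩
      refine ⟨a * ((u⁻¹ : (𝓞 L)ˣ) : 𝓞 L), ?_⟩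
      rw [Algebra.smul_def, ← map_mul, mul_assoc, Units.inv_mul, mul_one]

lemma range_unitsIncl : (unitsIncl L).range = (phi L).ker := by
  ext x
  rw [AddMonoidHom.mem_ker, phi_apply]
  constructor
  · rintro ⟨a, rfl⟩
    rw [unitsIncl_apply, toMul_ofMul, (toPrincipalIdeal_eq_one_iff _).mpr ⟨a.toMul, rfl⟩]
    rfl
  · intro h
    have h1 : toPrincipalIdeal (𝓞 L) L x.toMul = 1 := Additive.ofMul.injective h
    obtain ⟨u, hu⟩ := (toPrincipalIdeal_eq_one_iff _).mp h1
    exact ⟨Additive.ofMul u, congrArg Additive.ofMul hu⟩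

/-! ### The Herbrand quotient of the unit group -/

attribute [local instance] additiveDistribMulAction

variable {K L} in
lemma unitsIncl_subOne (σ : Gal(L/K)) (a : Additive (𝓞 L)ˣ) :
    unitsIncl L (subOne Gal(L/K) (Additive (𝓞 L)ˣ) σ a) = DB K L σ (unitsIncl L a) := by
  rw [subOne_additive, DB_apply, unitsIncl_apply, unitsIncl_apply, toMul_ofMul,
    MonoidHom.toAdditive_apply_apply, toMul_ofMul, subOneMul_apply, map_div, unitsToField_smul]

variable {K L} in
lemma unitsIncl_normHom (a : Additive (𝓞 L)ˣ) :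
    unitsIncl L (normHom Gal(L/K) (Additive (𝓞 L)ˣ) a) = NB K L (unitsIncl L a) := by
  rw [normHom_additive, NB_apply, unitsIncl_apply, unitsIncl_apply, toMul_ofMul,
    MonoidHom.toAdditive_apply_apply, toMul_ofMul, normMul_apply, map_prod]
  simp only [unitsToField_smul]

/-- The fixed points of `σ` in the unit group, when `σ` generates the Galois group, are the units
of the base field. -/
noncomputable def fixedUnitsEquiv {p : ℕ} (hp : p.Prime) (hdeg : Module.finrank K L = p)
    (σ : Gal(L/K)) (hσ : σ ≠ 1) :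
    Additive (𝓞 K)ˣ ≃+ (subOne Gal(L/K) (Additive (𝓞 L)ˣ) σ).ker := by
  have hgen : ∀ τ : Gal(L/K), τ ∈ Subgroup.zpowers σ := fun τ => by
    have hcard : Nat.card Gal(L/K) = p := by rw [IsGalois.card_aut_eq_finrank, hdeg]
    have : Fact p.Prime := ⟨hp⟩
    exact mem_zpowers_of_prime_card hcard hσ
  have hfix : ∀ u : (𝓞 L)ˣ, σ • u = u → ∀ τ : Gal(L/K), τ • u = u := by
    intro u hu τ
    have : τ ∈ MulAction.stabilizer Gal(L/K) u := by
      have hle : Subgroup.zpowers σ ≤ MulAction.stabilizer Gal(L/K) u :=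
        Subgroup.zpowers_le.mpr (MulAction.mem_stabilizer_iff.mpr hu)
      exact hle (hgen τ)
    exact MulAction.mem_stabilizer_iff.mp this
  refine AddEquiv.ofBijective
    (AddMonoidHom.codRestrict (MonoidHom.toAdditive (unitsExt K L)) _ ?_) ⟨?_, ?_⟩
  · intro a
    rw [AddMonoidHom.mem_ker, subOne_apply, sub_eq_zero]
    exact congrArg Additive.ofMul (smul_unitsExt σ a.toMul)
  · intro a b h
    have h1 : unitsExt K L a.toMul = unitsExt K L b.toMul :=
      congrArg (fun x : (subOne Gal(L/K) (Additive (𝓞 L)ˣ) σ).ker => (x : Additive (𝓞 L)ˣ).toMul) h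
    exact Additive.toMul.injective (unitsExt_injective h1)
  · rintro ⟨u, hu⟩
    rw [AddMonoidHom.mem_ker, subOne_apply, sub_eq_zero] at hu
    have hu' : σ • u.toMul = u.toMul := congrArg Additive.toMul hu
    obtain ⟨v, hv⟩ := (unit_fixed_iff' u.toMul).mp (hfix _ hu')
    exact ⟨Additive.ofMul v, Subtype.ext (congrArg Additive.ofMul hv)⟩

lemma finrank_fixedUnits {p : ℕ} (hp : p.Prime) (hdeg : Module.finrank K L = p)
    (σ : Gal(L/K)) (hσ : σ ≠ 1) :
    Module.finrank ℤ (subOne Gal(L/K) (Additive (𝓞 L)ˣ) σ).ker =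
      Module.finrank ℤ (Additive (𝓞 K)ˣ) :=
  (LinearEquiv.finrank_eq (fixedUnitsEquiv K L hp hdeg σ hσ).toIntLinearEquiv).symm

/-- The Herbrand quotient of the unit group is `1/p`. -/
theorem herbrandCyc_units {p : ℕ} (hp : p.Prime) (hdeg : Module.finrank K L = p)
    (hK : IsTotallyComplex K) (σ : Gal(L/K)) (hσ : σ ≠ 1) :
    CycFin Gal(L/K) (Additive (𝓞 L)ˣ) σ ∧
      herbrandCyc Gal(L/K) (Additive (𝓞 L)ˣ) σ = (p : ℚ) ^ (-1 : ℤ) := by
  have hG : Fintype.card Gal(L/K) = p := by
    rw [← Nat.card_eq_fintype_card, IsGalois.card_aut_eq_finrank, hdeg]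
  refine ⟨(HerbrandRank.herbrandCyc_pow_eq_of_finite hp hG hσ).1, ?_⟩
  apply HerbrandRank.herbrandCyc_eq_of_finite hp hG hσ
  rw [finrank_fixedUnits K L hp hdeg σ hσ]
  have h1 := finrank_units_L K L hK hdeg
  have h2 : (Module.finrank ℤ (Additive (𝓞 L)ˣ) : ℤ) + 1 =
      (p : ℤ) * ((Module.finrank ℤ (Additive (𝓞 K)ˣ) : ℤ) + 1) := by exact_mod_cast h1
  linarith

/-- **The unit index for the lower bound**: `|Ĥ^0(E_L)|` is finite (nonzero index) and
`|H^1(E_L)| = p * |Ĥ^0(E_L)|`. -/
theorem units_index {p : ℕ} (hp : p.Prime) (hdeg : Module.finrank K L = p)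
    (hK : IsTotallyComplex K) (σ : Gal(L/K)) (hσ : σ ≠ 1) :
    subIndex (DB K L σ) (NB K L) (phi L).ker ≠ 0 ∧
      subIndex (NB K L) (DB K L σ) (phi L).ker =
        p * subIndex (DB K L σ) (NB K L) (phi L).ker := by
  obtain ⟨hfin, hq⟩ := herbrandCyc_units K L hp hdeg hK σ hσ
  have e1 : subIndex (DB K L σ) (NB K L) (phi L).ker =
      hIndex (subOne Gal(L/K) (Additive (𝓞 L)ˣ) σ) (normHom Gal(L/K) (Additive (𝓞 L)ˣ)) := by
    rw [← range_unitsIncl]
    exact subIndex_range (unitsIncl_injective L) (unitsIncl_subOne σ) unitsIncl_normHom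
  have e2 : subIndex (NB K L) (DB K L σ) (phi L).ker =
      hIndex (normHom Gal(L/K) (Additive (𝓞 L)ˣ)) (subOne Gal(L/K) (Additive (𝓞 L)ˣ) σ) := by
    rw [← range_unitsIncl]
    exact subIndex_range (unitsIncl_injective L) unitsIncl_normHom (unitsIncl_subOne σ)
  rw [e1, e2]
  obtain ⟨ha, hb⟩ := hfin
  refine ⟨ha, ?_⟩
  unfold herbrandCyc herbrand at hq
  have hp0 : (p : ℚ) ≠ 0 := by exact_mod_cast hp.ne_zero
  have hb' : ((hIndex (normHom Gal(L/K) (Additive (𝓞 L)ˣ))
      (subOne Gal(L/K) (Additive (𝓞 L)ˣ) σ) : ℕ) : ℚ) ≠ 0 := by exact_mod_cast hb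
  rw [zpow_neg_one, div_eq_iff hb', inv_mul_eq_div, eq_div_iff hp0] at hq
  have : ((p * hIndex (subOne Gal(L/K) (Additive (𝓞 L)ˣ) σ)
      (normHom Gal(L/K) (Additive (𝓞 L)ˣ)) : ℕ) : ℚ) =
      ((hIndex (normHom Gal(L/K) (Additive (𝓞 L)ˣ))
        (subOne Gal(L/K) (Additive (𝓞 L)ˣ) σ) : ℕ) : ℚ) := by
    push_cast
    rw [← hq]
    ring
  exact_mod_cast this.symm

end LB

end Fermat.Agent.Lib.CFT.Unram
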