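import Mathlib
import Fermat.Agent.Lib.CFT.Unram.Defs
import Fermat.Agent.Lib.CFT.Unram.CrossingDefs
import Fermat.Agent.Lib.CFT.Local.PrincipalUnits

/-!
S14 fast track, WP-A3: norm surjectivity modulo a nonzero ideal for everywhere unramified Galois
extensions of number fields.
-/

set_option autoImplicit false

namespace Fermat.Agent.Lib.CFT.Unram

namespace NormSurj

open Finset
open scoped Pointwise

section Abstract

variable {A B G : Type*} [CommRing A] [CommRing B] [Algebra A B] [Group G] [Fintype G]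
  [MulSemiringAction G B] [SMulCommClass G A B] [Algebra.IsInvariant A B G]

omit [SMulCommClass G A B] in
/-- The `G`-norm of an element of `B` comes from `A`. -/
theorem exists_algebraMap_eq_prod_smul (y : B) : ∃ n : A, algebraMap A B n = ∏ g : G, g • y := by
  apply Algebra.IsInvariant.isInvariant (A := A) (G := G)
  intro h
  rw [Finset.smul_prod']
  simp_rw [← mul_smul]
  exact Fintype.prod_equiv (Equiv.mulLeft h) _ _ (fun g => rfl)

omit [SMulCommClass G A B] in
/-- The `G`-trace of an element of `B` comes from `A`. -/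
theorem exists_algebraMap_eq_sum_smul (y : B) : ∃ n : A, algebraMap A B n = ∑ g : G, g • y := by
  apply Algebra.IsInvariant.isInvariant (A := A) (G := G)
  intro h
  rw [Finset.smul_sum]
  simp_rw [← mul_smul]
  exact Fintype.sum_equiv (Equiv.mulLeft h) _ _ (fun g => rfl)

/-- One step of the successive approximation. -/
theorem approx_step (P : Ideal A) (ϖ : A) (k : ℕ) (hk : 1 ≤ k) (hϖ : ϖ ∈ P ^ k)
    (hcontr : ∀ a : A, algebraMap A B a ∈ (P ^ (k + 1)).map (algebraMap A B) → a ∈ P ^ (k + 1))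
    (hdec : ∀ c ∈ P ^ k, ∃ α : A, c - ϖ * α ∈ P ^ (k + 1))
    (hT : ∀ a : A, ∃ b : B, ∑ g : G, g • b - algebraMap A B a ∈ P.map (algebraMap A B))
    (u : A) (y : B) (n : A) (hn : algebraMap A B n = ∏ g : G, g • y) (hnu : n - u ∈ P ^ k)
    (n' : A) (hnn : n * n' - 1 ∈ P) :
    ∃ y' : B, ∃ n'' : A, algebraMap A B n'' = ∏ g : G, g • y' ∧ n'' - u ∈ P ^ (k + 1) := by
  set φ := algebraMap A B with hφ
  obtain ⟨α, hα⟩ := hdec (u - n) (by rw [← neg_sub]; exact neg_mem hnu)
  obtain ⟨β, hβ⟩ := hT (α * n')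
  set y' : B := y * (1 + φ ϖ * β) with hy'
  obtain ⟨n'', hn''⟩ := exists_algebraMap_eq_prod_smul (A := A) (G := G) y'
  refine ⟨y', n'', hn'', hcontr _ ?_⟩
  have hsmulπ : ∀ g : G, g • (φ ϖ) = φ ϖ := fun g => by rw [hφ, smul_algebraMap]
  have hprod : ∏ g : G, g • y' = φ n * ∏ g : G, (1 + φ ϖ * g • β) := by
    rw [hn, ← Finset.prod_mul_distrib]
    refine Finset.prod_congr rfl fun g _ => ?_
    rw [hy', smul_mul', smul_add, smul_one, smul_mul', hsmulπ]
  obtain ⟨r, hr⟩ := LocalUnits.sq_dvd_prod_one_add_sub (φ ϖ) (univ : Finset G)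
    (fun g => φ ϖ * g • β) (fun g _ => dvd_mul_right _ _)
  have hPk1 : ∀ {I : Ideal A} {a : A}, a ∈ I → φ a ∈ I.map φ := fun h => Ideal.mem_map_of_mem φ h
  have hπk : φ ϖ ∈ (P ^ k).map φ := hPk1 hϖ
  have hmapmul : (P ^ k).map φ * P.map φ = (P ^ (k + 1)).map φ := by
    rw [← Ideal.map_mul, pow_succ]
  have e1 : φ ϖ * (∑ g : G, g • β - φ (α * n')) ∈ (P ^ (k + 1)).map φ := by
    rw [← hmapmul]; exact Ideal.mul_mem_mul hπk hβ
  have e2 : (φ ϖ) ^ 2 * r ∈ (P ^ (k + 1)).map φ := by
    apply Ideal.mul_mem_right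
    rw [← map_pow]
    apply hPk1
    have : ϖ ^ 2 ∈ (P ^ k) ^ 2 := Ideal.pow_mem_pow hϖ 2
    rw [← pow_mul] at this
    exact Ideal.pow_le_pow_right (by omega) this
  have e3 : φ (ϖ * α * (n * n' - 1)) ∈ (P ^ (k + 1)).map φ := by
    apply hPk1
    rw [pow_succ, mul_assoc]
    exact Ideal.mul_mem_mul hϖ (Ideal.mul_mem_left _ _ hnn)
  have e4 : φ (u - n - ϖ * α) ∈ (P ^ (k + 1)).map φ := hPk1 hα
  have key : φ (n'' - u) = φ n * (φ ϖ * (∑ g : G, g • β - φ (α * n')))
      + φ n * ((φ ϖ) ^ 2 * r) + φ (ϖ * α * (n * n' - 1)) - φ (u - n - ϖ * α) := by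
    have h1 : ∏ g : G, (1 + φ ϖ * g • β)
        = 1 + ∑ g : G, φ ϖ * g • β + (φ ϖ) ^ 2 * r := by
      rw [← hr]; ring
    rw [map_sub, hn'', hprod, h1, ← Finset.mul_sum]
    simp only [map_sub, map_mul, map_one]
    ring
  rw [key]
  exact sub_mem (add_mem (add_mem (Ideal.mul_mem_left _ _ e1) (Ideal.mul_mem_left _ _ e2)) e3) e4

/-- Successive approximation: if the norm is onto modulo `P` and the trace is onto modulo `P`,
then the norm is onto modulo every power of `P` (on elements prime to `P`). -/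
theorem approx_all (P : Ideal A) [hPmax : P.IsMaximal]
    (hcontr : ∀ (k : ℕ) (a : A), algebraMap A B a ∈ (P ^ k).map (algebraMap A B) → a ∈ P ^ k)
    (hdec : ∀ k : ℕ, 1 ≤ k → ∃ ϖ ∈ P ^ k, ∀ c ∈ P ^ k, ∃ α : A, c - ϖ * α ∈ P ^ (k + 1))
    (hT : ∀ a : A, ∃ b : B, ∑ g : G, g • b - algebraMap A B a ∈ P.map (algebraMap A B))
    (hN : ∀ u : A, ∃ y : B, ∃ n : A, algebraMap A B n = ∏ g : G, g • y ∧ n - u ∈ P)
    (u : A) (hu : u ∉ P) (k : ℕ) (hk : 1 ≤ k) :
    ∃ y : B, ∃ n : A, algebraMap A B n = ∏ g : G, g • y ∧ n - u ∈ P ^ k := by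
  induction k, hk using Nat.le_induction with
  | base => simpa using hN u
  | succ k hk ih =>
    obtain ⟨y, n, hn, hnu⟩ := ih
    have hnP : n ∉ P := by
      intro hn'
      apply hu
      have h1 : n - u ∈ P := Ideal.pow_le_self (by omega) hnu
      have : u = n - (n - u) := by ring
      rw [this]
      exact sub_mem hn' h1
    obtain ⟨n', i, hi, hni⟩ := hPmax.exists_inv hnP
    obtain ⟨ϖ, hϖ, hd⟩ := hdec k hk
    refine approx_step P ϖ k hk hϖ (hcontr (k + 1)) hd hT u y n hn hnu n' ?_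
    have : n * n' - 1 = -i := by linear_combination hni
    rw [this]
    exact neg_mem hi

end Abstract

section Residue

variable {A B G : Type*} [CommRing A] [CommRing B] [Algebra A B] [Group G] [Fintype G]
  [MulSemiringAction G B] [SMulCommClass G A B] [Algebra.IsInvariant A B G]
  (P : Ideal A) (Q : Ideal B) [hP : P.IsMaximal] [hQ : Q.IsMaximal] [Q.LiesOver P]

omit [Fintype G] [Algebra.IsInvariant A B G] hP hQ in
theorem stabHom_injective (hI : Ideal.inertia G Q = ⊥) :
    Function.Injective (Ideal.Quotient.stabilizerHom Q P G) := by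
  rw [← MonoidHom.ker_eq_bot_iff, Ideal.Quotient.ker_stabilizerHom, eq_bot_iff]
  intro σ hσ
  have : (σ : G) ∈ Ideal.inertia G Q := Ideal.coe_mem_inertia.mpr hσ
  rw [hI, Subgroup.mem_bot] at this
  exact Subgroup.mem_bot.mpr (Subtype.ext this)

omit hP in
theorem stabHom_bijective (hI : Ideal.inertia G Q = ⊥) :
    Function.Bijective (Ideal.Quotient.stabilizerHom Q P G) :=
  ⟨stabHom_injective P Q hI, Ideal.Quotient.stabilizerHom_surjective G P Q⟩

attribute [local instance] Ideal.Quotient.field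

open Classical in
/-- The trace over the decomposition group is onto the residue field. -/
theorem residue_trace [Finite (A ⧸ P)] [Module.Finite A B] (hI : Ideal.inertia G Q = ⊥) (a : A) :
    ∃ b0 : B, (∑ g ∈ univ.filter (fun g : G => g • Q = Q), g • b0) - algebraMap A B a ∈ Q := by
  have : Finite (B ⧸ Q) := Module.finite_of_finite (A ⧸ P)
  obtain ⟨x, hx⟩ := Algebra.trace_surjective (A ⧸ P) (B ⧸ Q) (Ideal.Quotient.mk P a)
  obtain ⟨b0, rfl⟩ := Ideal.Quotient.mk_surjective x
  refine ⟨b0, ?_⟩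
  rw [← Ideal.Quotient.eq, map_sum]
  have h1 := trace_eq_sum_automorphisms (K := A ⧸ P) (L := B ⧸ Q) (Ideal.Quotient.mk Q b0)
  rw [hx] at h1
  have h2 : algebraMap (A ⧸ P) (B ⧸ Q) (Ideal.Quotient.mk P a)
      = Ideal.Quotient.mk Q (algebraMap A B a) := rfl
  rw [h2] at h1
  rw [h1, ← (stabHom_bijective P Q hI).sum_comp]
  simp_rw [Ideal.Quotient.stabilizerHom_apply]
  rw [Finset.sum_subtype (univ.filter (fun g : G => g • Q = Q))
    (p := fun g => g ∈ MulAction.stabilizer G Q)
    (fun g => by simp [MulAction.mem_stabilizer_iff])]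
  rfl

open Classical in
/-- The norm over the decomposition group is onto the residue field. -/
theorem residue_norm [Finite (A ⧸ P)] [Module.Finite A B] (hI : Ideal.inertia G Q = ⊥) (a : A) :
    ∃ b0 : B, (∏ g ∈ univ.filter (fun g : G => g • Q = Q), g • b0) - algebraMap A B a ∈ Q := by
  have : Finite (B ⧸ Q) := Module.finite_of_finite (A ⧸ P)
  obtain ⟨x, hx⟩ := FiniteField.norm_surjective (A ⧸ P) (B ⧸ Q) (Ideal.Quotient.mk P a)
  obtain ⟨b0, rfl⟩ := Ideal.Quotient.mk_surjective x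
  refine ⟨b0, ?_⟩
  rw [← Ideal.Quotient.eq, map_prod]
  have h1 := Algebra.norm_eq_prod_automorphisms (A ⧸ P) (Ideal.Quotient.mk Q b0)
  rw [hx] at h1
  have h2 : algebraMap (A ⧸ P) (B ⧸ Q) (Ideal.Quotient.mk P a)
      = Ideal.Quotient.mk Q (algebraMap A B a) := rfl
  rw [h2] at h1
  rw [h1, ← (stabHom_bijective P Q hI).prod_comp]
  simp_rw [Ideal.Quotient.stabilizerHom_apply]
  rw [Finset.prod_subtype (univ.filter (fun g : G => g • Q = Q))
    (p := fun g => g ∈ MulAction.stabilizer G Q)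
    (fun g => by simp [MulAction.mem_stabilizer_iff])]
  rfl

omit [Fintype G] [SMulCommClass G A B] [Algebra.IsInvariant A B G] [Q.LiesOver P] in
theorem isMaximal_smul (g : G) : (g • Q).IsMaximal := by
  rw [Ideal.pointwise_smul_eq_comap]
  exact Ideal.comap_isMaximal_of_surjective _
    (MulSemiringAction.toRingAut G B g⁻¹).surjective

omit [SMulCommClass G A B] [Algebra.IsInvariant A B G] [Q.LiesOver P] in
/-- Chinese remainder theorem on the orbit of `Q`. -/
theorem exists_crt (b0 c : B) :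
    ∃ y : B, y - b0 ∈ Q ∧ ∀ g : G, g • Q ≠ Q → g • y - g • c ∈ Q := by
  classical
  let ι := Set.range (fun g : G => g • Q)
  have hfin : Finite ι := Set.finite_range _
  have hmax : ∀ i : ι, (i : Ideal B).IsMaximal := by
    rintro ⟨_, g, rfl⟩
    exact isMaximal_smul Q g
  have hcop : Pairwise (Function.onFun IsCoprime fun i : ι => (i : Ideal B)) := by
    intro i j hij
    rw [Function.onFun, Ideal.isCoprime_iff_sup_eq]
    exact Ideal.IsMaximal.coprime_of_ne (hmax i) (hmax j) (fun h => hij (Subtype.ext h))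
  obtain ⟨y, hy⟩ := Ideal.exists_forall_sub_mem_ideal hcop
    (fun i => if (i : Ideal B) = Q then b0 else c)
  refine ⟨y, ?_, fun g hg => ?_⟩
  · have := hy ⟨Q, 1, one_smul G Q⟩
    simpa using this
  · have hne : g⁻¹ • Q ≠ Q := by
      intro h
      apply hg
      calc g • Q = g • (g⁻¹ • Q) := by rw [h]
        _ = Q := smul_inv_smul g Q
    have := hy ⟨g⁻¹ • Q, g⁻¹, rfl⟩
    simp only [hne, if_false] at this
    rw [← smul_sub]
    exact Ideal.mem_inv_pointwise_smul_iff.mp this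

omit [Fintype G] [SMulCommClass G A B] [Algebra.IsInvariant A B G] [Q.LiesOver P] hQ in
theorem smul_sub_mem_of_stab {g : G} (hg : g • Q = Q) {y b0 : B} (h : y - b0 ∈ Q) :
    g • y - g • b0 ∈ Q := by
  rw [← smul_sub]
  have := Ideal.smul_mem_pointwise_smul g _ Q h
  rwa [hg] at this

/-- The `G`-trace is onto modulo `P`. -/
theorem trace_mod [Finite (A ⧸ P)] [Module.Finite A B] (hI : Ideal.inertia G Q = ⊥) (a : A) :
    ∃ b : B, ∑ g : G, g • b - algebraMap A B a ∈ P.map (algebraMap A B) := by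
  classical
  obtain ⟨b0, hb0⟩ := residue_trace P Q hI a
  obtain ⟨y, hy0, hy⟩ := exists_crt (G := G) Q b0 0
  refine ⟨y, ?_⟩
  obtain ⟨t, ht⟩ := exists_algebraMap_eq_sum_smul (A := A) (G := G) y
  have hQmem : ∑ g : G, g • y - algebraMap A B a ∈ Q := by
    rw [← Ideal.Quotient.eq] at hb0 ⊢
    rw [← hb0, map_sum, map_sum,
      ← Finset.sum_filter_add_sum_filter_not univ (fun g : G => g • Q = Q)]
    have h1 : ∑ g ∈ univ.filter (fun g : G => ¬ g • Q = Q), Ideal.Quotient.mk Q (g • y) = 0 := by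
      apply Finset.sum_eq_zero
      intro g hg
      rw [Finset.mem_filter] at hg
      have := hy g hg.2
      rw [smul_zero, sub_zero] at this
      exact Ideal.Quotient.eq_zero_iff_mem.mpr this
    rw [h1, add_zero]
    refine Finset.sum_congr rfl fun g hg => ?_
    rw [Finset.mem_filter] at hg
    exact Ideal.Quotient.eq.mpr (smul_sub_mem_of_stab Q hg.2 hy0)
  rw [← ht, ← map_sub] at hQmem ⊢
  apply Ideal.mem_map_of_mem
  rw [Ideal.over_def Q P]
  exact hQmem

/-- The `G`-norm is onto modulo `P`. -/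
theorem norm_mod [Finite (A ⧸ P)] [Module.Finite A B] (hI : Ideal.inertia G Q = ⊥) (u : A) :
    ∃ y : B, ∃ n : A, algebraMap A B n = ∏ g : G, g • y ∧ n - u ∈ P := by
  classical
  obtain ⟨b0, hb0⟩ := residue_norm P Q hI u
  obtain ⟨y, hy0, hy⟩ := exists_crt (G := G) Q b0 1
  obtain ⟨n, hn⟩ := exists_algebraMap_eq_prod_smul (A := A) (G := G) y
  refine ⟨y, n, hn, ?_⟩
  have hQmem : ∏ g : G, g • y - algebraMap A B u ∈ Q := by
    rw [← Ideal.Quotient.eq] at hb0 ⊢
    rw [← hb0, map_prod, map_prod,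
      ← Finset.prod_filter_mul_prod_filter_not univ (fun g : G => g • Q = Q)]
    have h1 : ∏ g ∈ univ.filter (fun g : G => ¬ g • Q = Q), Ideal.Quotient.mk Q (g • y) = 1 := by
      apply Finset.prod_eq_one
      intro g hg
      rw [Finset.mem_filter] at hg
      have := hy g hg.2
      rw [smul_one] at this
      rw [← map_one (Ideal.Quotient.mk Q)]
      exact Ideal.Quotient.eq.mpr this
    rw [h1, mul_one]
    refine Finset.prod_congr rfl fun g hg => ?_
    rw [Finset.mem_filter] at hg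
    exact Ideal.Quotient.eq.mpr (smul_sub_mem_of_stab Q hg.2 hy0)
  rw [← hn, ← map_sub] at hQmem
  rw [Ideal.over_def Q P]
  exact hQmem

end Residue

section Dedekind

variable {A B G : Type*} [CommRing A] [IsDedekindDomain A] [CommRing B] [Algebra A B]
  [Module.Finite A B] [Module.FaithfullyFlat A B] [Group G] [Fintype G]
  [MulSemiringAction G B] [SMulCommClass G A B] [Algebra.IsInvariant A B G]

omit [IsDedekindDomain A] [Module.Finite A B] [Fintype G] [SMulCommClass G A B]
  [Algebra.IsInvariant A B G] in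
theorem contraction (I : Ideal A) (a : A) (h : algebraMap A B a ∈ I.map (algebraMap A B)) :
    a ∈ I := by
  have := Ideal.comap_map_eq_self_of_faithfullyFlat (B := B) I
  rw [← this]
  exact Ideal.mem_comap.mpr h

/-- Norm surjectivity modulo powers of an unramified prime with finite residue field. -/
theorem norm_mod_pow (P : Ideal A) [hPmax : P.IsMaximal] (hP0 : P ≠ ⊥) [Finite (A ⧸ P)]
    (hunr : ∀ Q : Ideal B, Q.IsMaximal → Q.LiesOver P → Ideal.inertia G Q = ⊥)
    (u : A) (hu : u ∉ P) (k : ℕ) (hk : 1 ≤ k) :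
    ∃ y : B, ∃ n : A, algebraMap A B n = ∏ g : G, g • y ∧ n - u ∈ P ^ k := by
  have : Algebra.IsIntegral A B := Algebra.IsIntegral.of_finite A B
  obtain ⟨Q, hQmax, hQover⟩ := Ideal.exists_maximal_ideal_liesOver_of_isIntegral (S := B) P
  have hI := hunr Q hQmax hQover
  refine approx_all P (fun k a h => contraction (P ^ k) a h) ?_ (trace_mod P Q hI)
    (norm_mod P Q hI) u hu k hk
  intro k _
  obtain ⟨ϖ, hϖ, hϖ'⟩ := SetLike.exists_of_lt (Ideal.pow_succ_lt_pow hP0 k)
  refine ⟨ϖ, hϖ, fun c hc => ?_⟩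
  obtain ⟨d, e, he, hde⟩ := Ideal.exists_mul_add_mem_pow_succ hP0 ϖ c hϖ hϖ' hc
  refine ⟨d, ?_⟩
  have : c - ϖ * d = e := by rw [← hde]; ring
  rw [this]
  exact he

omit [IsDedekindDomain A] [Module.Finite A B] [Module.FaithfullyFlat A B] [Fintype G]
  [Algebra.IsInvariant A B G] in
theorem smul_mem_map (I : Ideal A) (g : G) {b : B} (hb : b ∈ I.map (algebraMap A B)) :
    g • b ∈ I.map (algebraMap A B) := by
  unfold Ideal.map at hb ⊢
  induction hb using Submodule.span_induction with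
  | mem x hx =>
    obtain ⟨a, ha, rfl⟩ := hx
    rw [smul_algebraMap]
    exact Ideal.subset_span ⟨a, ha, rfl⟩
  | zero => rw [smul_zero]; exact Ideal.zero_mem _
  | add x y _ _ hx hy => rw [smul_add]; exact Ideal.add_mem _ hx hy
  | smul r x _ hx => rw [smul_eq_mul, smul_mul']; exact Ideal.mul_mem_left _ _ hx

omit [IsDedekindDomain A] [Module.Finite A B] [Module.FaithfullyFlat A B]
  [Algebra.IsInvariant A B G] in
theorem prod_smul_sub_mem (I : Ideal A) {y y' : B} (h : y - y' ∈ I.map (algebraMap A B)) :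
    ∏ g : G, g • y - ∏ g : G, g • y' ∈ I.map (algebraMap A B) := by
  rw [← Ideal.Quotient.eq, map_prod, map_prod]
  refine Finset.prod_congr rfl fun g _ => ?_
  rw [Ideal.Quotient.eq, ← smul_sub]
  exact smul_mem_map I g h

/-- Norm surjectivity modulo an arbitrary nonzero ideal, for an extension of Dedekind domains
with finite residue fields which is unramified everywhere. -/
theorem norm_mod_ideal (hfin : ∀ P : Ideal A, P ≠ ⊥ → Finite (A ⧸ P))
    (hunr : ∀ Q : Ideal B, Q.IsPrime → Q ≠ ⊥ → Ideal.inertia G Q = ⊥)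
    (M : Ideal A) (hM : M ≠ ⊥) (u : A) (hu : Ideal.span {u} ⊔ M = ⊤) :
    ∃ y : B, ∃ n : A, algebraMap A B n = ∏ g : G, g • y ∧ n - u ∈ M := by
  have hinj : Function.Injective (algebraMap A B) := FaithfulSMul.algebraMap_injective A B
  induction M using UniqueFactorizationMonoid.induction_on_coprime generalizing u with
  | h0 => exact absurd rfl hM
  | h1 hx =>
    rw [Ideal.isUnit_iff] at hx
    subst hx
    exact ⟨1, 1, by simp, Submodule.mem_top⟩
  | hpr i hp =>
    rename_i p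
    have hp0 : p ≠ ⊥ := hp.ne_zero
    have hpprime : p.IsPrime := (Ideal.prime_iff_isPrime hp0).mp hp
    have hpmax : p.IsMaximal := hpprime.isMaximal hp0
    rcases Nat.eq_zero_or_pos i with rfl | hi
    · exact ⟨1, 1, by simp, by simp⟩
    · have hup : u ∉ p := by
        intro hmem
        have : Ideal.span {u} ⊔ p ^ i ≤ p :=
          sup_le ((Ideal.span_singleton_le_iff_mem _).mpr hmem) (Ideal.pow_le_self (by omega))
        rw [hu] at this
        exact hpmax.ne_top (top_le_iff.mp this)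
      have := hfin p hp0
      refine norm_mod_pow p hp0 (fun Q hQmax hQover => hunr Q hQmax.isPrime ?_) u hup i hi
      rintro rfl
      apply hp0
      rw [Ideal.over_def (⊥ : Ideal B) p, Ideal.under_def, ← RingHom.ker_eq_comap_bot,
        (RingHom.injective_iff_ker_eq_bot _).mp hinj]
  | hcp hrel ihx ihy =>
    rename_i x y
    have hx0 : x ≠ ⊥ := fun h => hM (by rw [h, Ideal.bot_mul])
    have hy0 : y ≠ ⊥ := fun h => hM (by rw [h, Ideal.mul_bot])
    have hux : Ideal.span {u} ⊔ x = ⊤ :=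
      top_le_iff.mp (hu ▸ sup_le_sup_left Ideal.mul_le_left _)
    have huy : Ideal.span {u} ⊔ y = ⊤ :=
      top_le_iff.mp (hu ▸ sup_le_sup_left Ideal.mul_le_right _)
    obtain ⟨y1, n1, hn1, hn1u⟩ := ihx hx0 u hux
    obtain ⟨y2, n2, hn2, hn2u⟩ := ihy hy0 u huy
    have hxy : x ⊔ y = ⊤ := by
      have hunit : IsUnit (x ⊔ y) :=
        hrel (Ideal.dvd_iff_le.mpr le_sup_left) (Ideal.dvd_iff_le.mpr le_sup_right)
      exact Ideal.isUnit_iff.mp hunit
    obtain ⟨e1, he1, e2, he2, he⟩ := Submodule.mem_sup.mp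
      ((Ideal.eq_top_iff_one _).mp hxy)
    set φ := algebraMap A B with hφ
    set yy : B := y1 * φ e2 + y2 * φ e1 with hyy
    obtain ⟨n, hn⟩ := exists_algebraMap_eq_prod_smul (A := A) (G := G) yy
    refine ⟨yy, n, hn, ?_⟩
    have hφe : φ e1 + φ e2 = 1 := by rw [← map_add, he, map_one]
    have h1 : yy - y1 ∈ x.map φ := by
      have : yy - y1 = (y2 - y1) * φ e1 := by rw [hyy]; linear_combination y1 * hφe
      rw [this]
      exact Ideal.mul_mem_left _ _ (Ideal.mem_map_of_mem φ he1)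
    have h2 : yy - y2 ∈ y.map φ := by
      have : yy - y2 = (y1 - y2) * φ e2 := by rw [hyy]; linear_combination y2 * hφe
      rw [this]
      exact Ideal.mul_mem_left _ _ (Ideal.mem_map_of_mem φ he2)
    have h3 : n - n1 ∈ x := by
      apply contraction (B := B) x
      rw [map_sub, hn, hn1]
      exact prod_smul_sub_mem x h1
    have h4 : n - n2 ∈ y := by
      apply contraction (B := B) y
      rw [map_sub, hn, hn2]
      exact prod_smul_sub_mem y h2
    have h5 : n - u ∈ x := by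
      have : n - u = (n - n1) + (n1 - u) := by ring
      rw [this]; exact add_mem h3 hn1u
    have h6 : n - u ∈ y := by
      have : n - u = (n - n2) + (n2 - u) := by ring
      rw [this]; exact add_mem h4 hn2u
    rw [Ideal.mul_eq_inf_of_isCoprime (Ideal.isCoprime_iff_sup_eq.mpr hxy)]
    exact ⟨h5, h6⟩

end Dedekind

end NormSurj

section NumberField

open NumberField

variable (F E : Type*) [Field F] [NumberField F] [Field E] [NumberField E] [Algebra F E]
  [IsGalois F E]

/-- The integral norm is the product over the Galois group. -/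
theorem algebraMap_intNorm_eq_prod_smul (y : 𝓞 E) :
    algebraMap (𝓞 F) (𝓞 E) (Algebra.intNorm (𝓞 F) (𝓞 E) y) = ∏ σ : Gal(E/F), σ • y := by
  apply RingOfIntegers.coe_injective
  have h1 := Algebra.algebraMap_intNorm (A := 𝓞 F) (K := F) (L := E) (B := 𝓞 E) y
  have h2 := Algebra.norm_eq_prod_automorphisms F (algebraMap (𝓞 E) E y)
  rw [← h1, ← IsScalarTower.algebraMap_apply (𝓞 F) F E] at h2
  rw [map_prod, ← IsScalarTower.algebraMap_apply (𝓞 F) (𝓞 E) E, h2]
  rfl

variable {F E}

/-- WP-A3, ideal version: for an everywhere unramified Galois extension `E/F` of number fields,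
a nonzero ideal `M` of `𝓞 F` and `x` prime to `M`, some integral norm times `x` is `1` mod `M`. -/
theorem normSurj_ideal (hunr : IsUnramifiedEverywhere F E) (M : Ideal (𝓞 F)) (hM : M ≠ ⊥)
    (x : 𝓞 F) (hx : Ideal.span {x} ⊔ M = ⊤) :
    ∃ y : 𝓞 E, Algebra.intNorm (𝓞 F) (𝓞 E) y * x - 1 ∈ M := by
  obtain ⟨a, ha, c, hc, hac⟩ := Submodule.mem_sup.mp ((Ideal.eq_top_iff_one _).mp hx)
  obtain ⟨x', rfl⟩ := Ideal.mem_span_singleton'.mp ha
  -- `x' * x + c = 1`
  have hx' : Ideal.span {x'} ⊔ M = ⊤ := by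
    rw [Ideal.eq_top_iff_one, ← hac]
    exact Submodule.add_mem_sup (Ideal.mem_span_singleton'.mpr ⟨x, mul_comm x x'⟩) hc
  obtain ⟨y, n, hn, hnx⟩ := NormSurj.norm_mod_ideal (G := Gal(E/F))
    (fun P hP => Ideal.finiteQuotientOfFreeOfNeBot P hP)
    (fun Q hQ hQ0 => hunr Q hQ hQ0) M hM x' hx'
  refine ⟨y, ?_⟩
  have hnorm : Algebra.intNorm (𝓞 F) (𝓞 E) y = n := by
    apply FaithfulSMul.algebraMap_injective (𝓞 F) (𝓞 E)
    rw [algebraMap_intNorm_eq_prod_smul, hn]
  rw [hnorm]
  have : n * x - 1 = (n - x') * x - c := by linear_combination hac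
  rw [this]
  exact sub_mem (Ideal.mul_mem_right _ _ hnx) hc

/-- WP-A3: norm surjectivity modulo a nonzero natural number `m`. -/
theorem normSurj (hunr : IsUnramifiedEverywhere F E) (m : ℕ) (hm : m ≠ 0) (x : 𝓞 F)
    (hx : Ideal.span {x} ⊔ Ideal.span {(m : 𝓞 F)} = ⊤) :
    ∃ y : 𝓞 E, Algebra.intNorm (𝓞 F) (𝓞 E) y * x - 1 ∈ Ideal.span {(m : 𝓞 F)} := by
  refine normSurj_ideal hunr _ ?_ x hx
  rw [Ne, Ideal.span_singleton_eq_bot]
  exact_mod_cast hm

/-- WP-A3 in the form consumed by the crossing argument. -/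
theorem normSurjMod (p : ℕ) : NormSurjMod p := by
  intro F E _ _ _ _ _ _ _ _ hunr m hm x hx
  obtain ⟨y, hy⟩ := normSurj hunr m hm x (Ideal.isCoprime_iff_sup_eq.mp hx)
  by_cases hy0 : y = 0
  · refine ⟨1, one_ne_zero, ?_⟩
    have htop : Ideal.span {(m : 𝓞 F)} = ⊤ := by
      rw [Ideal.eq_top_iff_one]
      rw [hy0, Algebra.intNorm_zero, zero_mul, zero_sub] at hy
      simpa using neg_mem hy
    rw [htop]
    exact Submodule.mem_top
  · exact ⟨y, hy0, hy⟩

end NumberField

end Fermat.Agent.Lib.CFT.Unram
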