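/-
helper14 (P-CFT, S14 fast track).  Master file: instantiates the abstract crossing theorem
(`Unram/Crossing.lean`) with the proven work packages.  The hypotheses of the theorems below are
exactly the work packages that are not yet landed; they disappear one by one.
-/
import Mathlib
import Fermat.Agent.Lib.CFT.Unram.Crossing
import Fermat.Agent.Lib.CFT.Unram.ArtinMap
import Fermat.Agent.Lib.CFT.Unram.Moving
import Fermat.Agent.Lib.CFT.Unram.NormSurj
import Fermat.Agent.Lib.CFT.Unram.CycloRecip
import Fermat.Agent.Lib.CFT.Unram.CrossingFields.Assembly
import Fermat.Agent.Lib.CFT.Unram.UpperBound.Main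
import Fermat.Agent.Lib.CFT.Unram.ClassZetaBound
import Fermat.Agent.Lib.CFT.Unram.LowerBoundCore
import Fermat.Agent.Lib.CFT.Unram.LowerBoundUnits
import Fermat.Agent.Lib.CFT.Unram.LowerBoundIndex

set_option autoImplicit false

namespace Fermat.Agent.Lib.CFT.Unram

/-- (CYC), unconditional. -/
theorem cycloReciprocity_prime {p : ℕ} (hp : p.Prime) : CycloReciprocity p :=
  cycloReciprocity p hp (normSurjMod p) artinMapKillsNorms

/-- WP-A5, unconditional. -/
theorem crossingDataExists_prime {p : ℕ} (hp : p.Prime) : CrossingDataExists p :=
  CrossingFields.crossingDataExists hp (cycloReciprocity_prime hp) unramifiedBaseChange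

/-- Artin reciprocity for everywhere unramified extensions of prime degree, modulo the remaining
work packages (both inequalities, crossing data).  (Kept for `S14/Conditional.lean`.) -/
theorem reciprocity_of_remaining {p : ℕ} [Fact p.Prime] (hL : LowerBound p) (hU : UpperBound p)
    (hCD : CrossingDataExists p) : Reciprocity p :=
  reciprocity_of_packages artinMapExists hL hU artinMapSplit artinMapKillsNorms
    artinMapBaseChange unramifiedBaseChange movingRep movingNorm movingCoprimeNorm hCD

/-- The S14 interface statement modulo the remaining work packages.
(Kept for `S14/Conditional.lean`.) -/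
theorem artinUnramifiedCyclic_of_remaining {p : ℕ} [Fact p.Prime] (hL : LowerBound p)
    (hU : UpperBound p) (hCD : CrossingDataExists p) : S14.ArtinUnramifiedCyclic p :=
  artinUnramifiedCyclic_of_reciprocity p (reciprocity_of_remaining hL hU hCD)

/-- Artin reciprocity for everywhere unramified extensions of prime degree, from the two
inequalities. -/
theorem reciprocity_of_bounds {p : ℕ} [Fact p.Prime] (hL : LowerBound p) (hU : UpperBound p) :
    Reciprocity p :=
  reciprocity_of_remaining hL hU (crossingDataExists_prime Fact.out)

/-- The S14 interface statement from the two inequalities. -/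
theorem artinUnramifiedCyclic_of_bounds {p : ℕ} [Fact p.Prime] (hL : LowerBound p)
    (hU : UpperBound p) : S14.ArtinUnramifiedCyclic p :=
  artinUnramifiedCyclic_of_reciprocity p (reciprocity_of_bounds hL hU)

/-- WP-U (second inequality), unconditional: `[Cl_K : N Cl_L] ≤ p` (helper76's WP-U4 fed with
helper68's bound (PZ) for the `L`-series of the class group characters). -/
theorem upperBound (p : ℕ) : UpperBound p :=
  UpperBound.upperBound_of_partialZeta
    (fun K _ _ => Count.exists_norm_tsum_char_le K) p

/-- Artin reciprocity for everywhere unramified extensions of prime degree, from the first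
inequality alone. -/
theorem reciprocity_of_lowerBound {p : ℕ} [Fact p.Prime] (hL : LowerBound p) : Reciprocity p :=
  reciprocity_of_bounds hL (upperBound p)

/-- The S14 interface statement from the first inequality alone. -/
theorem artinUnramifiedCyclic_of_lowerBound {p : ℕ} [Fact p.Prime] (hL : LowerBound p) :
    S14.ArtinUnramifiedCyclic p :=
  artinUnramifiedCyclic_of_bounds hL (upperBound p)

/-- WP-L (first inequality), unconditional: `p ≤ [Cl_K : N Cl_L]` (helper91's hexagon bound and
assembly, helper1's unit computation, helper93's index translation). -/
theorem lowerBound {p : ℕ} (hp : p.Prime) : LowerBound p :=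
  lowerBound_of hp
    (fun K L _ _ _ _ _ _ hdeg hK σ hσ => LB.units_index K L hp hdeg hK σ hσ)
    (fun K L _ _ _ _ _ _ hdeg hun σ hσ =>
      (LB.relIndex_eq_index_normClasses hp hdeg hσ hun).dvd)

/-- **Artin reciprocity for everywhere unramified extensions of prime degree**, unconditional. -/
theorem reciprocity (p : ℕ) [Fact p.Prime] : Reciprocity p :=
  reciprocity_of_bounds (lowerBound Fact.out) (upperBound p)

/-- **The S14 interface statement**, unconditional. -/
theorem artinUnramifiedCyclic (p : ℕ) [Fact p.Prime] : S14.ArtinUnramifiedCyclic p :=
  artinUnramifiedCyclic_of_bounds (lowerBound Fact.out) (upperBound p)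

end Fermat.Agent.Lib.CFT.Unram
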