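/-
helper1 (P-CFT, S14 fast track, WP-L3).  Permutation modules `X →₀ ℤ` for a group `G` acting on a
set `X`: vanishing of `H^1` (elements killed by the norm are of the form `σ • g - g` when `σ`
generates `G`), and invariants are spanned by orbit sums.
-/
import Mathlib

set_option autoImplicit false

namespace Fermat.Agent.Lib.CFT.Unram.PermModule

attribute [local instance] Finsupp.comapSMul Finsupp.comapMulAction Finsupp.comapDistribMulAction

variable {G X : Type*} [Group G] [MulAction G X]

section HOne

variable (σ : G)

/-- The map `g ↦ σ • g - g`. -/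
noncomputable def subOne : (X →₀ ℤ) →+ (X →₀ ℤ) :=
  DistribSMul.toAddMonoidHom (X →₀ ℤ) σ - AddMonoidHom.id _

@[simp] lemma subOne_apply (g : X →₀ ℤ) : subOne σ g = σ • g - g := rfl

/-- If `σ` generates `G`, every `τ • m - m` lies in the image of `σ - 1`. -/
lemma smul_sub_mem_range (hσ : ∀ τ : G, τ ∈ Subgroup.zpowers σ) (τ : G) (m : X →₀ ℤ) :
    τ • m - m ∈ (subOne (X := X) σ).range := by
  let T : Subgroup G :=
    { carrier := {τ | ∀ m : X →₀ ℤ, τ • m - m ∈ (subOne (X := X) σ).range}
      one_mem' := by
        intro m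
        rw [one_smul, sub_self]
        exact zero_mem _
      mul_mem' := by
        intro a b ha hb m
        have : (a * b) • m - m = (a • (b • m) - b • m) + (b • m - m) := by
          rw [mul_smul]; abel
        rw [this]
        exact add_mem (ha _) (hb _)
      inv_mem' := by
        intro a ha m
        have : a⁻¹ • m - m = -(a • (a⁻¹ • m) - a⁻¹ • m) := by
          rw [smul_inv_smul]; abel
        rw [this]
        exact neg_mem (ha _) }
  have hσT : σ ∈ T := fun m => ⟨m, rfl⟩
  have : Subgroup.zpowers σ ≤ T := (Subgroup.zpowers_le).mpr hσT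
  exact this (hσ τ) m

/-- The projection to the free module on the orbits. -/
noncomputable def orbitProj : (X →₀ ℤ) →+ (MulAction.orbitRel.Quotient G X →₀ ℤ) :=
  Finsupp.mapDomain.addMonoidHom (Quotient.mk'' : X → MulAction.orbitRel.Quotient G X)

lemma orbitProj_single (x : X) (n : ℤ) :
    orbitProj (G := G) (Finsupp.single x n) =
      Finsupp.single (Quotient.mk'' x : MulAction.orbitRel.Quotient G X) n := by
  simp [orbitProj]

lemma orbitProj_smul (τ : G) (m : X →₀ ℤ) : orbitProj (G := G) (τ • m) = orbitProj (G := G) m := by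
  induction m using Finsupp.induction_linear with
  | zero => simp
  | add f g hf hg => rw [smul_add, map_add, map_add, hf, hg]
  | single x n =>
    rw [Finsupp.comapSMul_single, orbitProj_single, orbitProj_single]
    congr 1
    apply Quotient.sound'
    exact MulAction.mem_orbit x τ

variable {σ}

/-- Well-definedness of the section on orbits, modulo the image of `σ - 1`. -/
lemma single_mk_eq (hσ : ∀ τ : G, τ ∈ Subgroup.zpowers σ) {a b : X}
    (h : MulAction.orbitRel G X a b) :
    (QuotientAddGroup.mk (Finsupp.single a (1 : ℤ)) : (X →₀ ℤ) ⧸ (subOne (X := X) σ).range) =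
      QuotientAddGroup.mk (Finsupp.single b (1 : ℤ)) := by
  obtain ⟨τ, rfl⟩ := h
  rw [eq_comm, QuotientAddGroup.eq, neg_add_eq_sub]
  have := smul_sub_mem_range σ hσ τ (Finsupp.single b (1 : ℤ))
  rwa [Finsupp.comapSMul_single] at this

/-- The section from the free module on the orbits to the coinvariants. -/
noncomputable def orbitLift (hσ : ∀ τ : G, τ ∈ Subgroup.zpowers σ) :
    (MulAction.orbitRel.Quotient G X →₀ ℤ) →+ (X →₀ ℤ) ⧸ (subOne (X := X) σ).range :=
  Finsupp.liftAddHom fun q =>
    zmultiplesHom _ (Quotient.liftOn' q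
      (fun x => (QuotientAddGroup.mk (Finsupp.single x (1 : ℤ)) :
        (X →₀ ℤ) ⧸ (subOne (X := X) σ).range))
      (fun _ _ h => single_mk_eq hσ h))

lemma orbitLift_orbitProj (hσ : ∀ τ : G, τ ∈ Subgroup.zpowers σ) (m : X →₀ ℤ) :
    orbitLift hσ (orbitProj (G := G) m) = QuotientAddGroup.mk m := by
  induction m using Finsupp.induction_linear with
  | zero => simp
  | add f g hf hg => rw [map_add, map_add, hf, hg, QuotientAddGroup.mk_add]
  | single x n =>
    rw [orbitProj_single, orbitLift, Finsupp.liftAddHom_apply_single]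
    simp only [zmultiplesHom_apply]
    change n • (QuotientAddGroup.mk (Finsupp.single x (1 : ℤ)) :
        (X →₀ ℤ) ⧸ (subOne (X := X) σ).range) = _
    rw [← QuotientAddGroup.mk_zsmul, Finsupp.smul_single, smul_eq_mul, mul_one]

/-- **Vanishing of `H^1` for permutation modules**: if `σ` generates the finite group `G` and
`f : X →₀ ℤ` is killed by the norm, then `f = σ • g - g` for some `g`. -/
theorem exists_smul_sub_of_sum_smul_eq_zero [Fintype G]
    (hσ : ∀ τ : G, τ ∈ Subgroup.zpowers σ) (f : X →₀ ℤ) (hf : ∑ τ : G, τ • f = 0) :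
    ∃ g : X →₀ ℤ, f = σ • g - g := by
  have h1 : (Fintype.card G : ℤ) • orbitProj (G := G) f = 0 := by
    have := congrArg (orbitProj (G := G)) hf
    rw [map_sum, map_zero] at this
    simp only [orbitProj_smul] at this
    rw [Finset.sum_const, Finset.card_univ] at this
    rwa [natCast_zsmul]
  have h2 : orbitProj (G := G) f = 0 := by
    ext q
    have := DFunLike.congr_fun h1 q
    rw [Finsupp.smul_apply, Finsupp.zero_apply, smul_eq_mul, mul_eq_zero] at this
    rcases this with h | h
    · exfalso
      have : Fintype.card G ≠ 0 := Fintype.card_ne_zero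
      exact this (by exact_mod_cast h)
    · simpa using h
  have h3 : (QuotientAddGroup.mk f : (X →₀ ℤ) ⧸ (subOne (X := X) σ).range) = 0 := by
    rw [← orbitLift_orbitProj hσ, h2, map_zero]
  rw [QuotientAddGroup.eq_zero_iff] at h3
  obtain ⟨g, hg⟩ := h3
  exact ⟨g, hg.symm⟩

end HOne

section Invariants

variable (G)

/-- The orbit of `x` as a finset (for a finite group). -/
noncomputable def orbitFinset [Finite G] (x : X) : Finset X :=
  (Set.finite_range (fun g : G => g • x)).toFinset

variable {G}

@[simp] lemma mem_orbitFinset [Finite G] {x y : X} : y ∈ orbitFinset G x ↔ ∃ g : G, g • x = y := by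
  simp [orbitFinset]

lemma self_mem_orbitFinset [Finite G] (x : X) : x ∈ orbitFinset G x :=
  mem_orbitFinset.mpr ⟨1, one_smul _ _⟩

variable (G)

/-- The sum of the elements of the orbit of `x`. -/
noncomputable def orbitSum [Finite G] (x : X) : X →₀ ℤ :=
  ∑ y ∈ orbitFinset G x, Finsupp.single y (1 : ℤ)

variable {G}

open Classical in
lemma orbitSum_apply [Finite G] (x y : X) :
    orbitSum G x y = if y ∈ orbitFinset G x then 1 else 0 := by
  rw [orbitSum, Finsupp.finsetSum_apply]
  simp only [Finsupp.single_apply]
  rw [Finset.sum_ite_eq']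

/-- **Invariants of a permutation module** are integer combinations of orbit sums. -/
theorem mem_closure_orbitSum_of_invariant [Finite G] (e : X →₀ ℤ) (he : ∀ τ : G, τ • e = e) :
    e ∈ AddSubgroup.closure (Set.range (orbitSum G : X → X →₀ ℤ)) := by
  classical
  have hinv : ∀ (e : X →₀ ℤ), (∀ τ : G, τ • e = e) → ∀ (τ : G) (y : X), e (τ • y) = e y := by
    intro e he τ y
    have := DFunLike.congr_fun (he τ⁻¹) y
    rw [Finsupp.comapSMul_apply, inv_inv] at this
    exact this
  induction' hn : e.support.card using Nat.strong_induction_on with n ih generalizing e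
  by_cases h0 : e = 0
  · rw [h0]; exact zero_mem _
  obtain ⟨x, hx⟩ : ∃ x, x ∈ e.support := by
    by_contra hne
    push Not at hne
    exact h0 (Finsupp.support_eq_empty.mp (Finset.eq_empty_of_forall_notMem hne))
  set e' : X →₀ ℤ := e - e x • orbitSum G x with he'
  have he'apply : ∀ y, e' y = if y ∈ orbitFinset G x then 0 else e y := by
    intro y
    rw [he', Finsupp.sub_apply, Finsupp.smul_apply, orbitSum_apply]
    split_ifs with hy
    · obtain ⟨g, rfl⟩ := mem_orbitFinset.mp hy
      rw [hinv e he g x]
      simp
    · simp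
  have hsupp : e'.support ⊆ e.support.erase x := by
    intro y hy
    rw [Finsupp.mem_support_iff, he'apply] at hy
    rw [Finset.mem_erase, Finsupp.mem_support_iff]
    split_ifs at hy with hyo
    · exact absurd rfl hy
    · refine ⟨?_, hy⟩
      rintro rfl
      exact hyo (self_mem_orbitFinset _)
  have hcard : e'.support.card < n := by
    rw [← hn]
    calc e'.support.card ≤ (e.support.erase x).card := Finset.card_le_card hsupp
      _ < e.support.card := Finset.card_erase_lt_of_mem hx
  have hinv' : ∀ τ : G, τ • e' = e' := by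
    intro τ
    ext y
    rw [Finsupp.comapSMul_apply, he'apply, he'apply, hinv e he]
    have : τ⁻¹ • y ∈ orbitFinset G x ↔ y ∈ orbitFinset G x := by
      rw [mem_orbitFinset, mem_orbitFinset]
      constructor
      · rintro ⟨g, hg⟩
        exact ⟨τ * g, by rw [mul_smul, hg, smul_inv_smul]⟩
      · rintro ⟨g, hg⟩
        exact ⟨τ⁻¹ * g, by rw [mul_smul, hg]⟩
    simp only [this]
  have h1 := ih _ hcard e' hinv' rfl
  have : e = e' + e x • orbitSum G x := by rw [he']; abel
  rw [this]
  exact add_mem h1 (zsmul_mem (AddSubgroup.subset_closure (Set.mem_range_self x)) _)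

end Invariants

end Fermat.Agent.Lib.CFT.Unram.PermModule
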