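/-
helper1 (P-CFT, S14 fast track, WP-L3).  The group of invertible fractional ideals of a Dedekind
domain is the free abelian group on the height one primes; for rings of integers this is
compatible with the Galois action.
-/
import Mathlib
import Fermat.Agent.Lib.CFT.Unram.IdealAct
import Fermat.Agent.Lib.CFT.Unram.PermModule

set_option autoImplicit false
set_option linter.unusedSectionVars false

namespace Fermat.Agent.Lib.CFT.Unram

open NumberField FractionalIdeal IsDedekindDomain
open scoped nonZeroDivisors Pointwise

section Dedekind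

variable (R K : Type*) [CommRing R] [IsDedekindDomain R] [Field K] [Algebra R K]
  [IsFractionRing R K]

/-- The invertible fractional ideal attached to a height one prime. -/
noncomputable def primeUnit (v : HeightOneSpectrum R) : (FractionalIdeal R⁰ K)ˣ :=
  Units.mk0 (v.asIdeal : FractionalIdeal R⁰ K) (coeIdeal_ne_zero.mpr v.ne_bot)

@[simp] lemma coe_primeUnit (v : HeightOneSpectrum R) :
    ((primeUnit R K v : (FractionalIdeal R⁰ K)ˣ) : FractionalIdeal R⁰ K) =
      (v.asIdeal : FractionalIdeal R⁰ K) := rfl

/-- The homomorphism `e ↦ ∏ v ^ e v` from finitely supported functions on the height one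
spectrum to the group of invertible fractional ideals. -/
noncomputable def factorHom : (HeightOneSpectrum R →₀ ℤ) →+ Additive (FractionalIdeal R⁰ K)ˣ :=
  Finsupp.liftAddHom fun v => zmultiplesHom _ (Additive.ofMul (primeUnit R K v))

lemma factorHom_single (v : HeightOneSpectrum R) (n : ℤ) :
    factorHom R K (Finsupp.single v n) = Additive.ofMul (primeUnit R K v ^ n) := by
  rw [factorHom, Finsupp.liftAddHom_apply_single]
  rfl

lemma coe_factorHom (e : HeightOneSpectrum R →₀ ℤ) :
    (((factorHom R K e).toMul : (FractionalIdeal R⁰ K)ˣ) : FractionalIdeal R⁰ K) =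
      e.prod (fun v n => (v.asIdeal : FractionalIdeal R⁰ K) ^ n) := by
  induction e using Finsupp.induction_linear with
  | zero => simp
  | add f g hf hg =>
    rw [map_add, toMul_add, Units.val_mul, hf, hg, Finsupp.prod_add_index']
    · intro v; exact zpow_zero _
    · intro v a b
      exact zpow_add₀ (coeIdeal_ne_zero.mpr v.ne_bot) a b
  | single v n =>
    rw [factorHom_single, toMul_ofMul, Units.val_zpow_eq_zpow_val, coe_primeUnit,
      Finsupp.prod_single_index (zpow_zero _)]

/-- The exponents of the prime factorisation of an invertible fractional ideal. -/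
noncomputable def countFinsupp (J : (FractionalIdeal R⁰ K)ˣ) : HeightOneSpectrum R →₀ ℤ :=
  Finsupp.ofSupportFinite (fun v => count K v (J : FractionalIdeal R⁰ K))
    (Filter.eventually_cofinite.mp (finite_factors (J : FractionalIdeal R⁰ K)))

@[simp] lemma countFinsupp_apply (J : (FractionalIdeal R⁰ K)ˣ) (v : HeightOneSpectrum R) :
    countFinsupp R K J v = count K v (J : FractionalIdeal R⁰ K) := rfl

lemma countFinsupp_factorHom (e : HeightOneSpectrum R →₀ ℤ) :
    countFinsupp R K (factorHom R K e).toMul = e := by
  ext v
  rw [countFinsupp_apply, coe_factorHom, count_finsuppProd]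

lemma factorHom_countFinsupp (J : (FractionalIdeal R⁰ K)ˣ) :
    factorHom R K (countFinsupp R K J) = Additive.ofMul J := by
  apply Additive.toMul.injective
  apply Units.ext
  rw [coe_factorHom, toMul_ofMul]
  conv_rhs => rw [← finprod_heightOneSpectrum_factorization' K (Units.ne_zero J)]
  rw [Finsupp.prod]
  symm
  apply finprod_eq_prod_of_mulSupport_subset
  intro v hv
  rw [Function.mem_mulSupport] at hv
  rw [Finset.mem_coe, Finsupp.mem_support_iff, countFinsupp_apply]
  intro h
  rw [h, zpow_zero] at hv
  exact hv rfl

/-- The group of invertible fractional ideals is free on the height one primes. -/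
noncomputable def factorEquiv :
    (HeightOneSpectrum R →₀ ℤ) ≃+ Additive (FractionalIdeal R⁰ K)ˣ where
  toFun := factorHom R K
  invFun J := countFinsupp R K J.toMul
  left_inv e := countFinsupp_factorHom R K e
  right_inv J := factorHom_countFinsupp R K J.toMul
  map_add' := map_add _

lemma factorHom_injective : Function.Injective (factorHom R K) :=
  (factorEquiv R K).injective

lemma factorHom_surjective : Function.Surjective (factorHom R K) :=
  (factorEquiv R K).surjective

lemma exists_factorHom_eq (J : (FractionalIdeal R⁰ K)ˣ) :
    ∃ e : HeightOneSpectrum R →₀ ℤ, (factorHom R K e).toMul = J :=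
  ⟨countFinsupp R K J, by rw [factorHom_countFinsupp]; rfl⟩

end Dedekind

section Galois

variable {K L : Type*} [Field K] [Field L] [NumberField L] [Algebra K L]

/-- The action of `Gal(L/K)` on the nonzero primes of `𝓞 L`. -/
@[reducible] noncomputable def primeMulAction :
    MulAction Gal(L/K) (HeightOneSpectrum (𝓞 L)) where
  smul σ v := ⟨σ • v.asIdeal, (Ideal.IsPrime.smul_iff σ).mpr v.isPrime, by
    intro h
    apply v.ne_bot
    have := congrArg (fun I : Ideal (𝓞 L) => σ⁻¹ • I) h
    simpa [Ideal.smul_bot] using this⟩
  one_smul v := by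
    apply HeightOneSpectrum.ext
    exact one_smul _ _
  mul_smul σ τ v := by
    apply HeightOneSpectrum.ext
    exact mul_smul _ _ _

scoped[Fermat.Agent.Lib.CFT.Unram] attribute [instance] primeMulAction

@[simp] lemma asIdeal_smul (σ : Gal(L/K)) (v : HeightOneSpectrum (𝓞 L)) :
    (σ • v).asIdeal = σ • v.asIdeal := rfl

lemma smul_primeUnit (σ : Gal(L/K)) (v : HeightOneSpectrum (𝓞 L)) :
    σ • primeUnit (𝓞 L) L v = primeUnit (𝓞 L) L (σ • v) := by
  apply Units.ext
  rw [coe_smul_ideal, coe_primeUnit, coe_primeUnit, fracIdealHom_coeIdeal, asIdeal_smul]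

attribute [local instance] Finsupp.comapSMul Finsupp.comapMulAction Finsupp.comapDistribMulAction

/-- The factorisation isomorphism is Galois equivariant. -/
lemma factorHom_smul (σ : Gal(L/K)) (e : HeightOneSpectrum (𝓞 L) →₀ ℤ) :
    (factorHom (𝓞 L) L (σ • e)).toMul = σ • (factorHom (𝓞 L) L e).toMul := by
  induction e using Finsupp.induction_linear with
  | zero => simp
  | add f g hf hg =>
    rw [smul_add, map_add (factorHom (𝓞 L) L), map_add (factorHom (𝓞 L) L), toMul_add, toMul_add,
      hf, hg, smul_mul']
  | single v n =>
    rw [Finsupp.comapSMul_single, factorHom_single, factorHom_single, toMul_ofMul, toMul_ofMul,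
      smul_zpow', smul_primeUnit]

end Galois

end Fermat.Agent.Lib.CFT.Unram
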