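/-
helper45 (P-CFT, S14 fast track, WP-L3(b)).  In an everywhere unramified Galois extension `L/K` of
number fields, the Galois-invariant invertible fractional ideals of `L` are exactly the extensions
of invertible fractional ideals of `K`.

Proof through the exponent dictionary of `IdealH1.lean`: an invariant ideal has exponents which are
constant on the Galois orbits of primes, i.e. on the fibres of `w ↦ w ∩ 𝓞 K`; since all
ramification indices are `1`, it is the extension of the ideal of `K` with these exponents.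
-/
import Mathlib
import Fermat.Agent.Lib.CFT.Unram.IdealAct
import Fermat.Agent.Lib.CFT.Unram.IdealH1

set_option autoImplicit false
set_option linter.unusedSectionVars false

namespace Fermat.Agent.Lib.CFT.Unram

open NumberField FractionalIdeal IsDedekindDomain
open scoped nonZeroDivisors Pointwise
open scoped Fermat.Agent.Lib.CFT.Unram.IdealH1

namespace IdealInvariantB

section General

variable {K L : Type*} [Field K] [NumberField K] [Field L] [NumberField L] [Algebra K L]

/-- The valuation at `v` of the extension of a prime `𝔭` of `K`: the ramification index if `v`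
lies over `𝔭`, zero otherwise. -/
theorem count_map_prime (𝔭 : HeightOneSpectrum (𝓞 K)) (v : HeightOneSpectrum (𝓞 L))
    [Decidable (v.under (𝓞 K) = 𝔭)] :
    FractionalIdeal.count L v
        ((𝔭.asIdeal.map (algebraMap (𝓞 K) (𝓞 L)) : Ideal (𝓞 L)) : FractionalIdeal (𝓞 L)⁰ L) =
      if v.under (𝓞 K) = 𝔭 then (v.asIdeal.ramificationIdx (𝓞 K) : ℤ) else 0 := by
  have hmap : 𝔭.asIdeal.map (algebraMap (𝓞 K) (𝓞 L)) ≠ ⊥ :=
    Ideal.map_ne_bot_of_ne_bot 𝔭.ne_bot
  rw [FractionalIdeal.count_coe L v hmap,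
    Ideal.count_associates_factors_eq hmap v.isPrime v.ne_bot]
  split_ifs with h
  · have : v.asIdeal.LiesOver 𝔭.asIdeal := ⟨by rw [← h]; rfl⟩
    rw [Ideal.IsDedekindDomain.ramificationIdx_eq_normalizedFactors_count 𝔭.asIdeal v.asIdeal hmap]
  · rw [Nat.cast_eq_zero, Multiset.count_eq_zero]
    intro hmem
    apply h
    have hdvd := UniqueFactorizationMonoid.dvd_of_mem_normalizedFactors hmem
    have hlo : v.asIdeal.LiesOver 𝔭.asIdeal :=
      (Ideal.liesOver_iff_dvd_map v.isPrime.ne_top).2 hdvd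
    apply HeightOneSpectrum.ext
    exact (hlo.over).symm

/-- Every nonzero prime of `K` lies under a nonzero prime of `L`. -/
theorem under_surjective :
    Function.Surjective (fun w : HeightOneSpectrum (𝓞 L) => w.under (𝓞 K)) := by
  rintro ⟨p, hp, hp0⟩
  obtain ⟨P, hP, hPp⟩ :=
    Ideal.exists_ideal_over_prime_of_isIntegral_of_isDomain (S := 𝓞 L) p (by simp)
  refine ⟨⟨P, hP, ?_⟩, ?_⟩
  · rintro rfl
    apply hp0
    rw [← hPp]
    exact Ideal.under_bot _ _
  · apply HeightOneSpectrum.ext
    exact hPp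

/-- The valuation at `v` of the extension of the fractional ideal of `K` with exponent
vector `g`. -/
theorem count_extendedHom_ofExps (g : HeightOneSpectrum (𝓞 K) →₀ ℤ)
    (v : HeightOneSpectrum (𝓞 L)) :
    FractionalIdeal.count L v (FractionalIdeal.extendedHom L (𝓞 L) (IdealH1.ofExps g)) =
      g (v.under (𝓞 K)) * (v.asIdeal.ramificationIdx (𝓞 K) : ℤ) := by
  classical
  unfold IdealH1.ofExps
  rw [map_finsuppProd, Finsupp.prod, FractionalIdeal.count_prod]
  · have : ∀ 𝔭 ∈ g.support, FractionalIdeal.count L v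
        (FractionalIdeal.extendedHom L (𝓞 L)
          ((𝔭.asIdeal : FractionalIdeal (𝓞 K)⁰ K) ^ g 𝔭)) =
        if 𝔭 = v.under (𝓞 K) then g 𝔭 * (v.asIdeal.ramificationIdx (𝓞 K) : ℤ) else 0 := by
      intro 𝔭 _
      rw [map_zpow₀, FractionalIdeal.count_zpow, extendedHom_coeIdeal_eq_map, count_map_prime]
      by_cases h : 𝔭 = v.under (𝓞 K)
      · rw [if_pos h, if_pos h.symm]
      · rw [if_neg h, if_neg (fun h' : v.under (𝓞 K) = 𝔭 => h h'.symm), mul_zero]
    rw [Finset.sum_congr rfl this, Finset.sum_ite_eq']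
    split_ifs with h
    · rfl
    · rw [Finsupp.notMem_support_iff.1 h, zero_mul]
  · intro 𝔭 _
    rw [map_zpow₀, extendedHom_coeIdeal_eq_map]
    exact zpow_ne_zero _ (coeIdeal_ne_zero.mpr (Ideal.map_ne_bot_of_ne_bot 𝔭.ne_bot))

end General

section Galois

variable {K L : Type*} [Field K] [NumberField K] [Field L] [NumberField L] [Algebra K L]
  [IsGalois K L]

/-- Trivial inertia means ramification index one. -/
theorem ramificationIdx_eq_one_of_unramified (hun : IsUnramifiedEverywhere K L)
    (v : HeightOneSpectrum (𝓞 L)) : v.asIdeal.ramificationIdx (𝓞 K) = 1 := by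
  have hv : v.asIdeal.IsPrime := v.isPrime
  set p : Ideal (𝓞 K) := (v.under (𝓞 K)).asIdeal with hp_def
  have hp : p.IsPrime := (v.under (𝓞 K)).isPrime
  have hp0 : p ≠ ⊥ := (v.under (𝓞 K)).ne_bot
  have hlo : v.asIdeal.LiesOver p := ⟨rfl⟩
  have : p.IsMaximal := Ideal.IsPrime.isMaximal hp hp0
  have : Finite (𝓞 K ⧸ p) := Ideal.finiteQuotientOfFreeOfNeBot p hp0
  have : PerfectField p.ResidueField := inferInstance
  have h1 := Ideal.card_inertia_eq_ramificationIdxIn (G := Gal(L/K)) p v.asIdeal
  rw [hun v.asIdeal hv v.ne_bot] at h1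
  rw [← Ideal.ramificationIdxIn_eq_ramificationIdx p v.asIdeal Gal(L/K)]
  simpa using h1.symm

/-- Two primes of `L` over the same prime of `K` are conjugate. -/
theorem exists_smul_eq_of_under_eq (v w : HeightOneSpectrum (𝓞 L))
    (h : v.under (𝓞 K) = w.under (𝓞 K)) : ∃ τ : Gal(L/K), τ • v = w := by
  have hv : v.asIdeal.IsPrime := v.isPrime
  have hw : w.asIdeal.IsPrime := w.isPrime
  set p : Ideal (𝓞 K) := (v.under (𝓞 K)).asIdeal with hp_def
  have hlov : v.asIdeal.LiesOver p := ⟨rfl⟩
  have hlow : w.asIdeal.LiesOver p := ⟨by rw [hp_def, h]; rfl⟩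
  obtain ⟨τ, hτ⟩ := Ideal.exists_smul_eq_of_isGaloisGroup p v.asIdeal w.asIdeal Gal(L/K)
  exact ⟨τ, HeightOneSpectrum.ext hτ⟩

/-- The exponents of a Galois-invariant ideal are constant on Galois orbits. -/
theorem cntU_smul_eq_of_invariant (J : (FractionalIdeal (𝓞 L)⁰ L)ˣ)
    (hJ : ∀ τ : Gal(L/K), τ • J = J) (τ : Gal(L/K)) (v : HeightOneSpectrum (𝓞 L)) :
    IdealH1.cntU J (τ • v) = IdealH1.cntU J v := by
  have h := DFunLike.congr_fun (IdealH1.cntU_smul τ J) (τ • v)
  rw [hJ τ, IdealH1.permOp_apply, inv_smul_smul] at h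
  exact h

end Galois

section Final

variable (K L : Type*) [Field K] [NumberField K] [Field L] [NumberField L] [Algebra K L]
  [IsGalois K L]

/-- In an everywhere unramified Galois extension, a Galois-invariant invertible fractional ideal
is extended from the base field. -/
theorem exists_extK_eq_of_invariant (hun : IsUnramifiedEverywhere K L)
    (J : (FractionalIdeal (𝓞 L)⁰ L)ˣ) (hJ : ∀ τ : Gal(L/K), τ • J = J) :
    ∃ J' : (FractionalIdeal (𝓞 K)⁰ K)ˣ, extK K L J' = J := by
  classical
  set s : HeightOneSpectrum (𝓞 K) → HeightOneSpectrum (𝓞 L) :=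
    Function.surjInv (under_surjective (K := K) (L := L)) with hs
  have hs' : ∀ 𝔭 : HeightOneSpectrum (𝓞 K), (s 𝔭).under (𝓞 K) = 𝔭 := fun 𝔭 =>
    Function.surjInv_eq (under_surjective (K := K) (L := L)) 𝔭
  have hfin : (Function.support fun 𝔭 : HeightOneSpectrum (𝓞 K) =>
      IdealH1.cntU J (s 𝔭)).Finite := by
    refine Set.Finite.subset
      (((IdealH1.cntU J).support.finite_toSet).image
        (fun w : HeightOneSpectrum (𝓞 L) => w.under (𝓞 K))) ?_
    intro 𝔭 h𝔭
    refine ⟨s 𝔭, ?_, hs' 𝔭⟩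
    rw [Finset.mem_coe, Finsupp.mem_support_iff]
    exact h𝔭
  set g : HeightOneSpectrum (𝓞 K) →₀ ℤ :=
    Finsupp.ofSupportFinite (fun 𝔭 => IdealH1.cntU J (s 𝔭)) hfin with hg
  refine ⟨IdealH1.ofExpsU g, ?_⟩
  apply IdealH1.cntU_injective
  ext v
  have h1 : IdealH1.cntU (extK K L (IdealH1.ofExpsU g)) v =
      g (v.under (𝓞 K)) * (v.asIdeal.ramificationIdx (𝓞 K) : ℤ) := by
    unfold IdealH1.cntU IdealH1.ofExpsU
    rw [IdealH1.cnt_apply, coe_extK, Units.val_mk0]
    exact count_extendedHom_ofExps g v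
  rw [h1, ramificationIdx_eq_one_of_unramified hun v, Nat.cast_one, mul_one]
  change IdealH1.cntU J (s (v.under (𝓞 K))) = IdealH1.cntU J v
  obtain ⟨τ, hτ⟩ := exists_smul_eq_of_under_eq (K := K) v (s (v.under (𝓞 K)))
    (hs' _).symm
  rw [← hτ]
  exact cntU_smul_eq_of_invariant J hJ τ v

/-- **WP-L3(b)** (backup copy; the version used by the fast track is helper1's
`Fermat.Agent.Lib.CFT.Unram.invariant_iff_mem_range_extK` in `IdealModule.lean`, hence this one
lives in the sub-namespace `IdealInvariantB`): in an everywhere unramified Galois extension `L/K` of number fields, the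
Galois-invariant invertible fractional ideals of `L` are the extensions of those of `K`. -/
theorem invariant_iff_mem_range_extK (hun : IsUnramifiedEverywhere K L)
    (J : (FractionalIdeal (𝓞 L)⁰ L)ˣ) :
    (∀ τ : Gal(L/K), τ • J = J) ↔ J ∈ (extK K L).range := by
  constructor
  · intro hJ
    obtain ⟨J', hJ'⟩ := exists_extK_eq_of_invariant K L hun J hJ
    exact ⟨J', hJ'⟩
  · rintro ⟨J', rfl⟩ τ
    exact smul_extK τ J'

end Final

end IdealInvariantB

end Fermat.Agent.Lib.CFT.Unram
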