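/-
helper1 (P-CFT, S14 fast track, WP-L3).  The Galois module of invertible fractional ideals of a
Galois extension of number fields: the invariants in the unramified case are the ideals extended
from the base field.  (The vanishing of `H^1` is in `IdealH1.lean`.)
-/
import Mathlib
import Fermat.Agent.Lib.CFT.Unram.IdealFactor

set_option autoImplicit false
set_option linter.unusedSectionVars false

namespace Fermat.Agent.Lib.CFT.Unram

open NumberField FractionalIdeal IsDedekindDomain
open scoped nonZeroDivisors Pointwise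

attribute [local instance] Finsupp.comapSMul Finsupp.comapMulAction Finsupp.comapDistribMulAction

section HOne

variable {K L : Type*} [Field K] [NumberField K] [Field L] [NumberField L] [Algebra K L]

/-- In a Galois extension of prime degree every nontrivial automorphism generates the Galois
group. -/
lemma mem_zpowers_of_prime_degree [IsGalois K L] {p : ℕ} (hp : p.Prime)
    (hdeg : Module.finrank K L = p) {σ : Gal(L/K)} (hσ : σ ≠ 1) (τ : Gal(L/K)) :
    τ ∈ Subgroup.zpowers σ := by
  have hcard : Nat.card Gal(L/K) = p := by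
    rw [IsGalois.card_aut_eq_finrank, hdeg]
  have : Fact p.Prime := ⟨hp⟩
  exact mem_zpowers_of_prime_card hcard hσ

lemma factorHom_sum_smul (f : HeightOneSpectrum (𝓞 L) →₀ ℤ) :
    (factorHom (𝓞 L) L (∑ τ : Gal(L/K), τ • f)).toMul =
      ∏ τ : Gal(L/K), τ • (factorHom (𝓞 L) L f).toMul := by
  rw [map_sum, toMul_sum]
  apply Finset.prod_congr rfl
  intro τ _
  exact factorHom_smul τ f

end HOne

section Invariants

variable {K L : Type*} [Field K] [NumberField K] [Field L] [NumberField L] [Algebra K L]

lemma primeUnder_ne_bot {P : Ideal (𝓞 L)} (hP : P ≠ ⊥) : P.under (𝓞 K) ≠ ⊥ := by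
  intro h0
  apply hP
  have : P.LiesOver (⊥ : Ideal (𝓞 K)) := ⟨h0.symm⟩
  exact Ideal.eq_bot_of_liesOver_bot (𝓞 K) P

variable (K) in
/-- The prime of `K` below a nonzero prime of `L`. -/
noncomputable def primeUnder (v : HeightOneSpectrum (𝓞 L)) : HeightOneSpectrum (𝓞 K) :=
  ⟨v.asIdeal.under (𝓞 K), Ideal.IsPrime.under (𝓞 K) v.asIdeal, primeUnder_ne_bot v.ne_bot⟩

@[simp] lemma primeUnder_asIdeal (v : HeightOneSpectrum (𝓞 L)) :
    (primeUnder K v).asIdeal = v.asIdeal.under (𝓞 K) := rfl

/-- In an unramified Galois extension, the extension of a prime of `K` is the product of the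
primes of `L` above it, i.e. the product over a Galois orbit. -/
lemma map_primeUnder_eq_prod_orbit [IsGalois K L] (hun : IsUnramifiedEverywhere K L)
    (v : HeightOneSpectrum (𝓞 L)) :
    (primeUnder K v).asIdeal.map (algebraMap (𝓞 K) (𝓞 L)) =
      ∏ w ∈ PermModule.orbitFinset Gal(L/K) v, w.asIdeal := by
  classical
  set 𝔭 : Ideal (𝓞 K) := (primeUnder K v).asIdeal with h𝔭
  have : 𝔭.IsMaximal := (primeUnder K v).isMaximal
  have : v.asIdeal.LiesOver 𝔭 := ⟨rfl⟩
  rw [Ideal.map_algebraMap_eq_finsetProd_pow (R := 𝓞 L) (primeUnder K v).ne_bot]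
  have himage : (𝔭.primesOver (𝓞 L)).toFinset =
      (PermModule.orbitFinset Gal(L/K) v).image HeightOneSpectrum.asIdeal := by
    ext Q
    rw [Set.mem_toFinset, ← Algebra.IsInvariant.orbit_eq_primesOver (𝓞 K) (𝓞 L) Gal(L/K) 𝔭
      v.asIdeal, Finset.mem_image]
    constructor
    · rintro ⟨τ, rfl⟩
      exact ⟨τ • v, PermModule.mem_orbitFinset.mpr ⟨τ, rfl⟩, rfl⟩
    · rintro ⟨w, hw, rfl⟩
      obtain ⟨τ, rfl⟩ := PermModule.mem_orbitFinset.mp hw
      exact ⟨τ, rfl⟩
  have hpow : ∀ Q ∈ (𝔭.primesOver (𝓞 L)).toFinset, Q ^ Q.ramificationIdx (𝓞 K) = Q := by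
    intro Q hQ
    rw [Set.mem_toFinset] at hQ
    have : Q.IsPrime := hQ.1
    have : Q.LiesOver 𝔭 := hQ.2
    have hQ0 : Q ≠ ⊥ := by
      intro h
      apply (primeUnder K v).ne_bot
      rw [← h𝔭, Ideal.LiesOver.over (P := Q) (p := 𝔭), h]
      exact Ideal.under_bot _ _
    have h1 : Q.ramificationIdx (𝓞 K) = 1 := by
      rw [← Ideal.ramificationIdxIn_eq_ramificationIdx 𝔭 Q Gal(L/K),
        ← Ideal.card_inertia_eq_ramificationIdxIn (G := Gal(L/K)) 𝔭 Q, hun Q inferInstance hQ0]
      exact Subgroup.card_bot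
    rw [h1, pow_one]
  rw [Finset.prod_congr rfl hpow, himage, Finset.prod_image]
  intro a _ b _ hab
  exact HeightOneSpectrum.ext hab

/-- Unit version: the extension of the prime below `v` is the product over the orbit of `v`. -/
lemma extK_primeUnit_primeUnder [IsGalois K L] (hun : IsUnramifiedEverywhere K L)
    (v : HeightOneSpectrum (𝓞 L)) :
    extK K L (primeUnit (𝓞 K) K (primeUnder K v)) =
      ∏ w ∈ PermModule.orbitFinset Gal(L/K) v, primeUnit (𝓞 L) L w := by
  apply Units.ext
  rw [coe_extK, coe_primeUnit, extendedHom_coeIdeal_eq_map, map_primeUnder_eq_prod_orbit hun,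
    Units.coe_prod]
  simp only [coe_primeUnit]
  exact map_prod (FractionalIdeal.coeIdealHom (𝓞 L)⁰ L) _ _

lemma factorHom_orbitSum [IsGalois K L] (hun : IsUnramifiedEverywhere K L)
    (v : HeightOneSpectrum (𝓞 L)) :
    (factorHom (𝓞 L) L (PermModule.orbitSum Gal(L/K) v)).toMul =
      extK K L (primeUnit (𝓞 K) K (primeUnder K v)) := by
  rw [extK_primeUnit_primeUnder hun, PermModule.orbitSum, map_sum, toMul_sum]
  apply Finset.prod_congr rfl
  intro w _
  rw [factorHom_single, toMul_ofMul, zpow_one]

variable (K L) in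
/-- **Invariant ideals are extended from the base field** (in the unramified case).
(Same statement as `invariant_iff_mem_range_extK` of `IdealInvariant.lean`; this independent
proof lives in the sub-namespace `IdealModule` to avoid a name clash.) -/
theorem IdealModule.invariant_iff_mem_range_extK [IsGalois K L] (hun : IsUnramifiedEverywhere K L)
    (J : (FractionalIdeal (𝓞 L)⁰ L)ˣ) :
    (∀ τ : Gal(L/K), τ • J = J) ↔ J ∈ (extK K L).range := by
  constructor
  · intro hJ
    obtain ⟨f, hf⟩ := exists_factorHom_eq (𝓞 L) L J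
    have hfinv : ∀ τ : Gal(L/K), τ • f = f := by
      intro τ
      apply factorHom_injective (𝓞 L) L
      apply Additive.toMul.injective
      rw [factorHom_smul, hf, hJ]
    have hmem := PermModule.mem_closure_orbitSum_of_invariant f hfinv
    rw [← hf]
    refine AddSubgroup.closure_induction (p := fun f _ =>
      (factorHom (𝓞 L) L f).toMul ∈ (extK K L).range) ?_ ?_ ?_ ?_ hmem
    · rintro _ ⟨v, rfl⟩
      rw [factorHom_orbitSum hun]
      exact ⟨_, rfl⟩
    · rw [map_zero]
      exact one_mem _
    · intro a b _ _ ha hb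
      rw [map_add, toMul_add]
      exact mul_mem ha hb
    · intro a _ ha
      rw [map_neg, toMul_neg]
      exact inv_mem ha
  · rintro ⟨I, rfl⟩ τ
    exact smul_extK τ I

end Invariants

end Fermat.Agent.Lib.CFT.Unram
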