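import Mathlib

/-!
# Lattice sums versus integrals (S14 fast track, WP-U1)

`E` a finite dimensional real normed space, `L` a full `ℤ`-lattice, `μ` an additive Haar measure.
For `F : E → ℝ` decaying like `C ‖x‖ ^ (-a)` with two-point Lipschitz constant
`C (min ‖x‖ ‖y‖) ^ (-(a+1))` on `{1 ≤ ‖x‖}`, `a > dim E`, the difference between the lattice sum and
`covolume⁻¹ * ∫` over `{1 ≤ ‖x‖}` is at most `C * B`, with `B` depending only on `L` and `μ`.
-/

set_option linter.unusedSectionVars false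
set_option linter.unusedVariables false

namespace Fermat.Agent.Lib.CFT.Unram.LatticeSum

open MeasureTheory Module Set
open scoped Pointwise

variable {E : Type*} [NormedAddCommGroup E] [NormedSpace ℝ E]

/-- The region `{x | 1 ≤ ‖x‖}`. -/
def outer (E : Type*) [NormedAddCommGroup E] : Set E := {x | 1 ≤ ‖x‖}

lemma mem_outer {x : E} : x ∈ outer E ↔ 1 ≤ ‖x‖ := Iff.rfl

lemma isClosed_outer : IsClosed (outer E) :=
  isClosed_le continuous_const continuous_norm

lemma measurableSet_outer [MeasurableSpace E] [OpensMeasurableSpace E] :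
    MeasurableSet (outer E) := isClosed_outer.measurableSet

/-- Decay and two-point Lipschitz data on `{1 ≤ ‖x‖}`. -/
structure DecayLip (F : E → ℝ) (C a : ℝ) : Prop where
  nonneg : 0 ≤ C
  bound : ∀ x, 1 ≤ ‖x‖ → |F x| ≤ C * ‖x‖ ^ (-a)
  lip : ∀ x y, 1 ≤ ‖x‖ → 1 ≤ ‖y‖ →
    |F x - F y| ≤ C * ‖x - y‖ * (min ‖x‖ ‖y‖) ^ (-(a + 1))

namespace DecayLip

variable {F : E → ℝ} {C a : ℝ}

lemma abs_le (h : DecayLip F C a) (ha : 0 ≤ a) {x : E} (hx : 1 ≤ ‖x‖) : |F x| ≤ C := by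
  refine (h.bound x hx).trans ?_
  have : ‖x‖ ^ (-a) ≤ 1 := Real.rpow_le_one_of_one_le_of_nonpos hx (by linarith)
  calc C * ‖x‖ ^ (-a) ≤ C * 1 := mul_le_mul_of_nonneg_left this h.nonneg
    _ = C := mul_one C

lemma abs_indicator_le (h : DecayLip F C a) (ha : 0 ≤ a) (x : E) :
    |(outer E).indicator F x| ≤ C := by
  by_cases hx : x ∈ outer E
  · rw [indicator_of_mem hx]; exact h.abs_le ha hx
  · rw [indicator_of_notMem hx]; simpa using h.nonneg

lemma abs_sub_le (h : DecayLip F C a) (ha : 0 ≤ a) {x y : E} (hx : 1 ≤ ‖x‖) (hy : 1 ≤ ‖y‖) :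
    |F x - F y| ≤ C * ‖x - y‖ := by
  refine (h.lip x y hx hy).trans ?_
  have h1 : 1 ≤ min ‖x‖ ‖y‖ := le_min hx hy
  have : (min ‖x‖ ‖y‖) ^ (-(a + 1)) ≤ 1 :=
    Real.rpow_le_one_of_one_le_of_nonpos h1 (by linarith)
  calc C * ‖x - y‖ * (min ‖x‖ ‖y‖) ^ (-(a + 1)) ≤ C * ‖x - y‖ * 1 :=
        mul_le_mul_of_nonneg_left this (mul_nonneg h.nonneg (norm_nonneg _))
    _ = C * ‖x - y‖ := mul_one _

lemma continuousOn (h : DecayLip F C a) (ha : 0 ≤ a) : ContinuousOn F (outer E) := by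
  have : LipschitzOnWith C.toNNReal F (outer E) := by
    refine LipschitzOnWith.of_dist_le_mul fun x hx y hy => ?_
    rw [Real.dist_eq, dist_eq_norm, Real.coe_toNNReal _ h.nonneg]
    exact h.abs_sub_le ha hx hy
  exact this.continuousOn

end DecayLip

section Main

variable [FiniteDimensional ℝ E] [MeasurableSpace E] [BorelSpace E]
variable {F : E → ℝ} {C a : ℝ}

lemma norm_rpow_le (ha : 0 ≤ a) {x : E} (hx : 1 ≤ ‖x‖) :
    ‖x‖ ^ (-a) ≤ 2 ^ a * (1 + ‖x‖) ^ (-a) := by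
  have h1 : 0 < (1 + ‖x‖) / 2 := by positivity
  have h2 : (1 + ‖x‖) / 2 ≤ ‖x‖ := by linarith
  have h3 := Real.rpow_le_rpow_of_nonpos h1 h2 (by linarith : -a ≤ 0)
  refine h3.trans (le_of_eq ?_)
  rw [Real.div_rpow (by positivity) (by norm_num), Real.rpow_neg (by norm_num : (0:ℝ) ≤ 2),
    div_eq_mul_inv, inv_inv, mul_comm]

lemma DecayLip.integrableOn (h : DecayLip F C a) (μ : Measure E) [μ.IsAddHaarMeasure]
    (ha : (finrank ℝ E : ℝ) < a) : IntegrableOn F (outer E) μ := by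
  have ha0 : 0 ≤ a := le_trans (Nat.cast_nonneg _) ha.le
  have hmeas : AEStronglyMeasurable F (μ.restrict (outer E)) :=
    (h.continuousOn ha0).aestronglyMeasurable measurableSet_outer
  have hdom : Integrable (fun x : E => C * 2 ^ a * (1 + ‖x‖) ^ (-a)) (μ.restrict (outer E)) :=
    ((integrable_one_add_norm ha).const_mul _).restrict
  refine Integrable.mono' hdom hmeas ?_
  rw [ae_restrict_iff' measurableSet_outer]
  refine Filter.Eventually.of_forall fun x hx => ?_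
  rw [Real.norm_eq_abs]
  refine (h.bound x hx).trans ?_
  rw [mul_assoc]
  exact mul_le_mul_of_nonneg_left (norm_rpow_le ha0 hx) h.nonneg

lemma DecayLip.integrable_indicator (h : DecayLip F C a) (μ : Measure E) [μ.IsAddHaarMeasure]
    (ha : (finrank ℝ E : ℝ) < a) : Integrable ((outer E).indicator F) μ :=
  (integrable_indicator_iff measurableSet_outer).2 (h.integrableOn μ ha)

/-- The cell majorant (without the factor `C`). -/
noncomputable def tau (ρ : ℝ) (d : ℕ) (g : E) : ℝ :=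
  if ‖g‖ < 2 * ρ + 1 then 2 else ρ * 2 ^ (d + 1) * ‖g‖⁻¹ ^ (d + 1)

lemma DecayLip.abs_indicator_sub_le (h : DecayLip F C a) {d : ℕ} (hd : (d : ℝ) ≤ a) {ρ : ℝ}
    (hρ : 0 ≤ ρ) {g y : E} (hy : ‖y‖ ≤ ρ) :
    |(outer E).indicator F g - (outer E).indicator F (g + y)| ≤ C * tau ρ d g := by
  have hd0 : (0 : ℝ) ≤ d := Nat.cast_nonneg d
  have ha : 0 ≤ a := le_trans hd0 hd
  unfold tau
  split_ifs with hg
  · have h1 := h.abs_indicator_le ha g
    have h2 := h.abs_indicator_le ha (g + y)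
    calc |(outer E).indicator F g - (outer E).indicator F (g + y)|
        ≤ |(outer E).indicator F g| + |(outer E).indicator F (g + y)| := abs_sub _ _
      _ ≤ C + C := add_le_add h1 h2
      _ = C * 2 := by ring
  · rw [not_lt] at hg
    have hg1 : 1 ≤ ‖g‖ := by linarith
    have hz : ‖g‖ - ρ ≤ ‖g + y‖ := by
      have := norm_sub_norm_le g (-y)
      rw [norm_neg, sub_neg_eq_add] at this
      linarith
    have hz1 : 1 ≤ ‖g + y‖ := by linarith
    rw [indicator_of_mem (show g ∈ outer E from hg1),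
      indicator_of_mem (show g + y ∈ outer E from hz1)]
    have hmin : ‖g‖ - ρ ≤ min ‖g‖ ‖g + y‖ := le_min (by linarith) hz
    have hpos : 0 < ‖g‖ - ρ := by linarith
    have hone : 1 ≤ ‖g‖ - ρ := by linarith
    have e1 : (min ‖g‖ ‖g + y‖) ^ (-(a + 1)) ≤ (‖g‖ - ρ) ^ (-(a + 1)) :=
      Real.rpow_le_rpow_of_nonpos hpos hmin (by linarith)
    have e2 : (‖g‖ - ρ) ^ (-(a + 1)) ≤ (‖g‖ - ρ) ^ (-((d : ℝ) + 1)) :=
      Real.rpow_le_rpow_of_exponent_le hone (by linarith)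
    have hhalf : ‖g‖ / 2 ≤ ‖g‖ - ρ := by linarith
    have e3 : (‖g‖ - ρ) ^ (-((d : ℝ) + 1)) ≤ (‖g‖ / 2) ^ (-((d : ℝ) + 1)) :=
      Real.rpow_le_rpow_of_nonpos (by positivity) hhalf (by linarith)
    have e4 : (‖g‖ / 2) ^ (-((d : ℝ) + 1)) = 2 ^ (d + 1) * ‖g‖⁻¹ ^ (d + 1) := by
      rw [show (-((d : ℝ) + 1)) = -(((d + 1 : ℕ)) : ℝ) by push_cast; ring,
        Real.rpow_neg (by positivity), Real.rpow_natCast, div_pow, inv_div, inv_pow]
      ring
    have hxy : ‖g - (g + y)‖ ≤ ρ := by simpa using hy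
    have e5 : (min ‖g‖ ‖g + y‖) ^ (-(a + 1)) ≤ 2 ^ (d + 1) * ‖g‖⁻¹ ^ (d + 1) :=
      e4 ▸ (e1.trans (e2.trans e3))
    have e6 : 0 ≤ (min ‖g‖ ‖g + y‖) ^ (-(a + 1)) :=
      Real.rpow_nonneg (le_trans hpos.le hmin) _
    calc |F g - F (g + y)|
        ≤ C * ‖g - (g + y)‖ * (min ‖g‖ ‖g + y‖) ^ (-(a + 1)) := h.lip _ _ hg1 hz1
      _ ≤ C * ρ * (2 ^ (d + 1) * ‖g‖⁻¹ ^ (d + 1)) :=
          mul_le_mul (mul_le_mul_of_nonneg_left hxy h.nonneg) e5 e6 (mul_nonneg h.nonneg hρ)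
      _ = C * (ρ * 2 ^ (d + 1) * ‖g‖⁻¹ ^ (d + 1)) := by ring

lemma DecayLip.cell_integral (h : DecayLip F C a) (μ : Measure E) [μ.IsAddHaarMeasure]
    (ha : (finrank ℝ E : ℝ) < a) {D : Set E} {ρ : ℝ} (hρ : 0 ≤ ρ) (hD : ∀ y ∈ D, ‖y‖ ≤ ρ)
    (hfin : μ D < ⊤) (g : E) :
    |(outer E).indicator F g * μ.real D - ∫ x in g +ᵥ D, (outer E).indicator F x ∂μ|
      ≤ C * tau ρ (finrank ℝ E) g * μ.real D := by
  have hmeas : μ (g +ᵥ D) = μ D := measure_vadd μ g D
  have hreal : μ.real (g +ᵥ D) = μ.real D := by simp [Measure.real, hmeas]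
  have hfin' : μ (g +ᵥ D) < ⊤ := hmeas ▸ hfin
  have hG := h.integrable_indicator μ ha
  have hconst : ∫ x in g +ᵥ D, (outer E).indicator F g ∂μ
      = (outer E).indicator F g * μ.real D := by
    rw [setIntegral_const, hreal, smul_eq_mul, mul_comm]
  have hci : IntegrableOn (fun _ : E => (outer E).indicator F g) (g +ᵥ D) μ :=
    integrableOn_const hfin'.ne
  rw [← hconst, ← integral_sub hci hG.integrableOn, ← Real.norm_eq_abs, ← hreal]
  refine norm_setIntegral_le_of_norm_le_const hfin' fun x hx => ?_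
  obtain ⟨y, hy, rfl⟩ := Set.mem_vadd_set.1 hx
  rw [Real.norm_eq_abs, vadd_eq_add]
  exact h.abs_indicator_sub_le ha.le hρ (hD y hy)

lemma tau_nonneg {ρ : ℝ} (hρ : 0 ≤ ρ) (d : ℕ) (g : E) : 0 ≤ tau ρ d g := by
  unfold tau
  split_ifs
  · norm_num
  · positivity

open Classical in
lemma tau_le {ρ : ℝ} (hρ : 0 ≤ ρ) (d : ℕ) (g : E) :
    tau ρ d g ≤ (if g = 0 then 2 else 0)
      + (2 * (2 * ρ + 1) ^ (d + 1) + ρ * 2 ^ (d + 1)) * ‖g‖⁻¹ ^ (d + 1) := by
  have hR : 0 < 2 * ρ + 1 := by linarith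
  by_cases hg0 : g = 0
  · subst hg0
    have : tau ρ d (0 : E) = 2 := by
      unfold tau; rw [if_pos (by simpa using hR)]
    rw [this, if_pos rfl]
    have : (0 : ℝ) ≤ (2 * (2 * ρ + 1) ^ (d + 1) + ρ * 2 ^ (d + 1)) * ‖(0 : E)‖⁻¹ ^ (d + 1) := by
      positivity
    linarith
  · rw [if_neg hg0, zero_add]
    have hgpos : 0 < ‖g‖ := norm_pos_iff.2 hg0
    have hinv : 0 ≤ ‖g‖⁻¹ ^ (d + 1) := by positivity
    unfold tau
    split_ifs with hg
    · have h1 : 1 ≤ (2 * ρ + 1) * ‖g‖⁻¹ := by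
        rw [← div_eq_mul_inv, le_div_iff₀ hgpos]; linarith
      have h2 : 1 ≤ ((2 * ρ + 1) * ‖g‖⁻¹) ^ (d + 1) := one_le_pow₀ h1
      rw [mul_pow] at h2
      have h3 : (0 : ℝ) ≤ ρ * 2 ^ (d + 1) * ‖g‖⁻¹ ^ (d + 1) := by positivity
      nlinarith
    · have h3 : (0 : ℝ) ≤ 2 * (2 * ρ + 1) ^ (d + 1) * ‖g‖⁻¹ ^ (d + 1) := by positivity
      nlinarith

theorem exists_bound (L : Submodule ℤ E) [DiscreteTopology L] [IsZLattice ℝ L]
    (μ : Measure E) [μ.IsAddHaarMeasure] :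
    ∃ B : ℝ, 0 ≤ B ∧ ∀ (F : E → ℝ) (C a : ℝ), (finrank ℝ E : ℝ) < a → DecayLip F C a →
      Summable (fun x : L => (outer E).indicator F (x : E)) ∧
      IntegrableOn F (outer E) μ ∧
      |∑' x : L, (outer E).indicator F (x : E)
        - (ZLattice.covolume L μ)⁻¹ * ∫ x in outer E, F x ∂μ| ≤ C * B := by
  classical
  have : MeasurableVAdd L E := (inferInstance : MeasurableVAdd L.toAddSubgroup E)
  have : VAddInvariantMeasure L E μ := (inferInstance : VAddInvariantMeasure L.toAddSubgroup E μ)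
  set d := finrank ℝ E with hd
  let b := Module.Free.chooseBasis ℤ L
  let D : Set E := ZSpan.fundamentalDomain (b.ofZLatticeBasis ℝ L)
  have hDfd : IsAddFundamentalDomain L D μ := ZLattice.isAddFundamentalDomain b μ
  have hDbdd : Bornology.IsBounded D := ZSpan.fundamentalDomain_isBounded _
  obtain ⟨ρ0, hρ0⟩ := hDbdd.subset_closedBall (0 : E)
  set ρ := max ρ0 0 with hρdef
  have hρ : 0 ≤ ρ := le_max_right _ _
  have hD : ∀ y ∈ D, ‖y‖ ≤ ρ := fun y hy =>
    (by simpa using hρ0 hy : ‖y‖ ≤ ρ0).trans (le_max_left _ _)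
  have hfin : μ D < ⊤ := hDbdd.measure_lt_top
  have hcov : ZLattice.covolume L μ = μ.real D :=
    ZLattice.covolume_eq_measure_fundamentalDomain L μ hDfd
  have hm : 0 < μ.real D := hcov ▸ ZLattice.covolume_pos L μ
  have htau : Summable (fun g : L => tau ρ d (g : E)) := by
    have hs1 : Summable (fun g : L => if g = 0 then (2 : ℝ) else 0) :=
      (hasSum_ite_eq (0 : L) (2 : ℝ)).summable
    have hs2 : Summable (fun g : L => ‖g‖⁻¹ ^ (d + 1)) :=
      ZLattice.summable_norm_pow_inv L (d + 1) (by rw [ZLattice.rank ℝ L]; omega)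
    refine Summable.of_nonneg_of_le (fun g => tau_nonneg hρ d _) (fun g => ?_)
      (hs1.add (hs2.mul_left (2 * (2 * ρ + 1) ^ (d + 1) + ρ * 2 ^ (d + 1))))
    have := tau_le hρ d (g : E)
    simpa using this
  refine ⟨∑' g : L, tau ρ d (g : E), tsum_nonneg fun g => tau_nonneg hρ d _,
    fun F C a ha h => ?_⟩
  set G : E → ℝ := (outer E).indicator F with hGdef
  have hG : Integrable G μ := h.integrable_indicator μ ha
  set m := μ.real D with hmdef
  -- the cell integrals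
  have hI : HasSum (fun g : L => ∫ x in g +ᵥ D, G x ∂μ) (∫ x, G x ∂μ) := by
    have h1 := hDfd.sum_restrict
    have h2 : Integrable G (Measure.sum fun g : L => μ.restrict (g +ᵥ D)) := by
      rw [h1]; exact hG
    have h3 := hasSum_integral_measure h2
    rwa [h1] at h3
  have hI' : HasSum (fun g : L => m⁻¹ * ∫ x in g +ᵥ D, G x ∂μ) (m⁻¹ * ∫ x, G x ∂μ) :=
    hI.mul_left _
  set T : L → ℝ := fun g => G (g : E) - m⁻¹ * ∫ x in g +ᵥ D, G x ∂μ with hT
  have hTle : ∀ g : L, ‖T g‖ ≤ C * tau ρ d (g : E) := by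
    intro g
    have hc := h.cell_integral μ ha hρ hD hfin (g : E)
    have hvadd : ((g : E) +ᵥ D : Set E) = g +ᵥ D := rfl
    rw [hvadd] at hc
    have : T g = m⁻¹ * (G (g : E) * m - ∫ x in g +ᵥ D, G x ∂μ) := by
      simp only [hT]; field_simp
    rw [this, Real.norm_eq_abs, abs_mul, abs_of_pos (inv_pos.2 hm)]
    calc m⁻¹ * |G (g : E) * m - ∫ x in g +ᵥ D, G x ∂μ|
        ≤ m⁻¹ * (C * tau ρ d (g : E) * m) := mul_le_mul_of_nonneg_left hc (inv_pos.2 hm).le
      _ = C * tau ρ d (g : E) := by field_simp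
  have hCtau : Summable (fun g : L => C * tau ρ d (g : E)) := htau.mul_left C
  have hTsum : Summable T := Summable.of_norm_bounded hCtau hTle
  have hGsum : Summable (fun g : L => G (g : E)) := by
    have := hTsum.add hI'.summable
    refine this.congr fun g => ?_
    simp only [hT]; ring
  refine ⟨hGsum, h.integrableOn μ ha, ?_⟩
  have hint : ∫ x in outer E, F x ∂μ = ∫ x, G x ∂μ :=
    (integral_indicator measurableSet_outer).symm
  have hsplit : ∑' g : L, G (g : E) = ∑' g : L, T g + m⁻¹ * ∫ x, G x ∂μ := by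
    rw [← hI'.tsum_eq, ← hTsum.tsum_add hI'.summable]
    refine tsum_congr fun g => ?_
    simp only [hT]; ring
  rw [hcov, hint, hsplit, add_sub_cancel_right, ← Real.norm_eq_abs]
  calc ‖∑' g : L, T g‖ ≤ ∑' g : L, ‖T g‖ := norm_tsum_le_tsum_norm hTsum.norm
    _ ≤ ∑' g : L, C * tau ρ d (g : E) := hTsum.norm.tsum_le_tsum hTle hCtau
    _ = C * ∑' g : L, tau ρ d (g : E) := tsum_mul_left

end Main

section Homogeneous

variable {F : E → ℝ} {a M Lc : ℝ}

/-- Homogeneity of degree `-a`. -/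
def IsHomogeneous (F : E → ℝ) (a : ℝ) : Prop :=
  ∀ t : ℝ, 0 < t → ∀ x : E, F (t • x) = t ^ (-a) * F x

/-- The annulus `{1 ≤ ‖x‖ ≤ 2}`. -/
def annulus (E : Type*) [NormedAddCommGroup E] : Set E := {x | 1 ≤ ‖x‖ ∧ ‖x‖ ≤ 2}

/-- The half-open annulus `{1 ≤ ‖x‖ < 2}`. -/
def annulusO (E : Type*) [NormedAddCommGroup E] : Set E := {x | 1 ≤ ‖x‖ ∧ ‖x‖ < 2}

lemma IsHomogeneous.eq_normalize (hom : IsHomogeneous F a) {t : ℝ} (ht : 0 < t) (x : E) :
    F x = t ^ (-a) * F (t⁻¹ • x) := by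
  have := hom t ht (t⁻¹ • x)
  rwa [smul_smul, mul_inv_cancel₀ ht.ne', one_smul] at this

private lemma lip_aux (hom : IsHomogeneous F a) (ha : 0 ≤ a) (hM0 : 0 ≤ M) (hL0 : 0 ≤ Lc)
    (hM : ∀ x ∈ annulus E, |F x| ≤ M)
    (hL : ∀ x ∈ annulus E, ∀ y ∈ annulus E, |F x - F y| ≤ Lc * ‖x - y‖)
    {x y : E} (hx : 1 ≤ ‖x‖) (hxy : ‖x‖ ≤ ‖y‖) :
    |F x - F y| ≤ max Lc (2 * M) * ‖x - y‖ * ‖x‖ ^ (-(a + 1)) := by
  set t := ‖x‖ with ht
  have htpos : 0 < t := by linarith
  have hta : 0 < t ^ (-a) := Real.rpow_pos_of_pos htpos _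
  have hpow : t ^ (-(a + 1)) = t ^ (-a) * t⁻¹ := by
    rw [show -(a + 1) = -a - 1 by ring, Real.rpow_sub_one htpos.ne', div_eq_mul_inv]
  have hnx : ‖t⁻¹ • x‖ = 1 := by
    rw [norm_smul, norm_inv, Real.norm_eq_abs, abs_of_pos htpos, ← ht, inv_mul_cancel₀ htpos.ne']
  have hny : ‖t⁻¹ • y‖ = t⁻¹ * ‖y‖ := by
    rw [norm_smul, norm_inv, Real.norm_eq_abs, abs_of_pos htpos]
  have hnn : 0 ≤ ‖x - y‖ := norm_nonneg _
  by_cases hy2 : ‖y‖ ≤ 2 * t
  · have hxa : t⁻¹ • x ∈ annulus E := ⟨hnx.ge, by rw [hnx]; norm_num⟩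
    have hya : t⁻¹ • y ∈ annulus E := by
      refine ⟨?_, ?_⟩
      · rw [hny, ← div_eq_inv_mul, le_div_iff₀ htpos]; linarith
      · rw [hny, ← div_eq_inv_mul, div_le_iff₀ htpos]; linarith
    have h1 := hL _ hxa _ hya
    rw [← smul_sub, norm_smul, norm_inv, Real.norm_eq_abs, abs_of_pos htpos] at h1
    rw [hom.eq_normalize htpos x, hom.eq_normalize htpos y, ← mul_sub, abs_mul,
      abs_of_pos hta, hpow]
    calc t ^ (-a) * |F (t⁻¹ • x) - F (t⁻¹ • y)|
        ≤ t ^ (-a) * (Lc * (t⁻¹ * ‖x - y‖)) := mul_le_mul_of_nonneg_left h1 hta.le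
      _ = Lc * ‖x - y‖ * (t ^ (-a) * t⁻¹) := by ring
      _ ≤ max Lc (2 * M) * ‖x - y‖ * (t ^ (-a) * t⁻¹) := by
          have : 0 ≤ t ^ (-a) * t⁻¹ := by positivity
          exact mul_le_mul_of_nonneg_right
            (mul_le_mul_of_nonneg_right (le_max_left _ _) hnn) this
  · rw [not_le] at hy2
    have hd : t < ‖x - y‖ := by
      have := norm_sub_norm_le y x
      rw [norm_sub_rev] at this
      linarith
    have hypos : 0 < ‖y‖ := by linarith
    have hxa : t⁻¹ • x ∈ annulus E := ⟨hnx.ge, by rw [hnx]; norm_num⟩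
    have hya : ‖y‖⁻¹ • y ∈ annulus E := by
      have : ‖‖y‖⁻¹ • y‖ = 1 := by
        rw [norm_smul, norm_inv, norm_norm, inv_mul_cancel₀ hypos.ne']
      exact ⟨this.ge, by rw [this]; norm_num⟩
    have hFx : |F x| ≤ t ^ (-a) * M := by
      rw [hom.eq_normalize htpos x, abs_mul, abs_of_pos hta]
      exact mul_le_mul_of_nonneg_left (hM _ hxa) hta.le
    have hya' : 0 < ‖y‖ ^ (-a) := Real.rpow_pos_of_pos hypos _
    have hFy : |F y| ≤ t ^ (-a) * M := by
      rw [hom.eq_normalize hypos y, abs_mul, abs_of_pos hya']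
      have h1 : ‖y‖ ^ (-a) ≤ t ^ (-a) := Real.rpow_le_rpow_of_nonpos htpos hxy (by linarith)
      exact mul_le_mul h1 (hM _ hya) (abs_nonneg _) hta.le
    have h2 : 2 * M * t ^ (-a) = 2 * M * t * (t ^ (-a) * t⁻¹) := by field_simp
    calc |F x - F y| ≤ |F x| + |F y| := abs_sub _ _
      _ ≤ 2 * M * t ^ (-a) := by linarith
      _ = 2 * M * t * (t ^ (-a) * t⁻¹) := h2
      _ ≤ max Lc (2 * M) * ‖x - y‖ * t ^ (-(a + 1)) := by
          rw [hpow]
          have h3 : 0 ≤ t ^ (-a) * t⁻¹ := by positivity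
          have h4 : 2 * M * t ≤ max Lc (2 * M) * ‖x - y‖ :=
            mul_le_mul (le_max_right _ _) hd.le htpos.le
              (le_trans (by positivity) (le_max_right Lc (2 * M)))
          exact mul_le_mul_of_nonneg_right h4 h3

/-- A homogeneous function which is bounded and Lipschitz on the annulus `{1 ≤ ‖x‖ ≤ 2}` satisfies
`DecayLip` with a constant independent of the degree. -/
theorem decayLip_of_homogeneous (hom : IsHomogeneous F a) (ha : 0 ≤ a) (hM0 : 0 ≤ M)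
    (hL0 : 0 ≤ Lc) (hM : ∀ x ∈ annulus E, |F x| ≤ M)
    (hL : ∀ x ∈ annulus E, ∀ y ∈ annulus E, |F x - F y| ≤ Lc * ‖x - y‖) :
    DecayLip F (max Lc (2 * M)) a := by
  have hC : 0 ≤ max Lc (2 * M) := le_trans hL0 (le_max_left _ _)
  refine ⟨hC, fun x hx => ?_, fun x y hx hy => ?_⟩
  · have htpos : 0 < ‖x‖ := by linarith
    have hta : 0 < ‖x‖ ^ (-a) := Real.rpow_pos_of_pos htpos _
    have hxa : ‖x‖⁻¹ • x ∈ annulus E := by
      have : ‖‖x‖⁻¹ • x‖ = 1 := by
        rw [norm_smul, norm_inv, norm_norm, inv_mul_cancel₀ htpos.ne']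
      exact ⟨this.ge, by rw [this]; norm_num⟩
    rw [hom.eq_normalize htpos x, abs_mul, abs_of_pos hta, mul_comm]
    refine mul_le_mul_of_nonneg_right ((hM _ hxa).trans ?_) hta.le
    exact le_trans (by linarith) (le_max_right Lc (2 * M))
  · rcases le_total ‖x‖ ‖y‖ with hxy | hxy
    · rw [min_eq_left hxy]
      exact lip_aux hom ha hM0 hL0 hM hL hx hxy
    · rw [min_eq_right hxy, abs_sub_comm, norm_sub_rev]
      exact lip_aux hom ha hM0 hL0 hM hL hy hxy

section Scaling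

variable [FiniteDimensional ℝ E] [MeasurableSpace E] [BorelSpace E]
variable {F : E → ℝ} {a : ℝ}

lemma measurableSet_annulusO : MeasurableSet (annulusO E) :=
  (measurableSet_le measurable_const measurable_norm).inter
    (measurableSet_lt measurable_norm measurable_const)

/-- The region `{2 ≤ ‖x‖}`. -/
def outer2 (E : Type*) [NormedAddCommGroup E] : Set E := {x | 2 ≤ ‖x‖}

lemma measurableSet_outer2 : MeasurableSet (outer2 E) :=
  measurableSet_le measurable_const measurable_norm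

lemma outer_eq_union : outer E = annulusO E ∪ outer2 E := by
  ext x
  simp only [outer, annulusO, outer2, mem_ofPred_eq, mem_union]
  constructor
  · intro h
    rcases lt_or_ge ‖x‖ 2 with h2 | h2
    · exact Or.inl ⟨h, h2⟩
    · exact Or.inr h2
  · rintro (h | h)
    · exact h.1
    · linarith

lemma disjoint_annulusO_outer2 : Disjoint (annulusO E) (outer2 E) := by
  rw [Set.disjoint_left]
  intro x hx hx2
  simp only [annulusO, outer2, mem_ofPred_eq] at hx hx2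
  linarith [hx.2]

/-- Scaling: the integral of a homogeneous function of degree `-a` over `{2 ≤ ‖x‖}`. -/
lemma setIntegral_outer2 (μ : Measure E) [μ.IsAddHaarMeasure] (hom : IsHomogeneous F a) :
    ∫ x in outer2 E, F x ∂μ = 2 ^ ((finrank ℝ E : ℝ) - a) * ∫ x in outer E, F x ∂μ := by
  have h1 := Measure.integral_comp_smul μ ((outer2 E).indicator F) (2 : ℝ)
  have h2 : (fun x : E => (outer2 E).indicator F ((2 : ℝ) • x))
      = fun x => (2 : ℝ) ^ (-a) * (outer E).indicator F x := by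
    funext x
    by_cases hx : x ∈ outer E
    · have hx2 : (2 : ℝ) • x ∈ outer2 E := by
        simp only [outer2, mem_ofPred_eq, norm_smul, Real.norm_eq_abs, abs_two]
        have : 1 ≤ ‖x‖ := hx
        linarith
      rw [indicator_of_mem hx2, indicator_of_mem hx, hom 2 (by norm_num) x]
    · have hx2 : (2 : ℝ) • x ∉ outer2 E := by
        simp only [outer2, mem_ofPred_eq, norm_smul, Real.norm_eq_abs, abs_two, not_le]
        have : ‖x‖ < 1 := not_le.1 hx
        linarith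
      rw [indicator_of_notMem hx2, indicator_of_notMem hx, mul_zero]
  rw [h2, integral_const_mul, integral_indicator measurableSet_outer,
    integral_indicator measurableSet_outer2, smul_eq_mul] at h1
  have hpos : (0 : ℝ) < 2 ^ finrank ℝ E := by positivity
  rw [abs_of_pos (inv_pos.2 hpos)] at h1
  have h3 : ∫ x in outer2 E, F x ∂μ
      = 2 ^ finrank ℝ E * ((2 : ℝ) ^ (-a) * ∫ x in outer E, F x ∂μ) := by
    rw [h1]; field_simp
  rw [h3, ← mul_assoc, sub_eq_add_neg, Real.rpow_add (by norm_num), Real.rpow_natCast]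

/-- Scaling: for `F` homogeneous of degree `-a`, `a > dim E`, the integral over `{1 ≤ ‖x‖}` is
`(1 - 2 ^ (d - a))⁻¹` times the integral over the annulus `{1 ≤ ‖x‖ < 2}`. -/
theorem setIntegral_outer_of_homogeneous (μ : Measure E) [μ.IsAddHaarMeasure]
    (hom : IsHomogeneous F a) (ha : (finrank ℝ E : ℝ) < a) (hint : IntegrableOn F (outer E) μ) :
    ∫ x in outer E, F x ∂μ
      = (1 - 2 ^ ((finrank ℝ E : ℝ) - a))⁻¹ * ∫ x in annulusO E, F x ∂μ := by
  have hA : IntegrableOn F (annulusO E) μ :=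
    hint.mono_set (by rw [outer_eq_union]; exact subset_union_left)
  have hO : IntegrableOn F (outer2 E) μ :=
    hint.mono_set (by rw [outer_eq_union]; exact subset_union_right)
  have h1 : ∫ x in outer E, F x ∂μ
      = ∫ x in annulusO E, F x ∂μ + ∫ x in outer2 E, F x ∂μ := by
    conv_lhs => rw [outer_eq_union]
    exact setIntegral_union disjoint_annulusO_outer2 measurableSet_outer2 hA hO
  rw [setIntegral_outer2 μ hom] at h1
  have hlt : (2 : ℝ) ^ ((finrank ℝ E : ℝ) - a) < 1 :=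
    Real.rpow_lt_one_of_one_lt_of_neg (by norm_num) (by linarith)
  have hne : 1 - (2 : ℝ) ^ ((finrank ℝ E : ℝ) - a) ≠ 0 := by linarith
  rw [eq_inv_mul_iff_mul_eq₀ hne]
  linarith

/-- Final form for homogeneous functions: lattice sum over `{1 ≤ ‖x‖}` versus
`covolume⁻¹ * (1 - 2 ^ (d - a))⁻¹ * ∫` over the annulus `{1 ≤ ‖x‖ < 2}`, with an error
`max Lc (2 M) * B`, `B` depending only on the lattice and the measure. -/
theorem exists_bound_homogeneous (L : Submodule ℤ E) [DiscreteTopology L] [IsZLattice ℝ L]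
    (μ : Measure E) [μ.IsAddHaarMeasure] :
    ∃ B : ℝ, 0 ≤ B ∧ ∀ (F : E → ℝ) (a M Lc : ℝ), (finrank ℝ E : ℝ) < a → IsHomogeneous F a →
      0 ≤ M → 0 ≤ Lc → (∀ x ∈ annulus E, |F x| ≤ M) →
      (∀ x ∈ annulus E, ∀ y ∈ annulus E, |F x - F y| ≤ Lc * ‖x - y‖) →
      Summable (fun x : L => (outer E).indicator F (x : E)) ∧
      IntegrableOn F (outer E) μ ∧
      |∑' x : L, (outer E).indicator F (x : E)
        - (ZLattice.covolume L μ)⁻¹ * ((1 - 2 ^ ((finrank ℝ E : ℝ) - a))⁻¹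
            * ∫ x in annulusO E, F x ∂μ)| ≤ max Lc (2 * M) * B := by
  obtain ⟨B, hB0, hB⟩ := exists_bound L μ
  refine ⟨B, hB0, fun F a M Lc ha hom hM0 hL0 hM hL => ?_⟩
  have ha0 : 0 ≤ a := le_trans (Nat.cast_nonneg _) ha.le
  have hdl := decayLip_of_homogeneous hom ha0 hM0 hL0 hM hL
  obtain ⟨h1, h2, h3⟩ := hB F _ a ha hdl
  refine ⟨h1, h2, ?_⟩
  rwa [← setIntegral_outer_of_homogeneous μ hom ha h2]

end Scaling

end Homogeneous

end Fermat.Agent.Lib.CFT.Unram.LatticeSum
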