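/-
helper91 (P-CFT, S14 fast track, WP-L).  The lower bound `p ≤ [I_K : P_K N(I_L)]` with the
Herbrand quotient of the units (`hU`) as the only remaining hypothesis: the translation of the index
to the class group is `LowerBoundIndex.lean` (helper93).
-/
import Mathlib
import Fermat.Agent.Lib.CFT.Unram.LowerBoundCore
import Fermat.Agent.Lib.CFT.Unram.LowerBoundIndex

set_option autoImplicit false

namespace Fermat.Agent.Lib.CFT.Unram

open NumberField Fermat.Agent.Lib.CFT.Herbrand
open scoped nonZeroDivisors

/-- **The lower bound**, with the Herbrand quotient of the units as the only hypothesis. -/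
theorem lowerBound_of_units {p : ℕ} (hp : p.Prime)
    (hU : ∀ (K L : Type) [Field K] [NumberField K] [Field L] [NumberField L] [Algebra K L]
      [IsGalois K L], Module.finrank K L = p → IsTotallyComplex K → ∀ σ : Gal(L/K), σ ≠ 1 →
      subIndex (LB.DB K L σ) (LB.NB K L) (LB.phi L).ker ≠ 0 ∧
      subIndex (LB.NB K L) (LB.DB K L σ) (LB.phi L).ker =
        p * subIndex (LB.DB K L σ) (LB.NB K L) (LB.phi L).ker) :
    LowerBound p :=
  lowerBound_of hp hU fun _ _ _ _ _ _ _ _ hdeg hun _ hσ =>
    (LB.relIndex_eq_index_normClasses hp hdeg hσ hun).dvd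

end Fermat.Agent.Lib.CFT.Unram
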