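/-
helper91 (P-CFT, S14 fast track, WP-L2).  The Herbrand quotient of a finitely generated
`ℤ[C_p]`-module computed from ranks:
`q(A) = p ^ (rank A^G) / p ^ ((rank A - rank A^G) / (p - 1))`.
-/
import Mathlib
import Fermat.Agent.Lib.CFT.HerbrandCyclic

set_option autoImplicit false
set_option linter.unusedSectionVars false
set_option linter.style.haveILetI false

namespace Fermat.Agent.Lib.CFT.Unram.RankFormula

open Polynomial Finset Module
open Fermat.Agent.Lib.CFT.Herbrand

section Torsion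

variable (M : Type*) [AddCommGroup M]

/-- The torsion subgroup. -/
def tors : AddSubgroup M := (Submodule.torsion ℤ M).toAddSubgroup

variable {M}

lemma mem_tors {x : M} : x ∈ tors M ↔ ∃ a : ℤ, a ≠ 0 ∧ a • x = 0 := by
  unfold tors
  rw [Submodule.mem_toAddSubgroup, Submodule.mem_torsion_iff]
  constructor
  · rintro ⟨a, ha⟩
    exact ⟨a, nonZeroDivisors.coe_ne_zero a, ha⟩
  · rintro ⟨a, ha, hx⟩
    exact ⟨⟨a, mem_nonZeroDivisors_of_ne_zero ha⟩, hx⟩

lemma map_mem_tors (h : M →+ M) {x : M} (hx : x ∈ tors M) : h x ∈ tors M := by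
  rw [mem_tors] at hx ⊢
  obtain ⟨a, ha, hax⟩ := hx
  exact ⟨a, ha, by rw [← map_zsmul, hax, map_zero]⟩

instance finite_tors [Module.Finite ℤ M] : Finite (tors M) := by
  have : Module.Finite ℤ (Submodule.torsion ℤ M) := Module.Finite.of_injective
    (Submodule.torsion ℤ M).subtype Subtype.val_injective
  exact Module.finite_of_fg_torsion (Submodule.torsion ℤ M) Submodule.torsion_isTorsion

instance finite_quot_tors [Module.Finite ℤ M] : Module.Finite ℤ (M ⧸ tors M) :=
  Module.Finite.of_surjective (QuotientAddGroup.mk' (tors M)).toIntLinearMap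
    (QuotientAddGroup.mk'_surjective _)

instance isTorsionFree_quot_tors : Module.IsTorsionFree ℤ (M ⧸ tors M) := by
  apply Module.IsTorsionFree.of_smul_eq_zero
  intro r m hrm
  by_cases hr : r = 0
  · exact Or.inl hr
  right
  obtain ⟨x, rfl⟩ := QuotientAddGroup.mk'_surjective (tors M) m
  rw [← map_zsmul, QuotientAddGroup.mk'_apply, QuotientAddGroup.eq_zero_iff, mem_tors] at hrm
  obtain ⟨a, ha, hax⟩ := hrm
  rw [QuotientAddGroup.mk'_apply, QuotientAddGroup.eq_zero_iff, mem_tors]
  exact ⟨a * r, mul_ne_zero ha hr, by rw [mul_smul, hax]⟩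

instance free_quot_tors [Module.Finite ℤ M] : Module.Free ℤ (M ⧸ tors M) :=
  Module.free_of_finite_type_torsion_free'

lemma finrank_eq_zero_of_finite (N : Type*) [AddCommGroup N] [Finite N] : finrank ℤ N = 0 := by
  rw [Module.finrank_eq_zero_iff]
  intro x
  refine ⟨(Nat.card N : ℤ), by exact_mod_cast Nat.card_pos.ne', ?_⟩
  rw [natCast_zsmul]
  exact card_nsmul_eq_zero'

lemma finrank_quot_of_finite [Module.Finite ℤ M] (S : AddSubgroup M) [Finite S] :
    finrank ℤ (M ⧸ S) = finrank ℤ M := by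
  have h1 : finrank ℤ (M ⧸ S) + finrank ℤ S = finrank ℤ M :=
    Submodule.finrank_quotient_add_finrank (AddSubgroup.toIntSubmodule S)
  rw [finrank_eq_zero_of_finite S, add_zero] at h1
  exact h1

end Torsion
section Ends

variable {M : Type*} [AddCommGroup M]

/-- The iterates of an endomorphism, bundled. -/
def iterHom (t : M →+ M) : ℕ → (M →+ M)
  | 0 => AddMonoidHom.id M
  | n + 1 => (iterHom t n).comp t

@[simp] lemma iterHom_apply (t : M →+ M) (n : ℕ) (x : M) : iterHom t n x = t^[n] x := by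
  induction n generalizing x with
  | zero => rfl
  | succ n ih =>
    show iterHom t n (t x) = _
    rw [ih, Function.iterate_succ_apply]

/-- `1 + t + ... + t^(p-1)` as an endomorphism. -/
def iterSum (t : M →+ M) (p : ℕ) : M →+ M := ∑ i ∈ range p, iterHom t i

lemma iterSum_apply (t : M →+ M) (p : ℕ) (x : M) :
    iterSum t p x = ∑ i ∈ range p, t^[i] x := by
  unfold iterSum
  rw [AddMonoidHom.finsetSum_apply]
  simp

lemma quotEnd_zero (S : AddSubgroup M) (hS : ∀ a ∈ S, (0 : M →+ M) a ∈ S) :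
    quotEnd (0 : M →+ M) S hS = 0 := by
  apply AddMonoidHom.ext
  intro x
  obtain ⟨x, rfl⟩ := QuotientAddGroup.mk'_surjective S x
  rw [quotEnd_mk]
  simp

lemma quotEnd_iterate (t : M →+ M) (S : AddSubgroup M) (hS : ∀ a ∈ S, t a ∈ S) (i : ℕ) (x : M) :
    (quotEnd t S hS)^[i] (QuotientAddGroup.mk' S x) = QuotientAddGroup.mk' S (t^[i] x) := by
  induction i generalizing x with
  | zero => rfl
  | succ n ih => rw [Function.iterate_succ_apply, Function.iterate_succ_apply, quotEnd_mk, ih]

lemma iterSum_quotEnd (t : M →+ M) (S : AddSubgroup M) (hS : ∀ a ∈ S, t a ∈ S) (p : ℕ) (x : M) :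
    iterSum (quotEnd t S hS) p (QuotientAddGroup.mk' S x) =
      QuotientAddGroup.mk' S (iterSum t p x) := by
  rw [iterSum_apply, iterSum_apply, map_sum]
  exact sum_congr rfl fun i _ => quotEnd_iterate t S hS i x

/-- `(t - 1)(1 + t + ... + t^(p-1)) = t^p - 1`. -/
lemma sub_id_iterSum (t : M →+ M) (p : ℕ) (x : M) :
    (t - AddMonoidHom.id M) (iterSum t p x) = t^[p] x - x := by
  rw [iterSum_apply]
  induction p with
  | zero => simp
  | succ n ih =>
    rw [sum_range_succ, map_add, ih]
    simp only [AddMonoidHom.sub_apply, AddMonoidHom.id_apply]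
    rw [← Function.iterate_succ_apply' t n x]
    abel

lemma iterSum_sub_id (t : M →+ M) (p : ℕ) (x : M) :
    iterSum t p ((t - AddMonoidHom.id M) x) = t^[p] x - x := by
  rw [iterSum_apply]
  induction p with
  | zero => simp
  | succ n ih =>
    rw [sum_range_succ, ih]
    simp only [AddMonoidHom.sub_apply, AddMonoidHom.id_apply]
    rw [iterate_map_sub, ← Function.iterate_succ_apply t n x]
    abel

end Ends


/-- The cofactor `∏_{k<p-1} (1 + X + ... + X^k)`. -/
noncomputable def geomProd (p : ℕ) : ℤ[X] :=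
  ∏ k ∈ range (p - 1), ∑ j ∈ range (k + 1), (X : ℤ[X]) ^ j

theorem cyclotomic_dvd_sub_geomProd {p : ℕ} (hp : p.Prime) :
    cyclotomic p ℤ ∣ C (p : ℤ) - (1 - X) ^ (p - 1) * geomProd p := by
  have hp0 : p ≠ 0 := hp.ne_zero
  have hζ : IsPrimitiveRoot (Complex.exp (2 * Real.pi * Complex.I / p)) p :=
    Complex.isPrimitiveRoot_exp p hp0
  set ζ := Complex.exp (2 * Real.pi * Complex.I / p) with hζdef
  have : NeZero p := ⟨hp0⟩
  rw [cyclotomic_eq_minpoly hζ hp.pos]
  apply minpoly.isIntegrallyClosed_dvd (hζ.isIntegral hp.pos)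
  obtain ⟨n, rfl⟩ : ∃ n, p = n + 1 := ⟨p - 1, (Nat.succ_pred_eq_of_pos hp.pos).symm⟩
  have h1 := hζ.prod_one_sub_pow_eq_order
  simp only [map_sub, map_mul, map_pow, aeval_C, aeval_X, map_one, geomProd, map_prod, map_sum,
    Nat.add_sub_cancel]
  have h2 : (1 - ζ) ^ n * ∏ x ∈ range n, ∑ x ∈ range (x + 1), ζ ^ x =
      ∏ k ∈ range n, (1 - ζ ^ (k + 1)) := by
    have h3 : (1 - ζ) ^ n = ∏ _k ∈ range n, (1 - ζ) := by
      rw [prod_const, card_range]
    rw [h3, ← prod_mul_distrib]
    refine prod_congr rfl fun k _ => ?_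
    exact mul_neg_geom_sum ζ (k + 1)
  rw [h2, h1]
  simp

theorem exists_sub_one_pow_eq {p : ℕ} (hp : p.Prime) :
    ∃ v : ℤ[X], (X - 1) ^ (p - 1) = cyclotomic p ℤ + C (p : ℤ) * v := by
  have : Fact p.Prime := ⟨hp⟩
  have h1 : cyclotomic p (ZMod p) = (X - 1) ^ (p - 1) := by
    have := cyclotomic_mul_prime_eq_pow_of_not_dvd (ZMod p) (p := p) (n := 1)
      (fun h => hp.one_lt.ne' (Nat.dvd_one.mp h))
    rwa [one_mul, cyclotomic_one] at this
  have h2 : ((X - 1) ^ (p - 1) - cyclotomic p ℤ : ℤ[X]).map (Int.castRingHom (ZMod p)) = 0 := by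
    simp [h1]
  have h3 : C (p : ℤ) ∣ ((X - 1) ^ (p - 1) - cyclotomic p ℤ : ℤ[X]) := by
    rw [C_dvd_iff_dvd_coeff]
    intro i
    have := congrArg (fun q => q.coeff i) h2
    simp only [coeff_map, coeff_zero] at this
    exact (ZMod.intCast_zmod_eq_zero_iff_dvd _ p).mp this
  obtain ⟨v, hv⟩ := h3
  exact ⟨v, by rw [← hv]; ring⟩


section Det

variable {M : Type*} [AddCommGroup M] [Module.Free ℤ M] [Module.Finite ℤ M]

theorem index_range_eq_natAbs_det (h : M →ₗ[ℤ] M) (hinj : Function.Injective h) :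
    (LinearMap.range h).toAddSubgroup.index = (LinearMap.det h).natAbs := by
  let e : M ≃ₗ[ℤ] LinearMap.range h := LinearEquiv.ofInjective h hinj
  have key := Submodule.natAbs_det_equiv (LinearMap.range h) e
  have h1 : (LinearMap.range h).subtype ∘ₗ AddMonoidHom.toIntLinearMap
      ((e : M ≃ₗ[ℤ] LinearMap.range h) : M →+ LinearMap.range h) = h := by
    ext x
    rfl
  rw [h1] at key
  rw [key, AddSubgroup.index_eq_card]
  rfl


theorem natAbs_det_sub_one_pow {p : ℕ} (hp : p.Prime) (t : Module.End ℤ M)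
    (ht : aeval t (cyclotomic p ℤ) = 0) :
    (LinearMap.det (t - 1)).natAbs ^ (p - 1) = p ^ finrank ℤ M ∧ Function.Injective (t - 1 : Module.End ℤ M) := by
  obtain ⟨q, hq⟩ := cyclotomic_dvd_sub_geomProd hp
  obtain ⟨v, hv⟩ := exists_sub_one_pow_eq hp
  set U : Module.End ℤ M := aeval t (geomProd p) with hU
  set V : Module.End ℤ M := aeval t v with hV
  have e1 : (p : ℤ) • (1 : Module.End ℤ M) = (1 - t) ^ (p - 1) * U := by
    have := congrArg (aeval t) hq
    simp only [map_sub, map_mul, map_pow, aeval_C, aeval_X, map_one, ht, zero_mul] at this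
    rw [sub_eq_zero] at this
    rw [← this, Algebra.algebraMap_eq_smul_one]
  have e2 : (t - 1) ^ (p - 1) = (p : ℤ) • V := by
    have := congrArg (aeval t) hv
    simp only [map_sub, map_mul, map_pow, aeval_C, aeval_X, map_one, ht, zero_add, map_add] at this
    rw [this, Algebra.algebraMap_eq_smul_one, smul_mul_assoc, one_mul]
  have d1 : LinearMap.det ((1 : Module.End ℤ M) - t) =
      (-1) ^ finrank ℤ M * LinearMap.det (t - 1) := by
    have : (1 : Module.End ℤ M) - t = (-1 : ℤ) • (t - 1) := by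
      rw [neg_one_smul, neg_sub]
    rw [this, LinearMap.det_smul]
  have E1 := congrArg LinearMap.det e1
  have E2 := congrArg LinearMap.det e2
  rw [LinearMap.det_smul, map_one, mul_one, map_mul, map_pow, d1] at E1
  rw [LinearMap.det_smul, map_pow] at E2
  have N1 := congrArg Int.natAbs E1
  have N2 := congrArg Int.natAbs E2
  simp only [Int.natAbs_mul, Int.natAbs_pow, Int.natAbs_neg, Int.natAbs_one, one_pow, one_mul,
    Int.natAbs_natCast] at N1 N2
  set d := (LinearMap.det (t - 1)).natAbs with hd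
  set r := finrank ℤ M with hr
  have hp0 : p ^ r ≠ 0 := pow_ne_zero _ hp.ne_zero
  have hUV : (LinearMap.det V).natAbs * (LinearMap.det U).natAbs = 1 := by
    have : p ^ r * ((LinearMap.det V).natAbs * (LinearMap.det U).natAbs) = p ^ r * 1 := by
      rw [mul_one, ← mul_assoc, ← N2, ← N1]
    exact Nat.eq_of_mul_eq_mul_left (Nat.pos_of_ne_zero hp0) this
  have hUone : (LinearMap.det U).natAbs = 1 := Nat.eq_one_of_mul_eq_one_left hUV
  rw [hUone, mul_one] at N1
  refine ⟨N1.symm, ?_⟩
  -- injectivity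
  rw [injective_iff_map_eq_zero]
  intro x hx
  have hx' : ((1 : Module.End ℤ M) - t) x = 0 := by
    have : ((1 : Module.End ℤ M) - t) x = - ((t - 1) x) := by
      simp
    rw [this, hx, neg_zero]
  have hcomm : (1 - t) ^ (p - 1) * U = U * (1 - t) ^ (p - 1) := by
    have h1 : (1 - t) ^ (p - 1) = aeval t ((1 - X) ^ (p - 1) : ℤ[X]) := by simp
    rw [h1, hU, ← map_mul, ← map_mul, mul_comm]
  have hpx : (p : ℤ) • x = 0 := by
    have : ((p : ℤ) • (1 : Module.End ℤ M)) x = (p : ℤ) • x := by simp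
    rw [← this, e1, hcomm]
    obtain ⟨m, hm⟩ : ∃ m, p - 1 = m + 1 := ⟨p - 2, by have := hp.two_le; omega⟩
    rw [hm, pow_succ, Module.End.mul_apply, Module.End.mul_apply, hx', map_zero, map_zero]
  exact (smul_eq_zero.mp hpx).resolve_left (by exact_mod_cast hp.ne_zero)

end Det

section LemmaE

variable {M : Type*} [AddCommGroup M]

/-- The endomorphism induced on the torsion-free quotient. -/
def torsQuot (h : M →+ M) : M ⧸ tors M →+ M ⧸ tors M :=
  quotEnd h (tors M) (fun _ ha => map_mem_tors h ha)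

@[simp] lemma torsQuot_mk (h : M →+ M) (x : M) :
    torsQuot h (QuotientAddGroup.mk' (tors M) x) = QuotientAddGroup.mk' (tors M) (h x) := rfl

/-- `[M : hM] / |ker h|` can be computed on the torsion-free quotient. -/
theorem herbrand_zero_eq_of_torsQuot [Module.Finite ℤ M] (h : M →+ M)
    (hinj : Function.Injective (torsQuot h)) {m : ℕ} (hm : m ≠ 0)
    (hidx : (torsQuot h).range.index = m) :
    IsFin (0 : M →+ M) h ∧ herbrand (0 : M →+ M) h = m := by
  have key := herbrand_quotEnd_of_finite (f := (0 : M →+ M)) (g := h) (fun x => rfl)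
    (fun x => by simp) (tors M) (fun a _ => by simp) (fun _ ha => map_mem_tors h ha)
  rw [quotEnd_zero] at key
  have h1 : hIndex (0 : M ⧸ tors M →+ M ⧸ tors M) (torsQuot h) = m := by
    unfold hIndex
    rw [AddMonoidHom.ker_zero, AddSubgroup.relIndex_top_right, hidx]
  have h2 : hIndex (torsQuot h) (0 : M ⧸ tors M →+ M ⧸ tors M) = 1 := by
    unfold hIndex
    rw [AddMonoidHom.range_zero, AddSubgroup.relIndex_bot_left,
      (AddMonoidHom.ker_eq_bot_iff _).mpr hinj]
    simp
  have hfin : IsFin (0 : M ⧸ tors M →+ M ⧸ tors M) (torsQuot h) := by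
    refine ⟨?_, ?_⟩
    · rw [h1]; exact hm
    · rw [h2]; exact one_ne_zero
  refine ⟨key.1.mp hfin, ?_⟩
  rw [← key.2]
  show herbrand (0 : M ⧸ tors M →+ M ⧸ tors M) (torsQuot h) = m
  unfold herbrand
  rw [h1, h2]
  simp

end LemmaE


section PQ

variable {M : Type*} [AddCommGroup M] [Module.Finite ℤ M]

theorem pow_eq_prime_pow {m p r : ℕ} (hp : p.Prime) (h : m ^ (p - 1) = p ^ r) :
    ∃ c, m = p ^ c ∧ r = c * (p - 1) := by
  have hp1 : p - 1 ≠ 0 := by have := hp.two_le; omega
  have hdvd : m ∣ p ^ r := by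
    rw [← h]
    exact dvd_pow_self m hp1
  obtain ⟨c, -, rfl⟩ := (Nat.dvd_prime_pow hp).mp hdvd
  refine ⟨c, rfl, ?_⟩
  rw [← pow_mul] at h
  exact (Nat.pow_right_injective hp.two_le h).symm

/-- `[M : nM] / |M[n]| = n ^ rank M` for a finitely generated abelian group. -/
theorem herbrand_zero_nsmul {n : ℕ} (hn : n ≠ 0) :
    IsFin (0 : M →+ M) (nsmulAddMonoidHom n) ∧
      herbrand (0 : M →+ M) (nsmulAddMonoidHom n) = (n : ℚ) ^ finrank ℤ M := by
  set h : M →+ M := nsmulAddMonoidHom n with hh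
  set ℓ : (M ⧸ tors M) →ₗ[ℤ] (M ⧸ tors M) := (torsQuot h).toIntLinearMap with hℓ
  have hℓ' : ℓ = (n : ℤ) • LinearMap.id := by
    ext x
    obtain ⟨x, rfl⟩ := QuotientAddGroup.mk'_surjective (tors M) x
    show torsQuot h (QuotientAddGroup.mk' (tors M) x) =
      (n : ℤ) • (QuotientAddGroup.mk' (tors M) x)
    rw [torsQuot_mk, hh, nsmulAddMonoidHom_apply, map_nsmul, natCast_zsmul]
  have hinj : Function.Injective (torsQuot h) := by
    have : Function.Injective ℓ := by
      rw [hℓ']
      intro x y hxy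
      simp only [LinearMap.smul_apply, LinearMap.id_coe, id_eq] at hxy
      exact smul_right_injective _ (by exact_mod_cast hn : (n : ℤ) ≠ 0) hxy
    exact this
  have hidx : (torsQuot h).range.index = n ^ finrank ℤ M := by
    have h1 := index_range_eq_natAbs_det ℓ hinj
    have h2 : (LinearMap.range ℓ).toAddSubgroup = (torsQuot h).range := by
      ext x
      simp [hℓ]
    rw [h2] at h1
    rw [h1, hℓ', LinearMap.det_smul, LinearMap.det_id, mul_one, Int.natAbs_pow,
      Int.natAbs_natCast, finrank_quot_of_finite]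
  obtain ⟨k1, k2⟩ := herbrand_zero_eq_of_torsQuot h hinj (pow_ne_zero _ hn) hidx
  exact ⟨k1, by rw [k2]; push_cast; rfl⟩

/-- For an endomorphism `t` with `1 + t + ... + t^(p-1) = 0` of a finitely generated abelian
group: `[M : (t-1)M] / |M^t| = p ^ (rank M / (p-1))`. -/
theorem herbrand_zero_sub_id {p : ℕ} (hp : p.Prime) (t : M →+ M)
    (hN : ∀ x, iterSum t p x = 0) :
    ∃ c, finrank ℤ M = c * (p - 1) ∧ IsFin (0 : M →+ M) (t - AddMonoidHom.id M) ∧
      herbrand (0 : M →+ M) (t - AddMonoidHom.id M) = (p : ℚ) ^ c := by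
  set h : M →+ M := t - AddMonoidHom.id M with hh
  set τ : Module.End ℤ (M ⧸ tors M) := (torsQuot t).toIntLinearMap with hτ
  have hτ0 : aeval τ (cyclotomic p ℤ) = 0 := by
    have : Fact p.Prime := ⟨hp⟩
    rw [cyclotomic_prime]
    ext x
    obtain ⟨x, rfl⟩ := QuotientAddGroup.mk'_surjective (tors M) x
    have h1 := iterSum_quotEnd t (tors M) (fun _ ha => map_mem_tors t ha) p x
    rw [hN, map_zero, iterSum_apply] at h1
    simp only [map_sum, map_pow, aeval_X, LinearMap.sum_apply, Module.End.pow_apply,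
      LinearMap.zero_apply]
    exact h1
  obtain ⟨hdet, hinjτ⟩ := natAbs_det_sub_one_pow hp τ hτ0
  have hτh : (τ - 1 : Module.End ℤ (M ⧸ tors M)) = (torsQuot h).toIntLinearMap := by
    ext x
    obtain ⟨x, rfl⟩ := QuotientAddGroup.mk'_surjective (tors M) x
    show torsQuot t (QuotientAddGroup.mk' (tors M) x) - QuotientAddGroup.mk' (tors M) x =
      torsQuot h (QuotientAddGroup.mk' (tors M) x)
    rw [torsQuot_mk, torsQuot_mk, hh, AddMonoidHom.sub_apply, AddMonoidHom.id_apply, map_sub]
  have hinj : Function.Injective (torsQuot h) := by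
    have : Function.Injective ((torsQuot h).toIntLinearMap) := by
      rw [← hτh]; exact hinjτ
    exact this
  obtain ⟨c, hc1, hc2⟩ := pow_eq_prime_pow hp hdet
  have hidx : (torsQuot h).range.index = p ^ c := by
    have h1 := index_range_eq_natAbs_det (torsQuot h).toIntLinearMap hinj
    have h2 : (LinearMap.range (torsQuot h).toIntLinearMap).toAddSubgroup = (torsQuot h).range := by
      ext x
      simp
    rw [h2, ← hτh, hc1] at h1
    exact h1
  obtain ⟨k1, k2⟩ := herbrand_zero_eq_of_torsQuot h hinj (pow_ne_zero _ hp.ne_zero) hidx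
  refine ⟨c, ?_, k1, by rw [k2]; push_cast; rfl⟩
  rw [← hc2, finrank_quot_of_finite]

end PQ


section Main

variable {A : Type*} [AddCommGroup A] [Module.Finite ℤ A]

lemma isFin_swap {B : Type*} [AddCommGroup B] {f g : B →+ B} (h : IsFin f g) : IsFin g f :=
  ⟨h.2, h.1⟩

lemma herbrand_swap {B : Type*} [AddCommGroup B] (f g : B →+ B) :
    herbrand f g = (herbrand g f)⁻¹ := by
  unfold herbrand
  rw [inv_div]

instance finite_addSubgroup (S : AddSubgroup A) : Module.Finite ℤ S :=
  inferInstanceAs (Module.Finite ℤ (AddSubgroup.toIntSubmodule S))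

instance finite_quot_addSubgroup (S : AddSubgroup A) : Module.Finite ℤ (A ⧸ S) :=
  Module.Finite.of_surjective (QuotientAddGroup.mk' S).toIntLinearMap
    (QuotientAddGroup.mk'_surjective _)

/-- **Herbrand quotient by ranks.**  Let `t` be an automorphism of order dividing the prime `p` of
a finitely generated abelian group `A`.  Then the Herbrand quotient of `(t - 1, 1 + t + ... )`
is `p ^ (rank A^t) / p ^ c`, where `rank A = rank A^t + c (p - 1)`. -/
theorem herbrand_rank_formula {p : ℕ} (hp : p.Prime) (t : A →+ A) (ht : ∀ x, t^[p] x = x) :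
    ∃ c : ℕ, finrank ℤ A = finrank ℤ (t - AddMonoidHom.id A).ker + c * (p - 1) ∧
      IsFin (t - AddMonoidHom.id A) (iterSum t p) ∧
      herbrand (t - AddMonoidHom.id A) (iterSum t p) =
        (p : ℚ) ^ finrank ℤ (t - AddMonoidHom.id A).ker / (p : ℚ) ^ c := by
  set f : A →+ A := t - AddMonoidHom.id A with hf
  set g : A →+ A := iterSum t p with hg
  set S : AddSubgroup A := f.ker with hS
  have hfg : ∀ x, f (g x) = 0 := fun x => by rw [hf, hg, sub_id_iterSum, ht, sub_self]
  have hgf : ∀ x, g (f x) = 0 := fun x => by rw [hf, hg, iterSum_sub_id, ht, sub_self]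
  have hfS : ∀ a ∈ S, f a ∈ S := fun a ha => by
    have : f a = 0 := ha
    rw [this]; exact S.zero_mem
  have hgS : ∀ a ∈ S, g a ∈ S := fun a _ => hfg a
  have htS : ∀ a ∈ S, t a ∈ S := fun a ha => by
    have h0 : f a = 0 := ha
    have : t a = a := by
      rw [hf, AddMonoidHom.sub_apply, AddMonoidHom.id_apply, sub_eq_zero] at h0
      exact h0
    rw [this]; exact ha
  have hta : ∀ a ∈ S, t a = a := fun a ha => by
    have h0 : f a = 0 := ha
    rw [hf, AddMonoidHom.sub_apply, AddMonoidHom.id_apply, sub_eq_zero] at h0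
    exact h0
  obtain ⟨k1, -, -, k4⟩ := herbrand_of_stable hfg hgf S hfS hgS
  -- the subgroup `S = ker f`
  have hR1 : resEnd f S hfS = 0 := by
    apply AddMonoidHom.ext
    intro x
    apply Subtype.ext
    rw [resEnd_coe]
    exact x.2
  have hR2 : resEnd g S hgS = nsmulAddMonoidHom p := by
    apply AddMonoidHom.ext
    intro x
    apply Subtype.ext
    rw [resEnd_coe, hg, iterSum_apply]
    have : ∀ i, t^[i] (x : A) = x := fun i => Function.iterate_fixed (hta x x.2) i
    simp [this]
  obtain ⟨r1, r2⟩ := herbrand_zero_nsmul (M := S) hp.ne_zero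
  rw [← hR1, ← hR2] at r1 r2
  -- the quotient `A ⧸ S`
  have hN : ∀ x, iterSum (quotEnd t S htS) p x = 0 := by
    intro x
    obtain ⟨x, rfl⟩ := QuotientAddGroup.mk'_surjective S x
    rw [iterSum_quotEnd, QuotientAddGroup.mk'_apply, QuotientAddGroup.eq_zero_iff]
    exact hfg x
  have hQ1 : quotEnd f S hfS = quotEnd t S htS - AddMonoidHom.id (A ⧸ S) := by
    apply AddMonoidHom.ext
    intro x
    obtain ⟨x, rfl⟩ := QuotientAddGroup.mk'_surjective S x
    have hfx : f x = t x - x := rfl
    rw [AddMonoidHom.sub_apply, quotEnd_mk, quotEnd_mk, AddMonoidHom.id_apply, hfx, map_sub]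
  have hQ2 : quotEnd g S hgS = 0 := by
    apply AddMonoidHom.ext
    intro x
    obtain ⟨x, rfl⟩ := QuotientAddGroup.mk'_surjective S x
    rw [quotEnd_mk, QuotientAddGroup.mk'_apply, AddMonoidHom.zero_apply,
      QuotientAddGroup.eq_zero_iff]
    exact hfg x
  obtain ⟨c, q0, q1, q2⟩ := herbrand_zero_sub_id (M := A ⧸ S) hp (quotEnd t S htS) hN
  rw [← hQ1, ← hQ2] at q1 q2
  have hrank : finrank ℤ (A ⧸ S) + finrank ℤ S = finrank ℤ A :=
    Submodule.finrank_quotient_add_finrank (AddSubgroup.toIntSubmodule S)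
  refine ⟨c, ?_, k1 ⟨r1, isFin_swap q1⟩, ?_⟩
  · rw [← hrank, q0, add_comm]
  · rw [k4 r1 (isFin_swap q1), r2, herbrand_swap, q2, div_eq_mul_inv]

end Main

section GAction

variable {G : Type*} [Group G] [Fintype G] {A : Type*} [AddCommGroup A] [DistribMulAction G A]

lemma orderOf_eq_of_prime_card {p : ℕ} (hp : p.Prime) (hG : Fintype.card G = p) {s : G}
    (hs : s ≠ 1) : orderOf s = p := by
  have h1 : orderOf s ∣ p := hG ▸ orderOf_dvd_card
  rcases (Nat.dvd_prime hp).mp h1 with h | h
  · exact absurd (orderOf_eq_one_iff.mp h) hs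
  · exact h

lemma univ_eq_image_pow {p : ℕ} (hp : p.Prime) (hG : Fintype.card G = p) {s : G}
    (hs : s ≠ 1) [DecidableEq G] : (Finset.univ : Finset G) = (range p).image (fun i => s ^ i) := by
  symm
  apply Finset.eq_univ_of_card
  rw [Finset.card_image_of_injOn, card_range, hG]
  intro i hi j hj hij
  have ho := orderOf_eq_of_prime_card hp hG hs
  simp only [coe_range, Set.mem_Iio] at hi hj
  exact pow_injOn_Iio_orderOf (by rwa [Set.mem_Iio, ho]) (by rwa [Set.mem_Iio, ho]) hij

lemma sum_univ_eq_sum_range_pow {p : ℕ} (hp : p.Prime) (hG : Fintype.card G = p) {s : G}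
    (hs : s ≠ 1) (F : G → A) : ∑ x : G, F x = ∑ i ∈ range p, F (s ^ i) := by
  classical
  rw [univ_eq_image_pow hp hG hs, Finset.sum_image]
  intro i hi j hj hij
  have ho := orderOf_eq_of_prime_card hp hG hs
  simp only [coe_range, Set.mem_Iio] at hi hj
  exact pow_injOn_Iio_orderOf (by rwa [Set.mem_Iio, ho]) (by rwa [Set.mem_Iio, ho]) hij

end GAction


section Final

variable {G : Type*} [Group G] [Fintype G] {A : Type*} [AddCommGroup A] [DistribMulAction G A]
  [Module.Finite ℤ A]

/-- **Herbrand quotient by ranks, group action form.**  `G` a group of prime order `p`, `s ≠ 1`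
in `G`, `A` a finitely generated abelian group with `G`-action.  Then
`herbrandCyc G A s = |Ĥ⁰| / |H¹| = p ^ (rank A^G) / p ^ c` where `rank A = rank A^G + c (p - 1)`. -/
theorem herbrandCyc_rank_formula {p : ℕ} (hp : p.Prime) (hG : Fintype.card G = p) (s : G)
    (hs : s ≠ 1) :
    ∃ c : ℕ, finrank ℤ A = finrank ℤ (subOne G A s).ker + c * (p - 1) ∧ CycFin G A s ∧
      herbrandCyc G A s = (p : ℚ) ^ finrank ℤ (subOne G A s).ker / (p : ℚ) ^ c := by
  set t : A →+ A := DistribSMul.toAddMonoidHom A s with ht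
  have hiter : ∀ (i : ℕ) (a : A), t^[i] a = s ^ i • a := by
    intro i a
    induction i with
    | zero => simp
    | succ n ih =>
      rw [Function.iterate_succ_apply', ih, pow_succ', mul_smul]
      rfl
  have htp : ∀ x, t^[p] x = x := by
    intro x
    rw [hiter, ← hG, pow_card_eq_one, one_smul]
  have h1 : subOne G A s = t - AddMonoidHom.id A := rfl
  have h2 : normHom G A = iterSum t p := by
    apply AddMonoidHom.ext
    intro a
    rw [Herbrand.normHom_apply, iterSum_apply, sum_univ_eq_sum_range_pow hp hG hs]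
    exact sum_congr rfl fun i _ => (hiter i a).symm
  unfold CycFin herbrandCyc
  rw [h1, h2]
  exact herbrand_rank_formula hp t htp

end Final

end Fermat.Agent.Lib.CFT.Unram.RankFormula
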