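/-
helper14 (P-CFT, S14 fast track, WP-L).  Abstract form of `|H¹(E_L)| = p · |Ĥ⁰(E_L)|`: for a
finitely generated `G`-module `M` (`G` of prime order `p`) with
`rank M + 1 = p (rank M^G + 1)`, one has `[ker N : im (s-1)] = p [ker (s-1) : im N]`, both finite.
-/
import Mathlib
import Fermat.Agent.Lib.CFT.Unram.RankFormula

set_option autoImplicit false

namespace Fermat.Agent.Lib.CFT.Unram.LB

open Fermat.Agent.Lib.CFT.Herbrand Module

variable {G : Type*} [Group G] [Fintype G] {M : Type*} [AddCommGroup M] [DistribMulAction G M]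
  [Module.Finite ℤ M]

theorem hIndex_eq_mul_of_rank {p : ℕ} (hp : p.Prime) (hG : Fintype.card G = p) (s : G)
    (hs : s ≠ 1)
    (hrank : finrank ℤ M + 1 = p * (finrank ℤ (subOne G M s).ker + 1)) :
    hIndex (subOne G M s) (normHom G M) ≠ 0 ∧
      hIndex (normHom G M) (subOne G M s) = p * hIndex (subOne G M s) (normHom G M) := by
  obtain ⟨c, hc, hfin, hq⟩ := RankFormula.herbrandCyc_rank_formula (A := M) hp hG s hs
  set r := finrank ℤ (subOne G M s).ker with hr
  have hp2 := hp.two_le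
  -- `c = r + 1`
  have hc1 : c = r + 1 := by
    have h1 : r + c * (p - 1) + 1 = p * (r + 1) := by rw [← hc]; exact hrank
    obtain ⟨q, rfl⟩ : ∃ q, p = q + 1 := ⟨p - 1, by omega⟩
    have hq0 : 0 < q := by omega
    simp only [Nat.add_sub_cancel] at h1
    have h2 : c * q = (r + 1) * q := by nlinarith
    exact Nat.eq_of_mul_eq_mul_right hq0 h2
  obtain ⟨h0, h1⟩ := hfin
  refine ⟨h0, ?_⟩
  unfold herbrandCyc herbrand at hq
  have hp0 : (p : ℚ) ≠ 0 := by exact_mod_cast hp.ne_zero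
  have h1q : (hIndex (normHom G M) (subOne G M s) : ℚ) ≠ 0 := by exact_mod_cast h1
  rw [hc1, pow_succ, div_eq_div_iff h1q (mul_ne_zero (pow_ne_zero _ hp0) hp0)] at hq
  have hpr : ((p : ℚ) ^ r) ≠ 0 := pow_ne_zero _ hp0
  have h3 : (hIndex (normHom G M) (subOne G M s) : ℚ) =
      (p : ℚ) * (hIndex (subOne G M s) (normHom G M) : ℚ) := by
    have h4 : (p : ℚ) ^ r * ((hIndex (subOne G M s) (normHom G M) : ℚ) * p) =
        (p : ℚ) ^ r * (hIndex (normHom G M) (subOne G M s) : ℚ) := by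
      rw [← hq]; ring
    have h5 := mul_left_cancel₀ hpr h4
    rw [← h5]; ring
  exact_mod_cast h3

end Fermat.Agent.Lib.CFT.Unram.LB
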