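/-
helper91 (P-CFT, S14 fast track, WP-L, piece (U)).  The Herbrand quotient of the units of an
extension `L/K` of prime degree `p` of a totally complex number field: `|H¹(E_L)| = p · |Ĥ⁰(E_L)|`,
in the form needed by `lowerBound_of_units`.
-/
import Mathlib
import Fermat.Agent.Lib.CFT.Unram.LowerBoundSetup
import Fermat.Agent.Lib.CFT.Unram.LowerBoundRankAbs
import Fermat.Agent.Lib.CFT.Unram.UnitsModule

set_option autoImplicit false
set_option linter.unusedSectionVars false

namespace Fermat.Agent.Lib.CFT.Unram.LBU91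

open NumberField FractionalIdeal Module
open Fermat.Agent.Lib.CFT.Herbrand Fermat.Agent.Lib.CFT.Unram
open scoped nonZeroDivisors Pointwise

variable (K L : Type*) [Field K] [NumberField K] [Field L] [NumberField L] [Algebra K L]
  [IsGalois K L]

/-- The additive version of the Galois action on the units of `𝓞 L`. -/
@[reducible] noncomputable def addUnitsAction : DistribMulAction Gal(L/K) (Additive (𝓞 L)ˣ) where
  smul τ a := Additive.ofMul (τ • a.toMul)
  one_smul a := by
    change Additive.ofMul ((1 : Gal(L/K)) • a.toMul) = a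
    rw [one_smul]; rfl
  mul_smul τ τ' a := by
    change Additive.ofMul ((τ * τ') • a.toMul) = Additive.ofMul (τ • (τ' • a.toMul))
    rw [mul_smul]
  smul_zero τ := by
    change Additive.ofMul (τ • (1 : (𝓞 L)ˣ)) = 0
    rw [smul_one]; rfl
  smul_add τ a b := by
    change Additive.ofMul (τ • (a.toMul * b.toMul)) =
      Additive.ofMul (τ • a.toMul) + Additive.ofMul (τ • b.toMul)
    rw [smul_mul']; rfl

attribute [local instance] addUnitsAction

lemma smul_def (τ : Gal(L/K)) (a : Additive (𝓞 L)ˣ) : τ • a = Additive.ofMul (τ • a.toMul) := rfl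

/-- The inclusion of the units of `𝓞 L` in `Lˣ`, additively. -/
noncomputable def incl : Additive (𝓞 L)ˣ →+ Additive Lˣ := MonoidHom.toAdditive (unitsToField L)

lemma incl_apply (a : Additive (𝓞 L)ˣ) : incl L a = Additive.ofMul (unitsToField L a.toMul) := rfl

lemma incl_injective : Function.Injective (incl L) := by
  intro a b h
  have := unitsToField_injective (L := L) (Additive.ofMul.injective h)
  exact Additive.toMul.injective this

lemma incl_smul (τ : Gal(L/K)) (a : Additive (𝓞 L)ˣ) :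
    incl L (τ • a) = Additive.ofMul (τ • (incl L a).toMul) := by
  rw [incl_apply, incl_apply, smul_def, toMul_ofMul, toMul_ofMul, unitsToField_smul]

lemma incl_subOne (σ : Gal(L/K)) (a : Additive (𝓞 L)ˣ) :
    incl L (subOne Gal(L/K) (Additive (𝓞 L)ˣ) σ a) = LB.DB K L σ (incl L a) := by
  rw [subOne_apply, map_sub, incl_smul, LB.DB_apply]
  rfl

lemma incl_normHom (a : Additive (𝓞 L)ˣ) :
    incl L (normHom Gal(L/K) (Additive (𝓞 L)ˣ) a) = LB.NB K L (incl L a) := by
  rw [Herbrand.normHom_apply, map_sum, LB.NB_apply, ofMul_prod]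
  refine Finset.sum_congr rfl fun τ _ => ?_
  rw [incl_smul]


/-- The kernel of `x ↦ (x)` is the group of units of `𝓞 L`. -/
lemma range_incl : (incl L).range = (LB.phi L).ker := by
  ext x
  rw [AddMonoidHom.mem_ker, LB.phi_apply, ofMul_eq_zero, ← Units.val_inj, coe_toPrincipalIdeal,
    Units.val_one, ← spanSingleton_one, spanSingleton_eq_spanSingleton]
  constructor
  · rintro ⟨a, rfl⟩
    refine ⟨(a.toMul)⁻¹, ?_⟩
    rw [incl_apply, toMul_ofMul, Units.smul_def, Algebra.smul_def]
    change algebraMap (𝓞 L) L (((a.toMul)⁻¹ : (𝓞 L)ˣ) : 𝓞 L) *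
      algebraMap (𝓞 L) L ((a.toMul : (𝓞 L)ˣ) : 𝓞 L) = 1
    rw [← map_mul, ← Units.val_mul, inv_mul_cancel, Units.val_one, map_one]
  · rintro ⟨z, hz⟩
    refine ⟨Additive.ofMul z⁻¹, ?_⟩
    rw [incl_apply, toMul_ofMul]
    apply Additive.toMul.injective
    rw [toMul_ofMul]
    apply Units.ext
    rw [coe_unitsToField]
    rw [Units.smul_def, Algebra.smul_def] at hz
    have h1 : algebraMap (𝓞 L) L ((z⁻¹ : (𝓞 L)ˣ) : 𝓞 L) * algebraMap (𝓞 L) L (z : 𝓞 L) = 1 := by
      rw [← map_mul, ← Units.val_mul, inv_mul_cancel, Units.val_one, map_one]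
    have hz0 : algebraMap (𝓞 L) L (z : 𝓞 L) ≠ 0 := left_ne_zero_of_mul_eq_one hz
    exact mul_right_cancel₀ hz0 (by rw [h1, mul_comm, hz])

/-- The inclusion of the units of `𝓞 K` in those of `𝓞 L`, additively. -/
noncomputable def inclK : Additive (𝓞 K)ˣ →+ Additive (𝓞 L)ˣ :=
  MonoidHom.toAdditive (unitsExt K L)

lemma inclK_injective : Function.Injective (inclK K L) := by
  intro a b h
  have := unitsExt_injective (K := K) (L := L) (Additive.ofMul.injective h)
  exact Additive.toMul.injective this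

lemma range_inclK {σ : Gal(L/K)} (hgen : ∀ τ : Gal(L/K), τ ∈ Subgroup.zpowers σ) :
    (inclK K L).range = (subOne Gal(L/K) (Additive (𝓞 L)ˣ) σ).ker := by
  ext a
  rw [AddMonoidHom.mem_ker, subOne_apply, sub_eq_zero]
  have h1 : σ • a = a ↔ ∀ τ : Gal(L/K), τ • a.toMul = a.toMul := by
    constructor
    · intro h τ
      have h' : σ • a.toMul = a.toMul := Additive.ofMul.injective h
      have hle : Subgroup.zpowers σ ≤ MulAction.stabilizer Gal(L/K) a.toMul := by
        rw [Subgroup.zpowers_le]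
        exact h'
      exact hle (hgen τ)
    · intro h
      exact congrArg Additive.ofMul (h σ)
  rw [h1, unit_fixed_iff']
  constructor
  · rintro ⟨b, rfl⟩
    exact ⟨b.toMul, rfl⟩
  · rintro ⟨b, hb⟩
    exact ⟨Additive.ofMul b, congrArg Additive.ofMul hb⟩

lemma finrank_ker_subOne {σ : Gal(L/K)} (hgen : ∀ τ : Gal(L/K), τ ∈ Subgroup.zpowers σ) :
    finrank ℤ (subOne Gal(L/K) (Additive (𝓞 L)ˣ) σ).ker = finrank ℤ (Additive (𝓞 K)ˣ) := by
  rw [← range_inclK K L hgen]
  exact ((AddMonoidHom.ofInjective (inclK_injective K L)).toIntLinearEquiv.finrank_eq).symm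

/-- **The Herbrand quotient of the units**: `|H¹(E_L)| = p · |Ĥ⁰(E_L)|`, both finite. -/
theorem units_index {p : ℕ} (hp : p.Prime) (hdeg : Module.finrank K L = p)
    (hK : IsTotallyComplex K) (σ : Gal(L/K)) (hσ : σ ≠ 1) :
    subIndex (LB.DB K L σ) (LB.NB K L) (LB.phi L).ker ≠ 0 ∧
      subIndex (LB.NB K L) (LB.DB K L σ) (LB.phi L).ker =
        p * subIndex (LB.DB K L σ) (LB.NB K L) (LB.phi L).ker := by
  have hcard : Nat.card Gal(L/K) = p := by rw [IsGalois.card_aut_eq_finrank, hdeg]
  have hG : Fintype.card Gal(L/K) = p := by rw [← Nat.card_eq_fintype_card, hcard]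
  have hgen : ∀ τ : Gal(L/K), τ ∈ Subgroup.zpowers σ := fun τ =>
    haveI : Fact p.Prime := ⟨hp⟩
    mem_zpowers_of_prime_card hcard hσ
  have hrank : finrank ℤ (Additive (𝓞 L)ˣ) + 1 =
      p * (finrank ℤ (subOne Gal(L/K) (Additive (𝓞 L)ˣ) σ).ker + 1) := by
    rw [finrank_ker_subOne K L hgen]
    exact finrank_units_L K L hK hdeg
  obtain ⟨h0, h1⟩ := LB.hIndex_eq_mul_of_rank (M := Additive (𝓞 L)ˣ) hp hG σ hσ hrank
  rw [← range_incl, subIndex_range (incl_injective L) (incl_subOne K L σ) (incl_normHom K L),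
    subIndex_range (incl_injective L) (incl_normHom K L) (incl_subOne K L σ)]
  exact ⟨h0, h1⟩

end Fermat.Agent.Lib.CFT.Unram.LBU91
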