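/-
helper91 (P-CFT, S14 fast track, WP-L).  **The lower bound** `p ≤ [I_K : P_K N(I_L)]` for an
everywhere unramified Galois extension `L/K` of prime degree `p` of a totally complex number field,
unconditionally.  (Same statement as `lowerBound` of `Unram/Master.lean`; named differently to avoid a clash.)
-/
import Mathlib
import Fermat.Agent.Lib.CFT.Unram.LowerBoundOfUnits
import Fermat.Agent.Lib.CFT.Unram.LowerBoundUnitsC

set_option autoImplicit false

namespace Fermat.Agent.Lib.CFT.Unram

/-- **The lower bound** (first inequality for unramified extensions of prime degree). -/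
theorem lowerBound_firstInequality {p : ℕ} (hp : p.Prime) : LowerBound p :=
  lowerBound_of_units hp fun K L _ _ _ _ _ _ hdeg hK σ hσ =>
    LBU91.units_index K L hp hdeg hK σ hσ

end Fermat.Agent.Lib.CFT.Unram
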