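/-
helper14 (P-CFT, S14 fast track, WP-L assembly).  The two vanishing statements used by
`subIndex_le_mul`: Hilbert 90 for `Lˣ` and `H¹(G, I_L) = 0`, in the additive set-up of
`LowerBoundSetup.lean`.
-/
import Mathlib
import Fermat.Agent.Lib.CFT.Unram.LowerBoundSetup
import Fermat.Agent.Lib.CFT.Unram.IdealH1
import Fermat.Agent.Lib.CFT.HerbrandHilbert90

set_option autoImplicit false

namespace Fermat.Agent.Lib.CFT.Unram.LB

open NumberField FractionalIdeal Fermat.Agent.Lib.CFT.Herbrand Fermat.Agent.Lib.CFT.Unram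
open scoped nonZeroDivisors Pointwise

variable (K L : Type) [Field K] [NumberField K] [Field L] [NumberField L] [Algebra K L]
  [IsGalois K L]

/-- (P3) Hilbert 90. -/
theorem h90 (σ : Gal(L/K)) (hgen : ∀ x : Gal(L/K), x ∈ Subgroup.zpowers σ) :
    (NB K L).ker ≤ (DB K L σ).range := by
  have : IsCyclic Gal(L/K) := ⟨σ, hgen⟩
  have h := hIndexMul_normMul_subOneMul_units (K := K) (L := L) hgen
  unfold hIndexMul at h
  rw [Subgroup.relIndex_eq_one] at h
  intro x hx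
  have hx' : x.toMul ∈ (normMul Gal(L/K) Lˣ).ker := hx
  obtain ⟨y, hy⟩ := h hx'
  exact ⟨Additive.ofMul y, congrArg Additive.ofMul hy⟩

/-- (P4) `H^1(I_L) = 0`. -/
theorem h1I {p : ℕ} (hp : p.Prime) (hdeg : Module.finrank K L = p) (σ : Gal(L/K)) (hσ : σ ≠ 1) :
    (NI K L).ker ≤ (DI K L σ).range := by
  intro x hx
  have hx' : normMul Gal(L/K) (FractionalIdeal (𝓞 L)⁰ L)ˣ x.toMul = 1 := hx
  rw [normMul_apply] at hx'
  obtain ⟨B, hB⟩ := h1_ideals K L hp hdeg σ hσ x.toMul hx'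
  refine ⟨Additive.ofMul B, ?_⟩
  show Additive.ofMul (subOneMul Gal(L/K) (FractionalIdeal (𝓞 L)⁰ L)ˣ σ B) = x
  rw [subOneMul_apply, ← hB]
  rfl

end Fermat.Agent.Lib.CFT.Unram.LB
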