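import Mathlib
import Fermat.Agent.Lib.CFT.Unram.PartialZetaOsc
import Fermat.Agent.Lib.CFT.Unram.PartialZetaOrbit
import Fermat.Agent.Lib.CFT.Unram.PartialZetaClasses
import Fermat.Agent.Lib.CFT.Unram.LatticeCell

set_option autoImplicit false

/-!
Partial zeta functions of ideal classes: `zetaC K s C = zetaMain K s + O(1)` uniformly for
`s ∈ (1, 2]` and all classes `C` (S14 fast track, work package U2).  This file assembles the
geometric half (`PartialZetaOrbit`), the kernel estimates (`PartialZetaOsc`) and the cell lemma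
(`LatticeCell`); the integrability of the kernel is taken as a hypothesis here.
-/

namespace Fermat.Agent.Lib.CFT.Unram

open NumberField NumberField.mixedEmbedding NumberField.InfinitePlace NumberField.Units Module
  MeasureTheory Ideal
open scoped Classical nonZeroDivisors

section LatticeOmega

variable {E : Type*} [NormedAddCommGroup E] [NormedSpace ℝ E] [FiniteDimensional ℝ E]

/-- The weight `(1 + ‖x‖)^(-d)` is summable over a lattice once `d` exceeds the dimension. -/
theorem summable_inv_one_add_norm_pow (L : Submodule ℤ E) [DiscreteTopology L] [IsZLattice ℝ L]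
    {d : ℕ} (hd : finrank ℝ E < d) :
    Summable (fun x : L => ((1 + ‖(x : E)‖) ^ d)⁻¹) := by
  have hr : (-(d : ℝ)) < -(finrank ℤ L : ℝ) := by
    rw [ZLattice.rank ℝ L]
    exact neg_lt_neg (by exact_mod_cast hd)
  have h1 := ZLattice.summable_norm_rpow L (-(d : ℝ)) hr
  have h2 : Summable (fun x : L => if x = 0 then (1 : ℝ) else 0) := (hasSum_ite_eq 0 1).summable
  refine Summable.of_nonneg_of_le (fun x => by positivity) (fun x => ?_) (h1.add h2)
  by_cases hx : x = 0
  · subst hx
    have h0 : (0 : ℝ) ≤ ‖(0 : L)‖ ^ (-(d : ℝ)) := Real.rpow_nonneg (norm_nonneg _) _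
    simp only [ZeroMemClass.coe_zero, norm_zero, add_zero, one_pow, inv_one, if_true]
    simp only [norm_zero] at h0
    linarith
  · simp only [hx, if_false, add_zero]
    have hx' : 0 < ‖(x : E)‖ := norm_pos_iff.mpr (fun h => hx (Subtype.ext h))
    have hnorm : ‖x‖ = ‖(x : E)‖ := rfl
    rw [hnorm, Real.rpow_neg (norm_nonneg _), Real.rpow_natCast]
    exact inv_anti₀ (pow_pos hx' d) (pow_le_pow_left₀ (norm_nonneg _) (by linarith) d)

end LatticeOmega

variable {K : Type*} [Field K] [NumberField K]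

section Scale

variable (b : (Ideal (𝓞 K))⁰)

theorem absNorm_ne_zero_of_mem : absNorm (b : Ideal (𝓞 K)) ≠ 0 := by
  rw [Ne, absNorm_eq_zero_iff]
  exact nonZeroDivisors.coe_ne_zero b

theorem one_le_absNorm_real : (1 : ℝ) ≤ (absNorm (b : Ideal (𝓞 K)) : ℝ) := by
  exact_mod_cast Nat.one_le_iff_ne_zero.mpr (absNorm_ne_zero_of_mem b)

theorem absNorm_pos_real : (0 : ℝ) < (absNorm (b : Ideal (𝓞 K)) : ℝ) :=
  lt_of_lt_of_le zero_lt_one (one_le_absNorm_real b)

/-- The scaling factor `N(b)^(-1/n)`. -/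
noncomputable def scaleC : ℝ :=
  ((absNorm (b : Ideal (𝓞 K)) : ℝ)) ^ (-(1 / (finrank ℚ K : ℝ)))

theorem scaleC_pos : 0 < scaleC b := Real.rpow_pos_of_pos (absNorm_pos_real b) _

theorem scaleC_le_one : scaleC b ≤ 1 := by
  refine Real.rpow_le_one_of_one_le_of_nonpos (one_le_absNorm_real b) ?_
  have := finrank_pos_real (K := K)
  have h : 0 ≤ 1 / (finrank ℚ K : ℝ) := by positivity
  linarith

theorem scaleC_pow : scaleC b ^ finrank ℚ K = ((absNorm (b : Ideal (𝓞 K)) : ℝ))⁻¹ := by
  unfold scaleC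
  have hn : (finrank ℚ K : ℝ) ≠ 0 := (finrank_pos_real (K := K)).ne'
  rw [← Real.rpow_natCast, ← Real.rpow_mul (absNorm_pos_real b).le, neg_mul, one_div,
    inv_mul_cancel₀ hn, Real.rpow_neg_one]

/-- A nonzero point of the ideal lattice of `b` has norm at least `N(b)`. -/
theorem absNorm_le_norm_of_mem_idealLattice
    (x : idealLattice K (FractionalIdeal.mk0 K b)) (hx : (x : mixedSpace K) ≠ 0) :
    (absNorm (b : Ideal (𝓞 K)) : ℝ) ≤ mixedEmbedding.norm (x : mixedSpace K) := by
  obtain ⟨a, rfl⟩ := PartialZetaOrbit.mem_range_toLattice b hx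
  have hne := PartialZetaOrbit.norm_toLattice_ne_zero b a
  rw [PartialZetaOrbit.norm_toLattice] at hne ⊢
  have hle : span {a.1} ≤ (b : Ideal (𝓞 K)) := (span_singleton_le_iff_mem _).mpr a.2.1
  have hdvd := absNorm_dvd_absNorm_of_le hle
  have hpos : 0 < absNorm (span {a.1} : Ideal (𝓞 K)) :=
    Nat.pos_of_ne_zero (by exact_mod_cast hne)
  exact_mod_cast Nat.le_of_dvd hpos hdvd

/-- The scaled kernel on the ideal lattice of `b` gives the terms of the partial zeta function. -/
theorem zetaKernel_scaleC_smul (s : ℝ) (x : idealLattice K (FractionalIdeal.mk0 K b)) :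
    zetaKernel K s (scaleC b • (x : mixedSpace K)) =
      eta K (x : mixedSpace K) *
        (mixedEmbedding.norm (x : mixedSpace K) / (absNorm (b : Ideal (𝓞 K)) : ℝ)) ^ (-s) := by
  by_cases hx : (x : mixedSpace K) = 0
  · rw [hx, smul_zero, zetaKernel_zero, eta_zero, zero_mul]
  · have hN := absNorm_le_norm_of_mem_idealLattice b x hx
    have hnorm : mixedEmbedding.norm (scaleC b • (x : mixedSpace K)) =
        mixedEmbedding.norm (x : mixedSpace K) / (absNorm (b : Ideal (𝓞 K)) : ℝ) := by
      rw [mixedEmbedding.norm_smul, abs_of_pos (scaleC_pos b), scaleC_pow, div_eq_inv_mul]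
    have h1 : 1 ≤ mixedEmbedding.norm (scaleC b • (x : mixedSpace K)) := by
      rw [hnorm, le_div_iff₀ (absNorm_pos_real b), one_mul]
      exact hN
    rw [zetaKernel_of_one_le h1, eta_smul _ (scaleC_pos b).ne', hnorm]

end Scale

section Main

variable (K)

/-- The covolume of the ring of integers in the mixed space. -/
noncomputable def covO : ℝ := 2⁻¹ ^ nrComplexPlaces K * √|(discr K : ℝ)|

theorem covO_pos : 0 < covO K := by
  unfold covO
  have h : (0 : ℝ) < |(discr K : ℝ)| := abs_pos.mpr (by exact_mod_cast discr_ne_zero K)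
  positivity

/-- The main term of the partial zeta functions, the same for all ideal classes. -/
noncomputable def zetaMain (s : ℝ) : ℝ :=
  ((torsionOrder K : ℝ))⁻¹ * ((covO K)⁻¹ * ∫ x : mixedSpace K, zetaKernel K s x)

variable {K}

theorem covolume_idealLattice_mk0 (b : (Ideal (𝓞 K))⁰) :
    ZLattice.covolume (idealLattice K (FractionalIdeal.mk0 K b)) volume =
      (absNorm (b : Ideal (𝓞 K)) : ℝ) * covO K := by
  rw [covolume_idealLattice, FractionalIdeal.coe_mk0, FractionalIdeal.coeIdeal_absNorm]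
  unfold covO
  push_cast
  ring

/-- For a fixed integral ideal `b`: the lattice sum of the scaled kernel is within `O(1)` of
the main term, uniformly in `s ∈ (1, 2]`. -/
theorem exists_bound_lattice_sum
    (hint : ∀ s : ℝ, 1 < s → Integrable (zetaKernel K s) (volume : Measure (mixedSpace K)))
    (b : (Ideal (𝓞 K))⁰) :
    ∃ B : ℝ, ∀ s : ℝ, 1 < s → s ≤ 2 →
      Summable (fun x : idealLattice K (FractionalIdeal.mk0 K b) =>
        zetaKernel K s (scaleC b • (x : mixedSpace K))) ∧
      |∑' x : idealLattice K (FractionalIdeal.mk0 K b),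
          zetaKernel K s (scaleC b • (x : mixedSpace K)) -
        (covO K)⁻¹ * ∫ x : mixedSpace K, zetaKernel K s x| ≤ B := by
  set L := idealLattice K (FractionalIdeal.mk0 K b) with hL
  set c := scaleC b with hc
  have hc0 : 0 < c := scaleC_pos b
  have hc1 : c ≤ 1 := scaleC_le_one b
  set n := finrank ℚ K with hn
  set δ := cellDiam L + 1 with hδ
  have hcell0 : 0 ≤ cellDiam L := by
    have h0 : (0 : mixedSpace K) ∈ ZSpan.fundamentalDomain
        ((Free.chooseBasis ℤ L).ofZLatticeBasis ℝ L) := by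
      rw [ZSpan.mem_fundamentalDomain]
      intro i
      simp
    have := norm_le_cellDiam L h0
    rwa [norm_zero] at this
  have hδ0 : 0 < δ := by linarith
  obtain ⟨M, hM0, hM⟩ := exists_osc_bound (K := K) δ hδ0
  set ω : mixedSpace K → ℝ := fun y => ((1 + ‖y‖) ^ (n + 1))⁻¹ with hω
  have hωsum : Summable (fun x : L => ω x) := by
    apply summable_inv_one_add_norm_pow L
    rw [mixedEmbedding.finrank]
    exact Nat.lt_succ_self _
  set M' := M * (c ^ (n + 1))⁻¹ with hM'
  refine ⟨M' * ∑' x : L, ω x, fun s hs1 hs2 => ?_⟩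
  set H : mixedSpace K → ℝ := fun x => zetaKernel K s (c • x) with hH
  have hHint : Integrable H (volume : Measure (mixedSpace K)) :=
    (hint s hs1).comp_smul hc0.ne'
  have hosc : ∀ y z : mixedSpace K, ‖y - z‖ ≤ cellDiam L → |H y - H z| ≤ M' * ω y := by
    intro y z hyz
    have h1 : ‖c • y - c • z‖ ≤ δ := by
      rw [← smul_sub, _root_.norm_smul, Real.norm_eq_abs, abs_of_pos hc0]
      calc c * ‖y - z‖ ≤ 1 * ‖y - z‖ := mul_le_mul_of_nonneg_right hc1 (norm_nonneg _)
        _ ≤ δ := by rw [one_mul]; linarith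
    have h2 := hM s hs1.le hs2 (c • y) (c • z) h1
    refine h2.trans ?_
    rw [hM', mul_assoc]
    refine mul_le_mul_of_nonneg_left ?_ hM0
    rw [_root_.norm_smul, Real.norm_eq_abs, abs_of_pos hc0, hω]
    simp only
    rw [← mul_inv, ← mul_pow]
    refine inv_anti₀ (by positivity) (pow_le_pow_left₀ (by positivity) ?_ _)
    nlinarith [norm_nonneg y]
  obtain ⟨hsum, hbound⟩ := cell_lemma L volume H hHint M' ω hωsum hosc
  refine ⟨hsum, ?_⟩
  have hint_eq : ∫ x : mixedSpace K, H x = (absNorm (b : Ideal (𝓞 K)) : ℝ) *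
      ∫ x : mixedSpace K, zetaKernel K s x := by
    rw [hH, Measure.integral_comp_smul volume (zetaKernel K s) c, mixedEmbedding.finrank,
      hc, scaleC_pow, inv_inv, abs_of_pos (absNorm_pos_real b), smul_eq_mul]
  have hmain : (ZLattice.covolume L volume)⁻¹ * ∫ x : mixedSpace K, H x =
      (covO K)⁻¹ * ∫ x : mixedSpace K, zetaKernel K s x := by
    rw [hint_eq, hL, covolume_idealLattice_mk0, mul_inv, mul_assoc, mul_comm (covO K)⁻¹,
      ← mul_assoc, ← mul_assoc, inv_mul_cancel₀ (absNorm_pos_real b).ne', one_mul, mul_comm]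
  rw [hmain] at hbound
  exact hbound

end Main

section Final

theorem torsionOrder_pos_real : (0 : ℝ) < (torsionOrder K : ℝ) := by
  have h : torsionOrder K ≠ 0 := NeZero.ne _
  exact_mod_cast Nat.pos_of_ne_zero h

/-- For each class `C`: the partial zeta series converges for `s > 1` and is within `O(1)` of
the main term, uniformly in `s ∈ (1, 2]`. -/
theorem exists_bound_zetaC_class
    (hint : ∀ s : ℝ, 1 < s → Integrable (zetaKernel K s) (volume : Measure (mixedSpace K)))
    (C : ClassGroup (𝓞 K)) :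
    ∃ B : ℝ, ∀ s : ℝ, 1 < s → s ≤ 2 →
      Summable (fun a : IdealsInClass K C => ((absNorm (a.1 : Ideal (𝓞 K)) : ℝ)) ^ (-s)) ∧
      |zetaC K s C - zetaMain K s| ≤ B := by
  obtain ⟨b, hb⟩ := ClassGroup.mk0_surjective C⁻¹
  obtain ⟨B, hB⟩ := exists_bound_lattice_sum hint b
  refine ⟨((torsionOrder K : ℝ))⁻¹ * B, fun s hs1 hs2 => ?_⟩
  obtain ⟨hsum, hbd⟩ := hB s hs1 hs2
  have hw : (0 : ℝ) < (torsionOrder K : ℝ) := torsionOrder_pos_real
  have hS : Summable (fun x : idealLattice K (FractionalIdeal.mk0 K b) =>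
      eta K (x : mixedSpace K) *
        (mixedEmbedding.norm (x : mixedSpace K) / absNorm (b : Ideal (𝓞 K))) ^ (-s)) :=
    hsum.congr (fun x => zetaKernel_scaleC_smul b s x)
  obtain ⟨hcls, heq⟩ := torsionOrder_mul_zetaC_eq (eta K)
    (fun x hx => hasSum_eta_unit_smul hx) C b hb (by linarith : s ≠ 0) hS
  refine ⟨hcls, ?_⟩
  have hz : (torsionOrder K : ℝ) * zetaC K s C =
      ∑' x : idealLattice K (FractionalIdeal.mk0 K b),
        zetaKernel K s (scaleC b • (x : mixedSpace K)) := by
    rw [zetaC, heq]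
    exact tsum_congr (fun x => (zetaKernel_scaleC_smul b s x).symm)
  have hdiff : zetaC K s C - zetaMain K s = ((torsionOrder K : ℝ))⁻¹ *
      (∑' x : idealLattice K (FractionalIdeal.mk0 K b),
          zetaKernel K s (scaleC b • (x : mixedSpace K)) -
        (covO K)⁻¹ * ∫ x : mixedSpace K, zetaKernel K s x) := by
    rw [← hz, zetaMain, mul_sub, inv_mul_cancel_left₀ hw.ne']
  rw [hdiff, abs_mul, abs_of_pos (inv_pos.mpr hw)]
  exact mul_le_mul_of_nonneg_left hbd (inv_pos.mpr hw).le

/-- **Partial zeta functions of ideal classes**: all of them converge for `s > 1` and differ from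
the common main term `zetaMain K s` by a bounded amount, uniformly for `s ∈ (1, 2]`. -/
theorem exists_zetaC_approx_of_integrable
    (hint : ∀ s : ℝ, 1 < s → Integrable (zetaKernel K s) (volume : Measure (mixedSpace K))) :
    ∃ B : ℝ, ∀ (C : ClassGroup (𝓞 K)) (s : ℝ), 1 < s → s ≤ 2 →
      Summable (fun a : IdealsInClass K C => ((absNorm (a.1 : Ideal (𝓞 K)) : ℝ)) ^ (-s)) ∧
      |zetaC K s C - zetaMain K s| ≤ B := by
  choose Bf hBf using fun C => exists_bound_zetaC_class hint C
  refine ⟨∑ C, |Bf C|, fun C s hs1 hs2 =>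
    ⟨(hBf C s hs1 hs2).1, (hBf C s hs1 hs2).2.trans ?_⟩⟩
  exact (le_abs_self _).trans
    (Finset.single_le_sum (f := fun C => |Bf C|) (fun i _ => abs_nonneg _) (Finset.mem_univ C))

/-- **Boundedness of the `L`-series of nontrivial class group characters** near `s = 1`. -/
theorem exists_bound_tsum_charTerm_of_integrable
    (hint : ∀ s : ℝ, 1 < s → Integrable (zetaKernel K s) (volume : Measure (mixedSpace K))) :
    ∃ B : ℝ, ∀ χ : ClassGroup (𝓞 K) →* ℂˣ, χ ≠ 1 → ∀ s : ℝ, 1 < s → s ≤ 2 →
      Summable (charTerm K χ s) ∧ ‖∑' a : (Ideal (𝓞 K))⁰, charTerm K χ s a‖ ≤ B := by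
  obtain ⟨B, hB⟩ := exists_zetaC_approx_of_integrable hint
  refine ⟨(classNumber K : ℝ) * B, fun χ hχ s hs1 hs2 => ?_⟩
  have hsum := fun C => (hB C s hs1 hs2).1
  exact ⟨(tsum_char_eq_sum_zetaC χ s hsum).1,
    norm_tsum_char_le χ hχ s hsum (zetaMain K s) B (fun C => (hB C s hs1 hs2).2)⟩

end Final

end Fermat.Agent.Lib.CFT.Unram
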