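import Mathlib
import Fermat.Agent.Lib.CFT.Unram.PartialZetaMain
import Fermat.Agent.Lib.CFT.Unram.PartialZetaInt

set_option autoImplicit false

/-!
**Partial zeta functions of ideal classes and `L`-series of class group characters near `s = 1`**
(S14 fast track, work package U2; final exports).

* `exists_zetaC_approx` : all the partial zeta functions `zetaC K s C` converge for `s > 1` and
  differ from a common function `zetaMain K s` by a bounded amount, uniformly for `s ∈ (1, 2]`.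
* `exists_bound_tsum_charTerm`, `partialZeta_bounded` : for a nontrivial character `χ` of the class
  group, the series `∑ χ(a) N(a)^(-s)` converges absolutely for `s > 1` and is bounded for
  `s ∈ (1, 2]`, uniformly in `χ`.
-/

namespace Fermat.Agent.Lib.CFT.Unram

open NumberField Ideal MeasureTheory
open scoped nonZeroDivisors

variable (K : Type*) [Field K] [NumberField K]

/-- **Partial zeta functions of ideal classes**: all of them converge for `s > 1` and differ from
the common main term `zetaMain K s` by a bounded amount, uniformly for `s ∈ (1, 2]`. -/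
theorem exists_zetaC_approx :
    ∃ B : ℝ, ∀ (C : ClassGroup (𝓞 K)) (s : ℝ), 1 < s → s ≤ 2 →
      Summable (fun a : IdealsInClass K C => ((absNorm (a.1 : Ideal (𝓞 K)) : ℝ)) ^ (-s)) ∧
      |zetaC K s C - zetaMain K s| ≤ B :=
  exists_zetaC_approx_of_integrable (fun _ hs => integrable_zetaKernel hs)

/-- Variant of `exists_zetaC_approx` with an unspecified main term. -/
theorem exists_zetaC_approx' :
    ∃ (Z : ℝ → ℝ) (B : ℝ), ∀ (C : ClassGroup (𝓞 K)) (s : ℝ), 1 < s → s ≤ 2 →
      |zetaC K s C - Z s| ≤ B := by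
  obtain ⟨B, hB⟩ := exists_zetaC_approx K
  exact ⟨zetaMain K, B, fun C s hs1 hs2 => (hB C s hs1 hs2).2⟩

/-- The series `∑ N(a)^(-s)` over the nonzero ideals converges for `s > 1`. -/
theorem summable_absNorm_rpow {s : ℝ} (hs1 : 1 < s) :
    Summable (fun a : (Ideal (𝓞 K))⁰ => ((absNorm (a : Ideal (𝓞 K)) : ℝ)) ^ (-s)) := by
  obtain ⟨B, hB⟩ := exists_zetaC_approx_of_integrable (K := K)
    (fun _ hs => integrable_zetaKernel hs)
  by_cases hs2 : s ≤ 2
  · exact (tsum_absNorm_rpow_eq_sum_zetaC s (fun C => (hB C s hs1 hs2).1)).1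
  · rw [not_le] at hs2
    have h2 := (tsum_absNorm_rpow_eq_sum_zetaC (K := K) 2
      (fun C => (hB C 2 (by norm_num) le_rfl).1)).1
    refine Summable.of_nonneg_of_le (fun a => Real.rpow_nonneg (Nat.cast_nonneg _) _)
      (fun a => ?_) h2
    have h1 : (1 : ℝ) ≤ (absNorm (a : Ideal (𝓞 K)) : ℝ) := by
      have h0 : absNorm (a : Ideal (𝓞 K)) ≠ 0 := by
        rw [Ne, absNorm_eq_zero_iff]
        exact nonZeroDivisors.coe_ne_zero a
      exact_mod_cast Nat.one_le_iff_ne_zero.mpr h0
    exact Real.rpow_le_rpow_of_exponent_le h1 (by linarith)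

/-- **Boundedness of the `L`-series of nontrivial class group characters** near `s = 1`. -/
theorem exists_bound_tsum_charTerm :
    ∃ B : ℝ, ∀ χ : ClassGroup (𝓞 K) →* ℂˣ, χ ≠ 1 → ∀ s : ℝ, 1 < s → s ≤ 2 →
      Summable (charTerm K χ s) ∧ ‖∑' a : (Ideal (𝓞 K))⁰, charTerm K χ s a‖ ≤ B :=
  exists_bound_tsum_charTerm_of_integrable (fun _ hs => integrable_zetaKernel hs)

/-- The statement (PZ) in its literal form. -/
theorem partialZeta_bounded :
    ∃ B : ℝ, ∀ χ : ClassGroup (𝓞 K) →* ℂˣ, χ ≠ 1 → ∀ s : ℝ, 1 < s → s ≤ 2 →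
      ‖∑' a : (Ideal (𝓞 K))⁰, ((χ (ClassGroup.mk0 a) : ℂˣ) : ℂ) *
        (((absNorm (a : Ideal (𝓞 K)) : ℝ) ^ (-s) : ℝ) : ℂ)‖ ≤ B := by
  obtain ⟨B, hB⟩ := exists_bound_tsum_charTerm K
  exact ⟨B, fun χ hχ s hs1 hs2 => (hB χ hχ s hs1 hs2).2⟩

/-- Absolute convergence of the `L`-series of a class group character for `s > 1`. -/
theorem summable_charTerm (χ : ClassGroup (𝓞 K) →* ℂˣ) {s : ℝ} (hs1 : 1 < s) :
    Summable (fun a : (Ideal (𝓞 K))⁰ => ((χ (ClassGroup.mk0 a) : ℂˣ) : ℂ) *
        (((absNorm (a : Ideal (𝓞 K)) : ℝ) ^ (-s) : ℝ) : ℂ)) := by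
  have h := summable_absNorm_rpow K hs1
  refine Summable.of_norm ?_
  refine h.congr (fun a => ?_)
  exact (norm_charTerm χ s a).symm

end Fermat.Agent.Lib.CFT.Unram
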